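import Mathlib
import Fermat.Prelude.Def_AlgebraicCurve_DivisorClassGroup
import Fermat.Agent.FF.Basic

/-!
# Constructing places from discrete order functions; restriction of places
-/

set_option autoImplicit false

open AlgebraicCurve

namespace Fermat.Agent.Top

section Make

variable {F : Type*} [Field F]

/-- A valuation subring described by a `ℤ`-valued order function is a principal ideal ring. -/
theorem isPrincipalIdealRing_of_ord (A : ValuationSubring F) (o : F → ℤ)
    (hmem : ∀ x : F, x ≠ 0 → (x ∈ A ↔ 0 ≤ o x))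
    (hmul : ∀ x y : F, x ≠ 0 → y ≠ 0 → o (x * y) = o x + o y) :
    IsPrincipalIdealRing A := by
  classical
  refine ⟨fun I => ?_⟩
  by_cases hI : I = ⊥
  · rw [hI]; exact inferInstance
  obtain ⟨a₀, ha₀, ha₀'⟩ := Submodule.exists_mem_ne_zero_of_ne_bot hI
  let P : ℕ → Prop := fun n => ∃ a ∈ I, a ≠ 0 ∧ (o (a : F)).toNat = n
  have hP : ∃ n, P n := ⟨_, a₀, ha₀, ha₀', rfl⟩
  obtain ⟨a, haI, ha0, han⟩ := Nat.find_spec hP
  have haF : (a : F) ≠ 0 := fun h => ha0 (Subtype.ext h)
  refine ⟨a, le_antisymm (fun b hb => ?_) ?_⟩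
  · rw [Ideal.submodule_span_eq, Ideal.mem_span_singleton]
    by_cases hb0 : b = 0
    · rw [hb0]; exact dvd_zero a
    have hbF : (b : F) ≠ 0 := fun h => hb0 (Subtype.ext h)
    have h1 : (o (a : F)).toNat ≤ (o (b : F)).toNat := by
      rw [han]
      exact Nat.find_min' hP ⟨b, hb, hb0, rfl⟩
    have ha1 : 0 ≤ o (a : F) := (hmem _ haF).1 a.2
    have hb1 : 0 ≤ o (b : F) := (hmem _ hbF).1 b.2
    have h2 : o (a : F) ≤ o (b : F) := by omega
    have hq : (b : F) / a ≠ 0 := div_ne_zero hbF haF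
    have h3 : o (b : F) = o (a : F) + o ((b : F) / a) := by
      rw [← hmul _ _ haF hq, mul_div_cancel₀ _ haF]
    have h4 : (b : F) / a ∈ A := (hmem _ hq).2 (by omega)
    refine ⟨⟨_, h4⟩, Subtype.ext ?_⟩
    change (b : F) = a * (b / a)
    rw [mul_div_cancel₀ _ haF]
  · rw [Ideal.submodule_span_eq, Ideal.span_singleton_le_iff_mem]
    exact haI

variable {K : Type*} [Field K] [Algebra K F]

/-- Place attached to a discrete order function. -/
def mkPlace (A : ValuationSubring F) (o : F → ℤ) (hK : ∀ a : K, algebraMap K F a ∈ A)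
    (hne : A ≠ ⊤) (hmem : ∀ x : F, x ≠ 0 → (x ∈ A ↔ 0 ≤ o x))
    (hmul : ∀ x y : F, x ≠ 0 → y ≠ 0 → o (x * y) = o x + o y) : Place K F where
  toValuationSubring := A
  algebraMap_mem' := hK
  ne_top' := hne
  isPrincipalIdealRing' := isPrincipalIdealRing_of_ord A o hmem hmul

/-- Comparison of an order function with the normalised order of a place having the same ring. -/
theorem ord_eq_mul_of_mem_iff (w : Place K F) (o : F → ℤ)
    (hmem : ∀ x : F, x ≠ 0 → (x ∈ w.toValuationSubring ↔ 0 ≤ o x))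
    (hmul : ∀ x y : F, x ≠ 0 → y ≠ 0 → o (x * y) = o x + o y) {t : F} (ht : w.ord t = 1)
    {x : F} (hx : x ≠ 0) : o x = w.ord x * o t := by
  have ht0 : t ≠ 0 := by
    rintro rfl
    rw [w.ord_zero] at ht
    norm_num at ht
  have h1 : o 1 = 0 := by
    have := hmul 1 1 one_ne_zero one_ne_zero
    rw [mul_one] at this
    omega
  have hinv : ∀ x : F, x ≠ 0 → o x⁻¹ = - o x := by
    intro x hx
    have := hmul x x⁻¹ hx (inv_ne_zero hx)
    rw [mul_inv_cancel₀ hx, h1] at this
    omega
  -- units of the valuation ring have order zero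
  have hunit : ∀ u : F, u ≠ 0 → w.ord u = 0 → o u = 0 := by
    intro u hu h
    have h2 : 0 ≤ o u := (hmem u hu).1 (Fermat.Agent.FF.mem_of_ord_nonneg w (by rw [h]))
    have h3 : 0 ≤ o u⁻¹ := (hmem _ (inv_ne_zero hu)).1
      (Fermat.Agent.FF.mem_of_ord_nonneg w (by rw [w.ord_inv, h, neg_zero]))
    rw [hinv u hu] at h3
    omega
  have hpow : ∀ n : ℤ, o (t ^ n) = n * o t := by
    have hnat : ∀ n : ℕ, o (t ^ n) = n * o t := by
      intro n
      induction n with
      | zero => simp [h1]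
      | succ n ih => rw [pow_succ, hmul _ _ (pow_ne_zero n ht0) ht0, ih]; push_cast; ring
    intro n
    rcases Int.eq_nat_or_neg n with ⟨k, rfl | rfl⟩
    · rw [zpow_natCast]; exact hnat k
    · rw [zpow_neg, zpow_natCast, hinv _ (pow_ne_zero k ht0), hnat]; ring
  let u := x * t ^ (-(w.ord x))
  have hu0 : u ≠ 0 := mul_ne_zero hx (zpow_ne_zero _ ht0)
  have hu : w.ord u = 0 := by
    rw [w.ord_mul hx (zpow_ne_zero _ ht0), w.ord_zpow, ht]; ring
  have h2 := hunit u hu0 hu
  rw [hmul _ _ hx (zpow_ne_zero _ ht0), hpow] at h2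
  linarith

end Make

section Restrict

variable {K E F F' : Type*} [Field K] [Field E] [Field F] [Field F'] [Algebra K F] [Algebra E F']
  [Algebra K E] (φ : F →+* F')
  (hφ : ∀ c : K, φ (algebraMap K F c) = algebraMap E F' (algebraMap K E c))

include hφ in
/-- Restriction of a place along an embedding of fields (with an extension of constants). -/
theorem exists_restrict (v : Place E F') :
    (∀ f : F, v.ord (φ f) = 0) ∨
      ∃ (w : Place K F) (e : ℤ), 0 < e ∧ ∀ f : F, v.ord (φ f) = w.ord f * e := by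
  let A : ValuationSubring F := v.toValuationSubring.comap φ
  let o : F → ℤ := fun x => v.ord (φ x)
  have hmem : ∀ x : F, x ≠ 0 → (x ∈ A ↔ 0 ≤ o x) := fun x _ =>
    Fermat.Agent.FF.mem_iff_ord_nonneg v (f := φ x)
  have hmul : ∀ x y : F, x ≠ 0 → y ≠ 0 → o (x * y) = o x + o y := by
    intro x y hx hy
    change v.ord (φ (x * y)) = _
    rw [map_mul, v.ord_mul ((map_ne_zero φ).2 hx) ((map_ne_zero φ).2 hy)]
  by_cases hA : A = ⊤
  · left
    intro f
    rcases eq_or_ne f 0 with rfl | hf
    · simp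
    have h1 : f ∈ A := by rw [hA]; trivial
    have h2 : f⁻¹ ∈ A := by rw [hA]; trivial
    have h3 := (hmem f hf).1 h1
    have h4 := (hmem _ (inv_ne_zero hf)).1 h2
    change 0 ≤ v.ord (φ f⁻¹) at h4
    rw [map_inv₀, v.ord_inv] at h4
    change 0 ≤ v.ord (φ f) at h3
    omega
  · right
    have hK : ∀ a : K, algebraMap K F a ∈ A := by
      intro a
      change φ (algebraMap K F a) ∈ v.toValuationSubring
      rw [hφ]
      exact v.algebraMap_mem' _
    let w : Place K F := mkPlace A o hK hA hmem hmul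
    obtain ⟨t, ht0, ht⟩ := Fermat.Agent.FF.exists_ord_eq_one w
    refine ⟨w, v.ord (φ t), ?_, fun f => ?_⟩
    · -- positivity
      have h1 : t ∈ w.toValuationSubring := Fermat.Agent.FF.mem_of_ord_nonneg w (by rw [ht]; norm_num)
      have h2 : 0 ≤ o t := (hmem t ht0).1 h1
      have h3 : t⁻¹ ∉ w.toValuationSubring := by
        intro h
        have := Fermat.Agent.FF.ord_nonneg_of_mem w h
        rw [w.ord_inv, ht] at this
        norm_num at this
      have h4 : ¬ 0 ≤ o t⁻¹ := fun h => h3 ((hmem _ (inv_ne_zero ht0)).2 h)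
      change ¬ 0 ≤ v.ord (φ t⁻¹) at h4
      rw [map_inv₀, v.ord_inv] at h4
      change 0 ≤ v.ord (φ t) at h2
      omega
    · rcases eq_or_ne f 0 with rfl | hf
      · simp
      · exact ord_eq_mul_of_mem_iff w o hmem hmul ht hf

end Restrict

end Fermat.Agent.Top
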