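import Fermat.Agent.Top.DescentSeries
import Fermat.Agent.Top.PlaceMake
import Fermat.Agent.FF.Valuations

/-!
# Extending places along an extension of (algebraically closed) constant fields

For `K ⊆ E` algebraically closed and `F₀ ⊆ ℚ((q))`, every place of `F_K` extends to an unramified
place of `F_E`.
-/

set_option autoImplicit false

open HahnSeries ModularCurve AlgebraicCurve

namespace Fermat.Agent.Top

section

variable {K E : Type*} [Field K] [Field E] [Algebra K E] [Algebra ℚ K] [Algebra ℚ E]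
variable {F₀ : IntermediateField ℚ (LaurentSeries ℚ)}

variable (E) in
/-- The subring `E ⊗ O_w` of `F_E`. -/
noncomputable def extRing (w : Place K (laurentBaseChange K F₀)) :
    Subalgebra E (laurentBaseChange E F₀) :=
  Algebra.adjoin E (baseChangeEmb K E F₀ '' (w.toValuationSubring : Set (laurentBaseChange K F₀)))

variable (w : Place K (laurentBaseChange K F₀))

theorem emb_mem_extRing {a : laurentBaseChange K F₀} (ha : a ∈ w.toValuationSubring) :
    baseChangeEmb K E F₀ a ∈ extRing E w :=
  Algebra.subset_adjoin ⟨a, ha, rfl⟩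

theorem mem_span_of_mem_extRing {x : laurentBaseChange E F₀} (hx : x ∈ extRing E w) :
    x ∈ Submodule.span E
      (baseChangeEmb K E F₀ '' (w.toValuationSubring : Set (laurentBaseChange K F₀))) := by
  rw [extRing, ← Subalgebra.mem_toSubmodule, Algebra.adjoin_eq_span] at hx
  have h : (Submonoid.closure
      (baseChangeEmb K E F₀ '' (w.toValuationSubring : Set (laurentBaseChange K F₀))) :
        Set (laurentBaseChange E F₀)) =
      baseChangeEmb K E F₀ '' (w.toValuationSubring : Set (laurentBaseChange K F₀)) := by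
    have h1 : (Submonoid.map (baseChangeEmb K E F₀)
        w.toValuationSubring.toSubring.toSubmonoid : Set (laurentBaseChange E F₀)) =
      baseChangeEmb K E F₀ '' (w.toValuationSubring : Set (laurentBaseChange K F₀)) := rfl
    rw [← h1, Submonoid.closure_eq]
  rwa [h] at hx

omit [Algebra ℚ K] [Algebra ℚ E] in
theorem mapFun_algebraMap_mul_coeffMap (lam : E →ₗ[K] K) (e : E) (z : LaurentSeries K) :
    mapFun lam (algebraMap E (LaurentSeries E) e * coeffMap (algebraMap K E) z) =
      algebraMap K (LaurentSeries K) (lam e) * z := by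
  rw [mul_comm, mapFun_coeffMap_mul, mul_comm]
  congr 1
  ext n
  rw [mapFun_coeff, algebraMap_laurentSeries_eq_single, algebraMap_laurentSeries_eq_single]
  by_cases hn : n = 0
  · subst hn; simp
  · rw [HahnSeries.coeff_single_of_ne hn, map_zero, HahnSeries.coeff_single_of_ne hn]

/-- Coordinates of elements of `E ⊗ O_w` are in `O_w`. -/
theorem mapFun_mem_of_mem_extRing (lam : E →ₗ[K] K) {x : laurentBaseChange E F₀}
    (hx : x ∈ extRing E w) :
    ∃ a ∈ w.toValuationSubring, (a : LaurentSeries K) = mapFun lam (x : LaurentSeries E) := by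
  have hx' := mem_span_of_mem_extRing w hx
  clear hx
  induction hx' using Submodule.closure_induction with
  | zero => exact ⟨0, zero_mem _, by simp⟩
  | add x y _ _ h1 h2 =>
      obtain ⟨a, ha, ha'⟩ := h1
      obtain ⟨b, hb, hb'⟩ := h2
      refine ⟨a + b, add_mem ha hb, ?_⟩
      push_cast
      rw [map_add, ha', hb']
  | smul_mem e x hx =>
      obtain ⟨a, ha, rfl⟩ := hx
      refine ⟨algebraMap K _ (lam e) * a, mul_mem (w.algebraMap_mem' _) ha, ?_⟩
      rw [Algebra.smul_def]
      change algebraMap K (LaurentSeries K) (lam e) * (a : LaurentSeries K) =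
        mapFun lam (algebraMap E (LaurentSeries E) e * coeffMap (algebraMap K E) a)
      rw [mapFun_algebraMap_mul_coeffMap]

variable [IsAlgClosed K] [CharZero K] [FF.IsFnField K (laurentBaseChange K F₀)]

theorem exists_decomp_of_mem_extRing {t : laurentBaseChange K F₀} (ht : w.ord t = 1)
    {x : laurentBaseChange E F₀} (hx : x ∈ extRing E w) :
    ∃ (e : E) (r : laurentBaseChange E F₀), r ∈ extRing E w ∧
      x = algebraMap E _ e + baseChangeEmb K E F₀ t * r := by
  have ht0 : t ≠ 0 := by
    rintro rfl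
    rw [w.ord_zero] at ht
    norm_num at ht
  have htm : t ∈ w.toValuationSubring := FF.mem_of_ord_nonneg w (by rw [ht]; norm_num)
  rw [extRing] at hx
  induction hx using Algebra.adjoin_induction with
  | mem x hx =>
      obtain ⟨a, ha, rfl⟩ := hx
      obtain ⟨c, hc⟩ := FF.exists_value w (FF.ord_nonneg_of_mem w ha)
      refine ⟨algebraMap K E c, baseChangeEmb K E F₀ ((a - algebraMap K _ c) / t), ?_, ?_⟩
      · apply emb_mem_extRing
        rcases hc with hc | hc
        · rw [hc, zero_div]; exact zero_mem _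
        · apply FF.mem_of_ord_nonneg
          have h0 : a - algebraMap K _ c ≠ 0 := by
            intro h
            rw [h, w.ord_zero] at hc
            exact lt_irrefl _ hc
          rw [div_eq_mul_inv, w.ord_mul h0 (inv_ne_zero ht0), w.ord_inv, ht]
          omega
      · rw [← map_mul, mul_div_cancel₀ _ ht0, map_sub, baseChangeEmb_algebraMap]
        ring
  | algebraMap r => exact ⟨r, 0, zero_mem _, by simp⟩
  | add x y _ _ h1 h2 =>
      obtain ⟨e, r, hr, rfl⟩ := h1
      obtain ⟨e', r', hr', rfl⟩ := h2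
      refine ⟨e + e', r + r', add_mem hr hr', ?_⟩
      rw [map_add]; ring
  | mul x y _ _ h1 h2 =>
      obtain ⟨e, r, hr, rfl⟩ := h1
      obtain ⟨e', r', hr', rfl⟩ := h2
      refine ⟨e * e', algebraMap E _ e * r' + algebraMap E _ e' * r +
        baseChangeEmb K E F₀ t * (r * r'), ?_, ?_⟩
      · exact add_mem (add_mem (mul_mem (algebraMap_mem _ _) hr') (mul_mem (algebraMap_mem _ _) hr))
          (mul_mem (emb_mem_extRing w htm) (mul_mem hr hr'))
      · rw [map_mul]; ring

theorem exists_pow_mul_of_mem_extRing {t : laurentBaseChange K F₀} (ht : w.ord t = 1)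
    {x : laurentBaseChange E F₀} (hx : x ∈ extRing E w) (hx0 : x ≠ 0) :
    ∃ (n : ℕ) (e : E) (r : laurentBaseChange E F₀), e ≠ 0 ∧ r ∈ extRing E w ∧
      x = baseChangeEmb K E F₀ t ^ n * (algebraMap E _ e + baseChangeEmb K E F₀ t * r) := by
  by_contra hcon
  push Not at hcon
  have ht0 : t ≠ 0 := by
    rintro rfl
    rw [w.ord_zero] at ht
    norm_num at ht
  -- `x` is infinitely divisible by `t`
  have hdiv : ∀ n : ℕ, ∃ r ∈ extRing E w, x = baseChangeEmb K E F₀ t ^ n * r := by
    intro n
    induction n with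
    | zero => exact ⟨x, hx, by simp⟩
    | succ n ih =>
        obtain ⟨r, hr, hxr⟩ := ih
        obtain ⟨e, r', hr', her⟩ := exists_decomp_of_mem_extRing w ht hr
        by_cases he : e = 0
        · refine ⟨r', hr', ?_⟩
          rw [hxr, her, he, map_zero]; ring
        · exact absurd (hxr.trans (by rw [her])) (hcon n e r' he hr')
  -- a coordinate which does not vanish
  obtain ⟨k, hk⟩ : ∃ k, (x : LaurentSeries E).coeff k ≠ 0 := by
    by_contra h
    push Not at h
    exact hx0 (Subtype.ext (HahnSeries.ext (funext h)))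
  obtain ⟨lam, hlam⟩ := Module.Projective.exists_dual_ne_zero K hk
  obtain ⟨a, ha, hax⟩ := mapFun_mem_of_mem_extRing w lam hx
  have ha0 : a ≠ 0 := by
    rintro rfl
    apply hlam
    rw [← mapFun_coeff, ← hax]
    simp
  have hbig : ∀ n : ℕ, (n : ℤ) ≤ w.ord a := by
    intro n
    obtain ⟨r, hr, hxr⟩ := hdiv n
    obtain ⟨b, hb, hbr⟩ := mapFun_mem_of_mem_extRing w lam hr
    have h1 : a = t ^ n * b := by
      apply Subtype.ext
      rw [hax, hxr]
      push_cast
      rw [coe_baseChangeEmb, ← map_pow, mapFun_coeffMap_mul, hbr]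
    have hb0 : b ≠ 0 := by
      rintro rfl
      exact ha0 (by rw [h1, mul_zero])
    rw [h1, w.ord_mul (pow_ne_zero _ ht0) hb0, FF.ord_pow, ht]
    have := FF.ord_nonneg_of_mem w hb
    omega
  have := hbig ((w.ord a).toNat + 1)
  have := FF.ord_nonneg_of_mem w ha
  omega

omit [IsAlgClosed K] [CharZero K] [FF.IsFnField K (laurentBaseChange K F₀)] in
theorem not_one_eq_mul {t : laurentBaseChange K F₀} (ht : w.ord t = 1)
    {r : laurentBaseChange E F₀} (hr : r ∈ extRing E w) :
    baseChangeEmb K E F₀ t * r ≠ 1 := by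
  intro h
  have ht0 : t ≠ 0 := by
    rintro rfl
    rw [w.ord_zero] at ht
    norm_num at ht
  obtain ⟨lam, hlam⟩ := Module.Projective.exists_dual_ne_zero K (one_ne_zero : (1 : E) ≠ 0)
  obtain ⟨b, hb, hbr⟩ := mapFun_mem_of_mem_extRing w lam hr
  have h1 : algebraMap K (laurentBaseChange K F₀) (lam 1) = t * b := by
    apply Subtype.ext
    change algebraMap K (LaurentSeries K) (lam 1) = (t : LaurentSeries K) * b
    rw [hbr, ← mapFun_coeffMap_mul, ← coe_baseChangeEmb]
    have h2 : (baseChangeEmb K E F₀ t : LaurentSeries E) * (r : LaurentSeries E) = 1 := by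
      exact_mod_cast congrArg Subtype.val h
    rw [h2]
    have := mapFun_algebraMap_mul_coeffMap lam (1 : E) (1 : LaurentSeries K)
    rw [map_one, map_one, one_mul, mul_one] at this
    exact this.symm
  have hb0 : b ≠ 0 := by
    rintro rfl
    rw [mul_zero] at h1
    exact hlam ((map_eq_zero _).1 h1)
  have h3 := congrArg w.ord h1
  rw [FF.ord_algebraMap, w.ord_mul ht0 hb0, ht] at h3
  have := FF.ord_nonneg_of_mem w hb
  omega

omit [IsAlgClosed K] [CharZero K] [FF.IsFnField K (laurentBaseChange K F₀)] in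
theorem exists_pow_mul_mem_extRing {t : laurentBaseChange K F₀} (ht : w.ord t = 1)
    {z : LaurentSeries E}
    (hz : z ∈ Algebra.adjoin E (⇑(coeffEmb E) '' (F₀ : Set (LaurentSeries ℚ)))) :
    ∃ (n : ℕ) (r : laurentBaseChange E F₀), r ∈ extRing E w ∧
      (r : LaurentSeries E) = (baseChangeEmb K E F₀ t : LaurentSeries E) ^ n * z := by
  have ht0 : t ≠ 0 := by
    rintro rfl
    rw [w.ord_zero] at ht
    norm_num at ht
  have htm : t ∈ w.toValuationSubring := FF.mem_of_ord_nonneg w (by rw [ht]; norm_num)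
  have htr : ∀ n, baseChangeEmb K E F₀ t ^ n ∈ extRing E w := fun n =>
    pow_mem (emb_mem_extRing w htm) n
  induction hz using Algebra.adjoin_induction with
  | mem z hz =>
      obtain ⟨f, hf, rfl⟩ := hz
      let a : laurentBaseChange K F₀ := ⟨coeffEmb K f, coeffEmb_mem_laurentBaseChange K hf⟩
      refine ⟨(w.ord a).natAbs, baseChangeEmb K E F₀ (t ^ (w.ord a).natAbs * a), ?_, ?_⟩
      · apply emb_mem_extRing
        by_cases ha0 : a = 0
        · rw [ha0, mul_zero]; exact zero_mem _
        apply FF.mem_of_ord_nonneg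
        rw [w.ord_mul (pow_ne_zero _ ht0) ha0, FF.ord_pow, ht]
        have := Int.natAbs_neg (w.ord a)
        omega
      · rw [map_mul, map_pow]
        push_cast
        congr 1
        rw [coe_baseChangeEmb]
        exact coeffMap_coeffEmb' f
  | algebraMap r =>
      refine ⟨0, algebraMap E _ r, algebraMap_mem _ _, ?_⟩
      rw [pow_zero, one_mul]
      rfl
  | add x y _ _ h1 h2 =>
      obtain ⟨n, r, hr, hrx⟩ := h1
      obtain ⟨n', r', hr', hry⟩ := h2
      refine ⟨n + n', baseChangeEmb K E F₀ t ^ n' * r + baseChangeEmb K E F₀ t ^ n * r',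
        add_mem (mul_mem (htr _) hr) (mul_mem (htr _) hr'), ?_⟩
      push_cast
      rw [hrx, hry]
      ring
  | mul x y _ _ h1 h2 =>
      obtain ⟨n, r, hr, hrx⟩ := h1
      obtain ⟨n', r', hr', hry⟩ := h2
      refine ⟨n + n', r * r', mul_mem hr hr', ?_⟩
      push_cast
      rw [hrx, hry]
      ring

variable (E) in
/-- **Places extend unramifiedly**. -/
theorem exists_place_lift [CharZero E] [FF.IsFnField E (laurentBaseChange E F₀)] :
    ∃ v : Place E (laurentBaseChange E F₀),
      ∀ f : laurentBaseChange K F₀, v.ord (baseChangeEmb K E F₀ f) = w.ord f := by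
  obtain ⟨t, ht0, ht⟩ := FF.exists_ord_eq_one w
  have htm : t ∈ w.toValuationSubring := FF.mem_of_ord_nonneg w (by rw [ht]; norm_num)
  let R : Subring (laurentBaseChange E F₀) := (extRing E w).toSubring
  let t' : R := ⟨baseChangeEmb K E F₀ t, emb_mem_extRing w htm⟩
  have hI : Ideal.span {t'} ≠ ⊤ := by
    intro htop
    rw [Ideal.eq_top_iff_one, Ideal.mem_span_singleton'] at htop
    obtain ⟨r, hr⟩ := htop
    refine not_one_eq_mul (E := E) w ht r.2 ?_
    rw [mul_comm]
    exact congrArg Subtype.val hr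
  obtain ⟨B, hRB, hIB⟩ := Ideal.image_subset_nonunits_valuationSubring (Ideal.span {t'}) hI
  have htB : baseChangeEmb K E F₀ t ∈ B.nonunits :=
    hIB ⟨t', Ideal.mem_span_singleton_self t', rfl⟩
  have ht'0 : baseChangeEmb K E F₀ t ≠ 0 := (map_ne_zero _).2 ht0
  have hinv : (baseChangeEmb K E F₀ t)⁻¹ ∉ B := by
    have h0 : ((baseChangeEmb K E F₀ t)⁻¹)⁻¹ ∈ B.nonunits := by rw [inv_inv]; exact htB
    rcases B.inv_mem_nonunits_iff.1 h0 with h | h
    · exact absurd h (inv_ne_zero ht'0)
    · exact h
  obtain ⟨v, hv⟩ := FF.exists_place_of_valuationSubring (K := E) B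
    (fun a => hRB ((extRing E w).algebraMap_mem a))
    (by rintro rfl; exact hinv (ValuationSubring.mem_top _))
  have hRv : ∀ r ∈ extRing E w, 0 ≤ v.ord r := by
    intro r hr
    apply FF.ord_nonneg_of_mem
    rw [hv]
    exact hRB hr
  have htpos : 0 < v.ord (baseChangeEmb K E F₀ t) := by
    by_contra h
    apply hinv
    rw [← hv]
    apply FF.mem_of_ord_nonneg
    rw [v.ord_inv]
    omega
  -- elements `e + t r`, `e ≠ 0`, are units
  have hunit : ∀ (e : E) (r : laurentBaseChange E F₀), e ≠ 0 → r ∈ extRing E w →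
      algebraMap E _ e + baseChangeEmb K E F₀ t * r ≠ 0 ∧
      v.ord (algebraMap E _ e + baseChangeEmb K E F₀ t * r) = 0 := by
    intro e r he hr
    have he' : algebraMap E (laurentBaseChange E F₀) e ≠ 0 := (map_ne_zero _).2 he
    have h1 : v.ord (algebraMap E (laurentBaseChange E F₀) e +
        baseChangeEmb K E F₀ t * r) = v.ord (algebraMap E (laurentBaseChange E F₀) e) := by
      apply FF.ord_add_eq_of_lt v he'
      by_cases hr0 : r = 0
      · left; rw [hr0, mul_zero]
      · right
        rw [FF.ord_algebraMap, v.ord_mul ht'0 hr0]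
        have := hRv r hr
        omega
    rw [FF.ord_algebraMap] at h1
    refine ⟨?_, h1⟩
    intro h0
    have h2 : r ≠ 0 := by
      rintro rfl
      rw [mul_zero, add_zero] at h0
      exact he' h0
    have h3 : algebraMap E (laurentBaseChange E F₀) (-e) = baseChangeEmb K E F₀ t * r := by
      rw [map_neg]
      linear_combination -h0
    have h4 := congrArg v.ord h3
    rw [FF.ord_algebraMap, v.ord_mul ht'0 h2] at h4
    have := hRv r hr
    omega
  -- all orders are multiples of the order of `t`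
  have hdvdR : ∀ r ∈ extRing E w, v.ord (baseChangeEmb K E F₀ t) ∣ v.ord r := by
    intro r hr
    by_cases hr0 : r = 0
    · rw [hr0, v.ord_zero]; exact dvd_zero _
    obtain ⟨n, e, r', he, hr', hrr⟩ := exists_pow_mul_of_mem_extRing w ht hr hr0
    rw [hrr, v.ord_mul (pow_ne_zero _ ht'0) (hunit e r' he hr').1, (hunit e r' he hr').2,
      FF.ord_pow, add_zero]
    exact dvd_mul_left _ _
  have hdvd : ∀ x : laurentBaseChange E F₀, v.ord (baseChangeEmb K E F₀ t) ∣ v.ord x := by
    intro x
    by_cases hx0 : x = 0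
    · rw [hx0, v.ord_zero]; exact dvd_zero _
    have hx : (x : LaurentSeries E) ∈ IntermediateField.adjoin E
        (⇑(coeffEmb E) '' (F₀ : Set (LaurentSeries ℚ))) := x.2
    rw [IntermediateField.mem_adjoin_iff_div] at hx
    obtain ⟨a, ha, b, hb, hab⟩ := hx
    obtain ⟨n, r, hr, hra⟩ := exists_pow_mul_mem_extRing (E := E) w ht ha
    obtain ⟨n', r', hr', hrb⟩ := exists_pow_mul_mem_extRing (E := E) w ht hb
    have hb0 : b ≠ 0 := by
      rintro rfl
      rw [div_zero] at hab
      exact hx0 (Subtype.ext hab)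
    have hr'0 : r' ≠ 0 := by
      rintro rfl
      have h1 : ((0 : laurentBaseChange E F₀) : LaurentSeries E) = 0 := rfl
      rw [h1] at hrb
      have h2 : (baseChangeEmb K E F₀ t : LaurentSeries E) ≠ 0 := fun h => ht'0 (Subtype.ext h)
      exact (mul_ne_zero (pow_ne_zero n' h2) hb0) hrb.symm
    have hxr : x * (baseChangeEmb K E F₀ t ^ n * r') = baseChangeEmb K E F₀ t ^ n' * r := by
      apply Subtype.ext
      push_cast
      rw [hra, hrb, hab]
      field_simp
    have h5 := congrArg v.ord hxr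
    have hr0 : r ≠ 0 := by
      rintro rfl
      rw [mul_zero] at hxr
      exact (mul_ne_zero hx0 (mul_ne_zero (pow_ne_zero _ ht'0) hr'0)) hxr
    rw [v.ord_mul hx0 (mul_ne_zero (pow_ne_zero _ ht'0) hr'0),
      v.ord_mul (pow_ne_zero _ ht'0) hr'0, v.ord_mul (pow_ne_zero _ ht'0) hr0, FF.ord_pow,
      FF.ord_pow] at h5
    have h6 : v.ord x = n' * v.ord (baseChangeEmb K E F₀ t) + v.ord r -
        n * v.ord (baseChangeEmb K E F₀ t) - v.ord r' := by linarith
    rw [h6]
    exact dvd_sub (dvd_sub (dvd_add (dvd_mul_left _ _) (hdvdR r hr)) (dvd_mul_left _ _))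
      (hdvdR r' hr')
  have ht1 : v.ord (baseChangeEmb K E F₀ t) = 1 := by
    obtain ⟨s, hs0, hs⟩ := FF.exists_ord_eq_one v
    have h := hdvd s
    rw [hs] at h
    exact Int.eq_one_of_dvd_one htpos.le h
  refine ⟨v, fun f => ?_⟩
  by_cases hf : f = 0
  · rw [hf, map_zero, v.ord_zero, w.ord_zero]
  -- `f = t ^ k u`
  have hfu : f = t ^ w.ord f * (f * t ^ (-w.ord f)) := by
    rw [zpow_neg, mul_comm f, mul_inv_cancel_left₀ (zpow_ne_zero _ ht0)]
  have hu0 : f * t ^ (-w.ord f) ≠ 0 := mul_ne_zero hf (zpow_ne_zero _ ht0)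
  have hu : w.ord (f * t ^ (-w.ord f)) = 0 := by
    rw [w.ord_mul hf (zpow_ne_zero _ ht0), w.ord_zpow, ht]; ring
  have hvu : v.ord (baseChangeEmb K E F₀ (f * t ^ (-w.ord f))) = 0 := by
    apply le_antisymm
    · have h1 : 0 ≤ v.ord (baseChangeEmb K E F₀ (f * t ^ (-w.ord f))⁻¹) :=
        hRv _ (emb_mem_extRing w (FF.mem_of_ord_nonneg w (by rw [w.ord_inv, hu, neg_zero])))
      rw [map_inv₀, v.ord_inv] at h1
      omega
    · exact hRv _ (emb_mem_extRing w (FF.mem_of_ord_nonneg w (by rw [hu])))
  conv_lhs => rw [hfu]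
  rw [map_mul, map_zpow₀, v.ord_mul (zpow_ne_zero _ ht'0) ((map_ne_zero _).2 hu0), hvu,
    v.ord_zpow, ht1]
  ring

end

end Fermat.Agent.Top
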