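import Fermat.Agent.Top.Transfer

set_option autoImplicit false

/-!
# The Hecke operators on `Hom(Γ₀(N), A)`: commutativity, parabolicity, period map
-/

open UpperHalfPlane Filter Topology Function CongruenceSubgroup ModularCurve.Period
open scoped MatrixGroups ModularForm Manifold Pointwise

namespace Fermat.Agent.Top

open Matrix.SpecialLinearGroup ModularForm

section Comm

variable {N ℓ ℓ' : ℕ}

theorem HM_unique_comp (hℓ : ℓ.Prime) (hℓ' : ℓ'.Prime) (hne : ℓ ≠ ℓ') (g : SL(2, ℤ))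
    (i j : Option (Fin ℓ)) (i' j' : Option (Fin ℓ'))
    (h : (g : Matrix (Fin 2) (Fin 2) ℤ) * (HM ℓ i * HM ℓ' i') = HM ℓ j * HM ℓ' j') :
    i = j ∧ i' = j' := by
  have hcop : IsCoprime (ℓ : ℤ) (ℓ' : ℤ) :=
    Nat.isCoprime_iff_coprime.mpr ((Nat.coprime_primes hℓ hℓ').mpr hne)
  have h1 : (ℓ' : ℤ) • ((HM ℓ j).adjugate * (g : Matrix (Fin 2) (Fin 2) ℤ) * HM ℓ i) =
      (ℓ : ℤ) • (HM ℓ' j' * (HM ℓ' i').adjugate) := by
    have h2 : (HM ℓ j).adjugate * ((g : Matrix (Fin 2) (Fin 2) ℤ) * (HM ℓ i * HM ℓ' i')) *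
        (HM ℓ' i').adjugate = (HM ℓ j).adjugate * (HM ℓ j * HM ℓ' j') * (HM ℓ' i').adjugate := by
      rw [h]
    have e1 : (HM ℓ j).adjugate * ((g : Matrix (Fin 2) (Fin 2) ℤ) * (HM ℓ i * HM ℓ' i')) *
        (HM ℓ' i').adjugate = (HM ℓ j).adjugate * (g : Matrix (Fin 2) (Fin 2) ℤ) * HM ℓ i *
          (HM ℓ' i' * (HM ℓ' i').adjugate) := by
      simp only [Matrix.mul_assoc]
    have e2 : (HM ℓ j).adjugate * (HM ℓ j * HM ℓ' j') * (HM ℓ' i').adjugate =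
        ((HM ℓ j).adjugate * HM ℓ j) * (HM ℓ' j' * (HM ℓ' i').adjugate) := by
      simp only [Matrix.mul_assoc]
    rw [e1, e2, Matrix.mul_adjugate, Matrix.adjugate_mul, det_HM, det_HM, Matrix.mul_smul,
      Matrix.mul_one, Matrix.smul_mul, Matrix.one_mul] at h2
    exact h2
  obtain ⟨X, hX⟩ : ∃ X : Matrix (Fin 2) (Fin 2) ℤ, HM ℓ' j' * (HM ℓ' i').adjugate = (ℓ' : ℤ) • X := by
    have h3 : ∀ a b, (ℓ' : ℤ) ∣ (HM ℓ' j' * (HM ℓ' i').adjugate) a b := by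
      intro a b
      have h4 := congrFun (congrFun h1 a) b
      simp only [Matrix.smul_apply, smul_eq_mul] at h4
      exact hcop.symm.dvd_of_dvd_mul_left ⟨_, h4.symm⟩
    choose X hX using h3
    exact ⟨Matrix.of X, by ext a b; simp [hX a b]⟩
  have hℓ0 : (ℓ' : ℤ) ≠ 0 := by exact_mod_cast hℓ'.ne_zero
  have hX2 : X * HM ℓ' i' = HM ℓ' j' := by
    have h5 := congrArg (fun Y ↦ Y * HM ℓ' i') hX
    simp only [Matrix.mul_assoc, Matrix.adjugate_mul, det_HM, Matrix.mul_smul, Matrix.mul_one,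
      Matrix.smul_mul] at h5
    exact (smul_right_injective _ hℓ0 h5).symm
  have hXdet : X.det = 1 := by
    have := congrArg Matrix.det hX2
    rw [Matrix.det_mul, det_HM, det_HM] at this
    exact mul_right_cancel₀ hℓ0 (by rw [this, one_mul])
  have hi' : i' = j' := HM_unique hℓ' ⟨X, hXdet⟩ i' j' hX2
  subst hi'
  refine ⟨HM_unique hℓ g i j ?_, rfl⟩
  have h6 : ((g : Matrix (Fin 2) (Fin 2) ℤ) * HM ℓ i) * HM ℓ' i' = HM ℓ j * HM ℓ' i' := by
    rw [Matrix.mul_assoc]; exact h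
  have h7 := congrArg (fun Y ↦ Y * (HM ℓ' i').adjugate) h6
  simp only [Matrix.mul_assoc, Matrix.mul_adjugate, det_HM, Matrix.mul_smul, Matrix.mul_one] at h7
  have h8 := smul_right_injective _ hℓ0 h7
  exact h8

theorem HR_mul_apply (hℓ : ℓ.Prime) (hℓ' : ℓ'.Prime) (i : Option (Fin ℓ)) (i' : Option (Fin ℓ')) :
    ((HR ℓ i * HR ℓ' i' : GL (Fin 2) ℝ) : Matrix (Fin 2) (Fin 2) ℝ) =
      (HM ℓ i * HM ℓ' i').map (Int.cast : ℤ → ℝ) := by
  rw [Units.val_mul, HR_apply hℓ.ne_zero, HR_apply hℓ'.ne_zero, map_mul_cast]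

theorem comp_unique (hℓ : ℓ.Prime) (hℓ' : ℓ'.Prime) (hne : ℓ ≠ ℓ') (g : Gamma0 N)
    (i j : HI N ℓ × HI N ℓ')
    (h : toGL N g * ((hreps N hℓ).comp (hreps N hℓ')).δ i =
      ((hreps N hℓ).comp (hreps N hℓ')).δ j) : i = j := by
  have h1 := (eq_coe_of_mapGL_mul (HR_mul_apply hℓ hℓ' i.1.1 i.2.1)
    (HR_mul_apply hℓ hℓ' j.1.1 j.2.1)).mp h
  obtain ⟨h2, h3⟩ := HM_unique_comp hℓ hℓ' hne _ _ _ _ _ h1
  exact Prod.ext (Subtype.ext h2) (Subtype.ext h3)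

theorem comp_exists (hℓ : ℓ.Prime) (hℓ' : ℓ'.Prime) (i : HI N ℓ × HI N ℓ') :
    ∃ (g : Gamma0 N) (j : HI N ℓ' × HI N ℓ),
      ((hreps N hℓ).comp (hreps N hℓ')).δ i =
        toGL N g * ((hreps N hℓ').comp (hreps N hℓ)).δ j := by
  obtain ⟨j, B, hB, h1⟩ := exists_factor hℓ (A := HM ℓ i.1.1 * HM ℓ' i.2.1)
    ((isDelta_HM hℓ i.1).mul (isDelta_HM hℓ' i.2))
    (by rw [Matrix.det_mul, det_HM]; exact dvd_mul_right _ _)
  have hℓ0 : (ℓ : ℤ) ≠ 0 := by exact_mod_cast hℓ.ne_zero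
  have hℓ0' : (ℓ' : ℤ) ≠ 0 := by exact_mod_cast hℓ'.ne_zero
  have hBdet : B.det = ℓ' := by
    have h2 := congrArg Matrix.det h1
    rw [Matrix.det_mul, Matrix.det_mul, det_HM, det_HM, det_HM, mul_comm] at h2
    exact (mul_right_cancel₀ hℓ0 h2).symm
  obtain ⟨j', C, hC, h3⟩ := exists_factor hℓ' hB (by rw [hBdet])
  have hCdet : C.det = 1 := by
    have h2 := congrArg Matrix.det h3
    rw [Matrix.det_mul, det_HM, hBdet] at h2
    exact mul_right_cancel₀ hℓ0' (by rw [← h2, one_mul])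
  obtain ⟨g, rfl⟩ := exists_mem_of_isDelta hC hCdet
  refine ⟨g, (j', j), ?_⟩
  refine ((eq_coe_of_mapGL_mul (HR_mul_apply hℓ' hℓ j'.1 j.1)
    (HR_mul_apply hℓ hℓ' i.1.1 i.2.1)).mpr ?_).symm
  rw [h1, h3, Matrix.mul_assoc]
  rfl

theorem op_comm {A : Type*} [AddCommGroup A] (hℓ : ℓ.Prime) (hℓ' : ℓ'.Prime)
    (φ : Additive (Gamma0 N) →+ A) :
    (hreps N hℓ).op ((hreps N hℓ').op φ) = (hreps N hℓ').op ((hreps N hℓ).op φ) := by
  rcases eq_or_ne ℓ ℓ' with rfl | hne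
  · rfl
  · rw [← Reps.op_comp, ← Reps.op_comp]
    refine Reps.op_congr _ _ (fun g i j h ↦ comp_unique hℓ' hℓ hne.symm g i j h)
      (fun g i j h ↦ comp_unique hℓ hℓ' hne g i j h) (fun i ↦ comp_exists hℓ' hℓ i) ?_ φ
    rw [Fintype.card_prod, Fintype.card_prod, mul_comm]

end Comm

/-- The Hecke operator `T_ℓ` (`U_ℓ` if `ℓ ∣ N`) on `Hom(Γ₀(N), A)`. -/
noncomputable def hop (N : ℕ) {A : Type*} [AddCommGroup A] (ℓ : Nat.Primes) :
    (Additive (Gamma0 N) →+ A) →+ (Additive (Gamma0 N) →+ A) := (hreps N ℓ.2).op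

theorem hop_comm {N : ℕ} {A : Type*} [AddCommGroup A] (ℓ ℓ' : Nat.Primes)
    (φ : Additive (Gamma0 N) →+ A) : hop N ℓ (hop N ℓ' φ) = hop N ℓ' (hop N ℓ φ) :=
  op_comm ℓ.2 ℓ'.2 φ

theorem hop_comp_left {N : ℕ} {A A' : Type*} [AddCommGroup A] [AddCommGroup A'] (ℓ : Nat.Primes)
    (g : A →+ A') (φ : Additive (Gamma0 N) →+ A) : hop N ℓ (g.comp φ) = g.comp (hop N ℓ φ) :=
  (hreps N ℓ.2).op_comp_left g φ

theorem hop_smul {N : ℕ} {A S : Type*} [AddCommGroup A] [Semiring S] [Module S A] (ℓ : Nat.Primes)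
    (s : S) (φ : Additive (Gamma0 N) →+ A) : hop N ℓ (s • φ) = s • hop N ℓ φ :=
  (hreps N ℓ.2).op_smul s φ

section Parabolic

theorem trace_pow_sq (γ : SL(2, ℤ)) (h : (γ : Matrix (Fin 2) (Fin 2) ℤ).trace ^ 2 = 4) (n : ℕ) :
    ((γ ^ n : SL(2, ℤ)) : Matrix (Fin 2) (Fin 2) ℤ).trace ^ 2 = 4 := by
  obtain ⟨ε, hε, htr⟩ : ∃ ε : ℤ, ε ^ 2 = 1 ∧ (γ : Matrix (Fin 2) (Fin 2) ℤ).trace = 2 * ε := by
    have : ((γ : Matrix (Fin 2) (Fin 2) ℤ).trace - 2) * ((γ : Matrix (Fin 2) (Fin 2) ℤ).trace + 2)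
        = 0 := by linear_combination h
    rcases mul_eq_zero.mp this with h | h
    · exact ⟨1, by norm_num, by linarith⟩
    · exact ⟨-1, by norm_num, by linarith⟩
  have hCH : (γ : Matrix (Fin 2) (Fin 2) ℤ) * (γ : Matrix (Fin 2) (Fin 2) ℤ) =
      (2 * ε) • (γ : Matrix (Fin 2) (Fin 2) ℤ) - 1 := by
    have hdet := γ.det_coe
    rw [Matrix.det_fin_two] at hdet
    rw [Matrix.trace_fin_two] at htr
    rw [← htr]
    ext i j
    simp only [Matrix.mul_apply, Fin.sum_univ_two, Matrix.sub_apply, Matrix.smul_apply,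
      smul_eq_mul]
    fin_cases i <;> fin_cases j
    · simp only [Fin.zero_eta, Matrix.one_apply_eq]
      linear_combination -hdet
    · simp
      ring
    · simp
      ring
    · simp only [Fin.mk_one, Matrix.one_apply_eq]
      linear_combination -hdet
  have key : ∀ n : ℕ, (((γ : Matrix (Fin 2) (Fin 2) ℤ)) ^ n).trace = 2 * ε ^ n ∧
      (((γ : Matrix (Fin 2) (Fin 2) ℤ)) ^ (n + 1)).trace = 2 * ε ^ (n + 1) := by
    intro n
    induction n with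
    | zero => simp [htr]
    | succ n ih =>
      refine ⟨ih.2, ?_⟩
      have e : ((γ : Matrix (Fin 2) (Fin 2) ℤ)) ^ (n + 1 + 1) =
          (2 * ε) • (γ : Matrix (Fin 2) (Fin 2) ℤ) ^ (n + 1) -
            (γ : Matrix (Fin 2) (Fin 2) ℤ) ^ n := by
        rw [pow_succ, pow_succ, Matrix.mul_assoc, hCH, Matrix.mul_sub, Matrix.mul_one,
          Matrix.mul_smul, ← pow_succ]
      rw [e, Matrix.trace_sub, Matrix.trace_smul, ih.1, ih.2]
      have : ε ^ (n + 1 + 1) = ε ^ n * ε ^ 2 := by ring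
      rw [this, hε, smul_eq_mul]
      linear_combination (4 * ε ^ n) * hε
  rw [Matrix.SpecialLinearGroup.coe_pow, (key n).1, mul_pow, ← pow_mul, mul_comm n 2, pow_mul, hε]
  norm_num

theorem trace_eq_of_conj {γ γ' : SL(2, ℤ)} {A : GL (Fin 2) ℝ}
    (h : A * mapGL ℝ γ = mapGL ℝ γ' * A) :
    (γ' : Matrix (Fin 2) (Fin 2) ℤ).trace = (γ : Matrix (Fin 2) (Fin 2) ℤ).trace := by
  have h1 : mapGL ℝ γ' = A * mapGL ℝ γ * A⁻¹ := by rw [h, mul_inv_cancel_right]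
  have h2 := congrArg (fun g : GL (Fin 2) ℝ ↦ (g : Matrix (Fin 2) (Fin 2) ℝ).trace) h1
  simp only [Units.val_mul] at h2
  rw [Matrix.trace_mul_comm, ← Matrix.mul_assoc, Units.inv_mul, Matrix.one_mul, mapGL_coe,
    mapGL_coe] at h2
  rw [Matrix.trace_fin_two, Matrix.trace_fin_two] at h2 ⊢
  simp only [Matrix.map_apply] at h2
  exact_mod_cast h2

theorem isParabolicHom_hop {N : ℕ} {A : Type*} [AddCommGroup A] [IsAddTorsionFree A]
    (ℓ : Nat.Primes) {φ : Additive (Gamma0 N) →+ A} (hφ : IsParabolicHom (Gamma0 N) φ) :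
    IsParabolicHom (Gamma0 N) (hop N ℓ φ) := by
  intro γ hγ
  refine (hreps N ℓ.2).op_eq_zero_of
    (fun γ ↦ ((γ : SL(2, ℤ)) : Matrix (Fin 2) (Fin 2) ℤ).trace ^ 2 = 4) ?_ ?_ φ hφ γ hγ
  · intro γ hγ n
    exact trace_pow_sq _ hγ n
  · intro γ γ' i hγ h
    have e : ((γ' : SL(2, ℤ)) : Matrix (Fin 2) (Fin 2) ℤ).trace =
        ((γ : SL(2, ℤ)) : Matrix (Fin 2) (Fin 2) ℤ).trace := trace_eq_of_conj h
    change ((γ' : SL(2, ℤ)) : Matrix (Fin 2) (Fin 2) ℤ).trace ^ 2 = 4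
    rw [e]
    exact hγ

end Parabolic

section PeriodMap

open Fermat.Agent.Period

theorem IsPrimitive.comp_smul_GL {F f : ℍ → ℂ} (hF : IsPrimitive F f) (A : GL (Fin 2) ℝ)
    (hdet : 0 < (A.det : ℝ)) :
    IsPrimitive (fun τ ↦ F (A • τ)) (f ∣[(2 : ℤ)] A) := by
  intro τ
  have hdet' : (0 : ℝ) < ((A : GL (Fin 2) ℝ) : Matrix (Fin 2) (Fin 2) ℝ).det := by
    rwa [← Matrix.GeneralLinearGroup.val_det_apply]
  have h1 := (hasStrictDerivAt_smul hdet' τ).hasDerivAt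
  have h2 : HasDerivAt (F ∘ ofComplex) (f (A • τ))
      ((A • ofComplex (τ : ℂ) : ℍ) : ℂ) := by
    rw [ofComplex_apply]
    exact hF (A • τ)
  have h3 := h2.comp (τ : ℂ) h1
  have hval : (f ∣[(2 : ℤ)] A) τ =
      f (A • τ) * ((((A : GL (Fin 2) ℝ) : Matrix (Fin 2) (Fin 2) ℝ).det : ℝ) / denom A τ ^ 2) := by
    rw [ModularForm.slash_apply, UpperHalfPlane.σ, if_pos hdet]
    simp only [ContinuousAlgEquiv.refl_apply, abs_of_pos hdet]
    rw [Matrix.GeneralLinearGroup.val_det_apply, show (2 : ℤ) - 1 = 1 by norm_num, zpow_one,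
      zpow_neg, show ((2 : ℤ)) = ((2 : ℕ) : ℤ) by norm_num, zpow_natCast]
    ring
  rw [hval]
  refine h3.congr_of_eventuallyEq ?_
  filter_upwards [isOpen_upperHalfPlaneSet.mem_nhds τ.im_pos] with w hw
  simp only [Function.comp_apply, ofComplex_apply]

theorem IsPrimitive.sum {ι : Type*} (s : Finset ι) {F f : ι → ℍ → ℂ}
    (h : ∀ i ∈ s, IsPrimitive (F i) (f i)) :
    IsPrimitive (∑ i ∈ s, F i) (∑ i ∈ s, f i) := by
  intro τ
  have := HasDerivAt.sum fun i hi ↦ h i hi τ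
  rw [Finset.sum_apply]
  refine this.congr_of_eventuallyEq (Filter.Eventually.of_forall fun w ↦ ?_)
  simp

/-- If `F` is a primitive of `f`, and `f'` is the sum of the `f ∣ δ i`, then the periods of `f'` are
obtained from the periods of `f` by the transfer operator. -/
theorem periodMap_of_eq_sum {N : ℕ} [NeZero N] {ℓ : ℕ} (hℓ : ℓ.Prime)
    (f f' : CuspForm (Gamma0 N) 2)
    (h : (f' : ℍ → ℂ) = ∑ i : HI N ℓ, (f : ℍ → ℂ) ∣[(2 : ℤ)] HR ℓ i.1) :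
    ModularCurve.periodMap N f' = (hreps N hℓ).op (ModularCurve.periodMap N f) := by
  set F := prim N f with hF
  set F' := prim N f' with hF'
  have h1 : IsPrimitive (∑ i : HI N ℓ, fun τ ↦ F (HR ℓ i.1 • τ)) f' := by
    rw [h]
    exact IsPrimitive.sum _ fun i _ ↦ IsPrimitive.comp_smul_GL (prim_spec N f).1 _ (det_HR_pos _ _)
  obtain ⟨c, hc⟩ := IsPrimitive.exists_sub_eq_const (f := f') (prim_spec N f').1 h1
  refine AddMonoidHom.ext fun γ' ↦ ?_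
  obtain ⟨γ, rfl⟩ := Additive.ofMul.surjective γ'
  rw [periodMap_apply _ (prim_spec N f') γ UpperHalfPlane.I]
  have h2 := (hreps N hℓ).sum_smul_smul F (ModularCurve.periodMap N f)
    (fun γ x ↦ by
      rw [periodMap_apply _ (prim_spec N f) γ x, toGL_smul]
      ring) γ UpperHalfPlane.I
  have h3 := hc ((γ : SL(2, ℤ)) • UpperHalfPlane.I)
  have h4 := hc UpperHalfPlane.I
  simp only [Finset.sum_apply] at h3 h4
  simp only [hreps_δ, toGL_smul] at h2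
  linear_combination h3 - h4 + h2

theorem periodLin_heckeTLin {N : ℕ} [NeZero N] {ℓ : ℕ} (hℓ : ℓ.Prime) (hℓN : ¬ ℓ ∣ N)
    (f : CuspForm (Gamma0 N) 2) :
    periodLin N (CuspForm.heckeTLin 2 hℓ hℓN f) = (hreps N hℓ).op (periodLin N f) := by
  classical
  refine periodMap_of_eq_sum hℓ f _ ?_
  rw [CuspForm.coe_heckeTLin_apply, heckeT_def, sum_HI N ℓ (fun i ↦ (f : ℍ → ℂ) ∣[(2 : ℤ)] HR ℓ i),
    if_neg hℓN]
  congr 1
  rw [Finset.sum_range]
  rfl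

theorem periodLin_heckeULin {N : ℕ} [NeZero N] {q : ℕ} (hq : q.Prime) (hqN : q ∣ N)
    (f : CuspForm (Gamma0 N) 2) :
    periodLin N (CuspForm.heckeULin 2 hqN f) = (hreps N hq).op (periodLin N f) := by
  classical
  refine periodMap_of_eq_sum hq f _ ?_
  rw [CuspForm.coe_heckeULin_apply, heckeU_def, sum_HI N q (fun i ↦ (f : ℍ → ℂ) ∣[(2 : ℤ)] HR q i),
    if_pos hqN, add_zero, Finset.sum_range]
  rfl

theorem periodLin_injective (N : ℕ) [NeZero N] : Function.Injective (periodLin N) := by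
  rw [injective_iff_map_eq_zero]
  intro f hf
  apply eq_zero_of_re_period_eq_zero
  intro γ
  change ((periodLin N f) (Additive.ofMul γ)).re = 0
  rw [hf]
  simp

end PeriodMap

end Fermat.Agent.Top
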