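import Mathlib

set_option autoImplicit false

/-!
# Commutative algebra for Hecke modules
-/

open scoped Pointwise

namespace Fermat.Agent.Top

section Support

variable {R V : Type*} [CommRing R] [AddCommGroup V] [Module R V]

/-- In a finite module `V`, a maximal ideal `P` with `P V ≠ V` has nonzero torsion. -/
theorem exists_ne_zero_of_smul_top_ne [Finite V] (P : Ideal R)
    (hV : P • (⊤ : Submodule R V) ≠ ⊤) : ∃ x : V, x ≠ 0 ∧ ∀ t ∈ P, t • x = 0 := by
  classical
  -- stabilisation
  have hstab : ∃ n : ℕ, P ^ n • (⊤ : Submodule R V) = P ^ (n + 1) • (⊤ : Submodule R V) := by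
    by_contra hcon
    push Not at hcon
    have hanti : ∀ n : ℕ, P ^ (n + 1) • (⊤ : Submodule R V) < P ^ n • (⊤ : Submodule R V) := by
      intro n
      refine lt_of_le_of_ne ?_ (hcon n).symm
      rw [pow_succ]
      exact Submodule.smul_mono_left Ideal.mul_le_left
    have hlt : StrictAnti fun n : ℕ ↦ P ^ n • (⊤ : Submodule R V) := strictAnti_nat_of_succ_lt hanti
    have hfin : Finite (Submodule R V) := Finite.of_injective (fun S ↦ (S : Set V))
      SetLike.coe_injective
    exact not_injective_infinite_finite _ hlt.injective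
  have hex : ∃ n : ℕ, ∃ r : R, r - 1 ∈ P ∧ ∀ a ∈ P ^ n, ∀ v : V, (r * a) • v = 0 := by
    obtain ⟨n, hn⟩ := hstab
    have hfg : (P ^ n • (⊤ : Submodule R V)).FG := by
      have : Module.Finite R (P ^ n • (⊤ : Submodule R V) : Submodule R V) := inferInstance
      exact Module.Finite.iff_fg.mp this
    obtain ⟨r, hr, h⟩ := Submodule.exists_sub_one_mem_and_smul_eq_zero_of_fg_of_le_smul P
      (P ^ n • (⊤ : Submodule R V)) hfg (by
        conv_lhs => rw [hn, pow_succ', mul_smul])
    exact ⟨n, r, hr, fun a ha v ↦ by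
      rw [mul_smul]
      exact h _ (Submodule.smul_mem_smul ha trivial)⟩
  obtain ⟨r, hr, h⟩ := Nat.find_spec hex
  rcases Nat.eq_zero_or_pos (Nat.find hex) with h0 | hpos
  · exfalso
    rw [h0] at h
    apply hV
    rw [eq_top_iff]
    intro v _
    have h1 := h 1 (by simp) v
    rw [mul_one] at h1
    have h2 : v = -((r - 1) • v) := by rw [sub_smul, h1, one_smul]; simp
    rw [h2]
    exact neg_mem (Submodule.smul_mem_smul hr trivial)
  · have hmin := Nat.find_min hex (Nat.sub_lt hpos one_pos)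
    push Not at hmin
    obtain ⟨a, ha, v, hv⟩ := hmin r hr
    refine ⟨(r * a) • v, hv, fun t ht ↦ ?_⟩
    rw [smul_smul, show t * (r * a) = r * (a * t) by ring]
    refine h _ ?_ v
    have : P ^ Nat.find hex = P ^ (Nat.find hex - 1) * P := by
      rw [← pow_succ, Nat.sub_add_cancel hpos]
    rw [this]
    exact Ideal.mul_mem_mul ha ht

/-- Let `R` act on a finitely generated abelian group `M`, and let `P` be a maximal ideal of `R`
containing the prime `p` and the annihilator of `M`. Then `M / p M` has nonzero `P`-torsion. -/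
theorem exists_mod_p_eigen {M : Type*} [AddCommGroup M] [Module.Finite ℤ M]
    (e : R →+* Module.End ℤ M) (P : Ideal R) (hP : P.IsMaximal) (p : ℕ) (hp : p ≠ 0)
    (hpP : (p : R) ∈ P) (hann : ∀ t : R, e t = 0 → t ∈ P) :
    ∃ x : M, (¬ ∃ y, x = p • y) ∧ ∀ t ∈ P, ∃ y, e t x = p • y := by
  let _ : Module R M := Module.compHom M e
  have hsmul : ∀ (t : R) (x : M), t • x = e t x := fun _ _ ↦ rfl
  have hpsmul : ∀ x : M, (p : R) • x = p • x := fun x ↦ by
    rw [hsmul, map_natCast]; simp
  set Q : Submodule R M := (p : R) • (⊤ : Submodule R M) with hQ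
  have hmemQ : ∀ x : M, x ∈ Q ↔ ∃ y, x = p • y := by
    intro x
    rw [hQ, Submodule.mem_smul_pointwise_iff_exists]
    constructor
    · rintro ⟨y, -, rfl⟩
      exact ⟨y, hpsmul y⟩
    · rintro ⟨y, rfl⟩
      exact ⟨y, trivial, hpsmul y⟩
  have hfinR : Module.Finite R M := by
    obtain ⟨s, hs⟩ := (Module.finite_def (R := ℤ) (M := M)).mp inferInstance
    refine ⟨s, ?_⟩
    rw [eq_top_iff]
    intro x _
    have hx : x ∈ Submodule.span ℤ (s : Set M) := by rw [hs]; trivial
    induction hx using Submodule.span_induction with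
    | mem x h => exact Submodule.subset_span h
    | zero => exact zero_mem _
    | add x y _ _ hx hy => exact add_mem (hx trivial) (hy trivial)
    | smul a x _ hx => exact zsmul_mem (hx trivial) a
  have hfin : Finite (M ⧸ Q) := by
    have h1 : Module.Finite ℤ (M ⧸ Q) :=
      Module.Finite.of_surjective (Q.mkQ.toAddMonoidHom.toIntLinearMap) (Submodule.mkQ_surjective Q)
    refine Module.finite_of_fg_torsion (M ⧸ Q) ?_
    intro x
    obtain ⟨x, rfl⟩ := Submodule.mkQ_surjective Q x
    refine ⟨⟨(p : ℤ), by simpa using hp⟩, ?_⟩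
    change (p : ℤ) • Q.mkQ x = 0
    rw [natCast_zsmul, ← map_nsmul, Submodule.mkQ_apply, Submodule.Quotient.mk_eq_zero, hmemQ]
    exact ⟨x, rfl⟩
  have hne : P • (⊤ : Submodule R (M ⧸ Q)) ≠ ⊤ := by
    intro htop
    -- then `P M + Q = M`, and `Q ≤ P M`
    have hQP : Q ≤ P • (⊤ : Submodule R M) := by
      intro x hx
      obtain ⟨y, rfl⟩ := (hmemQ x).mp hx
      rw [← hpsmul]
      exact Submodule.smul_mem_smul hpP trivial
    have hPM : (⊤ : Submodule R M) ≤ P • (⊤ : Submodule R M) := by
      intro x _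
      have hx : Q.mkQ x ∈ P • (⊤ : Submodule R (M ⧸ Q)) := by rw [htop]; trivial
      have hmap : P • (⊤ : Submodule R (M ⧸ Q)) = (P • (⊤ : Submodule R M)).map Q.mkQ := by
        rw [Submodule.map_smul'', Submodule.map_top, Submodule.range_mkQ]
      rw [hmap] at hx
      obtain ⟨y, hy, hyx⟩ := hx
      have : x - y ∈ Q := by
        rw [← Submodule.Quotient.mk_eq_zero, ← Submodule.mkQ_apply, map_sub, hyx, sub_self]
      have h2 := add_mem (hQP this) hy
      rwa [sub_add_cancel] at h2
    obtain ⟨r, hr, h⟩ := Submodule.exists_sub_one_mem_and_smul_eq_zero_of_fg_of_le_smul P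
      (⊤ : Submodule R M) hfinR.1 hPM
    have hrP : r ∈ P := by
      apply hann
      ext x
      exact h x trivial
    have h1 : (1 : R) ∈ P := by
      have := sub_mem hrP hr
      rwa [sub_sub_cancel] at this
    exact hP.ne_top ((Ideal.eq_top_iff_one P).mpr h1)
  obtain ⟨v, hv, hvP⟩ := exists_ne_zero_of_smul_top_ne P hne
  obtain ⟨x, rfl⟩ := Submodule.mkQ_surjective Q v
  refine ⟨x, ?_, fun t ht ↦ ?_⟩
  · rw [← hmemQ, ← Submodule.Quotient.mk_eq_zero]
    exact hv
  · rw [← hmemQ, ← hsmul, ← Submodule.Quotient.mk_eq_zero, ← Submodule.mkQ_apply, map_smul]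
    exact hvP t ht

end Support

section ArtinRees

/-- Artin–Rees for subgroups of the endomorphism ring of a lattice. -/
theorem exists_artinRees {M : Type*} [AddCommGroup M] [Module.Finite ℤ M] [IsAddTorsionFree M]
    (A : AddSubgroup (Module.End ℤ M)) (p : ℕ) :
    ∃ c : ℕ, ∀ n ≥ c, ∀ t ∈ A, (∀ x, ∃ y, t x = p ^ n • y) →
      ∃ s ∈ A, t = p ^ (n - c) • s := by
  rcases Nat.eq_zero_or_pos p with rfl | hp
  · refine ⟨1, fun n hn t ht h ↦ ⟨t, ht, ?_⟩⟩
    have ht0 : t = 0 := by
      ext x
      obtain ⟨y, hy⟩ := h x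
      rw [hy, zero_pow (by omega)]
      simp
    rw [ht0]; simp
  · obtain ⟨c, hc⟩ := Ideal.exists_pow_inf_eq_pow_smul (Ideal.span {(p : ℤ)})
      (AddSubgroup.toIntSubmodule A : Submodule ℤ (Module.End ℤ M))
    refine ⟨c, fun n hn t ht h ↦ ?_⟩
    choose y hy using h
    have hpn : p ^ n ≠ 0 := pow_ne_zero _ hp.ne'
    have hadd : ∀ a b, y (a + b) = y a + y b := by
      intro a b
      apply nsmul_right_injective (M := M) hpn
      simp only
      rw [← hy, map_add, hy, hy, nsmul_add]
    let t' : Module.End ℤ M := (AddMonoidHom.mk' y hadd).toIntLinearMap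
    have ht' : t = (p ^ n : ℤ) • t' := by
      ext x
      change t x = ((p : ℤ) ^ n) • y x
      rw [hy, ← natCast_zsmul]
      push_cast
      rfl
    have hmem : t ∈ (Ideal.span {(p : ℤ)}) ^ n • (⊤ : Submodule ℤ (Module.End ℤ M)) ⊓
        (AddSubgroup.toIntSubmodule A : Submodule ℤ (Module.End ℤ M)) := by
      refine ⟨?_, ht⟩
      rw [ht']
      refine Submodule.smul_mem_smul ?_ trivial
      exact Ideal.pow_mem_pow (Ideal.mem_span_singleton_self _) n
    rw [hc n hn, Ideal.span_singleton_pow, Submodule.ideal_span_singleton_smul,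
      Submodule.mem_smul_pointwise_iff_exists] at hmem
    obtain ⟨s, hs, hst⟩ := hmem
    refine ⟨s, hs.2, ?_⟩
    rw [← hst, ← natCast_zsmul]
    push_cast
    rfl

end ArtinRees

end Fermat.Agent.Top
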