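import Mathlib

set_option autoImplicit false

/-!
# Evaluating integral polynomials at commuting endomorphisms
-/

namespace Fermat.Agent.Top

open MvPolynomial

section EvalEnd

variable {σ R V : Type*} [CommRing R] [AddCommGroup V] [Module R V]

theorem isMulCommutative_adjoin_range (T : σ → Module.End R V)
    (hT : ∀ i j, T i * T j = T j * T i) :
    IsMulCommutative (Algebra.adjoin ℤ (Set.range T)) :=
  Algebra.isMulCommutative_adjoin ℤ (by
    rintro _ ⟨i, rfl⟩ _ ⟨j, rfl⟩
    exact hT i j)

open scoped IsMulCommutative in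
/-- Auxiliary map for `evalEnd`. -/
noncomputable def evalEndAux (T : σ → Module.End R V) (hT : ∀ i j, T i * T j = T j * T i) :
    MvPolynomial σ ℤ →ₐ[ℤ] (Algebra.adjoin ℤ (Set.range T) : Subalgebra ℤ (Module.End R V)) :=
  haveI := isMulCommutative_adjoin_range T hT
  MvPolynomial.aeval fun i =>
    (⟨T i, Algebra.subset_adjoin (Set.mem_range_self i)⟩ : Algebra.adjoin ℤ (Set.range T))

/-- Evaluate a polynomial with integral coefficients at commuting endomorphisms. -/
noncomputable def evalEnd (T : σ → Module.End R V) (hT : ∀ i j, T i * T j = T j * T i) :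
    MvPolynomial σ ℤ →ₐ[ℤ] Module.End R V :=
  (Algebra.adjoin ℤ (Set.range T)).val.comp (evalEndAux T hT)

open scoped IsMulCommutative in
theorem evalEndAux_X (T : σ → Module.End R V) (hT : ∀ i j, T i * T j = T j * T i) (i : σ) :
    evalEndAux T hT (X i) = ⟨T i, Algebra.subset_adjoin (Set.mem_range_self i)⟩ :=
  haveI := isMulCommutative_adjoin_range T hT
  MvPolynomial.aeval_X _ i

theorem evalEnd_X (T : σ → Module.End R V) (hT : ∀ i j, T i * T j = T j * T i) (i : σ) :
    evalEnd T hT (X i) = T i := by
  rw [evalEnd, AlgHom.comp_apply, evalEndAux_X]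
  rfl

theorem evalEnd_C (T : σ → Module.End R V) (hT : ∀ i j, T i * T j = T j * T i) (a : ℤ) :
    evalEnd T hT (C a) = (a : Module.End R V) := by
  rw [← MvPolynomial.algebraMap_eq, AlgHom.commutes, algebraMap_int_eq, eq_intCast]

theorem evalEnd_C_apply (T : σ → Module.End R V) (hT : ∀ i j, T i * T j = T j * T i) (a : ℤ)
    (v : V) : evalEnd T hT (C a) v = a • v := by
  rw [evalEnd_C, Module.End.intCast_apply]

/-- Naturality of `evalEnd` with respect to additive maps. -/
theorem evalEnd_natural {R' V' : Type*} [CommRing R'] [AddCommGroup V'] [Module R' V']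
    {T : σ → Module.End R V} (hT : ∀ i j, T i * T j = T j * T i)
    {T' : σ → Module.End R' V'} (hT' : ∀ i j, T' i * T' j = T' j * T' i)
    (g : V →+ V') (hg : ∀ i v, g (T i v) = T' i (g v)) (p : MvPolynomial σ ℤ) (v : V) :
    g (evalEnd T hT p v) = evalEnd T' hT' p (g v) := by
  induction p using MvPolynomial.induction_on generalizing v with
  | C a => rw [evalEnd_C_apply, evalEnd_C_apply, map_zsmul]
  | add p q hp hq => rw [map_add, map_add, LinearMap.add_apply, LinearMap.add_apply, map_add, hp, hq]
  | mul_X p i hp =>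
    rw [map_mul, map_mul, evalEnd_X, evalEnd_X, Module.End.mul_apply, Module.End.mul_apply, hp, hg]

/-- Uniqueness of ring homs out of `MvPolynomial σ ℤ`. -/
theorem eq_evalEnd {T : σ → Module.End R V} (hT : ∀ i j, T i * T j = T j * T i)
    (F : MvPolynomial σ ℤ →+* Module.End R V) (hF : ∀ i, F (X i) = T i) (p : MvPolynomial σ ℤ) :
    F p = evalEnd T hT p := by
  induction p using MvPolynomial.induction_on with
  | C a => rw [evalEnd_C, eq_intCast C a, map_intCast]
  | add p q hp hq => rw [map_add, map_add, hp, hq]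
  | mul_X p i hp => rw [map_mul, map_mul, hp, hF, evalEnd_X]

/-- An eigenvector of all `T i` is an eigenvector of all polynomials. -/
theorem evalEnd_apply_of_eigen {T : σ → Module.End R V} (hT : ∀ i j, T i * T j = T j * T i)
    (a : σ → R) (v : V) (hv : ∀ i, T i v = a i • v) (p : MvPolynomial σ ℤ) :
    evalEnd T hT p v = MvPolynomial.aeval a p • v := by
  induction p using MvPolynomial.induction_on with
  | C b => rw [evalEnd_C_apply, MvPolynomial.aeval_C, algebraMap_int_eq, eq_intCast,
      Int.cast_smul_eq_zsmul]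
  | add p q hp hq => rw [map_add, map_add, LinearMap.add_apply, hp, hq, add_smul]
  | mul_X p i hp =>
    rw [mul_comm, map_mul, map_mul, evalEnd_X, Module.End.mul_apply, hp, aeval_X, map_smul, hv,
      smul_smul, mul_comm]

end EvalEnd

end Fermat.Agent.Top
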