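import Fermat.Agent.Top.HeckeHom
import Fermat.Agent.Top.EvalEnd
import Fermat.Agent.Top.Algebra
import Fermat.Prelude.Def_CuspForm_HeckeEvalForms

set_option autoImplicit false

/-!
# The lattice `Hom_par(Γ₀(N), ℤ)` with its Hecke action
-/

open UpperHalfPlane Filter Topology Function CongruenceSubgroup ModularCurve.Period
open scoped MatrixGroups ModularForm Manifold Pointwise

namespace Fermat.Agent.Top

open Matrix.SpecialLinearGroup ModularForm ModularCurve Fermat.Agent.Period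

/-- The parabolic homomorphisms as an additive subgroup. -/
def parM (N : ℕ) (A : Type*) [AddCommGroup A] : AddSubgroup (Additive (Gamma0 N) →+ A) where
  carrier := {φ | IsParabolicHom (Gamma0 N) φ}
  zero_mem' := fun _ _ => rfl
  add_mem' := by
    intro φ ψ hφ hψ γ hγ
    change φ (Additive.ofMul γ) + ψ (Additive.ofMul γ) = 0
    rw [hφ γ hγ, hψ γ hγ, add_zero]
  neg_mem' := by
    intro φ hφ γ hγ
    change -φ (Additive.ofMul γ) = 0
    rw [hφ γ hγ, neg_zero]

theorem mem_parM {N : ℕ} {A : Type*} [AddCommGroup A] {φ : Additive (Gamma0 N) →+ A} :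
    φ ∈ parM N A ↔ IsParabolicHom (Gamma0 N) φ := Iff.rfl

/-- The Hecke operators on `Hom(Γ₀(N), A)`, as endomorphisms. -/
noncomputable def hopEnd (N : ℕ) (A : Type*) [AddCommGroup A] (ℓ : Nat.Primes) :
    Module.End ℤ (Additive (Gamma0 N) →+ A) := (hop N ℓ).toIntLinearMap

@[simp] theorem hopEnd_apply (N : ℕ) (A : Type*) [AddCommGroup A] (ℓ : Nat.Primes)
    (φ : Additive (Gamma0 N) →+ A) : hopEnd N A ℓ φ = hop N ℓ φ := rfl

theorem hopEnd_comm (N : ℕ) (A : Type*) [AddCommGroup A] (ℓ ℓ' : Nat.Primes) :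
    hopEnd N A ℓ * hopEnd N A ℓ' = hopEnd N A ℓ' * hopEnd N A ℓ :=
  LinearMap.ext fun φ ↦ hop_comm ℓ ℓ' φ

/-- The action of the abstract Hecke algebra on `Hom(Γ₀(N), A)`. -/
noncomputable def evalHom (N : ℕ) (A : Type*) [AddCommGroup A] :
    HeckeAlg →ₐ[ℤ] Module.End ℤ (Additive (Gamma0 N) →+ A) :=
  evalEnd (hopEnd N A) (hopEnd_comm N A)

/-- The Hecke operators on the lattice of parabolic homomorphisms. -/
noncomputable def hopPar (N : ℕ) (A : Type*) [AddCommGroup A] [IsAddTorsionFree A]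
    (ℓ : Nat.Primes) : Module.End ℤ (parM N A) :=
  (((hop N ℓ).comp (parM N A).subtype).codRestrict (parM N A)
    (fun φ ↦ isParabolicHom_hop ℓ φ.2)).toIntLinearMap

@[simp] theorem coe_hopPar_apply (N : ℕ) (A : Type*) [AddCommGroup A] [IsAddTorsionFree A]
    (ℓ : Nat.Primes) (φ : parM N A) :
    (hopPar N A ℓ φ : Additive (Gamma0 N) →+ A) = hop N ℓ (φ : Additive (Gamma0 N) →+ A) := rfl

theorem hopPar_comm (N : ℕ) (A : Type*) [AddCommGroup A] [IsAddTorsionFree A]
    (ℓ ℓ' : Nat.Primes) :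
    hopPar N A ℓ * hopPar N A ℓ' = hopPar N A ℓ' * hopPar N A ℓ :=
  LinearMap.ext fun φ ↦ Subtype.ext (hop_comm ℓ ℓ' φ.1)

/-- The action of the abstract Hecke algebra on the parabolic homomorphisms. -/
noncomputable def evalPar (N : ℕ) (A : Type*) [AddCommGroup A] [IsAddTorsionFree A] :
    HeckeAlg →ₐ[ℤ] Module.End ℤ (parM N A) :=
  evalEnd (hopPar N A) (hopPar_comm N A)

theorem coe_evalPar (N : ℕ) (A : Type*) [AddCommGroup A] [IsAddTorsionFree A] (t : HeckeAlg)
    (φ : parM N A) :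
    (evalPar N A t φ : Additive (Gamma0 N) →+ A) = evalHom N A t φ :=
  evalEnd_natural (hopPar_comm N A) (hopEnd_comm N A) (parM N A).subtype (fun _ _ ↦ rfl) t φ

theorem evalHom_heckeGen (N : ℕ) (A : Type*) [AddCommGroup A] (ℓ : Nat.Primes)
    (φ : Additive (Gamma0 N) →+ A) : evalHom N A (heckeGen ℓ) φ = hop N ℓ φ := by
  rw [evalHom, heckeGen, evalEnd_X]; rfl

/-- naturality in the coefficients -/
theorem evalHom_comp_left {N : ℕ} {A A' : Type*} [AddCommGroup A] [AddCommGroup A']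
    (g : A →+ A') (t : HeckeAlg) (φ : Additive (Gamma0 N) →+ A) :
    evalHom N A' t (g.comp φ) = g.comp (evalHom N A t φ) := by
  have := evalEnd_natural (hopEnd_comm N A) (hopEnd_comm N A')
    (AddMonoidHom.compHom g) (fun ℓ φ ↦ (hop_comp_left ℓ g φ).symm) t φ
  exact this.symm

/-- The evaluation of Hecke polynomials on cusp forms as endomorphisms. -/
theorem heckeEvalForms_eq_evalEnd (N : ℕ) [NeZero N] (k : ℤ) (t : HeckeAlg) :
    ∃ hT, (CuspForm.heckeEvalForms N k t : Module.End ℂ (CuspForm (Gamma0 N) k)) =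
      evalEnd (fun ℓ ↦ (CuspForm.heckeFormsGen N k ℓ : Module.End ℂ (CuspForm (Gamma0 N) k))) hT
        t := by
  have hT : ∀ ℓ ℓ' : Nat.Primes,
      (CuspForm.heckeFormsGen N k ℓ : Module.End ℂ (CuspForm (Gamma0 N) k)) *
        (CuspForm.heckeFormsGen N k ℓ' : Module.End ℂ (CuspForm (Gamma0 N) k)) =
      (CuspForm.heckeFormsGen N k ℓ' : Module.End ℂ (CuspForm (Gamma0 N) k)) *
        (CuspForm.heckeFormsGen N k ℓ : Module.End ℂ (CuspForm (Gamma0 N) k)) := by
    intro ℓ ℓ'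
    have := mul_comm (CuspForm.heckeFormsGen N k ℓ) (CuspForm.heckeFormsGen N k ℓ')
    exact congrArg Subtype.val this
  refine ⟨hT, ?_⟩
  exact eq_evalEnd hT ((CuspForm.heckeAlgebra N k ∅).val.toRingHom.comp
    (CuspForm.heckeEvalForms N k)) (fun ℓ ↦ by
      change ((CuspForm.heckeEvalForms N k (heckeGen ℓ) : CuspForm.heckeAlgebra N k ∅) :
        Module.End ℂ (CuspForm (Gamma0 N) k)) = _
      rw [CuspForm.heckeEvalForms_heckeGen]) t

/-- Hecke-equivariance of the period map. -/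
theorem periodLin_heckeEvalForms {N : ℕ} [NeZero N] (t : HeckeAlg) (f : CuspForm (Gamma0 N) 2) :
    periodLin N ((CuspForm.heckeEvalForms N 2 t : Module.End ℂ (CuspForm (Gamma0 N) 2)) f) =
      evalHom N ℂ t (periodLin N f) := by
  obtain ⟨hT, h⟩ := heckeEvalForms_eq_evalEnd N 2 t
  rw [h]
  refine evalEnd_natural hT (hopEnd_comm N ℂ) (periodLin N).toAddMonoidHom (fun ℓ f ↦ ?_) t f
  by_cases hℓ : (ℓ : ℕ) ∣ N
  · rw [CuspForm.heckeFormsGen_of_dvd hℓ, CuspForm.heckeAlgebra.coe_U]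
    exact periodLin_heckeULin ℓ.2 hℓ f
  · rw [CuspForm.heckeFormsGen_of_not_dvd hℓ, CuspForm.heckeAlgebra.coe_T]
    exact periodLin_heckeTLin ℓ.2 hℓ f

section FG

instance groupFG_SL2Z : Group.FG SL(2, ℤ) := by
  refine ⟨⟨{ModularGroup.S, ModularGroup.T}, ?_⟩⟩
  simpa using _root_.SpecialLinearGroup.SL2Z_generators

instance groupFG_Gamma0 (N : ℕ) [NeZero N] : Group.FG (Gamma0 N) :=
  (Gamma0 N).fg_of_index_ne_zero

/-- Homomorphisms from a finitely generated group to `ℤ` form a finitely generated group. -/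
instance moduleFinite_hom (Γ : Type*) [Group Γ] [Group.FG Γ] : Module.Finite ℤ (Additive Γ →+ ℤ) := by
  obtain ⟨s, hs⟩ := Group.fg_def.mp (inferInstance : Group.FG Γ)
  let r : (Additive Γ →+ ℤ) →ₗ[ℤ] (s → ℤ) :=
    AddMonoidHom.toIntLinearMap
    { toFun := fun φ x ↦ φ (Additive.ofMul (x : Γ))
      map_zero' := rfl
      map_add' := fun _ _ ↦ rfl }
  refine Module.Finite.of_injective r ?_
  intro φ ψ h
  have h1 : Subgroup.closure (s : Set Γ) ≤ (AddMonoidHom.toMultiplicativeRight φ).eqLocus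
      (AddMonoidHom.toMultiplicativeRight ψ) := by
    rw [Subgroup.closure_le]
    intro x hx
    exact congrFun h ⟨x, hx⟩
  ext x
  have h2 : x ∈ Subgroup.closure (s : Set Γ) := by rw [hs]; trivial
  exact h1 h2

instance moduleFinite_parM (N : ℕ) [NeZero N] : Module.Finite ℤ (parM N ℤ) := by
  have h : Module.Finite ℤ (AddSubgroup.toIntSubmodule (parM N ℤ)) := inferInstance
  exact h

instance isAddTorsionFree_hom (Γ A : Type*) [Group Γ] [AddCommGroup A] [IsAddTorsionFree A] :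
    IsAddTorsionFree (Additive Γ →+ A) where
  nsmul_right_injective n hn φ ψ h := by
    ext x
    exact nsmul_right_injective hn (DFunLike.congr_fun h (Additive.ofMul x))

/-- Decompose a homomorphism to a torsion free group into integral ones. -/
theorem exists_decomp {Γ : Type*} [Group Γ] [Group.FG Γ] {A : Type*} [AddCommGroup A]
    [IsAddTorsionFree A] (ψ : Additive Γ →+ A) :
    ∃ (n : ℕ) (c : Fin n → A) (φ : Fin n → (Additive Γ →+ ℤ)),
      (∀ γ, ψ γ = ∑ i, φ i γ • c i) ∧ ∀ i γ, ψ γ = 0 → φ i γ = 0 := by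
  have hfg : AddGroup.FG ψ.range := by
    have : AddGroup.FG (Additive Γ) := GroupFG.iff_add_fg.mp inferInstance
    exact AddGroup.fg_of_surjective ψ.rangeRestrict_surjective
  have hfin : Module.Finite ℤ ψ.range := Module.Finite.iff_addGroup_fg.mpr hfg
  have hfree : Module.Free ℤ ψ.range := inferInstance
  let b := Module.finBasis ℤ ψ.range
  refine ⟨_, fun i ↦ (b i : A), fun i ↦ (b.coord i).toAddMonoidHom.comp ψ.rangeRestrict, ?_, ?_⟩
  · intro γ
    have h := b.sum_repr (ψ.rangeRestrict γ)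
    have h2 := congrArg (ψ.range.subtype) h
    rw [map_sum] at h2
    exact h2.symm.trans (by rfl) |>.symm ▸ rfl
  · intro i γ h
    have : ψ.rangeRestrict γ = 0 := Subtype.ext h
    change b.coord i (ψ.rangeRestrict γ) = 0
    rw [this, map_zero]

end FG

end Fermat.Agent.Top
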