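import Mathlib
import Fermat.Agent.Support.EisChar

/-!
# Eisenstein series with a character of `Γ₀(N)`

For a character `χ : Γ₀(N) → ℂˣ` of finite order that is trivial on elements of `trace ^ 2 = 4`
we construct a nonzero holomorphic function `E` of weight `12` on `ℍ` with
`E ∣[12] γ = χ γ • E` for `γ ∈ Γ₀(N)` and `E ∣[12] δ` bounded at `i∞` for all `δ ∈ SL₂(ℤ)`.
-/

set_option autoImplicit false

noncomputable section

namespace Fermat.Agent.Top

open UpperHalfPlane EisensteinSeries ModularForm Filter Topology Fermat.Agent.Support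
open scoped MatrixGroups Manifold

variable {k : ℤ} {w : (Fin 2 → ℤ) → ℂ} {C : ℝ}

theorem tsum_norm_eisSummand_T_zpow (k : ℤ) (n : ℤ) (z : ℍ) :
    ∑' v : Fin 2 → ℤ, ‖eisSummand k v ((ModularGroup.T ^ n : SL(2, ℤ)) • z)‖ =
      ∑' v : Fin 2 → ℤ, ‖eisSummand k v z‖ := by
  have hd : denom (ModularGroup.T ^ n : SL(2, ℤ)) z = 1 := by
    rw [ModularGroup.denom_apply, ModularGroup.coe_T_zpow]
    simp
  have h1 : ∀ v, ‖eisSummand k v ((ModularGroup.T ^ n : SL(2, ℤ)) • z)‖ =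
      ‖eisSummand k (vmulEquiv (ModularGroup.T ^ n) v) z‖ := fun v => by
    rw [eisSummand_SL2_apply, hd, one_zpow, one_mul]
    rfl
  simp_rw [h1]
  exact (vmulEquiv (ModularGroup.T ^ n)).tsum_eq (fun v => ‖eisSummand k v z‖)

/-- Weighted Eisenstein series are bounded at `i∞`. -/
theorem wEis_isBoundedAtImInfty (hk : 3 ≤ k) (hw : ∀ v, ‖w v‖ ≤ C) :
    IsBoundedAtImInfty (wEis k w) := by
  have hC : 0 ≤ C := (norm_nonneg _).trans (hw 0)
  rw [UpperHalfPlane.isBoundedAtImInfty_iff]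
  refine ⟨C * ∑' (x : Fin 2 → ℤ), r ⟨⟨1, 2⟩, Nat.ofNat_pos⟩ ^ (-k) * ‖x‖ ^ (-k), 2, ?_⟩
  intro z hz
  obtain ⟨n, hn⟩ := ModularGroup_T_zpow_mem_verticalStrip z one_pos
  refine (norm_wEis_le hk hw z).trans (mul_le_mul_of_nonneg_left ?_ hC)
  rw [← tsum_norm_eisSummand_T_zpow k ((1 : ℕ) * n) z]
  have hk' : (2 : ℝ) < k := by norm_cast
  apply (summable_norm_eisSummand hk _).tsum_le_tsum _
  · exact_mod_cast (summable_one_div_norm_rpow hk').mul_left <| r ⟨⟨1, 2⟩, Nat.ofNat_pos⟩ ^ (-k)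
  · intro x
    simp_rw [eisSummand, norm_zpow]
    exact_mod_cast
      summand_bound_of_mem_verticalStrip (lt_trans two_pos hk').le x two_pos
      (verticalStrip_anti_right 1 hz (by exact_mod_cast hn))

/-- the point `i y` -/
def iy (y : ℝ) : ℍ := if h : 0 < y then ⟨Complex.I * y, by simpa using h⟩ else UpperHalfPlane.I

theorem coe_iy {y : ℝ} (h : 0 < y) : (iy y : ℂ) = Complex.I * y := by
  rw [iy, dif_pos h]

theorem iy_mem_verticalStrip {y : ℝ} (h : 1 ≤ y) : iy y ∈ verticalStrip 0 1 := by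
  have h0 : 0 < y := zero_lt_one.trans_le h
  rw [mem_verticalStrip_iff]
  have h1 : (iy y).re = 0 := by
    rw [← UpperHalfPlane.coe_re, coe_iy h0]; simp
  have h2 : (iy y).im = y := by
    rw [← UpperHalfPlane.coe_im, coe_iy h0]; simp
  rw [h1, h2]
  simp [h]

/-- limit of the weighted Eisenstein series along the imaginary axis -/
theorem wEis_tendsto (hk : 3 ≤ k) (hw : ∀ v, ‖w v‖ ≤ C) :
    Tendsto (fun y : ℝ => wEis k w (iy y)) atTop
      (𝓝 (∑' v : Fin 2 → ℤ, if v 0 = 0 then w v * (v 1 : ℂ) ^ (-k) else 0)) := by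
  have hC : 0 ≤ C := (norm_nonneg _).trans (hw 0)
  have hk' : (2 : ℝ) < k := by norm_cast
  have p_sum : Summable fun v : Fin 2 → ℤ ↦ ‖v‖ ^ (-k) := mod_cast (summable_one_div_norm_rpow hk')
  refine tendsto_tsum_of_dominated_convergence
    (bound := fun v => C * (r ⟨⟨0, 1⟩, one_pos⟩ ^ (-k : ℝ) * ‖v‖ ^ (-k)))
    ((p_sum.mul_left _).mul_left _) (fun v => ?_) ?_
  · by_cases hv : v 0 = 0
    · rw [if_pos hv]
      refine tendsto_const_nhds.congr' ?_
      filter_upwards with y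
      simp [eisSummand, hv]
    · rw [if_neg hv]
      have h1 : Tendsto (fun y : ℝ => ‖((v 0 : ℂ) * (iy y : ℂ) + v 1)‖) atTop atTop := by
        have h2 : Tendsto (fun y : ℝ => |(v 0 : ℝ)| * y) atTop atTop :=
          Tendsto.const_mul_atTop (by positivity) tendsto_id
        refine tendsto_atTop_mono' _ ?_ h2
        filter_upwards [eventually_gt_atTop 0] with y hy
        refine le_trans ?_ (Complex.abs_im_le_norm _)
        rw [coe_iy hy]
        simp [abs_mul, abs_of_pos hy]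
      have h3 : Tendsto (fun y : ℝ => eisSummand k v (iy y)) atTop (𝓝 0) := by
        rw [tendsto_zero_iff_norm_tendsto_zero]
        have h4 : (fun y : ℝ => ‖eisSummand k v (iy y)‖) =
            (fun x : ℝ => (x ^ k.toNat)⁻¹) ∘ fun y : ℝ => ‖((v 0 : ℂ) * (iy y : ℂ) + v 1)‖ := by
          funext y
          simp only [eisSummand, Function.comp_apply, zpow_neg, norm_inv, norm_zpow]
          rw [← zpow_natCast, Int.toNat_of_nonneg (by omega)]
        rw [h4]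
        refine Tendsto.comp ?_ h1
        exact (tendsto_pow_atTop (by omega)).inv_tendsto_atTop
      simpa using h3.const_mul (w v)
  · filter_upwards [eventually_ge_atTop 1] with y hy v
    rw [norm_mul]
    refine mul_le_mul (hw v) ?_ (norm_nonneg _) hC
    simpa only [eisSummand, one_div, ← zpow_neg, norm_zpow, ← Real.rpow_intCast,
      Int.cast_neg] using summand_bound_of_mem_verticalStrip (by positivity) v one_pos
        (iy_mem_verticalStrip hy)

section Character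

variable {N : ℕ} (χ : CongruenceSubgroup.Gamma0 N →* ℂˣ)

/-- The weight function attached to a character of `Γ₀(N)`. -/
def chiW (v : Fin 2 → ℤ) : ℂ :=
  open Classical in
  if h : ∃ γ : CongruenceSubgroup.Gamma0 N, (γ : SL(2, ℤ)) 1 = v then
    (((χ h.choose)⁻¹ : ℂˣ) : ℂ) else 0

/-- hypothesis: trivial on all elements with `trace ^ 2 = 4` -/
def IsParaChar : Prop :=
  ∀ γ : CongruenceSubgroup.Gamma0 N,
    ((γ : SL(2, ℤ)) : Matrix (Fin 2) (Fin 2) ℤ).trace ^ 2 = 4 → χ γ = 1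

variable {χ}

theorem chi_eq_of_row_eq (hχ : IsParaChar χ) {γ δ : CongruenceSubgroup.Gamma0 N}
    (h : (γ : SL(2, ℤ)) 1 = (δ : SL(2, ℤ)) 1) : χ γ = χ δ := by
  have h1 : χ (γ * δ⁻¹) = 1 := by
    apply hχ
    have h10 : (γ : SL(2, ℤ)) 1 0 = (δ : SL(2, ℤ)) 1 0 := congrFun h 0
    have h11 : (γ : SL(2, ℤ)) 1 1 = (δ : SL(2, ℤ)) 1 1 := congrFun h 1
    have hg := (γ : SL(2, ℤ)).det_coe
    have hd := (δ : SL(2, ℤ)).det_coe
    rw [Matrix.det_fin_two] at hg hd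
    have e : ((γ * δ⁻¹ : CongruenceSubgroup.Gamma0 N) : SL(2, ℤ)) =
        (γ : SL(2, ℤ)) * (δ : SL(2, ℤ))⁻¹ := rfl
    rw [e, Matrix.SpecialLinearGroup.coe_mul, Matrix.SpecialLinearGroup.coe_inv,
      Matrix.adjugate_fin_two, Matrix.trace_fin_two]
    simp only [Matrix.mul_apply, Fin.sum_univ_two, Matrix.of_apply, Matrix.cons_val', Matrix.cons_val_zero,
      Matrix.cons_val_one, Matrix.cons_val_fin_one]
    have : ((γ : SL(2, ℤ)) 0 0 * (δ : SL(2, ℤ)) 1 1 + (γ : SL(2, ℤ)) 0 1 * -(δ : SL(2, ℤ)) 1 0 +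
      ((γ : SL(2, ℤ)) 1 0 * -(δ : SL(2, ℤ)) 0 1 + (γ : SL(2, ℤ)) 1 1 * (δ : SL(2, ℤ)) 0 0)) = 2 := by
      rw [← h10, ← h11]
      rw [← h10, ← h11] at hd
      linear_combination hg + hd
    rw [this]; norm_num
  rw [map_mul, map_inv, mul_inv_eq_one] at h1
  exact h1

theorem chiW_row (hχ : IsParaChar χ) (γ : CongruenceSubgroup.Gamma0 N) :
    chiW χ ((γ : SL(2, ℤ)) 1) = (((χ γ)⁻¹ : ℂˣ) : ℂ) := by
  have h : ∃ δ : CongruenceSubgroup.Gamma0 N, (δ : SL(2, ℤ)) 1 = (γ : SL(2, ℤ)) 1 := ⟨γ, rfl⟩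
  rw [chiW, dif_pos h, chi_eq_of_row_eq hχ h.choose_spec]

theorem chiW_of_not {v : Fin 2 → ℤ}
    (h : ¬ ∃ γ : CongruenceSubgroup.Gamma0 N, (γ : SL(2, ℤ)) 1 = v) : chiW χ v = 0 := by
  rw [chiW, dif_neg h]

theorem row_mul (γ δ : SL(2, ℤ)) : (γ * δ) 1 = vmul (γ 1) δ := by
  rw [vmul, Matrix.SpecialLinearGroup.coe_mul]
  ext j
  simp [Matrix.mul_apply, Matrix.vecMul, dotProduct]

theorem chiW_vmul (hχ : IsParaChar χ) (γ : CongruenceSubgroup.Gamma0 N) (v : Fin 2 → ℤ) :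
    chiW χ (vmul v (γ : SL(2, ℤ))⁻¹) = (χ γ : ℂ) * chiW χ v := by
  by_cases h : ∃ δ : CongruenceSubgroup.Gamma0 N, (δ : SL(2, ℤ)) 1 = v
  · obtain ⟨δ, rfl⟩ := h
    have e : ((δ * γ⁻¹ : CongruenceSubgroup.Gamma0 N) : SL(2, ℤ)) =
        (δ : SL(2, ℤ)) * (γ : SL(2, ℤ))⁻¹ := rfl
    rw [← row_mul, ← e, chiW_row hχ, chiW_row hχ, map_mul, map_inv, mul_inv, inv_inv,
      Units.val_mul, mul_comm]
  · have h' : ¬ ∃ δ : CongruenceSubgroup.Gamma0 N,
        (δ : SL(2, ℤ)) 1 = vmul v (γ : SL(2, ℤ))⁻¹ := by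
      rintro ⟨δ, hδ⟩
      apply h
      refine ⟨δ * γ, ?_⟩
      have e : ((δ * γ : CongruenceSubgroup.Gamma0 N) : SL(2, ℤ)) =
        (δ : SL(2, ℤ)) * (γ : SL(2, ℤ)) := rfl
      rw [e, row_mul, hδ, ← vmul_mul, inv_mul_cancel, vmul_one]
    rw [chiW_of_not h, chiW_of_not h', mul_zero]

theorem norm_eq_one_of_isOfFinOrder {u : ℂˣ} (h : IsOfFinOrder u) : ‖(u : ℂ)‖ = 1 := by
  obtain ⟨n, hn, hu⟩ := h.exists_pow_eq_one
  have h1 : ‖(u : ℂ)‖ ^ n = 1 := by
    rw [← norm_pow, ← Units.val_pow_eq_pow_val, hu]; simp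
  exact (pow_eq_one_iff_of_nonneg (norm_nonneg _) hn.ne').mp h1

theorem norm_chiW_le (hfin : ∀ γ, IsOfFinOrder (χ γ)) (v : Fin 2 → ℤ) : ‖chiW χ v‖ ≤ 1 := by
  by_cases h : ∃ δ : CongruenceSubgroup.Gamma0 N, (δ : SL(2, ℤ)) 1 = v
  · rw [chiW, dif_pos h, norm_eq_one_of_isOfFinOrder (hfin _).inv]
  · rw [chiW_of_not h, norm_zero]; exact zero_le_one

/-- The Eisenstein series of weight `12` attached to `χ`. -/
def eisChi (χ : CongruenceSubgroup.Gamma0 N →* ℂˣ) : ℍ → ℂ := wEis 12 (chiW χ)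

theorem eisChi_mdifferentiable (hfin : ∀ γ, IsOfFinOrder (χ γ)) : MDiff (eisChi χ) :=
  wEis_mdifferentiable (by norm_num) (norm_chiW_le hfin)

theorem eisChi_slash (hχ : IsParaChar χ) (γ : CongruenceSubgroup.Gamma0 N) :
    eisChi χ ∣[(12 : ℤ)] (γ : SL(2, ℤ)) = (χ γ : ℂ) • eisChi χ := by
  rw [eisChi, wEis_slash]
  funext z
  simp only [wEis, Pi.smul_apply, smul_eq_mul]
  simp_rw [chiW_vmul hχ, mul_assoc]
  rw [tsum_mul_left]

theorem eisChi_slash_mdifferentiable (hfin : ∀ γ, IsOfFinOrder (χ γ)) (δ : SL(2, ℤ)) :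
    MDiff (eisChi χ ∣[(12 : ℤ)] δ) := by
  rw [eisChi, wEis_slash]
  exact wEis_mdifferentiable (by norm_num) (fun v => norm_chiW_le hfin _)

theorem eisChi_slash_isBoundedAtImInfty (hfin : ∀ γ, IsOfFinOrder (χ γ)) (δ : SL(2, ℤ)) :
    IsBoundedAtImInfty (eisChi χ ∣[(12 : ℤ)] δ) := by
  rw [eisChi, wEis_slash]
  exact wEis_isBoundedAtImInfty (by norm_num) (fun v => norm_chiW_le hfin _)

theorem chiW_zero_d (hχ : IsParaChar χ) (d : ℤ) :
    chiW χ ![0, d] * (d : ℂ) ^ (-12 : ℤ) = if d = 1 ∨ d = -1 then 1 else 0 := by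
  by_cases h : ∃ γ : CongruenceSubgroup.Gamma0 N, (γ : SL(2, ℤ)) 1 = ![0, d]
  · obtain ⟨γ, hγ⟩ := h
    have h0 : (γ : SL(2, ℤ)) 1 0 = 0 := by rw [hγ]; rfl
    have h1 : (γ : SL(2, ℤ)) 1 1 = d := by rw [hγ]; rfl
    have hdet := (γ : SL(2, ℤ)).det_coe
    rw [Matrix.det_fin_two, h0, h1, mul_zero, sub_zero] at hdet
    have hd : d = 1 ∨ d = -1 := by
      have : IsUnit d := IsUnit.of_mul_eq_one_right _ hdet
      exact Int.isUnit_iff.mp this
    rw [if_pos hd, ← hγ, chiW_row hχ]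
    have : χ γ = 1 := by
      apply hχ
      rw [Matrix.trace_fin_two]
      have h1' : ((γ : SL(2, ℤ)) : Matrix (Fin 2) (Fin 2) ℤ) 1 1 = d := h1
      rw [h1']
      rcases hd with rfl | rfl
      · have : ((γ : SL(2, ℤ)) : Matrix (Fin 2) (Fin 2) ℤ) 0 0 = 1 := by
          have : (γ : SL(2, ℤ)) 0 0 = 1 := by linarith
          exact this
        rw [this]; norm_num
      · have : ((γ : SL(2, ℤ)) : Matrix (Fin 2) (Fin 2) ℤ) 0 0 = -1 := by
          have : (γ : SL(2, ℤ)) 0 0 = -1 := by linarith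
          exact this
        rw [this]; norm_num
    rw [this]
    rcases hd with rfl | rfl
    · simp
    · have : ((-1 : ℤ) : ℂ) ^ (-12 : ℤ) = 1 := by
        rw [zpow_neg]
        norm_num
      rw [this]; simp
  · rw [chiW_of_not h, zero_mul, if_neg]
    rintro (rfl | rfl)
    · exact h ⟨1, by ext j; fin_cases j <;> rfl⟩
    · refine h ⟨⟨-1, by simp [CongruenceSubgroup.Gamma0_mem]⟩, ?_⟩
      ext j; fin_cases j <;> simp

theorem eisChi_tendsto (hχ : IsParaChar χ) (hfin : ∀ γ, IsOfFinOrder (χ γ)) :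
    Tendsto (fun y : ℝ => eisChi χ (iy y)) atTop (𝓝 2) := by
  have h := wEis_tendsto (k := 12) (by norm_num) (norm_chiW_le hfin)
  have hs : (fun v : Fin 2 → ℤ => if v 0 = 0 then chiW χ v * (v 1 : ℂ) ^ (-12 : ℤ) else 0) =
      fun v => if v ∈ ({![0, 1], ![0, -1]} : Finset (Fin 2 → ℤ)) then (1 : ℂ) else 0 := by
    funext v
    have hv : v = ![v 0, v 1] := by ext j; fin_cases j <;> rfl
    by_cases h0 : v 0 = 0
    · rw [if_pos h0]
      have h1 := chiW_zero_d hχ (v 1)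
      rw [h0] at hv
      rw [← hv] at h1
      rw [h1]
      refine if_congr ?_ rfl rfl
      rw [hv]
      simp
    · rw [if_neg h0, if_neg]
      intro hmem
      simp only [Finset.mem_insert, Finset.mem_singleton] at hmem
      rcases hmem with h | h <;> (rw [h] at h0; simp at h0)
  rw [hs, tsum_eq_sum (s := ({![0, 1], ![0, -1]} : Finset (Fin 2 → ℤ)))
    (fun v hv => if_neg hv), Finset.sum_congr rfl (fun v hv => if_pos hv), Finset.sum_const,
    Finset.card_insert_of_notMem (by simp)] at h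
  have h2 : ((({![0, -1]} : Finset (Fin 2 → ℤ)).card + 1) • (1 : ℂ)) = 2 := by
    norm_num
  rw [h2] at h
  exact h

theorem eisChi_ne_zero (hχ : IsParaChar χ) (hfin : ∀ γ, IsOfFinOrder (χ γ)) : eisChi χ ≠ 0 := by
  intro h0
  have h := eisChi_tendsto hχ hfin
  rw [h0] at h
  have h1 := tendsto_nhds_unique h (tendsto_const_nhds (x := (0 : ℂ)))
  exact two_ne_zero h1

end Character

end Fermat.Agent.Top
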