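import Mathlib
import Fermat.Agent.ModFn.Cusp
import Fermat.Agent.Top.Forms

/-!
# Invariant functions, coset translates and norms to level one
-/

set_option autoImplicit false

noncomputable section

namespace Fermat.Agent.Top

open UpperHalfPlane hiding I
open ModularForm Filter Topology Fermat.Agent.ModFn Fermat.Agent.Support Polynomial
open scoped MatrixGroups Manifold

/-- The coset space `SL(2, ℤ) ⧸ Γ₀(N)`. -/
abbrev X0 (N : ℕ) : Type := SL(2, ℤ) ⧸ CongruenceSubgroup.Gamma0 N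

instance (N : ℕ) [NeZero N] : Fintype (X0 N) := Fintype.ofFinite _

/-- Functions on `ℍ` all of whose `SL(2, ℤ)`-translates have an expansion in `q_N`. -/
def bigA (N : ℕ) : Subalgebra ℂ (ℍ → ℂ) where
  carrier := {f | ∀ δ : SL(2, ℤ), ∃ φ : LaurentSeries ℂ, HasExp N (fun z => f (δ • z)) φ}
  mul_mem' := by
    intro f g hf hg δ
    obtain ⟨φ, hφ⟩ := hf δ
    obtain ⟨ψ, hψ⟩ := hg δ
    exact ⟨φ * ψ, hφ.mul hψ⟩
  one_mem' := fun δ => ⟨1, HasExp.one N⟩
  add_mem' := by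
    intro f g hf hg δ
    obtain ⟨φ, hφ⟩ := hf δ
    obtain ⟨ψ, hψ⟩ := hg δ
    exact ⟨φ + ψ, hφ.add hψ⟩
  zero_mem' := fun δ => ⟨0, HasExp.zero N⟩
  algebraMap_mem' := fun c δ => ⟨HahnSeries.C c, HasExp.const N c⟩

theorem mem_bigA {N : ℕ} {f : ℍ → ℂ} :
    f ∈ bigA N ↔ ∀ δ : SL(2, ℤ), ∃ φ : LaurentSeries ℂ, HasExp N (fun z => f (δ • z)) φ := Iff.rfl

theorem smul_mem_bigA {N : ℕ} {f : ℍ → ℂ} (hf : f ∈ bigA N) (γ : SL(2, ℤ)) :
    (fun z => f (γ • z)) ∈ bigA N := by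
  intro δ
  obtain ⟨φ, hφ⟩ := hf (γ * δ)
  exact ⟨φ, hφ.congr (funext fun z => by rw [mul_smul]) rfl⟩

theorem bigA_eq_zero_or {N : ℕ} [NeZero N] {f g : ℍ → ℂ} (hf : f ∈ bigA N) (hg : g ∈ bigA N)
    (h : f * g = 0) : f = 0 ∨ g = 0 := by
  obtain ⟨φ, hφ⟩ := hf 1
  obtain ⟨ψ, hψ⟩ := hg 1
  simp only [one_smul] at hφ hψ
  exact hφ.eq_zero_or_eq_zero hψ h

instance (N : ℕ) [NeZero N] : IsDomain (bigA N) := by
  have : NoZeroDivisors (bigA N) := ⟨fun {a b} h => by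
    have h1 : (a : ℍ → ℂ) * b = 0 := congrArg Subtype.val h
    rcases bigA_eq_zero_or a.2 b.2 h1 with h | h
    · exact Or.inl (Subtype.ext h)
    · exact Or.inr (Subtype.ext h)⟩
  have : Nontrivial (bigA N) := ⟨0, 1, fun h => zero_ne_one
    (congrFun (congrArg Subtype.val h) UpperHalfPlane.I)⟩
  exact NoZeroDivisors.to_isDomain _

/-- The ring of `Γ₀(N)`-invariant functions with expansions at all cusps. -/
def WN (N : ℕ) : Subalgebra ℂ (ℍ → ℂ) where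
  carrier := {f | f ∈ bigA N ∧ ∀ γ ∈ CongruenceSubgroup.Gamma0 N, ∀ z : ℍ, f (γ • z) = f z}
  mul_mem' := fun {f g} hf hg => ⟨mul_mem hf.1 hg.1, fun γ hγ z => by
    rw [Pi.mul_apply, Pi.mul_apply, hf.2 γ hγ, hg.2 γ hγ]⟩
  one_mem' := ⟨one_mem _, fun _ _ _ => rfl⟩
  add_mem' := fun {f g} hf hg => ⟨add_mem hf.1 hg.1, fun γ hγ z => by
    rw [Pi.add_apply, Pi.add_apply, hf.2 γ hγ, hg.2 γ hγ]⟩
  zero_mem' := ⟨zero_mem _, fun _ _ _ => rfl⟩
  algebraMap_mem' := fun c => ⟨Subalgebra.algebraMap_mem _ c, fun _ _ _ => rfl⟩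

theorem mem_WN {N : ℕ} {f : ℍ → ℂ} : f ∈ WN N ↔
    f ∈ bigA N ∧ ∀ γ ∈ CongruenceSubgroup.Gamma0 N, ∀ z : ℍ, f (γ • z) = f z := Iff.rfl

theorem mem_WN_iff_isCForm {N : ℕ} {f : ℍ → ℂ} : f ∈ WN N ↔ IsCForm N 1 f := by
  constructor
  · rintro ⟨h1, h2⟩
    exact ⟨fun γ z => by simpa using h2 γ γ.2 z, h1⟩
  · rintro ⟨h1, h2⟩
    exact ⟨h2, fun γ hγ z => by simpa using h1 ⟨γ, hγ⟩ z⟩

theorem WN_le_bigA (N : ℕ) : WN N ≤ bigA N := fun _ hf => hf.1

theorem WN_eq_zero_or {N : ℕ} [NeZero N] {f g : ℍ → ℂ} (hf : f ∈ WN N) (hg : g ∈ WN N)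
    (h : f * g = 0) : f = 0 ∨ g = 0 := bigA_eq_zero_or hf.1 hg.1 h

instance (N : ℕ) [NeZero N] : IsDomain (WN N) :=
  (Subalgebra.inclusion_injective (WN_le_bigA N)).isDomain (Subalgebra.inclusion (WN_le_bigA N))

/-! ### Level one -/

theorem hasExp_one_of_inv {N : ℕ} [NeZero N] {f : ℍ → ℂ} {φ : LaurentSeries ℂ}
    (hf : HasExp N f φ) (hinv : ∀ z : ℍ, f (ModularGroup.T • z) = f z) :
    HasExp 1 f (contract N φ) ∧ ModularCurve.qExpand ℂ N (contract N φ) = φ := by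
  have h1 : HasExp (1 * N) f φ := by rwa [one_mul]
  exact h1.contract (fun τ => by
    have := hinv τ
    rw [T_smul_eq_vadd] at this
    simpa using this)

theorem exists_poly_of_invariant {N : ℕ} [NeZero N] {f : ℍ → ℂ} (hf : f ∈ bigA N)
    (hinv : ∀ (γ : SL(2, ℤ)) (z : ℍ), f (γ • z) = f z) :
    ∃ P : ℂ[X], ∀ z, f z = P.eval (jH z) := by
  obtain ⟨φ, hφ⟩ := hf 1
  simp only [one_smul] at hφ
  obtain ⟨h1, -⟩ := hasExp_one_of_inv hφ (fun z => hinv _ z)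
  obtain ⟨ψ, hψ⟩ : ∃ ψ, ψ = contract N φ := ⟨_, rfl⟩
  rw [← hψ] at h1
  have h2 : HasExp 1 f (ModularCurve.coeffMap (RingHom.id ℂ) ψ) := by
    rwa [ModularCurve.coeffMap_id]
  obtain ⟨P, -, hP, -⟩ := exists_polynomial_of_invariant (RingHom.id ℂ) Function.injective_id
    (ψ.order.natAbs) h2 hinv (fun m hm => by
      by_contra hne
      have h3 := HahnSeries.order_le_of_coeff_ne_zero hne
      omega)
  exact ⟨P, fun z => by rw [hP z]; rfl⟩

theorem jH_mem_bigA (N : ℕ) [NeZero N] : jH ∈ bigA N := fun δ =>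
  ⟨_, (hasExp_of_one hasExp_jH).congr (funext fun z => (jH_smul δ z).symm) rfl⟩

theorem jH_mem_WN (N : ℕ) [NeZero N] : jH ∈ WN N := ⟨jH_mem_bigA N, fun γ _ z => jH_smul γ z⟩

theorem jdN_mem_WN (N : ℕ) [NeZero N] : jd N ∈ WN N := by
  refine ⟨fun δ => ?_, fun γ hγ z => jd_smul dvd_rfl hγ z⟩
  obtain ⟨φ, hφ, -⟩ := exists_hasExp_jd_smul_order N δ
  exact ⟨φ, hφ⟩

theorem mem_adjoin_jH_iff {f : ℍ → ℂ} :
    f ∈ Algebra.adjoin ℂ {jH} ↔ ∃ P : ℂ[X], ∀ z, f z = P.eval (jH z) := by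
  rw [Algebra.adjoin_singleton_eq_range_aeval]
  constructor
  · rintro ⟨P, rfl⟩
    refine ⟨P, fun z => ?_⟩
    have : (Pi.evalAlgHom ℂ (fun _ : ℍ => ℂ) z) (Polynomial.aeval jH P) =
      Polynomial.aeval (jH z) P := by
      rw [← Polynomial.aeval_algHom_apply]; rfl
    simp [Polynomial.coe_aeval_eq_eval]
  · rintro ⟨P, hP⟩
    refine ⟨P, funext fun z => ?_⟩
    have : (Pi.evalAlgHom ℂ (fun _ : ℍ => ℂ) z) (Polynomial.aeval jH P) =
      Polynomial.aeval (jH z) P := by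
      rw [← Polynomial.aeval_algHom_apply]; rfl
    rw [hP z]
    simp [Polynomial.coe_aeval_eq_eval]

/-! ### Coset translates -/

/-- translate of a function along a coset -/
def cosetFn {N : ℕ} (f : ℍ → ℂ) (x : X0 N) : ℍ → ℂ := fun z => f ((x.out)⁻¹ • z)

theorem cosetFn_mk {N : ℕ} {f : ℍ → ℂ}
    (hf : ∀ γ ∈ CongruenceSubgroup.Gamma0 N, ∀ z : ℍ, f (γ • z) = f z) (g : SL(2, ℤ)) :
    cosetFn f (g : X0 N) = fun z => f (g⁻¹ • z) := by
  funext z
  obtain ⟨γ, hγ⟩ := QuotientGroup.mk_out_eq_mul (CongruenceSubgroup.Gamma0 N) g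
  rw [cosetFn, hγ, mul_inv_rev, mul_smul, hf _ (inv_mem γ.2)]

theorem cosetFn_smul {N : ℕ} {f : ℍ → ℂ}
    (hf : ∀ γ ∈ CongruenceSubgroup.Gamma0 N, ∀ z : ℍ, f (γ • z) = f z) (x : X0 N)
    (δ : SL(2, ℤ)) (z : ℍ) : cosetFn f x (δ • z) = cosetFn f (δ⁻¹ • x) z := by
  induction x using QuotientGroup.induction_on with
  | H g =>
    have h1 : δ⁻¹ • (g : X0 N) = ((δ⁻¹ * g : SL(2, ℤ)) : X0 N) := rfl
    rw [h1, cosetFn_mk hf, cosetFn_mk hf, mul_inv_rev, inv_inv]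
    show f (g⁻¹ • δ • z) = f ((g⁻¹ * δ) • z)
    rw [mul_smul]

theorem cosetFn_one {N : ℕ} {f : ℍ → ℂ}
    (hf : ∀ γ ∈ CongruenceSubgroup.Gamma0 N, ∀ z : ℍ, f (γ • z) = f z) :
    cosetFn f ((1 : SL(2, ℤ)) : X0 N) = f := by
  rw [cosetFn_mk hf]
  simp

theorem cosetFn_mem_bigA {N : ℕ} {f : ℍ → ℂ} (hf : f ∈ bigA N) (x : X0 N) :
    cosetFn f x ∈ bigA N := smul_mem_bigA hf _

theorem cosetFn_ne_zero {N : ℕ} {f : ℍ → ℂ} (hf : f ≠ 0) (x : X0 N) : cosetFn f x ≠ 0 := by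
  intro h
  apply hf
  funext z
  have := congrFun h (x.out • z)
  simpa [cosetFn] using this

/-- a polynomial over functions with coefficients in `bigA` which is invariant has coefficients
in `ℂ[j]` -/
theorem coeff_mem_adjoin_jH {N : ℕ} [NeZero N] {P : Polynomial (ℍ → ℂ)}
    (hP : ∀ k, P.coeff k ∈ bigA N)
    (hinv : ∀ δ : SL(2, ℤ), P.map (precomp (K := ℂ) (fun z => δ • z)).toRingHom = P) (k : ℕ) :
    P.coeff k ∈ Algebra.adjoin ℂ {jH} := by
  rw [mem_adjoin_jH_iff]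
  refine exists_poly_of_invariant (hP k) fun γ z => ?_
  have h1 := congrArg (fun Q => Q.coeff k z) (hinv γ)
  simp only [Polynomial.coeff_map] at h1
  exact h1

/-- the Lagrange polynomial -/
def lagr {N : ℕ} [NeZero N] (g t : ℍ → ℂ) : Polynomial (ℍ → ℂ) :=
  open Classical in
  ∑ x : X0 N, Polynomial.C (cosetFn g x) *
    ∏ y ∈ Finset.univ.erase x, (Polynomial.X - Polynomial.C (cosetFn t y))

theorem map_precomp_cosetFn {N : ℕ} {f : ℍ → ℂ}
    (hf : ∀ γ ∈ CongruenceSubgroup.Gamma0 N, ∀ z : ℍ, f (γ • z) = f z) (x : X0 N)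
    (δ : SL(2, ℤ)) : (precomp (K := ℂ) (fun z => δ • z)).toRingHom (cosetFn f x) =
      cosetFn f (δ⁻¹ • x) := funext fun z => cosetFn_smul hf x δ z

theorem lagr_inv {N : ℕ} [NeZero N] {g t : ℍ → ℂ}
    (hg : ∀ γ ∈ CongruenceSubgroup.Gamma0 N, ∀ z : ℍ, g (γ • z) = g z)
    (ht : ∀ γ ∈ CongruenceSubgroup.Gamma0 N, ∀ z : ℍ, t (γ • z) = t z) (δ : SL(2, ℤ)) :
    (lagr (N := N) g t).map (precomp (K := ℂ) (fun z => δ • z)).toRingHom = lagr (N := N) g t := by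
  classical
  have h1 : ∀ x : X0 N, (Polynomial.C (cosetFn g x) *
      ∏ y ∈ Finset.univ.erase x, (Polynomial.X - Polynomial.C (cosetFn t y))).map
        (precomp (K := ℂ) (fun z => δ • z)).toRingHom = Polynomial.C (cosetFn g (δ⁻¹ • x)) *
      ∏ y ∈ Finset.univ.erase (δ⁻¹ • x), (Polynomial.X - Polynomial.C (cosetFn t y)) := by
    intro x
    rw [Polynomial.map_mul, Polynomial.map_C, map_precomp_cosetFn hg, Polynomial.map_prod]
    congr 1
    refine Finset.prod_bij (fun y _ => δ⁻¹ • y) (fun y hy => ?_) (fun y _ y' _ h => ?_)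
      (fun y hy => ?_) (fun y _ => ?_)
    · rw [Finset.mem_erase] at hy ⊢
      exact ⟨fun h => hy.1 (MulAction.injective δ⁻¹ h), Finset.mem_univ _⟩
    · exact MulAction.injective δ⁻¹ h
    · refine ⟨δ • y, ?_, ?_⟩
      · rw [Finset.mem_erase] at hy ⊢
        refine ⟨fun h => hy.1 ?_, Finset.mem_univ _⟩
        rw [← h, inv_smul_smul]
      · exact inv_smul_smul δ y
    · rw [Polynomial.map_sub, Polynomial.map_X, Polynomial.map_C, map_precomp_cosetFn ht]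
  rw [lagr, Polynomial.map_sum, Finset.sum_congr rfl fun x _ => h1 x]
  exact Equiv.sum_comp (MulAction.toPerm (δ⁻¹)) (fun x : X0 N => Polynomial.C (cosetFn g x) *
      ∏ y ∈ Finset.univ.erase x, (Polynomial.X - Polynomial.C (cosetFn t y)))

theorem coeff_X_sub_C_mem {R S : Type*} [CommRing R] [CommRing S] [Algebra R S]
    {A : Subalgebra R S} {a : S} (ha : a ∈ A) (k : ℕ) :
    (Polynomial.X - Polynomial.C a : Polynomial S).coeff k ∈ A := by
  rw [Polynomial.coeff_sub]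
  refine sub_mem ?_ ?_
  · rw [Polynomial.coeff_X]
    split_ifs
    · exact one_mem _
    · exact zero_mem _
  · rw [Polynomial.coeff_C]
    split_ifs
    · exact ha
    · exact zero_mem _

theorem coeff_mul_mem {R S : Type*} [CommRing R] [CommRing S] [Algebra R S]
    {A : Subalgebra R S} {p q : Polynomial S} (hp : ∀ k, p.coeff k ∈ A) (hq : ∀ k, q.coeff k ∈ A)
    (k : ℕ) : (p * q).coeff k ∈ A := by
  rw [Polynomial.coeff_mul]
  exact sum_mem fun x _ => mul_mem (hp _) (hq _)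

theorem coeff_C_mem {R S : Type*} [CommRing R] [CommRing S] [Algebra R S]
    {A : Subalgebra R S} {a : S} (ha : a ∈ A) (k : ℕ) : (Polynomial.C a).coeff k ∈ A := by
  rw [Polynomial.coeff_C]
  split_ifs
  · exact ha
  · exact zero_mem _

theorem coeff_prod_X_sub_C_mem {R S ι : Type*} [CommRing R] [CommRing S] [Algebra R S]
    {A : Subalgebra R S} (s : Finset ι) {a : ι → S} (ha : ∀ i ∈ s, a i ∈ A) (k : ℕ) :
    (∏ i ∈ s, (Polynomial.X - Polynomial.C (a i)) : Polynomial S).coeff k ∈ A := by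
  classical
  induction s using Finset.induction_on generalizing k with
  | empty =>
    rw [Finset.prod_empty]
    exact coeff_C_mem (one_mem _) k
  | insert i s his ih =>
    rw [Finset.prod_insert his]
    exact coeff_mul_mem (coeff_X_sub_C_mem (ha i (Finset.mem_insert_self i s)))
      (ih fun j hj => ha j (Finset.mem_insert_of_mem hj)) k

theorem lagr_coeff_mem_bigA {N : ℕ} [NeZero N] {g t : ℍ → ℂ} (hg : g ∈ bigA N) (ht : t ∈ bigA N)
    (k : ℕ) : (lagr (N := N) g t).coeff k ∈ bigA N := by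
  classical
  rw [lagr, Polynomial.finsetSum_coeff]
  exact sum_mem fun x _ => coeff_mul_mem (coeff_C_mem (cosetFn_mem_bigA hg x))
    (coeff_prod_X_sub_C_mem _ fun y _ => cosetFn_mem_bigA ht y) k

theorem lagr_coeff_mem {N : ℕ} [NeZero N] {g t : ℍ → ℂ} (hg : g ∈ WN N) (ht : t ∈ WN N)
    (k : ℕ) : (lagr (N := N) g t).coeff k ∈ Algebra.adjoin ℂ {jH} :=
  coeff_mem_adjoin_jH (lagr_coeff_mem_bigA hg.1 ht.1) (lagr_inv hg.2 ht.2) k

/-- The value of the Lagrange polynomial at `t`. -/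
theorem lagr_eval {N : ℕ} [NeZero N] {g t : ℍ → ℂ} (hg : g ∈ WN N) (ht : t ∈ WN N) :
    (lagr (N := N) g t).eval t = g * (lagr (N := N) 1 t).eval t := by
  classical
  have key : ∀ g : ℍ → ℂ, g ∈ WN N → (lagr (N := N) g t).eval t =
      g * ∏ y ∈ Finset.univ.erase ((1 : SL(2, ℤ)) : X0 N), (t - cosetFn t y) := by
    intro g hg
    rw [lagr, Polynomial.eval_finsetSum,
      Finset.sum_eq_single ((1 : SL(2, ℤ)) : X0 N)]
    · rw [Polynomial.eval_mul, Polynomial.eval_C, Polynomial.eval_prod, cosetFn_one hg.2]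
      simp
    · intro x _ hx
      rw [Polynomial.eval_mul, Polynomial.eval_prod]
      have h1 : ((1 : SL(2, ℤ)) : X0 N) ∈ Finset.univ.erase x :=
        Finset.mem_erase.mpr ⟨hx.symm, Finset.mem_univ _⟩
      rw [Finset.prod_eq_zero h1, mul_zero]
      rw [cosetFn_one ht.2]
      simp
    · intro h
      exact absurd (Finset.mem_univ _) h
  rw [key g hg, key 1 (one_mem _), one_mul]

theorem lagr_one_eval_ne_zero (N : ℕ) [NeZero N] :
    (lagr (N := N) 1 (jd N)).eval (jd N) ≠ 0 := by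
  classical
  have key : (lagr (N := N) 1 (jd N)).eval (jd N) =
      ∏ y ∈ Finset.univ.erase ((1 : SL(2, ℤ)) : X0 N), (jd N - cosetFn (jd N) y) := by
    rw [lagr, Polynomial.eval_finsetSum,
      Finset.sum_eq_single ((1 : SL(2, ℤ)) : X0 N)]
    · rw [Polynomial.eval_mul, Polynomial.eval_C, Polynomial.eval_prod]
      have : cosetFn (1 : ℍ → ℂ) ((1 : SL(2, ℤ)) : X0 N) = 1 := rfl
      rw [this, one_mul]
      simp
    · intro x _ hx
      rw [Polynomial.eval_mul, Polynomial.eval_prod]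
      have h1 : ((1 : SL(2, ℤ)) : X0 N) ∈ Finset.univ.erase x :=
        Finset.mem_erase.mpr ⟨hx.symm, Finset.mem_univ _⟩
      rw [Finset.prod_eq_zero h1, mul_zero]
      rw [cosetFn_one (jdN_mem_WN N).2]
      simp
    · intro h
      exact absurd (Finset.mem_univ _) h
  rw [key]
  have hmem : ∀ s : Finset (X0 N), (∏ y ∈ s, (jd N - cosetFn (jd N) y)) ∈ bigA N := fun s =>
    prod_mem fun y _ => sub_mem (jdN_mem_WN N).1 (cosetFn_mem_bigA (jdN_mem_WN N).1 y)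
  have hne : ∀ y : X0 N, y ≠ ((1 : SL(2, ℤ)) : X0 N) → jd N - cosetFn (jd N) y ≠ 0 := by
    intro y hy h
    apply hy
    induction y using QuotientGroup.induction_on with
    | H g =>
      rw [cosetFn_mk (jdN_mem_WN N).2, sub_eq_zero] at h
      have h2 : g⁻¹ ∈ CongruenceSubgroup.Gamma0 N := mem_Gamma0_of_jd_smul fun τ =>
        (congrFun h τ).symm
      rw [QuotientGroup.eq, mul_one]
      exact h2
  have : ∀ s : Finset (X0 N), (∀ y ∈ s, y ≠ ((1 : SL(2, ℤ)) : X0 N)) →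
      (∏ y ∈ s, (jd N - cosetFn (jd N) y)) ≠ 0 := by
    intro s
    induction s using Finset.induction_on with
    | empty =>
      intro _ h
      exact one_ne_zero (congrFun h UpperHalfPlane.I)
    | insert y s hys ih =>
      intro hs h
      rw [Finset.prod_insert hys] at h
      rcases bigA_eq_zero_or (sub_mem (jdN_mem_WN N).1 (cosetFn_mem_bigA (jdN_mem_WN N).1 y))
        (hmem s) h with h | h
      · exact hne y (hs y (Finset.mem_insert_self y s)) h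
      · exact ih (fun z hz => hs z (Finset.mem_insert_of_mem hz)) h
  exact this _ fun y hy => (Finset.mem_erase.mp hy).1

/-- `ℂ[j, j_N]` -/
def A0 (N : ℕ) : Subalgebra ℂ (ℍ → ℂ) := Algebra.adjoin ℂ {jH, jd N}

theorem A0_le_WN (N : ℕ) [NeZero N] : A0 N ≤ WN N := by
  rw [A0, Algebra.adjoin_le_iff]
  rintro f (rfl | rfl)
  · exact jH_mem_WN N
  · exact jdN_mem_WN N

theorem adjoin_jH_le_A0 (N : ℕ) : Algebra.adjoin ℂ {jH} ≤ A0 N :=
  Algebra.adjoin_mono (Set.singleton_subset_iff.mpr (Set.mem_insert _ _))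

theorem jdN_mem_A0 (N : ℕ) : jd N ∈ A0 N :=
  Algebra.subset_adjoin (Set.mem_insert_of_mem _ rfl)

theorem eval_mem_A0 {N : ℕ} {P : Polynomial (ℍ → ℂ)}
    (hP : ∀ k, P.coeff k ∈ Algebra.adjoin ℂ {jH}) : P.eval (jd N) ∈ A0 N := by
  rw [Polynomial.eval_eq_sum_range]
  exact sum_mem fun k _ => mul_mem (adjoin_jH_le_A0 N (hP k)) (pow_mem (jdN_mem_A0 N) k)

/-- **(D1), function version**: every `g` in `W_N` is a quotient of elements of `ℂ[j, j_N]`. -/
theorem exists_quot_of_mem_WN {N : ℕ} [NeZero N] {g : ℍ → ℂ} (hg : g ∈ WN N) :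
    ∃ a ∈ A0 N, ∃ b ∈ A0 N, b ≠ 0 ∧ g * b = a :=
  ⟨_, eval_mem_A0 (lagr_coeff_mem hg (jdN_mem_WN N)), _,
    eval_mem_A0 (lagr_coeff_mem (one_mem _) (jdN_mem_WN N)), lagr_one_eval_ne_zero N,
    (lagr_eval hg (jdN_mem_WN N)).symm⟩

/-! ### Norms -/

/-- product of all the translates -/
def normFn {N : ℕ} [NeZero N] (g : ℍ → ℂ) : ℍ → ℂ := ∏ x : X0 N, cosetFn g x

/-- product of all the nontrivial translates -/
def cofacFn {N : ℕ} [NeZero N] (g : ℍ → ℂ) : ℍ → ℂ :=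
  open Classical in
  ∏ x ∈ Finset.univ.erase ((1 : SL(2, ℤ)) : X0 N), cosetFn g x

theorem mul_cofacFn {N : ℕ} [NeZero N] {g : ℍ → ℂ}
    (hg : ∀ γ ∈ CongruenceSubgroup.Gamma0 N, ∀ z : ℍ, g (γ • z) = g z) :
    g * cofacFn (N := N) g = normFn (N := N) g := by
  classical
  rw [cofacFn, normFn, ← Finset.mul_prod_erase _ _ (Finset.mem_univ ((1 : SL(2, ℤ)) : X0 N)),
    cosetFn_one hg]

theorem normFn_smul {N : ℕ} [NeZero N] {g : ℍ → ℂ}
    (hg : ∀ γ ∈ CongruenceSubgroup.Gamma0 N, ∀ z : ℍ, g (γ • z) = g z) (δ : SL(2, ℤ)) (z : ℍ) :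
    normFn (N := N) g (δ • z) = normFn (N := N) g z := by
  rw [normFn, Finset.prod_apply, Finset.prod_apply]
  exact Fintype.prod_bijective (fun x => δ⁻¹ • x) (MulAction.bijective δ⁻¹) _ _ fun x =>
    cosetFn_smul hg x δ z

theorem normFn_mem {N : ℕ} [NeZero N] {g : ℍ → ℂ} (hg : g ∈ WN N) :
    normFn (N := N) g ∈ Algebra.adjoin ℂ {jH} := by
  rw [mem_adjoin_jH_iff]
  exact exists_poly_of_invariant (N := N) (prod_mem fun x _ => cosetFn_mem_bigA hg.1 x)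
    (normFn_smul hg.2)

theorem normFn_ne_zero {N : ℕ} [NeZero N] {g : ℍ → ℂ} (hg : g ∈ WN N) (h0 : g ≠ 0) :
    normFn (N := N) g ≠ 0 := by
  classical
  have : ∀ s : Finset (X0 N), (∏ y ∈ s, cosetFn g y) ≠ 0 := by
    intro s
    induction s using Finset.induction_on with
    | empty =>
      intro h
      exact one_ne_zero (congrFun h UpperHalfPlane.I)
    | insert y s hys ih =>
      intro h
      rw [Finset.prod_insert hys] at h
      rcases bigA_eq_zero_or (cosetFn_mem_bigA hg.1 y)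
        (prod_mem fun x _ => cosetFn_mem_bigA hg.1 x) h with h | h
      · exact cosetFn_ne_zero h0 y h
      · exact ih h
  exact this _

theorem cofacFn_mem {N : ℕ} [NeZero N] {g : ℍ → ℂ} (hg : g ∈ WN N) :
    cofacFn (N := N) g ∈ WN N := by
  classical
  refine ⟨prod_mem fun x _ => cosetFn_mem_bigA hg.1 x, fun γ hγ z => ?_⟩
  rw [cofacFn, Finset.prod_apply, Finset.prod_apply]
  have hfix : γ⁻¹ • ((1 : SL(2, ℤ)) : X0 N) = ((1 : SL(2, ℤ)) : X0 N) := by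
    have h1 : γ⁻¹ • ((1 : SL(2, ℤ)) : X0 N) = ((γ⁻¹ * 1 : SL(2, ℤ)) : X0 N) := rfl
    rw [h1, QuotientGroup.eq]
    simpa using hγ
  refine Finset.prod_bij (fun y _ => γ⁻¹ • y) (fun y hy => ?_) (fun y _ y' _ h => ?_)
    (fun y hy => ?_) (fun y _ => cosetFn_smul hg.2 y γ z)
  · rw [Finset.mem_erase] at hy ⊢
    refine ⟨fun h => hy.1 ?_, Finset.mem_univ _⟩
    rw [← hfix] at h
    exact MulAction.injective γ⁻¹ h
  · exact MulAction.injective γ⁻¹ h
  · refine ⟨γ • y, ?_, ?_⟩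
    · rw [Finset.mem_erase] at hy ⊢
      refine ⟨fun h => hy.1 ?_, Finset.mem_univ _⟩
      rw [← hfix, ← h, inv_smul_smul]
    · rw [inv_smul_smul]

end Fermat.Agent.Top
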