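import Mathlib
import Fermat.Agent.Top.Coset
import Fermat.Agent.FF.FnField

/-!
# `q`-expansions of invariant functions and the function field of `X₀(N)` over `ℂ`
-/

set_option autoImplicit false
set_option linter.unusedSectionVars false

noncomputable section

namespace Fermat.Agent.Top

open UpperHalfPlane hiding I
open ModularForm Filter Topology Fermat.Agent.ModFn Fermat.Agent.Support Polynomial
open ModularCurve IntermediateField
open scoped MatrixGroups Manifold

/-- The function field of `X₀(N)` over `ℂ`, inside `ℂ((q))`. -/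
abbrev FC (N : ℕ) : IntermediateField ℂ (LaurentSeries ℂ) :=
  laurentBaseChange ℂ (modularFunctionFieldFull N)

variable (N : ℕ) [NeZero N]

theorem exists_hasExp_one (f : WN N) : ∃ φ : LaurentSeries ℂ, HasExp 1 f.1 φ := by
  obtain ⟨φ, hφ⟩ := f.2.1 1
  simp only [one_smul] at hφ
  refine ⟨_, (hasExp_one_of_inv hφ fun z => f.2.2 _ ?_ z).1⟩
  rw [CongruenceSubgroup.Gamma0_mem, ModularGroup.coe_T]
  simp

/-- the `q`-expansion of an element of `W_N` -/
def wqFun (f : WN N) : LaurentSeries ℂ := (exists_hasExp_one N f).choose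

variable {N}

theorem hasExp_wqFun (f : WN N) : HasExp 1 f.1 (wqFun N f) := (exists_hasExp_one N f).choose_spec

theorem wqFun_eq (f : WN N) {φ : LaurentSeries ℂ} (h : HasExp 1 f.1 φ) : wqFun N f = φ :=
  (hasExp_wqFun f).unique h

variable (N)

/-- The `q`-expansion homomorphism on `W_N`. -/
def wq : WN N →ₐ[ℂ] LaurentSeries ℂ where
  toFun := wqFun N
  map_one' := wqFun_eq _ (HasExp.one 1)
  map_mul' f g := wqFun_eq _ ((hasExp_wqFun f).mul (hasExp_wqFun g))
  map_zero' := wqFun_eq _ (HasExp.zero 1)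
  map_add' f g := wqFun_eq _ ((hasExp_wqFun f).add (hasExp_wqFun g))
  commutes' c := wqFun_eq _ (by
    rw [algebraMap_laurentSeries_eq_single]
    exact HasExp.const 1 c)

variable {N}

theorem hasExp_wq (f : WN N) : HasExp 1 f.1 (wq N f) := hasExp_wqFun f

theorem wq_eq (f : WN N) {φ : LaurentSeries ℂ} (h : HasExp 1 f.1 φ) : wq N f = φ := wqFun_eq f h

theorem wq_injective : Function.Injective (wq N) := fun f g h => by
  apply Subtype.ext
  have h1 := hasExp_wq f
  rw [h] at h1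
  exact h1.eq_of_same (hasExp_wq g)

theorem wq_ne_zero {f : WN N} (hf : f ≠ 0) : wq N f ≠ 0 := fun h => hf
  (wq_injective (h.trans (map_zero _).symm))

theorem jd_mem_WN {d : ℕ} [NeZero d] (h : d ∣ N) : jd d ∈ WN N := by
  refine ⟨fun δ => ?_, fun γ hγ z => jd_smul h hγ z⟩
  obtain ⟨φ, hφ, -⟩ := exists_hasExp_jd_smul_order d δ
  obtain ⟨m, rfl⟩ := h
  have : NeZero m := ⟨fun h0 => NeZero.ne (d * m) (by rw [h0, mul_zero])⟩
  exact ⟨_, hφ.qExpand (m := m)⟩

theorem wq_jH : wq N ⟨jH, jH_mem_WN N⟩ = jqModC ℂ := wq_eq _ hasExp_jH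

theorem wq_jd {d : ℕ} [NeZero d] (h : d ∣ N) :
    wq N ⟨jd d, jd_mem_WN h⟩ = qExpand ℂ d (jqModC ℂ) := wq_eq _ (hasExp_jd d)

theorem coeffEmb_jq : coeffEmb ℂ jq = jqModC ℂ := coeffMap_jqModC (algebraMap ℚ ℂ)

theorem coeffEmb_qExpand_jq (d : ℕ) [NeZero d] :
    coeffEmb ℂ (qExpand ℚ d jq) = qExpand ℂ d (jqModC ℂ) := by
  rw [coeffEmb, coeffMap_qExpand]
  exact congrArg _ coeffEmb_jq

theorem qExpand_jqModC_mem_FC {d : ℕ} [NeZero d] (h : d ∣ N) :
    qExpand ℂ d (jqModC ℂ) ∈ FC N := by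
  rw [← coeffEmb_qExpand_jq]
  exact coeffEmb_mem_laurentBaseChange ℂ (jqd_mem_full N h)

theorem jqModC_mem_FC : jqModC ℂ ∈ FC N := by
  have := qExpand_jqModC_mem_FC (N := N) (one_dvd N)
  rwa [qExpand_one_apply] at this

theorem wq_mem_of_mem_A0 (f : WN N) (hf : f.1 ∈ A0 N) : wq N f ∈ FC N := by
  -- the subalgebra of `W_N` of elements with `q`-expansion in `FC`
  have h1 : A0 N ≤ ((FC N).toSubalgebra.comap (wq N)).map (WN N).val := by
    rw [A0, Algebra.adjoin_le_iff]
    rintro g (rfl | rfl)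
    · exact ⟨⟨jH, jH_mem_WN N⟩, by
        show wq N _ ∈ FC N
        rw [wq_jH]; exact jqModC_mem_FC, rfl⟩
    · exact ⟨⟨jd N, jd_mem_WN dvd_rfl⟩, by
        show wq N _ ∈ FC N
        rw [wq_jd dvd_rfl]; exact qExpand_jqModC_mem_FC dvd_rfl, rfl⟩
  obtain ⟨g, hg, hgf⟩ := h1 hf
  have : g = f := Subtype.ext hgf
  rw [← this]
  exact hg

/-- **(D1)** the `q`-expansion of an element of `W_N` lies in the function field. -/
theorem wq_mem (f : WN N) : wq N f ∈ FC N := by
  obtain ⟨a, ha, b, hb, hb0, hab⟩ := exists_quot_of_mem_WN f.2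
  have h1 : f * ⟨b, A0_le_WN N hb⟩ = (⟨a, A0_le_WN N ha⟩ : WN N) := Subtype.ext hab
  have h2 := congrArg (wq N) h1
  rw [map_mul] at h2
  have h3 : wq N ⟨b, A0_le_WN N hb⟩ ≠ 0 := wq_ne_zero fun h => hb0 (congrArg Subtype.val h)
  rw [eq_div_of_mul_eq h3 h2]
  exact div_mem (wq_mem_of_mem_A0 _ ha) (wq_mem_of_mem_A0 _ hb)

variable (N) in
/-- `W_N → F_ℂ` -/
def toFC : WN N →ₐ[ℂ] FC N := (wq N).codRestrict (FC N).toSubalgebra wq_mem

@[simp] theorem coe_toFC (f : WN N) : (toFC N f : LaurentSeries ℂ) = wq N f := rfl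

theorem toFC_injective : Function.Injective (toFC N) := fun _ _ h =>
  wq_injective (congrArg Subtype.val h)

theorem exists_div (x : FC N) : ∃ g h : WN N, h ≠ 0 ∧ x = toFC N g / toFC N h := by
  have h1 : (FC N).toSubfield ≤ Subfield.closure ((wq N).range : Set (LaurentSeries ℂ)) := by
    have hbase : ∀ c : ℂ, algebraMap ℂ (LaurentSeries ℂ) c ∈
        Subfield.closure ((wq N).range : Set (LaurentSeries ℂ)) := fun c =>
      Subfield.subset_closure ⟨algebraMap ℂ (WN N) c, (wq N).commutes c⟩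
    have h2 : (modularFunctionFieldFull N).toSubfield ≤
        (Subfield.closure ((wq N).range : Set (LaurentSeries ℂ))).comap (coeffEmb ℂ) := by
      have h3 : (modularFunctionFieldFull N).toSubfield = Subfield.closure
        (Set.range (algebraMap ℚ (LaurentSeries ℚ)) ∪ divisorExpansions N) := rfl
      rw [h3, Subfield.closure_le]
      rintro y (⟨c, rfl⟩ | ⟨d, hd, hdN, rfl⟩)
      · refine Subfield.mem_comap.mpr ?_
        have h4 : coeffEmb ℂ (algebraMap ℚ (LaurentSeries ℚ) c) =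
            algebraMap ℂ (LaurentSeries ℂ) (algebraMap ℚ ℂ c) := by
          rw [algebraMap_laurentSeries_eq_single, algebraMap_laurentSeries_eq_single, coeffEmb,
            coeffMap_single]
        rw [h4]
        exact hbase _
      · refine Subfield.mem_comap.mpr ?_
        rw [coeffEmb_qExpand_jq, ← wq_jd hdN]
        exact Subfield.subset_closure ⟨_, rfl⟩
    intro y hy
    have hy' : y ∈ Subfield.closure (Set.range (algebraMap ℂ (LaurentSeries ℂ)) ∪
          (⇑(coeffEmb ℂ) '' (modularFunctionFieldFull N : Set (LaurentSeries ℚ)))) := hy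
    refine (Subfield.closure_le.mpr ?_) hy'
    rintro z (⟨c, rfl⟩ | ⟨z, hz, rfl⟩)
    · exact hbase c
    · exact h2 hz
  have h2 := h1 x.2
  rw [Subfield.mem_closure_iff] at h2
  obtain ⟨y, hy, z, hz, hyz⟩ := h2
  have h3 : Subring.closure ((wq N).range : Set (LaurentSeries ℂ)) = (wq N).range.toSubring :=
    Subring.closure_eq (wq N).range.toSubring
  rw [h3] at hy hz
  obtain ⟨g, rfl⟩ := hy
  obtain ⟨h, rfl⟩ := hz
  by_cases h0 : h = 0
  · subst h0
    refine ⟨0, 1, one_ne_zero, Subtype.ext ?_⟩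
    rw [← hyz]
    simp
  · exact ⟨g, h, h0, Subtype.ext hyz.symm⟩

instance algebraWNFC : Algebra (WN N) (FC N) := (toFC N).toRingHom.toAlgebra

theorem algebraMap_WN (f : WN N) : algebraMap (WN N) (FC N) f = toFC N f := rfl

instance : FaithfulSMul (WN N) (FC N) :=
  (faithfulSMul_iff_algebraMap_injective _ _).mpr toFC_injective

instance : IsFractionRing (WN N) (FC N) := IsFractionRing.of_field _ _ fun z => by
  obtain ⟨g, h, -, hz⟩ := exists_div z
  exact ⟨g, h, hz⟩

/-! ### Denominators in `ℂ[j]` -/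

variable (N) in
/-- evaluation of polynomials at `j` -/
def evJ : ℂ[X] →ₐ[ℂ] WN N := Polynomial.aeval (⟨jH, jH_mem_WN N⟩ : WN N)

theorem coe_evJ (P : ℂ[X]) (z : ℍ) : (evJ N P).1 z = P.eval (jH z) := by
  have h1 : (Pi.evalAlgHom ℂ (fun _ : ℍ => ℂ) z).comp (WN N).val (evJ N P) =
      Polynomial.aeval (jH z) P := by
    rw [evJ, ← Polynomial.aeval_algHom_apply]; rfl
  rw [Polynomial.coe_aeval_eq_eval] at h1
  exact h1

/-- `j` as an element of the function field -/
def jF (N : ℕ) [NeZero N] : FC N := ⟨jqModC ℂ, jqModC_mem_FC⟩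

theorem toFC_jH : toFC N ⟨jH, jH_mem_WN N⟩ = jF N := Subtype.ext wq_jH

theorem toFC_evJ (P : ℂ[X]) : toFC N (evJ N P) = Polynomial.aeval (jF N) P := by
  rw [evJ, ← Polynomial.aeval_algHom_apply, toFC_jH]

theorem exists_evJ_of_mem_adjoin {f : ℍ → ℂ} (hf : f ∈ Algebra.adjoin ℂ {jH}) (hW : f ∈ WN N) :
    ∃ P : ℂ[X], (⟨f, hW⟩ : WN N) = evJ N P := by
  rw [mem_adjoin_jH_iff] at hf
  obtain ⟨P, hP⟩ := hf
  exact ⟨P, Subtype.ext (funext fun z => by rw [coe_evJ, ← hP z])⟩

theorem adjoin_jH_le_WN : Algebra.adjoin ℂ {jH} ≤ WN N :=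
  (adjoin_jH_le_A0 N).trans (A0_le_WN N)

/-- norm to `ℂ[j]` -/
theorem exists_norm (g : WN N) : ∃ (g' : WN N) (P : ℂ[X]), g * g' = evJ N P ∧
    (∀ z, P.eval (jH z) = normFn (N := N) g.1 z) ∧ (g ≠ 0 → P ≠ 0) ∧
    g'.1 = cofacFn (N := N) g.1 := by
  obtain ⟨P, hP⟩ := exists_evJ_of_mem_adjoin (N := N) (normFn_mem g.2)
    (adjoin_jH_le_WN (normFn_mem g.2))
  have hPz : ∀ z, P.eval (jH z) = normFn (N := N) g.1 z := fun z => by
    rw [← coe_evJ (N := N), ← hP]
  refine ⟨⟨cofacFn (N := N) g.1, cofacFn_mem g.2⟩, P, ?_, hPz, ?_, rfl⟩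
  · rw [← hP]
    exact Subtype.ext (mul_cofacFn g.2.2)
  · rintro h0 rfl
    apply normFn_ne_zero g.2 (fun h => h0 (Subtype.ext h))
    funext z
    rw [← hPz z]
    simp

theorem laurent_algebraMap_mul_coeff (c : ℂ) (φ : LaurentSeries ℂ) (n : ℤ) :
    (algebraMap ℂ (LaurentSeries ℂ) c * φ).coeff n = c * φ.coeff n := by
  rw [algebraMap_laurentSeries_eq_single, ← HahnSeries.C_apply,
    HahnSeries.C_mul_eq_smul, HahnSeries.coeff_smul, smul_eq_mul]

theorem evJ_injective : Function.Injective (evJ N) := by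
  rw [injective_iff_map_eq_zero]
  intro P hP
  by_contra hne
  have h1 := congrArg (toFC N) hP
  rw [toFC_evJ, map_zero] at h1
  have h2 : Polynomial.aeval (jqModC ℂ) P = 0 := by
    have := congrArg (FC N).val h1
    rwa [← Polynomial.aeval_algHom_apply, map_zero] at this
  -- leading term
  have h3 := congrArg (fun φ : LaurentSeries ℂ => φ.coeff (-(P.natDegree : ℤ))) h2
  simp only [Polynomial.aeval_def, Polynomial.eval₂_eq_sum_range, HahnSeries.coeff_sum,
    HahnSeries.coeff_zero] at h3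
  rw [Finset.sum_eq_single P.natDegree] at h3
  · rw [laurent_algebraMap_mul_coeff, jqModC_pow_coeff_self, mul_one] at h3
    exact hne (Polynomial.leadingCoeff_eq_zero.mp h3)
  · intro k hk hkne
    rw [laurent_algebraMap_mul_coeff, jqModC_pow_coeff_of_lt, mul_zero]
    have := Finset.mem_range.mp hk
    omega
  · intro h
    exact absurd (Finset.self_mem_range_succ _) h

theorem jF_transcendental : Transcendental ℂ (jF N) := by
  rw [transcendental_iff]
  intro P hP
  rw [← toFC_evJ] at hP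
  exact evJ_injective ((toFC_injective (hP.trans (map_zero _).symm)).trans (map_zero _).symm)

/-- Every element of the function field is `g / P(j)`. -/
theorem exists_div_poly (x : FC N) : ∃ (g : WN N) (P : ℂ[X]), P ≠ 0 ∧
    x = toFC N g / toFC N (evJ N P) := by
  obtain ⟨g, h, h0, rfl⟩ := exists_div x
  obtain ⟨h', P, hP, -, hP0, -⟩ := exists_norm h
  refine ⟨g * h', P, hP0 h0, ?_⟩
  have h1 : toFC N (evJ N P) ≠ 0 := fun h2 =>
    hP0 h0 (evJ_injective ((toFC_injective (h2.trans (map_zero _).symm)).trans (map_zero _).symm))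
  rw [← hP] at h1 ⊢
  rw [map_mul] at h1 ⊢
  rw [map_mul]
  have h2 : toFC N h ≠ 0 := left_ne_zero_of_mul h1
  have h3 : toFC N h' ≠ 0 := right_ne_zero_of_mul h1
  field_simp

end Fermat.Agent.Top
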