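import Mathlib
import Fermat.Agent.Top.FC

/-!
# `F_ℂ` is a function field; integrality of `W_N` over `ℂ[j]`
-/

set_option autoImplicit false
set_option linter.unusedSectionVars false
set_option linter.style.haveILetI false

noncomputable section

namespace Fermat.Agent.Top

open UpperHalfPlane hiding I
open ModularForm Filter Topology Fermat.Agent.ModFn Fermat.Agent.Support Polynomial
open ModularCurve IntermediateField Fermat.Agent.FF
open scoped MatrixGroups Manifold

variable {N : ℕ} [NeZero N]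

/-- characteristic polynomial -/
def charFn (N : ℕ) [NeZero N] (g : ℍ → ℂ) : Polynomial (ℍ → ℂ) :=
  ∏ x : X0 N, (Polynomial.X - Polynomial.C (cosetFn g x))

theorem charFn_monic (g : ℍ → ℂ) : (charFn N g).Monic :=
  Polynomial.monic_prod_X_sub_C _ _

theorem charFn_eval {g : ℍ → ℂ} (hg : g ∈ WN N) : (charFn N g).eval g = 0 := by
  rw [charFn, Polynomial.eval_prod]
  refine Finset.prod_eq_zero (Finset.mem_univ ((1 : SL(2, ℤ)) : X0 N)) ?_
  rw [cosetFn_one hg.2]
  simp

theorem charFn_inv {g : ℍ → ℂ}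
    (hg : ∀ γ ∈ CongruenceSubgroup.Gamma0 N, ∀ z : ℍ, g (γ • z) = g z) (δ : SL(2, ℤ)) :
    (charFn N g).map (precomp (K := ℂ) (fun z => δ • z)).toRingHom = charFn N g := by
  rw [charFn, Polynomial.map_prod]
  have h1 : ∀ x : X0 N, (Polynomial.X - Polynomial.C (cosetFn g x)).map
      (precomp (K := ℂ) (fun z => δ • z)).toRingHom =
      Polynomial.X - Polynomial.C (cosetFn g (δ⁻¹ • x)) := by
    intro x
    rw [Polynomial.map_sub, Polynomial.map_X, Polynomial.map_C, map_precomp_cosetFn hg]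
  rw [Finset.prod_congr rfl fun x _ => h1 x]
  exact Equiv.prod_comp (MulAction.toPerm (δ⁻¹))
    (fun x : X0 N => Polynomial.X - Polynomial.C (cosetFn g x))

theorem charFn_coeff_mem {g : ℍ → ℂ} (hg : g ∈ WN N) (k : ℕ) :
    (charFn N g).coeff k ∈ Algebra.adjoin ℂ {jH} :=
  coeff_mem_adjoin_jH (fun k => coeff_prod_X_sub_C_mem _ (fun x _ => cosetFn_mem_bigA hg.1 x) k)
    (charFn_inv hg.2) k

/-- Every element of `W_N` satisfies a monic equation over `ℂ[j]`. -/
theorem exists_monic (g : WN N) :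
    ∃ q : Polynomial ℂ[X], q.Monic ∧ q.eval₂ (evJ N : ℂ[X] →+* WN N) g = 0 := by
  let f : ℂ[X] →+* (ℍ → ℂ) := ((WN N).val : WN N →+* (ℍ → ℂ)).comp (evJ N : ℂ[X] →+* WN N)
  have hf : ∀ P : ℂ[X], f P = fun z => P.eval (jH z) := fun P => funext fun z => coe_evJ P z
  have hlift : charFn N g.1 ∈ Polynomial.lifts f := by
    rw [Polynomial.lifts_iff_coeff_lifts]
    intro k
    have h1 := charFn_coeff_mem g.2 k
    rw [mem_adjoin_jH_iff] at h1
    obtain ⟨P, hP⟩ := h1
    exact ⟨P, by rw [hf]; exact (funext hP).symm⟩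
  obtain ⟨q, hq, -, hqm⟩ := Polynomial.lifts_and_natDegree_eq_and_monic hlift (charFn_monic _)
  refine ⟨q, hqm, ?_⟩
  apply Subtype.ext
  have h1 : ((WN N).val : WN N →+* (ℍ → ℂ)) (q.eval₂ (evJ N : ℂ[X] →+* WN N) g) =
      q.eval₂ f g.1 := by
    rw [Polynomial.hom_eval₂]; rfl
  have h2 : q.eval₂ f g.1 = 0 := by
    rw [← Polynomial.eval_map, hq, charFn_eval g.2]
  exact h1.trans h2

theorem isIntegral_toFC (g : WN N) : IsIntegral (Algebra.adjoin ℂ {jF N}) (toFC N g) := by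
  obtain ⟨q, hq, hqg⟩ := exists_monic g
  let φ : ℂ[X] →+* Algebra.adjoin ℂ {jF N} :=
    (Polynomial.aeval (⟨jF N, Algebra.self_mem_adjoin_singleton ℂ (jF N)⟩ :
      Algebra.adjoin ℂ {jF N}) : ℂ[X] →ₐ[ℂ] _)
  have hφ : (algebraMap (Algebra.adjoin ℂ {jF N}) (FC N)).comp φ =
      ((toFC N : WN N →ₐ[ℂ] FC N) : WN N →+* FC N).comp (evJ N : ℂ[X] →+* WN N) := by
    refine RingHom.ext fun P => ?_
    have h1 := toFC_evJ (N := N) P
    have h2 : ((φ P : Algebra.adjoin ℂ {jF N}) : FC N) = Polynomial.aeval (jF N) P :=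
      Polynomial.aeval_subalgebra_coe P _ _
    exact h2.trans h1.symm
  refine ⟨q.map φ, hq.map φ, ?_⟩
  rw [Polynomial.eval₂_map, hφ]
  have h1 := congrArg (toFC N) hqg
  rw [map_zero] at h1
  rw [← h1]
  exact (Polynomial.hom_eval₂ _ _ _ _).symm

/-- `j_N` as an element of the function field -/
def jNF (N : ℕ) [NeZero N] : FC N := toFC N ⟨jd N, jdN_mem_WN N⟩

theorem toFC_mem_of_mem_A0 (f : WN N) (hf : f.1 ∈ A0 N) :
    toFC N f ∈ Algebra.adjoin ℂ {jF N, jNF N} := by
  have h1 : A0 N ≤ ((Algebra.adjoin ℂ {jF N, jNF N}).comap (toFC N)).map (WN N).val := by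
    rw [A0, Algebra.adjoin_le_iff]
    rintro g (rfl | rfl)
    · exact ⟨⟨jH, jH_mem_WN N⟩, by
        show toFC N _ ∈ Algebra.adjoin ℂ {jF N, jNF N}
        rw [toFC_jH]; exact Algebra.subset_adjoin (Set.mem_insert _ _), rfl⟩
    · exact ⟨⟨jd N, jdN_mem_WN N⟩, by
        show toFC N _ ∈ Algebra.adjoin ℂ {jF N, jNF N}
        exact Algebra.subset_adjoin (Set.mem_insert_of_mem _ rfl), rfl⟩
  obtain ⟨g, hg, hgf⟩ := h1 hf
  have : g = f := Subtype.ext hgf
  rw [← this]
  exact hg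

theorem exists_quot_toFC (z : FC N) : ∃ a ∈ Algebra.adjoin ℂ {jF N, jNF N},
    ∃ b ∈ Algebra.adjoin ℂ {jF N, jNF N}, b ≠ 0 ∧ z * b = a := by
  have key : ∀ g : WN N, ∃ a ∈ Algebra.adjoin ℂ {jF N, jNF N},
      ∃ b ∈ Algebra.adjoin ℂ {jF N, jNF N}, b ≠ 0 ∧ toFC N g * b = a := by
    intro g
    obtain ⟨a, ha, b, hb, hb0, hab⟩ := exists_quot_of_mem_WN g.2
    have h1 : g * ⟨b, A0_le_WN N hb⟩ = (⟨a, A0_le_WN N ha⟩ : WN N) := Subtype.ext hab
    have h2 := congrArg (toFC N) h1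
    rw [map_mul] at h2
    have h3 : toFC N ⟨b, A0_le_WN N hb⟩ ≠ 0 := fun h => by
      have := toFC_injective (h.trans (map_zero _).symm)
      exact hb0 (congrArg Subtype.val this)
    exact ⟨_, toFC_mem_of_mem_A0 _ ha, _, toFC_mem_of_mem_A0 _ hb, h3, h2⟩
  obtain ⟨g, h, h0, rfl⟩ := exists_div z
  obtain ⟨a, ha, b, hb, hb0, hab⟩ := key g
  obtain ⟨c, hc, d, hd, hd0, hcd⟩ := key h
  have hh0 : toFC N h ≠ 0 := fun h1 => h0 (toFC_injective (h1.trans (map_zero _).symm))
  refine ⟨a * d, mul_mem ha hd, b * c, mul_mem hb hc, mul_ne_zero hb0 ?_, ?_⟩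
  · rw [← hcd]; exact mul_ne_zero hh0 hd0
  · rw [← hab, ← hcd]
    field_simp

section

open scoped IntermediateField.algebraAdjoinAdjoin

theorem finiteDimensional_of_generated {K F : Type*} [Field K] [Field F] [Algebra K F] {x y : F}
    (hgen : ∀ z : F, ∃ a ∈ Algebra.adjoin K {x, y}, ∃ b ∈ Algebra.adjoin K {x, y},
      b ≠ 0 ∧ z * b = a) (hy : IsIntegral (Algebra.adjoin K {x}) y) :
    FiniteDimensional K⟮x⟯ F := by
  have hx : x ∈ IntermediateField.adjoin K⟮x⟯ {y} := by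
    have h := (IntermediateField.adjoin K⟮x⟯ {y}).algebraMap_mem (AdjoinSimple.gen K x)
    rwa [IntermediateField.AdjoinSimple.algebraMap_gen] at h
  have hA : ∀ z ∈ Algebra.adjoin K {x, y}, z ∈ IntermediateField.adjoin K⟮x⟯ {y} := by
    intro z hz
    induction hz using Algebra.adjoin_induction with
    | mem z hz =>
      rcases hz with rfl | rfl
      · exact hx
      · exact IntermediateField.mem_adjoin_simple_self _ _
    | algebraMap r =>
      rw [IsScalarTower.algebraMap_apply K K⟮x⟯ F]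
      exact IntermediateField.algebraMap_mem _ _
    | add a b _ _ ha hb => exact add_mem ha hb
    | mul a b _ _ ha hb => exact mul_mem ha hb
  have htop : (IntermediateField.adjoin K⟮x⟯ {y}) = ⊤ := by
    rw [eq_top_iff]
    intro z _
    obtain ⟨a, ha, b, hb, hb0, hab⟩ := hgen z
    rw [eq_div_of_mul_eq hb0 hab]
    exact div_mem (hA _ ha) (hA _ hb)
  have h1 : IsIntegral K⟮x⟯ y := hy.tower_top
  have h2 : FiniteDimensional K⟮x⟯ (IntermediateField.adjoin K⟮x⟯ {y}) :=
    IntermediateField.adjoin.finiteDimensional h1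
  rw [htop] at h2
  exact Module.Finite.equiv (IntermediateField.topEquiv (F := K⟮x⟯) (E := F)).toLinearEquiv

end

instance finiteDimensional_FC : FiniteDimensional ℂ⟮jF N⟯ (FC N) :=
  finiteDimensional_of_generated exists_quot_toFC (isIntegral_toFC _)

instance isFnField_FC : IsFnField ℂ (FC N) := IsFnField.of_finiteDimensional jF_transcendental

end Fermat.Agent.Top
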