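import Mathlib
import Fermat.Agent.FF.Galois
import Fermat.Agent.FF.Valuations

/-!
# Places from valuations; an exhaustion criterion for the places over a point
-/

set_option autoImplicit false
set_option linter.unusedSectionVars false
set_option linter.style.haveILetI false

open IsDedekindDomain WithZero IsLocalRing AlgebraicCurve IntermediateField Fermat.Agent.FF
open scoped IntermediateField.algebraAdjoinAdjoin

namespace Fermat.Agent.Top

section

variable {K F : Type*} [Field K] [Field F] [Algebra K F] [IsFnField K F] [CharZero K]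

/-- A nontrivial valuation of a function field, with values in `ℤᵐ⁰`, is a positive power of the
valuation of a place. -/
theorem exists_place_of_valuation (v : Valuation F ℤᵐ⁰)
    (hK : ∀ a : K, a ≠ 0 → v (algebraMap K F a) = 1) (hne : ∃ f : F, f ≠ 0 ∧ v f ≠ 1) :
    ∃ (P : Place K F) (e : ℕ), 0 < e ∧ ∀ f : F, f ≠ 0 → v f = exp (-((e : ℤ) * P.ord f)) := by
  obtain ⟨P, hP⟩ := exists_place_of_valuationSubring (K := K) v.valuationSubring
    (fun a => by
      rw [Valuation.mem_valuationSubring_iff]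
      rcases eq_or_ne a 0 with rfl | ha
      · simp
      · exact (hK a ha).le)
    (by
      intro htop
      obtain ⟨f, hf0, hf1⟩ := hne
      have h1 : f ∈ v.valuationSubring := htop ▸ ValuationSubring.mem_top f
      have h2 : f⁻¹ ∈ v.valuationSubring := htop ▸ ValuationSubring.mem_top f⁻¹
      rw [Valuation.mem_valuationSubring_iff] at h1 h2
      rw [map_inv₀] at h2
      apply hf1
      apply le_antisymm h1
      have h3 : v f ≠ 0 := v.ne_zero_iff.mpr hf0
      by_contra hlt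
      rw [not_le] at hlt
      have h4 : 1 < (v f)⁻¹ := (one_lt_inv₀ (zero_lt_iff.mpr h3)).mpr hlt
      exact absurd h2 (not_le.mpr h4))
  have hmem : ∀ f : F, 0 ≤ P.ord f ↔ v f ≤ 1 := by
    intro f
    rw [← mem_iff_ord_nonneg, hP, Valuation.mem_valuationSubring_iff]
  obtain ⟨t, ht0, ht1⟩ := exists_ord_eq_one P
  have hvt0 : v t ≠ 0 := v.ne_zero_iff.mpr ht0
  have hvt : v t < 1 := by
    refine lt_of_le_of_ne ((hmem t).mp (by omega)) fun h => ?_
    have h1 : v t⁻¹ ≤ 1 := by rw [map_inv₀, h, inv_one]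
    have h2 := (hmem t⁻¹).mpr h1
    rw [P.ord_inv] at h2
    omega
  obtain ⟨k, hk⟩ : ∃ k : ℤ, v t = exp k := ⟨log (v t), (exp_log hvt0).symm⟩
  have hk0 : k < 0 := by
    rw [hk, ← exp_zero, exp_lt_exp] at hvt
    exact hvt
  refine ⟨P, (-k).toNat, by omega, fun f hf => ?_⟩
  have hu1 : P.ord (f * t ^ (-P.ord f)) = 0 := by
    rw [P.ord_mul hf (zpow_ne_zero _ ht0), P.ord_zpow, ht1]
    ring
  have h1 : v (f * t ^ (-P.ord f)) ≤ 1 := (hmem _).mp hu1.ge
  have h2 : v (f * t ^ (-P.ord f))⁻¹ ≤ 1 := (hmem _).mp (by rw [P.ord_inv, hu1]; simp)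
  have hne' : f * t ^ (-P.ord f) ≠ 0 := mul_ne_zero hf (zpow_ne_zero _ ht0)
  have hv0 : v (f * t ^ (-P.ord f)) ≠ 0 := v.ne_zero_iff.mpr hne'
  have h3 : v (f * t ^ (-P.ord f)) = 1 := by
    apply le_antisymm h1
    by_contra hlt
    rw [not_le] at hlt
    rw [map_inv₀] at h2
    exact absurd h2 (not_le.mpr ((one_lt_inv₀ (zero_lt_iff.mpr hv0)).mpr hlt))
  rw [map_mul, map_zpow₀, hk] at h3
  have h4 : v f = ((exp k : ℤᵐ⁰) ^ (-P.ord f))⁻¹ := eq_inv_of_mul_eq_one_left h3
  rw [h4, ← exp_zsmul, ← exp_neg]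
  congr 1
  rw [smul_eq_mul, Int.toNat_of_nonneg (by omega)]
  ring

end

section

variable {K F : Type*} [Field K] [Field F] [Algebra K F]

/-- For two places with `x > 0`, the positivity of an element of `K(x)` is the same. -/
theorem ord_pos_of_mem_adjoin {x : F} [FiniteDimensional K⟮x⟯ F]
    (hx : Transcendental K x) {P Q : Place K F}
    (hP : 0 < P.ord x) (hQ : 0 < Q.ord x) {y : F} (hy : y ∈ K⟮x⟯) (hPy : 0 < P.ord y) :
    0 < Q.ord y := by
  have hres : P.restrict K⟮x⟯ = Q.restrict K⟮x⟯ := by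
    apply eq_of_ord_gen_pos hx
    · have h1 := P.ord_restrict (F := K⟮x⟯) (AdjoinSimple.gen K x)
      have h2 : algebraMap K⟮x⟯ F (AdjoinSimple.gen K x) = x := rfl
      rw [h2] at h1
      rw [h1] at hP
      exact (pos_iff_pos_of_mul_pos hP).mp (by exact_mod_cast P.ramificationIndex_pos)
    · have h1 := Q.ord_restrict (F := K⟮x⟯) (AdjoinSimple.gen K x)
      have h2 : algebraMap K⟮x⟯ F (AdjoinSimple.gen K x) = x := rfl
      rw [h2] at h1
      rw [h1] at hQ
      exact (pos_iff_pos_of_mul_pos hQ).mp (by exact_mod_cast Q.ramificationIndex_pos)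
  have h1 := P.ord_restrict (F := K⟮x⟯) ⟨y, hy⟩
  have h2 := Q.ord_restrict (F := K⟮x⟯) ⟨y, hy⟩
  have h3 : algebraMap K⟮x⟯ F ⟨y, hy⟩ = y := rfl
  rw [h3] at h1 h2
  rw [h1] at hPy
  have h4 := (pos_iff_pos_of_mul_pos hPy).mp (by exact_mod_cast P.ramificationIndex_pos)
  rw [hres] at h4
  rw [h2]
  exact mul_pos (by exact_mod_cast Q.ramificationIndex_pos) h4

/-- **Exhaustion criterion.** -/
theorem exists_eq_of_norm [IsFnField K F] [CharZero K] {Ω : Type*} [Field Ω] [Algebra K Ω]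
    {x : F} (hx : Transcendental K x) {ι : Type*} [Fintype ι] [DecidableEq ι]
    (κ : ι → F →ₐ[K] Ω) (i₀ : ι) (hκx : ∀ i, κ i x = κ i₀ x)
    (w : ι → Place K F) (hw : ∀ i, 0 < (w i).ord x)
    (hnorm : ∀ b : F, b ≠ 0 → ∃ b' : F, κ i₀ b' = ∏ i ∈ Finset.univ.erase i₀, κ i b ∧
      b * b' ∈ K⟮x⟯ ∧ ((∀ i, (w i).ord b = 0) → (w i₀).ord (b * b') = 0))
    (P : Place K F) (hP : 0 < P.ord x) : ∃ i, P = w i := by
  classical
  haveI := IsFnField.finiteDimensional hx
  haveI : CharZero K⟮x⟯ := charZero_of_injective_algebraMap (algebraMap K K⟮x⟯).injective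
  have hB : ∀ (v : Place K F), 0 < v.ord x →
      ∀ b : integralClosure (Algebra.adjoin K {x}) F, algebraMap _ F b ∈ v.toValuationSubring :=
    fun v hv => intClosure_mem_of_ord_nonneg v hv.le
  suffices h : ∃ i ∈ (Finset.univ : Finset ι), centre P (hB P hP) ≤ centre (w i) (hB _ (hw i)) by
    obtain ⟨i, -, h⟩ := h
    exact ⟨i, eq_of_centre_le _ _ h⟩
  let f : ι → Ideal (integralClosure (Algebra.adjoin K {x}) F) := fun i =>
    centre (w i) (hB _ (hw i))
  refine (Ideal.subset_union_prime (s := (Finset.univ : Finset ι)) (f := f) i₀ i₀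
    (fun σ _ _ _ => Ideal.IsPrime.comap _)).mp ?_
  intro b hb
  by_contra hcon
  simp only [Finset.coe_univ, Set.mem_univ, Set.iUnion_true, Set.mem_iUnion, SetLike.mem_coe,
    not_exists] at hcon
  have hb0 : b ≠ 0 := by
    rintro rfl
    exact hcon i₀ (Ideal.zero_mem _)
  have hb0' : (algebraMap (integralClosure (Algebra.adjoin K {x}) F) F b) ≠ 0 := by
    simpa using hb0
  set y : F := algebraMap _ F b with hy
  have hy1 : 0 < P.ord y := by
    rw [SetLike.mem_coe, mem_centre_iff] at hb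
    exact hb.resolve_left hb0
  have hyn : ∀ (v : Place K F), 0 < v.ord x → 0 ≤ v.ord y := fun v hv =>
    ord_nonneg_of_mem v (hB v hv b)
  have hy2 : ∀ i : ι, (w i).ord y = 0 := by
    intro i
    have h := hcon i
    rw [mem_centre_iff, not_or, not_lt] at h
    exact le_antisymm h.2 (hyn _ (hw i))
  obtain ⟨y', hy', hyy', hord⟩ := hnorm y hb0'
  have hord' := hord hy2
  have hy'0 : y' ≠ 0 := by
    rintro rfl
    rw [map_zero] at hy'
    have : ∏ i ∈ Finset.univ.erase i₀, κ i y ≠ 0 :=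
      Finset.prod_ne_zero_iff.mpr fun i _ => by simpa using hb0'
    exact this hy'.symm
  -- `y'` is integral over `K[x]`
  have hint : IsIntegral (Algebra.adjoin K {x}) y' := by
    letI : Algebra (Algebra.adjoin K {x}) Ω :=
      (((κ i₀ : F →ₐ[K] Ω) : F →+* Ω).comp (algebraMap (Algebra.adjoin K {x}) F)).toAlgebra
    have hmap : ∀ i (a : Algebra.adjoin K {x}), κ i (algebraMap _ F a) = algebraMap _ Ω a := by
      intro i a
      have h1 : Algebra.adjoin K {x} ≤ AlgHom.equalizer (κ i) (κ i₀) := by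
        rw [Algebra.adjoin_le_iff]
        rintro _ rfl
        exact hκx i
      exact h1 a.2
    let κ' : ι → F →ₐ[Algebra.adjoin K {x}] Ω := fun i =>
      { (κ i : F →+* Ω) with commutes' := hmap i }
    have hyi : IsIntegral (Algebra.adjoin K {x}) y := b.2
    have h2 : IsIntegral (Algebra.adjoin K {x}) (κ' i₀ y') := by
      have h3 : κ' i₀ y' = ∏ i ∈ Finset.univ.erase i₀, κ' i y := hy'
      rw [h3]
      exact IsIntegral.prod _ fun i _ => hyi.map (κ' i)
    exact (isIntegral_algHom_iff (κ' i₀) (κ i₀).injective).mp h2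
  have hPy' : 0 ≤ P.ord y' := ord_nonneg_of_mem P (hB P hP ⟨y', hint⟩)
  have hPyy : 0 < P.ord (y * y') := by
    rw [P.ord_mul hb0' hy'0]; omega
  have := ord_pos_of_mem_adjoin hx hP (hw i₀) hyy' hPyy
  omega

end

end Fermat.Agent.Top
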