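import Mathlib
import Fermat.Agent.ModFn.Orders
import Fermat.Agent.Top.FnC
import Fermat.Agent.Top.PlaceOfVal

/-!
# Valuations of `F_ℂ` attached to points of `ℍ` and to cusps
-/

set_option autoImplicit false
set_option linter.unusedSectionVars false
set_option linter.style.haveILetI false

noncomputable section

namespace Fermat.Agent.Top

open UpperHalfPlane hiding I
open ModularForm Filter Topology Fermat.Agent.ModFn Fermat.Agent.Support Polynomial
open ModularCurve IntermediateField Fermat.Agent.FF WithZero AlgebraicCurve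
open scoped MatrixGroups Manifold

/-! ### The order valuation on Laurent series -/

open Classical in
/-- The order valuation on Laurent series. -/
def laurVal : Valuation (LaurentSeries ℂ) ℤᵐ⁰ where
  toFun φ := if φ = 0 then 0 else exp (-φ.order)
  map_zero' := if_pos rfl
  map_one' := by
    rw [if_neg one_ne_zero, HahnSeries.order_one, neg_zero, exp_zero]
  map_mul' φ ψ := by
    by_cases hφ : φ = 0
    · simp [hφ]
    by_cases hψ : ψ = 0
    · simp [hψ]
    rw [if_neg hφ, if_neg hψ, if_neg (mul_ne_zero hφ hψ), HahnSeries.order_mul hφ hψ, ← exp_add]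
    congr 1
    ring
  map_add_le_max' φ ψ := by
    by_cases hφ : φ = 0
    · simp [hφ]
    by_cases hψ : ψ = 0
    · simp [hψ]
    by_cases hs : φ + ψ = 0
    · rw [if_pos hs]; exact zero_le
    rw [if_neg hφ, if_neg hψ, if_neg hs, le_max_iff, exp_le_exp, exp_le_exp]
    have := HahnSeries.min_order_le_order_add hs
    rcases min_le_iff.mp this with h | h
    · exact Or.inl (by omega)
    · exact Or.inr (by omega)

theorem laurVal_apply {φ : LaurentSeries ℂ} (h : φ ≠ 0) : laurVal φ = exp (-φ.order) := if_neg h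

variable {N : ℕ} [NeZero N]

/-! ### Expansions at the cusps -/

variable (N) in
/-- expansion at the cusp `δ` in `q_N` -/
def expW (δ : SL(2, ℤ)) : WN N →ₐ[ℂ] LaurentSeries ℂ where
  toFun f := (f.2.1 δ).choose
  map_one' := ((1 : WN N).2.1 δ).choose_spec.unique (HasExp.one N)
  map_mul' f g := ((f * g).2.1 δ).choose_spec.unique
    ((f.2.1 δ).choose_spec.mul (g.2.1 δ).choose_spec)
  map_zero' := ((0 : WN N).2.1 δ).choose_spec.unique (HasExp.zero N)
  map_add' f g := ((f + g).2.1 δ).choose_spec.unique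
    ((f.2.1 δ).choose_spec.add (g.2.1 δ).choose_spec)
  commutes' c := ((algebraMap ℂ (WN N) c).2.1 δ).choose_spec.unique (by
    rw [algebraMap_laurentSeries_eq_single]
    exact HasExp.const N c)

theorem hasExp_expW (δ : SL(2, ℤ)) (f : WN N) :
    HasExp N (fun z => f.1 (δ • z)) (expW N δ f) := (f.2.1 δ).choose_spec

theorem expW_eq {δ : SL(2, ℤ)} {f : WN N} {φ : LaurentSeries ℂ}
    (h : HasExp N (fun z => f.1 (δ • z)) φ) : expW N δ f = φ := (hasExp_expW δ f).unique h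

theorem expW_injective (δ : SL(2, ℤ)) : Function.Injective (expW N δ) := fun f g h => by
  apply Subtype.ext
  have h1 := hasExp_expW δ f
  rw [h] at h1
  have h2 := h1.eq_of_same (hasExp_expW δ g)
  funext z
  have := congrFun h2 (δ⁻¹ • z)
  simpa using this

theorem expW_congr {δ δ' : SL(2, ℤ)} (h : ∃ γ ∈ CongruenceSubgroup.Gamma0 N, δ' = γ * δ)
    (f : WN N) : expW N δ' f = expW N δ f := by
  obtain ⟨γ, hγ, rfl⟩ := h
  refine expW_eq ((hasExp_expW δ f).congr ?_ rfl)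
  funext z
  rw [mul_smul, f.2.2 γ hγ]

instance isScalarTower_WN : IsScalarTower ℂ (WN N) (FC N) :=
  IsScalarTower.of_algebraMap_eq fun c => ((toFC N).commutes c).symm

variable (N) in
/-- the embedding of the function field given by the expansion at the cusp `δ` -/
def kap (δ : SL(2, ℤ)) : FC N →ₐ[ℂ] LaurentSeries ℂ :=
  IsFractionRing.liftAlgHom (A := WN N) (expW_injective δ)

@[simp] theorem kap_toFC (δ : SL(2, ℤ)) (f : WN N) : kap N δ (toFC N f) = expW N δ f := by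
  have := IsFractionRing.lift_algebraMap (K := FC N)
    (g := (expW N δ : WN N →+* LaurentSeries ℂ)) (expW_injective δ) f
  exact this

theorem expW_jH (δ : SL(2, ℤ)) : expW N δ ⟨jH, jH_mem_WN N⟩ = qExpand ℂ N (jqModC ℂ) :=
  expW_eq ((hasExp_of_one hasExp_jH).congr (funext fun z => (jH_smul δ z).symm) rfl)

theorem kap_jF (δ : SL(2, ℤ)) : kap N δ (jF N) = qExpand ℂ N (jqModC ℂ) := by
  rw [← toFC_jH, kap_toFC, expW_jH]

theorem order_kap_jF (δ : SL(2, ℤ)) : (kap N δ (jF N)).order = -N := by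
  rw [kap_jF, order_qExpand, order_jqModC]
  ring

theorem jF_ne_zero : jF N ≠ 0 := fun h => by
  have := order_kap_jF (N := N) 1
  rw [h, map_zero, HahnSeries.order_zero] at this
  have h2 := NeZero.ne N
  omega

variable (N) in
/-- the valuation of the cusp `δ` -/
def cuspVal (δ : SL(2, ℤ)) : Valuation (FC N) ℤᵐ⁰ :=
  laurVal.comap (kap N δ : FC N →+* LaurentSeries ℂ)

theorem cuspVal_apply (δ : SL(2, ℤ)) {f : FC N} (hf : f ≠ 0) :
    cuspVal N δ f = exp (-(kap N δ f).order) :=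
  laurVal_apply ((map_ne_zero (kap N δ)).mpr hf)

/-- `P` is the place of the cusp `δ`, with index `e`. -/
def IsCuspPlace (δ : SL(2, ℤ)) (P : Place ℂ (FC N)) (e : ℕ) : Prop :=
  0 < e ∧ ∀ f : FC N, f ≠ 0 → (kap N δ f).order = e * P.ord f

theorem order_algebraMap_laurent (c : ℂ) :
    (algebraMap ℂ (LaurentSeries ℂ) c).order = 0 := by
  rw [algebraMap_laurentSeries_eq_single]
  exact HahnSeries.order_C

theorem exists_isCuspPlace (δ : SL(2, ℤ)) : ∃ (P : Place ℂ (FC N)) (e : ℕ),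
    IsCuspPlace δ P e := by
  obtain ⟨P, e, he, h⟩ := exists_place_of_valuation (K := ℂ) (cuspVal N δ) (fun a ha => by
    rw [cuspVal_apply δ (by simpa using ha), AlgHom.commutes, order_algebraMap_laurent, neg_zero,
      exp_zero]) ⟨jF N, jF_ne_zero, fun h => by
        rw [cuspVal_apply δ jF_ne_zero, order_kap_jF, neg_neg, ← exp_zero, exp_inj] at h
        exact NeZero.ne N (by exact_mod_cast h)⟩
  refine ⟨P, e, he, fun f hf => ?_⟩
  have h1 := h f hf
  rw [cuspVal_apply δ hf, exp_inj] at h1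
  omega

theorem IsCuspPlace.ord_jF_neg {δ : SL(2, ℤ)} {P : Place ℂ (FC N)} {e : ℕ}
    (h : IsCuspPlace δ P e) : P.ord (jF N) < 0 := by
  have h1 := h.2 (jF N) jF_ne_zero
  rw [order_kap_jF] at h1
  have h2 : (0 : ℤ) < N := by exact_mod_cast Nat.pos_of_neZero N
  have h3 : (0 : ℤ) < e := by exact_mod_cast h.1
  by_contra hcon
  rw [not_lt] at hcon
  have := mul_nonneg h3.le hcon
  omega

/-! ### Points of the upper half plane -/

theorem WN.mdiff (f : WN N) : MDiff f.1 := (mem_WN_iff_isCForm.mp f.2).mdifferentiable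

/-- order of vanishing at `τ`, as an integer -/
def ordZ (f : ℍ → ℂ) (τ : ℍ) : ℤ := ((ordAt f τ).toNat : ℤ)

theorem ordAt_ne_top {f : ℍ → ℂ} (hf : MDiff f) (h0 : f ≠ 0) (τ : ℍ) : ordAt f τ ≠ ⊤ :=
  fun h => h0 ((ordAt_eq_top hf τ).mp h)

theorem ordZ_nonneg (f : ℍ → ℂ) (τ : ℍ) : 0 ≤ ordZ f τ := Int.natCast_nonneg _

theorem ordZ_mul {f g : ℍ → ℂ} (hf : MDiff f) (hg : MDiff g) (hf0 : f ≠ 0) (hg0 : g ≠ 0)
    (τ : ℍ) : ordZ (f * g) τ = ordZ f τ + ordZ g τ := by
  rw [ordZ, ordAt_mul hf hg, ENat.toNat_add (ordAt_ne_top hf hf0 τ) (ordAt_ne_top hg hg0 τ)]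
  push_cast
  rfl

theorem ordZ_eq_zero {f : ℍ → ℂ} (hf : MDiff f) (h0 : f ≠ 0) (τ : ℍ) :
    ordZ f τ = 0 ↔ f τ ≠ 0 := by
  rw [← ordAt_eq_zero hf τ, ordZ, Nat.cast_eq_zero, ENat.toNat_eq_zero]
  exact or_iff_left (ordAt_ne_top hf h0 τ)

theorem min_le_ordZ_add {f g : ℍ → ℂ} (hf : MDiff f) (hg : MDiff g) (hfg : MDiff (f + g))
    (hf0 : f ≠ 0) (hg0 : g ≠ 0) (h0 : f + g ≠ 0) (τ : ℍ) :
    min (ordZ f τ) (ordZ g τ) ≤ ordZ (f + g) τ := by
  have h1 := ordAt_add_le (f := f) (g := g) τ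
  obtain ⟨a, ha⟩ := ENat.ne_top_iff_exists.mp (ordAt_ne_top hf hf0 τ)
  obtain ⟨b, hb⟩ := ENat.ne_top_iff_exists.mp (ordAt_ne_top hg hg0 τ)
  obtain ⟨c, hc⟩ := ENat.ne_top_iff_exists.mp (ordAt_ne_top hfg h0 τ)
  simp only [ordZ, ← ha, ← hb, ← hc, ENat.toNat_natCast] at h1 ⊢
  rw [min_le_iff] at h1 ⊢
  exact_mod_cast h1

theorem WN.coe_ne_zero {f : WN N} (hf : f ≠ 0) : f.1 ≠ 0 := fun h => hf (Subtype.ext h)

theorem WN.one_ne_zero' : (1 : WN N) ≠ 0 := by
  intro h
  have h1 := congrFun (congrArg Subtype.val h) UpperHalfPlane.I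
  exact (one_ne_zero : (1 : ℂ) ≠ 0) h1

open Classical in
variable (N) in
/-- order valuation on `W_N` at a point -/
def ptValW (τ : ℍ) : Valuation (WN N) ℤᵐ⁰ where
  toFun f := if f = 0 then 0 else exp (-ordZ f.1 τ)
  map_zero' := if_pos rfl
  map_one' := by
    rw [if_neg WN.one_ne_zero']
    have h1 : ordZ (1 : WN N).1 τ = 0 := by
      refine (ordZ_eq_zero (WN.mdiff 1) (WN.coe_ne_zero WN.one_ne_zero') τ).mpr ?_
      show (1 : ℂ) ≠ 0
      exact one_ne_zero
    rw [h1, neg_zero, exp_zero]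
  map_mul' φ ψ := by
    by_cases hφ : φ = 0
    · simp [hφ]
    by_cases hψ : ψ = 0
    · simp [hψ]
    rw [if_neg hφ, if_neg hψ, if_neg (mul_ne_zero hφ hψ)]
    have h1 := ordZ_mul (WN.mdiff φ) (WN.mdiff ψ) (WN.coe_ne_zero hφ) (WN.coe_ne_zero hψ) τ
    have h2 : (φ * ψ).1 = φ.1 * ψ.1 := rfl
    rw [h2, h1, ← exp_add]
    congr 1
    ring
  map_add_le_max' φ ψ := by
    by_cases hφ : φ = 0
    · simp [hφ]
    by_cases hψ : ψ = 0
    · simp [hψ]
    by_cases hs : φ + ψ = 0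
    · rw [if_pos hs]; exact zero_le
    rw [if_neg hφ, if_neg hψ, if_neg hs, le_max_iff, exp_le_exp, exp_le_exp]
    have := min_le_ordZ_add (WN.mdiff φ) (WN.mdiff ψ) (WN.mdiff (φ + ψ)) (WN.coe_ne_zero hφ)
      (WN.coe_ne_zero hψ) (WN.coe_ne_zero hs) τ
    have h2 : (φ + ψ).1 = φ.1 + ψ.1 := rfl
    rw [h2]
    rcases min_le_iff.mp this with h | h
    · exact Or.inl (by omega)
    · exact Or.inr (by omega)

theorem ptValW_apply (τ : ℍ) {f : WN N} (h : f ≠ 0) : ptValW N τ f = exp (-ordZ f.1 τ) := if_neg h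

theorem ptValW_supp (τ : ℍ) : nonZeroDivisors (WN N) ≤ (ptValW N τ).supp.primeCompl := by
  intro f hf
  rw [Ideal.mem_primeCompl_iff, Valuation.mem_supp_iff, ptValW_apply τ (nonZeroDivisors.ne_zero hf)]
  exact exp_ne_zero

variable (N) in
/-- the valuation of the point `τ` -/
def ptVal (τ : ℍ) : Valuation (FC N) ℤᵐ⁰ :=
  (ptValW N τ).extendToLocalization (ptValW_supp τ) (FC N)

theorem ptVal_toFC (τ : ℍ) {f : WN N} (hf : f ≠ 0) :
    ptVal N τ (toFC N f) = exp (-ordZ f.1 τ) := by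
  rw [← ptValW_apply τ hf]
  exact Valuation.extendToLocalization_apply_map_apply _ _ _ _

/-- `P` is the place of the point `τ`, with index `e`. -/
def IsPtPlace (τ : ℍ) (P : Place ℂ (FC N)) (e : ℕ) : Prop :=
  0 < e ∧ ∀ f : WN N, f ≠ 0 → ordZ f.1 τ = e * P.ord (toFC N f)

theorem toFC_ne_zero {f : WN N} (hf : f ≠ 0) : toFC N f ≠ 0 := fun h =>
  hf (toFC_injective (h.trans (map_zero _).symm))

/-- `j - a` as an element of `W_N` -/
def jSub (N : ℕ) [NeZero N] (a : ℂ) : WN N := ⟨jH, jH_mem_WN N⟩ - algebraMap ℂ (WN N) a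

theorem coe_jSub (a : ℂ) : (jSub N a).1 = fun z => jH z - a := rfl

theorem toFC_jSub (a : ℂ) : toFC N (jSub N a) = jF N - algebraMap ℂ (FC N) a := by
  rw [jSub, map_sub, toFC_jH, AlgHom.commutes]

theorem jSub_ne_zero (a : ℂ) : jSub N a ≠ 0 := by
  intro h
  have h1 := congrArg (toFC N) h
  rw [toFC_jSub, map_zero, sub_eq_zero] at h1
  exact jF_transcendental (N := N) (by rw [h1]; exact isAlgebraic_algebraMap a)

theorem exists_isPtPlace (τ : ℍ) : ∃ (P : Place ℂ (FC N)) (e : ℕ), IsPtPlace τ P e := by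
  obtain ⟨P, e, he, h⟩ := exists_place_of_valuation (K := ℂ) (ptVal N τ) (fun a ha => by
    have h1 : algebraMap ℂ (WN N) a ≠ 0 := by simpa using ha
    have h2 : algebraMap ℂ (FC N) a = toFC N (algebraMap ℂ (WN N) a) := ((toFC N).commutes a).symm
    rw [h2, ptVal_toFC τ h1]
    have h3 : ordZ (algebraMap ℂ (WN N) a).1 τ = 0 :=
      (ordZ_eq_zero (WN.mdiff _) (WN.coe_ne_zero h1) τ).mpr ha
    rw [h3, neg_zero, exp_zero]) ⟨toFC N (jSub N (jH τ)), toFC_ne_zero (jSub_ne_zero _), fun h => by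
      rw [ptVal_toFC τ (jSub_ne_zero _), ← exp_zero, exp_inj, neg_eq_zero,
        ordZ_eq_zero (WN.mdiff _) (WN.coe_ne_zero (jSub_ne_zero _)), coe_jSub] at h
      exact h (sub_self _)⟩
  refine ⟨P, e, he, fun f hf => ?_⟩
  have h1 := h _ (toFC_ne_zero hf)
  rw [ptVal_toFC τ hf, exp_inj] at h1
  omega

theorem IsPtPlace.ord_pos {τ : ℍ} {P : Place ℂ (FC N)} {e : ℕ}
    (h : IsPtPlace τ P e) : 0 < P.ord (jF N - algebraMap ℂ (FC N) (jH τ)) := by
  have h1 := h.2 _ (jSub_ne_zero (jH τ))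
  rw [toFC_jSub] at h1
  have h2 : ordZ (jSub N (jH τ)).1 τ ≠ 0 := by
    intro h
    rw [ordZ_eq_zero (WN.mdiff _) (WN.coe_ne_zero (jSub_ne_zero _)), coe_jSub] at h
    exact h (sub_self _)
  have h3 := ordZ_nonneg (jSub N (jH τ)).1 τ
  have h4 : (0 : ℤ) < e := by exact_mod_cast h.1
  by_contra hcon
  rw [not_lt] at hcon
  have := mul_nonpos_of_nonneg_of_nonpos h4.le hcon
  omega

end Fermat.Agent.Top
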