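import Mathlib
import Fermat.Agent.RR.Places
import Fermat.Agent.Top.Val

/-!
# Every place of `F_ℂ` is a point of `ℍ` or a cusp
-/

set_option autoImplicit false
set_option linter.unusedSectionVars false
set_option linter.style.haveILetI false

noncomputable section

namespace Fermat.Agent.Top

open UpperHalfPlane hiding I
open ModularForm Filter Topology Fermat.Agent.ModFn Fermat.Agent.Support Polynomial
open ModularCurve IntermediateField Fermat.Agent.FF WithZero AlgebraicCurve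
open scoped MatrixGroups Manifold

variable {N : ℕ} [NeZero N]

/-! ### Order of translates -/

theorem ordAt_comp_smul {f : ℍ → ℂ} (γ : SL(2, ℤ)) (τ : ℍ) :
    ordAt (fun z => f (γ • z)) τ = ordAt f (γ • τ) := by
  let g : ℂ → ℂ := fun z => ((γ 0 0 : ℂ) * z + γ 0 1) / ((γ 1 0 : ℂ) * z + γ 1 1)
  have hden : ∀ z : ℍ, ((γ 1 0 : ℂ) * z + γ 1 1) ≠ 0 := fun z => by
    have := denom_ne_zero γ z
    rwa [ModularGroup.denom_apply] at this
  have hg : ∀ z : ℍ, g z = ((γ • z : ℍ) : ℂ) := fun z => by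
    rw [UpperHalfPlane.coe_specialLinearGroup_apply]
    rfl
  have hdet : ((γ 0 0 : ℂ) * γ 1 1 - γ 0 1 * γ 1 0) = 1 := by
    have h := γ.det_coe
    rw [Matrix.det_fin_two] at h
    exact_mod_cast congrArg (fun n : ℤ => (n : ℂ)) h
  have hgd : HasDerivAt g (1 / ((γ 1 0 : ℂ) * (τ : ℂ) + γ 1 1) ^ 2) τ := by
    have h1 : HasDerivAt (fun z : ℂ => (γ 0 0 : ℂ) * z + γ 0 1) (γ 0 0 : ℂ) (τ : ℂ) := by
      simpa using ((hasDerivAt_id (τ : ℂ)).const_mul (γ 0 0 : ℂ)).add_const (γ 0 1 : ℂ)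
    have h2 : HasDerivAt (fun z : ℂ => (γ 1 0 : ℂ) * z + γ 1 1) (γ 1 0 : ℂ) (τ : ℂ) := by
      simpa using ((hasDerivAt_id (τ : ℂ)).const_mul (γ 1 0 : ℂ)).add_const (γ 1 1 : ℂ)
    refine (h1.div h2 (hden τ)).congr_deriv ?_
    congr 1
    linear_combination hdet
  have hgan : AnalyticAt ℂ g τ := by
    refine AnalyticAt.div (by fun_prop) (by fun_prop) (hden τ)
  have h1 : ((fun z => f (γ • z)) ∘ ofComplex) =ᶠ[𝓝 (τ : ℂ)] ((f ∘ ofComplex) ∘ g) := by
    filter_upwards [(isOpen_lt continuous_const Complex.continuous_im).mem_nhds τ.im_pos]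
      with z hz
    have hz' : z = ((⟨z, hz⟩ : ℍ) : ℂ) := rfl
    simp only [Function.comp_apply]
    rw [hz', hg, ofComplex_apply, ofComplex_apply]
  rw [ordAt, ordAt, analyticOrderAt_congr h1,
    analyticOrderAt_comp_of_deriv_ne_zero hgan, hg]
  rw [hgd.deriv]
  exact one_div_ne_zero (pow_ne_zero _ (hden τ))

theorem ordZ_comp_smul {f : ℍ → ℂ} (γ : SL(2, ℤ)) (τ : ℍ) :
    ordZ (fun z => f (γ • z)) τ = ordZ f (γ • τ) := by
  rw [ordZ, ordAt_comp_smul, ordZ]

theorem bigA_mdiff {f : ℍ → ℂ} (hf : f ∈ bigA N) : MDiff f := by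
  obtain ⟨φ, hφ⟩ := hf 1
  have := hφ.mdifferentiable
  simpa using this

theorem ordZ_prod {ι : Type*} (s : Finset ι) (f : ι → ℍ → ℂ) (hf : ∀ i ∈ s, f i ∈ bigA N)
    (h0 : ∀ i ∈ s, f i ≠ 0) (τ : ℍ) :
    ordZ (∏ i ∈ s, f i) τ = ∑ i ∈ s, ordZ (f i) τ ∧ ∏ i ∈ s, f i ≠ 0 := by
  classical
  induction s using Finset.induction_on with
  | empty =>
    have h1 : (1 : ℍ → ℂ) ≠ 0 := fun h =>
      (one_ne_zero : (1 : ℂ) ≠ 0) (congrFun h UpperHalfPlane.I)
    refine ⟨?_, by rw [Finset.prod_empty]; exact h1⟩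
    rw [Finset.prod_empty, Finset.sum_empty]
    exact (ordZ_eq_zero (bigA_mdiff (N := N) (one_mem _)) h1 τ).mpr one_ne_zero
  | insert i s his ih =>
    obtain ⟨h1, h2⟩ := ih (fun j hj => hf j (Finset.mem_insert_of_mem hj))
      (fun j hj => h0 j (Finset.mem_insert_of_mem hj))
    have h3 := hf i (Finset.mem_insert_self i s)
    have h4 := h0 i (Finset.mem_insert_self i s)
    have h5 : ∏ j ∈ s, f j ∈ bigA N := prod_mem fun j hj => hf j (Finset.mem_insert_of_mem hj)
    refine ⟨?_, ?_⟩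
    · rw [Finset.prod_insert his, Finset.sum_insert his,
        ordZ_mul (bigA_mdiff h3) (bigA_mdiff h5) h4 h2, h1]
    · rw [Finset.prod_insert his]
      intro h
      rcases bigA_eq_zero_or h3 h5 h with h | h
      · exact h4 h
      · exact h2 h

theorem ordZ_normFn {g : ℍ → ℂ} (hg : g ∈ WN N) (h0 : g ≠ 0) (τ : ℍ) :
    ordZ (normFn (N := N) g) τ = ∑ x : X0 N, ordZ g ((x.out)⁻¹ • τ) := by
  rw [normFn, (ordZ_prod (N := N) _ _ (fun x _ => cosetFn_mem_bigA hg.1 x)
    (fun x _ => cosetFn_ne_zero h0 x) τ).1]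
  exact Finset.sum_congr rfl fun x _ => ordZ_comp_smul _ τ

theorem ordZ_smul_of_inv {f : ℍ → ℂ} (hf : ∀ (γ : SL(2, ℤ)) (z : ℍ), f (γ • z) = f z)
    (γ : SL(2, ℤ)) (τ : ℍ) : ordZ f (γ • τ) = ordZ f τ := by
  rw [← ordZ_comp_smul]
  congr 1
  funext z
  exact hf γ z

/-! ### Norm of an element of the function field -/

/-- the embeddings indexed by cosets -/
def kapX (x : X0 N) : FC N →ₐ[ℂ] LaurentSeries ℂ := kap N (x.out)⁻¹

/-- the trivial coset -/
abbrev x₀ (N : ℕ) : X0 N := ((1 : SL(2, ℤ)) : X0 N)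

theorem hasExp_kapX (x : X0 N) (g : WN N) : HasExp N (cosetFn g.1 x) (kapX x (toFC N g)) := by
  rw [kapX, kap_toFC]
  exact hasExp_expW _ g

theorem kapX_evJ (x : X0 N) (P : ℂ[X]) : kapX x (toFC N (evJ N P)) =
    kapX (x₀ N) (toFC N (evJ N P)) := by
  refine (hasExp_kapX x _).unique ((hasExp_kapX (x₀ N) _).congr ?_ rfl)
  funext z
  simp only [cosetFn, coe_evJ, jH_smul]

theorem kapX_jF (x : X0 N) : kapX x (jF N) = kapX (x₀ N) (jF N) := by
  rw [kapX, kapX, kap_jF, kap_jF]

theorem kapX_cofac (g g' : WN N) (h : g'.1 = cofacFn (N := N) g.1) : by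
    classical
    exact kapX (x₀ N) (toFC N g') = ∏ x ∈ Finset.univ.erase (x₀ N), kapX x (toFC N g) := by
  classical
  have h1 : HasExp N g'.1 (∏ x ∈ Finset.univ.erase (x₀ N), kapX x (toFC N g)) := by
    rw [h, cofacFn]
    exact HasExp.prod _ fun x _ => hasExp_kapX x g
  have h2 := hasExp_kapX (x₀ N) g'
  rw [cosetFn_one g'.2.2] at h2
  exact h2.unique h1

theorem toFC_evJ_ne_zero {P : ℂ[X]} (hP : P ≠ 0) : toFC N (evJ N P) ≠ 0 :=
  toFC_ne_zero fun h => hP (evJ_injective (h.trans (map_zero _).symm))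

theorem evJ_mem_adjoin (P : ℂ[X]) : toFC N (evJ N P) ∈ ℂ⟮jF N⟯ := by
  rw [toFC_evJ]
  exact IntermediateField.algebra_adjoin_le_adjoin ℂ _
    (Polynomial.aeval_mem_adjoin_singleton ℂ (jF N))

/-- The norm of an element of the function field. -/
theorem exists_norm_FC (b : FC N) (hb : b ≠ 0) : by
    classical
    exact ∃ (b' : FC N) (g : WN N) (C P : ℂ[X]), g ≠ 0 ∧ C ≠ 0 ∧ P ≠ 0 ∧
      b = toFC N g / toFC N (evJ N C) ∧
      kapX (x₀ N) b' = ∏ x ∈ Finset.univ.erase (x₀ N), kapX x b ∧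
      b * b' = toFC N (evJ N P) / toFC N (evJ N C) ^ (Fintype.card (X0 N)) ∧
      (∀ z, P.eval (jH z) = normFn (N := N) g.1 z) := by
  classical
  obtain ⟨g, C, hC, rfl⟩ := exists_div_poly b
  have hg : g ≠ 0 := by
    rintro rfl
    simp at hb
  obtain ⟨g', P, hgg', hPz, hP0, hg'⟩ := exists_norm g
  have hc := toFC_evJ_ne_zero (N := N) hC
  have hcard : (Finset.univ.erase (x₀ N)).card + 1 = Fintype.card (X0 N) := by
    rw [Finset.card_erase_add_one (Finset.mem_univ _)]; rfl
  refine ⟨toFC N g' / toFC N (evJ N C) ^ (Finset.univ.erase (x₀ N)).card, g, C, P, hg, hC, hP0 hg,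
    rfl, ?_, ?_, hPz⟩
  · rw [map_div₀, map_pow, kapX_cofac g g' hg', ← Finset.prod_const]
    rw [← Finset.prod_div_distrib]
    refine Finset.prod_congr rfl fun x _ => ?_
    rw [map_div₀, kapX_evJ x C]
  · rw [div_mul_div_comm, ← map_mul, hgg', ← pow_succ', hcard]

theorem transcendental_inv_jF : Transcendental ℂ (jF N)⁻¹ := transcendental_inv jF_transcendental

theorem transcendental_jF_sub (a : ℂ) :
    Transcendental ℂ (jF N - algebraMap ℂ (FC N) a) := by
  intro h
  apply jF_transcendental (N := N)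
  have := h.add (isAlgebraic_algebraMap (R := ℂ) (A := FC N) a)
  rwa [sub_add_cancel] at this

theorem adjoin_jF_sub (a : ℂ) : ℂ⟮jF N - algebraMap ℂ (FC N) a⟯ = ℂ⟮jF N⟯ := by
  apply le_antisymm
  · rw [IntermediateField.adjoin_simple_le_iff]
    exact sub_mem (IntermediateField.mem_adjoin_simple_self _ _) (IntermediateField.algebraMap_mem _ a)
  · rw [IntermediateField.adjoin_simple_le_iff]
    have := add_mem (IntermediateField.mem_adjoin_simple_self ℂ (jF N - algebraMap ℂ (FC N) a))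
      (IntermediateField.algebraMap_mem ℂ⟮jF N - algebraMap ℂ (FC N) a⟯ a)
    rwa [sub_add_cancel] at this

theorem ord_sub_algebraMap_neg {P : Place ℂ (FC N)} {f : FC N} (h : P.ord f < 0) (a : ℂ) :
    P.ord (f - algebraMap ℂ (FC N) a) = P.ord f := by
  have hf : f ≠ 0 := by
    rintro rfl
    simp at h
  have := ord_add_eq_of_lt P (f := f) (g := -algebraMap ℂ (FC N) a) hf (by
    by_cases ha : a = 0
    · left; simp [ha]
    · right
      rw [ord_neg, ord_algebraMap]
      exact h)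
  rwa [← sub_eq_add_neg] at this

/-- **Exhaustion, cusps.** -/
theorem exists_isCuspPlace_of_ord_neg (P : Place ℂ (FC N)) (hP : P.ord (jF N) < 0) :
    ∃ (δ : SL(2, ℤ)) (e : ℕ), IsCuspPlace δ P e := by
  classical
  choose w e hw using fun x : X0 N => exists_isCuspPlace (N := N) (x.out)⁻¹
  have hwpos : ∀ x, 0 < (w x).ord (jF N)⁻¹ := fun x => by
    rw [Place.ord_inv]
    have := (hw x).ord_jF_neg
    omega
  obtain ⟨x, hx⟩ := exists_eq_of_norm (x := (jF N)⁻¹) transcendental_inv_jF kapX (x₀ N)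
    (fun x => by rw [map_inv₀, map_inv₀, kapX_jF]) w hwpos (by
      intro b hb
      obtain ⟨b', g, C, P', hg, hC, hP', hbg, hb', hbb', -⟩ := exists_norm_FC b hb
      refine ⟨b', ?_, ?_, ?_⟩
      · convert hb'
      · rw [adjoin_simple_inv, hbb']
        exact div_mem (evJ_mem_adjoin _) (pow_mem (evJ_mem_adjoin _) _)
      · intro hord
        have hb'0 : b' ≠ 0 := by
          intro h0
          rw [h0, mul_zero] at hbb'
          exact div_ne_zero (toFC_evJ_ne_zero hP') (pow_ne_zero _ (toFC_evJ_ne_zero hC)) hbb'.symm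
        have h1 := (hw (x₀ N)).2 (b * b') (mul_ne_zero hb hb'0)
        have h2 : kapX (x₀ N) (b * b') = ∏ x : X0 N, kapX x b := by
          rw [map_mul, hb']
          exact Finset.mul_prod_erase Finset.univ (fun x => kapX x b) (Finset.mem_univ (x₀ N))
        have h1' : (kapX (x₀ N) (b * b')).order = (e (x₀ N) : ℤ) * (w (x₀ N)).ord (b * b') := h1
        have h3 : ∀ s : Finset (X0 N), (∏ x ∈ s, kapX x b).order = 0 := by
          intro s
          induction s using Finset.induction_on with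
          | empty => simp
          | insert y s hys ih =>
            have h4 : kapX y b ≠ 0 := (_root_.map_ne_zero _).mpr hb
            have h5 : ∏ x ∈ s, kapX x b ≠ 0 :=
              Finset.prod_ne_zero_iff.mpr fun x _ => (_root_.map_ne_zero _).mpr hb
            rw [Finset.prod_insert hys, HahnSeries.order_mul h4 h5, ih, add_zero]
            have h6 := (hw y).2 b hb
            rw [hord y, mul_zero] at h6
            exact h6
        rw [h2, h3] at h1'
        have h4 : ((e (x₀ N) : ℕ) : ℤ) ≠ 0 := by exact_mod_cast (hw (x₀ N)).1.ne'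
        exact (mul_eq_zero.mp h1'.symm).resolve_left h4) P (by
      rw [Place.ord_inv]; omega)
  exact ⟨_, _, hx ▸ hw x⟩

/-- **Exhaustion, points.** -/
theorem exists_isPtPlace_of_ord_nonneg (P : Place ℂ (FC N)) (hP : 0 ≤ P.ord (jF N)) :
    ∃ (τ : ℍ) (e : ℕ), IsPtPlace τ P e := by
  classical
  obtain ⟨a, ha⟩ := Fermat.Agent.RR.exists_sub_ord_pos P hP
  have ha' : 0 < P.ord (jF N - algebraMap ℂ (FC N) a) := by
    refine ha.resolve_left fun h => ?_
    exact transcendental_jF_sub (N := N) a (by rw [h]; exact isAlgebraic_zero)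
  obtain ⟨τ, hτ⟩ := jH_surjective a
  choose w e hw using fun x : X0 N => exists_isPtPlace (N := N) ((x.out)⁻¹ • τ)
  have hwpos : ∀ x, 0 < (w x).ord (jF N - algebraMap ℂ (FC N) a) := fun x => by
    have := (hw x).ord_pos
    rwa [jH_smul, hτ] at this
  obtain ⟨x, hx⟩ := exists_eq_of_norm (x := jF N - algebraMap ℂ (FC N) a)
    (transcendental_jF_sub a) kapX (x₀ N)
    (fun x => by rw [map_sub, map_sub, kapX_jF, AlgHom.commutes, AlgHom.commutes]) w hwpos (by
      intro b hb
      obtain ⟨b', g, C, P', hg, hC, hP', hbg, hb', hbb', hPz⟩ := exists_norm_FC b hb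
      refine ⟨b', ?_, ?_, ?_⟩
      · convert hb'
      · rw [adjoin_jF_sub, hbb']
        exact div_mem (evJ_mem_adjoin _) (pow_mem (evJ_mem_adjoin _) _)
      · intro hord
        have hCn : evJ N C ≠ 0 := fun h => toFC_evJ_ne_zero (N := N) hC (by rw [h, map_zero])
        have hPn : evJ N P' ≠ 0 := fun h => toFC_evJ_ne_zero (N := N) hP' (by rw [h, map_zero])
        have hcinv : ∀ (γ : SL(2, ℤ)) (z : ℍ), (evJ N C).1 (γ • z) = (evJ N C).1 z := by
          intro γ z; rw [coe_evJ, coe_evJ, jH_smul]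
        -- orders of `g` at the conjugate points
        have h1 : ∀ x : X0 N, ordZ g.1 ((x.out)⁻¹ • τ) = ordZ (evJ N C).1 τ := by
          intro x
          have h2 := hord x
          rw [hbg, div_eq_mul_inv, Place.ord_mul _ (toFC_ne_zero hg)
            (inv_ne_zero (toFC_evJ_ne_zero hC)), Place.ord_inv] at h2
          have h3 := (hw x).2 g hg
          have h4 := (hw x).2 _ hCn
          rw [ordZ_smul_of_inv hcinv] at h4
          have h5 : (w x).ord (toFC N g) = (w x).ord (toFC N (evJ N C)) := by omega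
          rw [h3, h4, h5]
        have h6 : ordZ (evJ N P').1 τ = Fintype.card (X0 N) * ordZ (evJ N C).1 τ := by
          have h7 : (evJ N P').1 = normFn (N := N) g.1 := funext fun z => by
            rw [coe_evJ, hPz]
          rw [h7, ordZ_normFn g.2 (WN.coe_ne_zero hg), Finset.sum_congr rfl fun x _ => h1 x]
          simp
        have hpinv : ∀ (γ : SL(2, ℤ)) (z : ℍ), (evJ N P').1 (γ • z) = (evJ N P').1 z := by
          intro γ z; rw [coe_evJ, coe_evJ, jH_smul]
        have h8 := (hw (x₀ N)).2 _ hPn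
        have h9 := (hw (x₀ N)).2 _ hCn
        rw [ordZ_smul_of_inv hpinv, h6] at h8
        rw [ordZ_smul_of_inv hcinv] at h9
        have h10 : ((e (x₀ N) : ℕ) : ℤ) ≠ 0 := by exact_mod_cast (hw (x₀ N)).1.ne'
        rw [hbb', div_eq_mul_inv, Place.ord_mul _ (toFC_evJ_ne_zero hP')
          (inv_ne_zero (pow_ne_zero _ (toFC_evJ_ne_zero hC))), Place.ord_inv, ord_pow]
        apply mul_left_cancel₀ h10
        rw [mul_zero, mul_add, ← h8, h9]
        ring) P ha'
  exact ⟨_, _, hx ▸ hw x⟩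

end Fermat.Agent.Top
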