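import Mathlib
import Fermat.Agent.Top.Exhaust

/-!
# Divisibility of orders by the ramification indices
-/

set_option autoImplicit false
set_option linter.unusedSectionVars false
set_option linter.style.haveILetI false

noncomputable section

namespace Fermat.Agent.Top

open UpperHalfPlane hiding I
open ModularForm Filter Topology Fermat.Agent.ModFn Fermat.Agent.Support Polynomial
open ModularCurve IntermediateField Fermat.Agent.FF WithZero AlgebraicCurve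
open scoped MatrixGroups Manifold

variable {N : ℕ} [NeZero N]

/-! ### Cusps -/

theorem expW_jdN_order (δ : SL(2, ℤ)) :
    (kap N δ (jNF N)).order = -((Int.gcd (δ 1 0) N : ℤ) ^ 2) := by
  obtain ⟨φ, hφ, hord⟩ := exists_hasExp_jd_smul_order N δ
  rw [jNF, kap_toFC, expW_eq hφ, hord]

theorem jNF_ne_zero : jNF N ≠ 0 := fun h => by
  have := expW_jdN_order (N := N) 1
  rw [h, map_zero, HahnSeries.order_zero] at this
  have h1 : Int.gcd ((1 : SL(2, ℤ)) 1 0) N = N := by simp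
  rw [h1] at this
  have h2 := NeZero.ne N
  have h3 : (N : ℤ) ^ 2 = 0 := by omega
  rw [pow_eq_zero_iff two_ne_zero] at h3
  exact h2 (by exact_mod_cast h3)

theorem IsCuspPlace.dvd_gcd {δ : SL(2, ℤ)} {P : Place ℂ (FC N)} {e : ℕ}
    (h : IsCuspPlace δ P e) : (e : ℤ) ∣ (Int.gcd N ((δ 1 0) ^ 2) : ℤ) := by
  have h1 := h.2 (jF N) jF_ne_zero
  rw [order_kap_jF] at h1
  have h2 := h.2 (jNF N) jNF_ne_zero
  rw [expW_jdN_order] at h2
  have h3 : (e : ℤ) ∣ N := by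
    rw [← dvd_neg]; exact Dvd.intro _ h1.symm
  have h4 : (e : ℤ) ∣ (δ 1 0) ^ 2 := by
    have : (e : ℤ) ∣ (Int.gcd (δ 1 0) N : ℤ) ^ 2 := by
      rw [← dvd_neg]; exact Dvd.intro _ h2.symm
    exact this.trans (pow_dvd_pow_of_dvd (Int.gcd_dvd_left ..) 2)
  exact Int.dvd_coe_gcd h3 h4

/-- A nonzero expansion of a function invariant under `T ^ h` has order divisible by `N / h`. -/
theorem dvd_order_of_invariant {f : ℍ → ℂ} {φ : LaurentSeries ℂ} (hf : HasExp N f φ)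
    (hφ : φ ≠ 0) {h : ℤ} (hinv : ∀ z : ℍ, f ((ModularGroup.T ^ h : SL(2, ℤ)) • z) = f z) :
    (N : ℤ) ∣ h * φ.order := by
  have h1 := hf.translate h (g := f) (fun τ => by
    rw [← T_zpow_smul_eq_vadd]; exact (hinv τ).symm)
  have h2 := h1.unique hf
  have h3 := congrArg (fun ψ : LaurentSeries ℂ => ψ.coeff φ.order) h2
  simp only [twist_coeff] at h3
  have h4 : φ.coeff φ.order ≠ 0 := HahnSeries.coeff_order_eq_zero.not.mpr hφ
  have h5 := mul_right_cancel₀ h4 (h3.trans (one_mul _).symm)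
  rw [Units.val_eq_one, ← zpow_mul, zetaU_zpow_eq_one_iff] at h5
  exact h5

theorem IsCuspPlace.dvd_order {δ : SL(2, ℤ)} {P : Place ℂ (FC N)} {e : ℕ}
    (h : IsCuspPlace δ P e) {f : ℍ → ℂ} {φ : LaurentSeries ℂ} (hf : HasExp N f φ) (hφ : φ ≠ 0)
    (hinv : ∀ k : ℤ, (N : ℤ) ∣ (δ 1 0) ^ 2 * k →
      ∀ z : ℍ, f ((ModularGroup.T ^ k : SL(2, ℤ)) • z) = f z) :
    (e : ℤ) ∣ φ.order := by
  refine h.dvd_gcd.trans ?_
  obtain ⟨g, hg⟩ : ∃ g : ℕ, g = Int.gcd N ((δ 1 0) ^ 2) := ⟨_, rfl⟩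
  rw [← hg]
  have hN : (0 : ℤ) < N := by exact_mod_cast Nat.pos_of_neZero N
  have hgN : (g : ℤ) ∣ N := by rw [hg]; exact Int.gcd_dvd_left ..
  have hgc : (g : ℤ) ∣ (δ 1 0) ^ 2 := by rw [hg]; exact Int.gcd_dvd_right ..
  obtain ⟨k, hk⟩ := hgN
  obtain ⟨l, hl⟩ := hgc
  have h1 : (N : ℤ) ∣ (δ 1 0) ^ 2 * k := ⟨l, by rw [hl, hk]; ring⟩
  have h2 := dvd_order_of_invariant hf hφ (hinv k h1)
  have hk0 : k ≠ 0 := by
    rintro rfl
    rw [mul_zero] at hk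
    omega
  rw [hk, mul_comm (g : ℤ) k] at h2
  exact (mul_dvd_mul_iff_left hk0).mp h2

/-! ### Points -/

theorem denom_pow_eq_one {f : ℍ → ℂ} (hf : MDiff f) (hf0 : f ≠ 0) {γ : SL(2, ℤ)} {τ : ℍ}
    (hγ : γ • τ = τ) (hinv : ∀ z, f (γ • z) = f z) :
    ((γ 1 0 : ℂ) * τ + γ 1 1) ^ (2 * (ordAt f τ).toNat) = 1 := by
  set k := (ordAt f τ).toNat with hk
  have hden : ∀ z : ℍ, ((γ 1 0 : ℂ) * z + γ 1 1) ≠ 0 := fun z => by
    have := denom_ne_zero γ z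
    rwa [ModularGroup.denom_apply] at this
  have hord : analyticOrderAt (f ∘ ofComplex) (τ : ℂ) = k :=
    (ENat.natCast_toNat (ordAt_ne_top hf hf0 τ)).symm
  obtain ⟨g, hg, hg0, hfg⟩ := (analyticAt_of_mdiff hf τ).analyticOrderAt_eq_natCast.mp hord
  let m : ℂ → ℂ := fun z => ((γ 0 0 : ℂ) * z + γ 0 1) / ((γ 1 0 : ℂ) * z + γ 1 1)
  have hm : ∀ z : ℍ, m z = ((γ • z : ℍ) : ℂ) := fun z => by
    rw [UpperHalfPlane.coe_specialLinearGroup_apply]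
    rfl
  have hmτ : m τ = τ := by rw [hm, hγ]
  have hdet : ((γ 0 0 : ℂ) * γ 1 1 - γ 0 1 * γ 1 0) = 1 := by
    have h := γ.det_coe
    rw [Matrix.det_fin_two] at h
    exact_mod_cast congrArg (fun n : ℤ => (n : ℂ)) h
  let w : ℂ → ℂ := fun z => 1 / (((γ 1 0 : ℂ) * z + γ 1 1) * ((γ 1 0 : ℂ) * τ + γ 1 1))
  have hmc : ContinuousAt m τ := by
    have : AnalyticAt ℂ m τ := AnalyticAt.div (by fun_prop) (by fun_prop) (hden τ)
    exact this.continuousAt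
  have hmw : ∀ᶠ z in 𝓝 (τ : ℂ), m z - τ = (z - τ) * w z := by
    filter_upwards [(isOpen_lt continuous_const Complex.continuous_im).mem_nhds τ.im_pos]
      with z hz
    have h1 := hden ⟨z, hz⟩
    have h1' : ((γ 1 0 : ℂ) * z + γ 1 1) ≠ 0 := h1
    have h2 := hden τ
    have h3 : (τ : ℂ) = ((γ 0 0 : ℂ) * τ + γ 0 1) / ((γ 1 0 : ℂ) * τ + γ 1 1) := hmτ.symm
    have h4 : m z - τ = ((γ 0 0 : ℂ) * z + γ 0 1) / ((γ 1 0 : ℂ) * z + γ 1 1) -
        ((γ 0 0 : ℂ) * τ + γ 0 1) / ((γ 1 0 : ℂ) * τ + γ 1 1) := by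
      rw [← h3]
    rw [h4]
    simp only [w]
    rw [div_sub_div _ _ h1' h2, mul_one_div]
    congr 1
    linear_combination (z - τ) * hdet
  have hfm : ∀ᶠ z in 𝓝 (τ : ℂ), (f ∘ ofComplex) (m z) = (f ∘ ofComplex) z := by
    filter_upwards [(isOpen_lt continuous_const Complex.continuous_im).mem_nhds τ.im_pos]
      with z hz
    have hz' : z = ((⟨z, hz⟩ : ℍ) : ℂ) := rfl
    rw [hz', hm, Function.comp_apply, Function.comp_apply, ofComplex_apply, ofComplex_apply, hinv]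
  have hev : ∀ᶠ z in 𝓝[≠] (τ : ℂ), w z ^ k * g (m z) = g z := by
    have h1 : ∀ᶠ z in 𝓝 (τ : ℂ), (f ∘ ofComplex) (m z) = (m z - τ) ^ k • g (m z) := by
      have : Tendsto m (𝓝 (τ : ℂ)) (𝓝 (τ : ℂ)) := by
        have := hmc.tendsto
        rwa [hmτ] at this
      exact this.eventually hfg
    rw [eventually_nhdsWithin_iff]
    filter_upwards [hmw, hfm, hfg, h1] with z h2 h3 h4 h5 hz
    have hzτ : z - τ ≠ 0 := sub_ne_zero.mpr hz
    rw [h5, h2, h4, smul_eq_mul, smul_eq_mul, mul_pow, mul_assoc] at h3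
    exact mul_left_cancel₀ (pow_ne_zero k hzτ) h3
  have hgc : ContinuousAt g τ := hg.continuousAt
  have hwc : ContinuousAt w τ := by
    have : AnalyticAt ℂ w τ := AnalyticAt.div (by fun_prop) (by fun_prop)
      (mul_ne_zero (hden τ) (hden τ))
    exact this.continuousAt
  have hlim1 : Tendsto (fun z => w z ^ k * g (m z)) (𝓝[≠] (τ : ℂ)) (𝓝 (w τ ^ k * g τ)) := by
    have h1 : ContinuousAt (fun z => w z ^ k * g (m z)) τ := by
      refine (hwc.pow k).mul (ContinuousAt.comp ?_ hmc)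
      rw [hmτ]; exact hgc
    have h2 := h1.tendsto
    simp only [hmτ] at h2
    exact h2.mono_left nhdsWithin_le_nhds
  have hlim2 : Tendsto g (𝓝[≠] (τ : ℂ)) (𝓝 (g τ)) := hgc.tendsto.mono_left nhdsWithin_le_nhds
  have hfin : w τ ^ k * g τ = g τ := tendsto_nhds_unique (hlim1.congr' hev) hlim2
  have hw1 : w τ ^ k = 1 := mul_right_cancel₀ hg0 (hfin.trans (one_mul _).symm)
  have hw2 : w τ = (((γ 1 0 : ℂ) * τ + γ 1 1) ^ 2)⁻¹ := by
    simp only [w, one_div, pow_two]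
  rw [hw2, inv_pow, inv_eq_one, ← pow_mul] at hw1
  exact hw1

theorem fix_eq {γ : SL(2, ℤ)} {τ : ℍ} (hγ : γ • τ = τ) :
    (γ 1 0 : ℂ) * τ ^ 2 + ((γ 1 1 : ℂ) - γ 0 0) * τ - γ 0 1 = 0 := by
  have hden : ((γ 1 0 : ℂ) * τ + γ 1 1) ≠ 0 := by
    have := denom_ne_zero γ τ
    rwa [ModularGroup.denom_apply] at this
  have h1 : ((γ • τ : ℍ) : ℂ) = τ := by rw [hγ]
  rw [UpperHalfPlane.coe_specialLinearGroup_apply] at h1
  have h2 : ((γ 0 0 : ℂ) * τ + γ 0 1) / ((γ 1 0 : ℂ) * τ + γ 1 1) = τ := h1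
  rw [div_eq_iff hden] at h2
  linear_combination -h2

theorem eigen_eq {γ : SL(2, ℤ)} {τ : ℍ} (hγ : γ • τ = τ) :
    ((γ 1 0 : ℂ) * τ + γ 1 1) ^ 2 - ((γ 0 0 : ℂ) + γ 1 1) * ((γ 1 0 : ℂ) * τ + γ 1 1) + 1 = 0 := by
  have h1 := fix_eq hγ
  have hdet : ((γ 0 0 : ℂ) * γ 1 1 - γ 0 1 * γ 1 0) = 1 := by
    have h := γ.det_coe
    rw [Matrix.det_fin_two] at h
    exact_mod_cast congrArg (fun n : ℤ => (n : ℂ)) h
  linear_combination (γ 1 0 : ℂ) * h1 - hdet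

theorem two_dvd_of_trace_zero {f : ℍ → ℂ} (hf : MDiff f) (hf0 : f ≠ 0) {γ : SL(2, ℤ)} {τ : ℍ}
    (hγ : γ • τ = τ) (hinv : ∀ z, f (γ • z) = f z) (htr : γ 0 0 + γ 1 1 = 0) :
    (2 : ℤ) ∣ ordZ f τ := by
  have h1 := denom_pow_eq_one hf hf0 hγ hinv
  have h2 := eigen_eq hγ
  have h3 : (γ 0 0 : ℂ) + γ 1 1 = 0 := by exact_mod_cast congrArg (fun n : ℤ => (n : ℂ)) htr
  rw [h3, zero_mul, sub_zero] at h2
  have h4 : ((γ 1 0 : ℂ) * τ + γ 1 1) ^ 2 = -1 := eq_neg_of_add_eq_zero_left h2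
  rw [pow_mul, h4] at h1
  have h5 : Even (ordAt f τ).toNat := by
    by_contra hodd
    rw [Nat.not_even_iff_odd] at hodd
    rw [hodd.neg_one_pow] at h1
    norm_num at h1
  rw [ordZ]
  exact_mod_cast h5.two_dvd

theorem three_dvd_of_trace_one {f : ℍ → ℂ} (hf : MDiff f) (hf0 : f ≠ 0) {γ : SL(2, ℤ)} {τ : ℍ}
    (hγ : γ • τ = τ) (hinv : ∀ z, f (γ • z) = f z) (htr : γ 0 0 + γ 1 1 = 1) :
    (3 : ℤ) ∣ ordZ f τ := by
  have h1 := denom_pow_eq_one hf hf0 hγ hinv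
  have h2 := eigen_eq hγ
  have h3 : (γ 0 0 : ℂ) + γ 1 1 = 1 := by exact_mod_cast congrArg (fun n : ℤ => (n : ℂ)) htr
  rw [h3, one_mul] at h2
  set μ := ((γ 1 0 : ℂ) * τ + γ 1 1) with hμ
  have h4 : (μ ^ 2) ^ 3 = 1 := by
    have h5 : μ ^ 3 = -1 := by linear_combination (μ + 1) * h2
    rw [← pow_mul, mul_comm, pow_mul, h5]; norm_num
  have h6 : μ ^ 2 ≠ 1 := by
    intro h7
    have h8 : μ = 2 := by linear_combination h7 - h2
    rw [h8] at h7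
    norm_num at h7
  have h9 : orderOf (μ ^ 2) = 3 := by
    have hp : Fact (Nat.Prime 3) := ⟨Nat.prime_three⟩
    exact orderOf_eq_prime h4 h6
  rw [pow_mul] at h1
  have h10 := orderOf_dvd_of_pow_eq_one h1
  rw [h9] at h10
  rw [ordZ]
  exact_mod_cast h10

/-- An elliptic element fixing `τ`, when `N τ` is also elliptic with the same trace, is in
`Γ₀(N)`. -/
theorem mem_Gamma0_of_fix {γ γ' : SL(2, ℤ)} {τ τ' : ℍ} (hτ' : (τ' : ℂ) = N * τ)
    (hγ : γ • τ = τ) (hγ' : γ' • τ' = τ') (htr : γ 0 0 + γ 1 1 = γ' 0 0 + γ' 1 1)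
    (hell : (γ 0 0 + γ 1 1) ^ 2 - 4 ≠ 0) : γ ∈ CongruenceSubgroup.Gamma0 N := by
  have h1 := fix_eq hγ
  have h2 := fix_eq hγ'
  rw [hτ'] at h2
  obtain ⟨a, ha⟩ : ∃ a, a = γ 0 0 := ⟨_, rfl⟩
  obtain ⟨b, hb⟩ : ∃ b, b = γ 0 1 := ⟨_, rfl⟩
  obtain ⟨c, hc⟩ : ∃ c, c = γ 1 0 := ⟨_, rfl⟩
  obtain ⟨d, hd⟩ : ∃ d, d = γ 1 1 := ⟨_, rfl⟩
  obtain ⟨a', ha'⟩ : ∃ a, a = γ' 0 0 := ⟨_, rfl⟩
  obtain ⟨b', hb'⟩ : ∃ b, b = γ' 0 1 := ⟨_, rfl⟩
  obtain ⟨c', hc'⟩ : ∃ c, c = γ' 1 0 := ⟨_, rfl⟩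
  obtain ⟨d', hd'⟩ : ∃ d, d = γ' 1 1 := ⟨_, rfl⟩
  have hdet : a * d - b * c = 1 := by
    have h := γ.det_coe
    rw [Matrix.det_fin_two] at h
    rw [ha, hb, hc, hd]; exact h
  have hdet' : a' * d' - b' * c' = 1 := by
    have h := γ'.det_coe
    rw [Matrix.det_fin_two] at h
    rw [ha', hb', hc', hd']; exact h
  rw [← ha, ← hb, ← hc, ← hd] at h1
  rw [← ha', ← hb', ← hc', ← hd'] at h2
  rw [← ha, ← hd] at htr hell
  rw [← ha', ← hd'] at htr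
  -- eliminate `τ ^ 2`
  have h3 : (((c' * N ^ 2 * (d - a) - c * (N * (d' - a')) : ℤ) : ℂ)) * τ +
      ((c * b' - c' * N ^ 2 * b : ℤ) : ℂ) = 0 := by
    push_cast
    linear_combination (c' * N ^ 2 : ℂ) * h1 - (c : ℂ) * h2
  have h4 : (c' * N ^ 2 * (d - a) - c * (N * (d' - a')) : ℤ) = 0 := by
    have h5 := congrArg Complex.im h3
    have h6 := τ.im_pos
    have h7 : ((c' * N ^ 2 * (d - a) - c * (N * (d' - a')) : ℤ) : ℝ) * τ.im = 0 := by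
      rw [← Complex.ofReal_intCast, ← Complex.ofReal_intCast, Complex.add_im, Complex.im_ofReal_mul,
        Complex.ofReal_im, add_zero, Complex.zero_im] at h5
      exact h5
    rcases mul_eq_zero.mp h7 with h8 | h8
    · exact_mod_cast h8
    · exact absurd h8 h6.ne'
  have h5 : (c * b' - c' * N ^ 2 * b : ℤ) = 0 := by
    rw [h4, Int.cast_zero, zero_mul, zero_add] at h3
    exact_mod_cast h3
  -- discriminants
  have h6 : (c' * N ^ 2) ^ 2 * ((a + d) ^ 2 - 4) = (c * N) ^ 2 * ((a + d) ^ 2 - 4) := by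
    have e1 : (a + d) ^ 2 - 4 = (d - a) ^ 2 + 4 * b * c := by linear_combination 4 * hdet
    have e2 : (a + d) ^ 2 - 4 = (d' - a') ^ 2 + 4 * b' * c' := by
      rw [htr]; linear_combination 4 * hdet'
    calc (c' * N ^ 2) ^ 2 * ((a + d) ^ 2 - 4)
        = (c' * N ^ 2 * (d - a)) ^ 2 + 4 * (c' * N ^ 2 * b) * (c' * N ^ 2) * c := by rw [e1]; ring
      _ = (c * (N * (d' - a'))) ^ 2 + 4 * (c * b') * (c' * N ^ 2) * c := by
        rw [show c' * N ^ 2 * (d - a) = c * (N * (d' - a')) by linarith,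
          show c' * N ^ 2 * b = c * b' by linarith]
      _ = (c * N) ^ 2 * ((a + d) ^ 2 - 4) := by rw [e2]; ring
  have h7 := mul_right_cancel₀ hell h6
  have hN : (N : ℤ) ≠ 0 := by exact_mod_cast NeZero.ne N
  have h8 : c ^ 2 = (c' * N) ^ 2 := by
    have : (N : ℤ) ^ 2 * c ^ 2 = (N : ℤ) ^ 2 * (c' * N) ^ 2 := by linear_combination -h7
    exact mul_left_cancel₀ (pow_ne_zero 2 hN) this
  have h9 : (N : ℤ) ∣ c := by
    rw [← Int.pow_dvd_pow_iff two_ne_zero, h8, mul_pow]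
    exact Dvd.intro_left _ rfl
  rw [CongruenceSubgroup.Gamma0_mem, ZMod.intCast_zmod_eq_zero_iff_dvd, ← hc]
  exact h9

theorem ordAt_comp_diag {f : ℍ → ℂ} (τ : ℍ) :
    ordAt (fun z => f (act !![(N : ℤ), 0; 0, 1] z)) τ = ordAt f (act !![(N : ℤ), 0; 0, 1] τ) := by
  let g : ℂ → ℂ := fun z => (N : ℂ) * z
  have hg : ∀ z : ℍ, g z = ((act !![(N : ℤ), 0; 0, 1] z : ℍ) : ℂ) := fun z =>
    (coe_act_diag N z).symm
  have hgd : HasDerivAt g (N : ℂ) τ := by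
    simpa using (hasDerivAt_id (τ : ℂ)).const_mul (N : ℂ)
  have hgan : AnalyticAt ℂ g τ := by fun_prop
  have h1 : ((fun z => f (act !![(N : ℤ), 0; 0, 1] z)) ∘ ofComplex) =ᶠ[𝓝 (τ : ℂ)]
      ((f ∘ ofComplex) ∘ g) := by
    filter_upwards [(isOpen_lt continuous_const Complex.continuous_im).mem_nhds τ.im_pos]
      with z hz
    have hz' : z = ((⟨z, hz⟩ : ℍ) : ℂ) := rfl
    simp only [Function.comp_apply]
    rw [hz', hg, ofComplex_apply, ofComplex_apply]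
  rw [ordAt, ordAt, analyticOrderAt_congr h1,
    analyticOrderAt_comp_of_deriv_ne_zero hgan, hg]
  rw [hgd.deriv]
  exact Nat.cast_ne_zero.mpr (NeZero.ne N)

theorem conj_smul_fix {g δ : SL(2, ℤ)} {τ : ℍ} (h : g • τ = τ) :
    (δ * g * δ⁻¹) • (δ • τ) = δ • τ := by
  rw [mul_smul, mul_smul, inv_smul_smul, h]

theorem trace_conj (g δ : SL(2, ℤ)) :
    (δ * g * δ⁻¹ : SL(2, ℤ)) 0 0 + (δ * g * δ⁻¹ : SL(2, ℤ)) 1 1 = g 0 0 + g 1 1 := by
  have h1 : ((δ * g * δ⁻¹ : SL(2, ℤ)) : Matrix (Fin 2) (Fin 2) ℤ).trace =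
      (g : Matrix (Fin 2) (Fin 2) ℤ).trace := by
    rw [Matrix.SpecialLinearGroup.coe_mul, Matrix.trace_mul_comm,
      ← Matrix.SpecialLinearGroup.coe_mul, ← mul_assoc, inv_mul_cancel, one_mul]
  rw [Matrix.trace_fin_two, Matrix.trace_fin_two] at h1
  exact h1

theorem exists_fix_trace_one {τ : ℍ} (h : jH τ = 0) :
    ∃ γ : SL(2, ℤ), γ • τ = τ ∧ γ 0 0 + γ 1 1 = 1 := by
  obtain ⟨δ, rfl⟩ := jH_eq_iff.mp (h.trans jH_rhoH.symm)
  refine ⟨δ * (ModularGroup.S * ModularGroup.T) * δ⁻¹, conj_smul_fix ST_smul_rhoH, ?_⟩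
  rw [trace_conj]
  simp [ModularGroup.coe_S, ModularGroup.coe_T, Matrix.SpecialLinearGroup.coe_mul]

theorem exists_fix_trace_zero {τ : ℍ} (h : jH τ = 1728) :
    ∃ γ : SL(2, ℤ), γ • τ = τ ∧ γ 0 0 + γ 1 1 = 0 := by
  obtain ⟨δ, rfl⟩ := jH_eq_iff.mp (h.trans jH_I.symm)
  refine ⟨δ * ModularGroup.S * δ⁻¹, conj_smul_fix S_smul_I, ?_⟩
  rw [trace_conj]
  simp [ModularGroup.coe_S]

theorem ordZ_jSub (τ : ℍ) : ordZ (jSub N (jH τ)).1 τ =
    if jH τ = 0 then 3 else if jH τ = 1728 then 2 else 1 := by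
  rw [coe_jSub, ordZ, ordAt_jH_sub]
  split_ifs <;> rfl

/-- `j_N - a` as an element of `W_N` -/
def jNSub (N : ℕ) [NeZero N] (a : ℂ) : WN N := ⟨jd N, jdN_mem_WN N⟩ - algebraMap ℂ (WN N) a

theorem ordZ_jNSub (τ : ℍ) : ordZ (jNSub N (jd N τ)).1 τ =
    if jd N τ = 0 then 3 else if jd N τ = 1728 then 2 else 1 := by
  have h1 : (jNSub N (jd N τ)).1 = fun z => (fun y => jH y - jH (act !![(N : ℤ), 0; 0, 1] τ))
      (act !![(N : ℤ), 0; 0, 1] z) := rfl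
  have h2 := ordAt_comp_diag (N := N) (f := fun y => jH y - jH (act !![(N : ℤ), 0; 0, 1] τ)) τ
  rw [h1, ordZ, h2, ordAt_jH_sub, jd]
  split_ifs <;> rfl

theorem jNSub_ne_zero (τ : ℍ) : jNSub N (jd N τ) ≠ 0 := by
  intro h
  have h1 := ordZ_jNSub (N := N) τ
  rw [h] at h1
  have h2 : ordZ (0 : WN N).1 τ = 0 := by
    have : ordAt (0 : WN N).1 τ = ⊤ := (ordAt_eq_top (WN.mdiff 0) τ).mpr rfl
    rw [ordZ, this]; rfl
  rw [h2] at h1
  split_ifs at h1 <;> omega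

/-- **Divisibility by the ramification index at a point.** -/
theorem IsPtPlace.dvd_ordZ {τ : ℍ} {P : Place ℂ (FC N)} {e : ℕ} (h : IsPtPlace τ P e)
    {f : ℍ → ℂ} (hf : MDiff f) (hf0 : f ≠ 0)
    (hinv : ∀ γ ∈ CongruenceSubgroup.Gamma0 N, γ • τ = τ → ∀ z, f (γ • z) = f z) :
    (e : ℤ) ∣ ordZ f τ := by
  have h1 : (e : ℤ) ∣ ordZ (jSub N (jH τ)).1 τ := ⟨_, h.2 _ (jSub_ne_zero _)⟩
  have h2 : (e : ℤ) ∣ ordZ (jNSub N (jd N τ)).1 τ := ⟨_, h.2 _ (jNSub_ne_zero _)⟩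
  rw [ordZ_jSub] at h1
  rw [ordZ_jNSub] at h2
  have hone : (e : ℤ) ∣ 1 → (e : ℤ) ∣ ordZ f τ := fun h => h.trans (one_dvd _)
  by_cases a0 : jH τ = 0
  · rw [if_pos a0] at h1
    by_cases b0 : jd N τ = 0
    · obtain ⟨γ, hγ, htr⟩ := exists_fix_trace_one a0
      obtain ⟨γ', hγ', htr'⟩ := exists_fix_trace_one b0
      have hmem : γ ∈ CongruenceSubgroup.Gamma0 N := mem_Gamma0_of_fix (coe_act_diag N τ) hγ hγ'
        (by rw [htr, htr']) (by rw [htr]; norm_num)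
      exact h1.trans (three_dvd_of_trace_one hf hf0 hγ (hinv γ hmem hγ) htr)
    · rw [if_neg b0] at h2
      apply hone
      split_ifs at h2
      · have := dvd_sub h1 h2
        norm_num at this
        exact this
      · exact h2
  · rw [if_neg a0] at h1
    by_cases a1 : jH τ = 1728
    · rw [if_pos a1] at h1
      by_cases b1 : jd N τ = 1728
      · obtain ⟨γ, hγ, htr⟩ := exists_fix_trace_zero a1
        obtain ⟨γ', hγ', htr'⟩ := exists_fix_trace_zero b1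
        have hmem : γ ∈ CongruenceSubgroup.Gamma0 N := mem_Gamma0_of_fix (coe_act_diag N τ) hγ hγ'
          (by rw [htr, htr']) (by rw [htr]; norm_num)
        exact h1.trans (two_dvd_of_trace_zero hf hf0 hγ (hinv γ hmem hγ) htr)
      · rw [if_neg b1] at h2
        apply hone
        split_ifs at h2
        · have := dvd_sub h2 h1
          norm_num at this
          exact this
        · exact h2
    · rw [if_neg a1] at h1
      exact hone h1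

end Fermat.Agent.Top
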