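import Mathlib
import Fermat.Prelude.Def_AlgebraicCurve_DivisorClassGroup
import Fermat.Agent.FF.FnField

/-!
# The Kummer group of a function field

`kummerSubgroup K F m` : units `u` of `F` whose divisor is divisible by `m`.
`KummerGroup K F m` : its quotient by `m`-th powers.
-/

set_option autoImplicit false

open AlgebraicCurve

namespace Fermat.Agent.Top

variable (K F : Type*) [Field K] [Field F] [Algebra K F]

/-- Units whose divisor is divisible by `m`. -/
def kummerSubgroup (m : ℕ) : Subgroup Fˣ where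
  carrier := {u | ∀ v : Place K F, (m : ℤ) ∣ v.ord (u : F)}
  one_mem' v := by simp
  mul_mem' {a b} ha hb v := by
    rw [Units.val_mul, v.ord_mul a.ne_zero b.ne_zero]
    exact dvd_add (ha v) (hb v)
  inv_mem' {a} ha v := by
    rw [Units.val_inv_eq_inv_val, v.ord_inv]
    exact (dvd_neg).2 (ha v)

variable {K F} in
theorem mem_kummerSubgroup {m : ℕ} {u : Fˣ} :
    u ∈ kummerSubgroup K F m ↔ ∀ v : Place K F, (m : ℤ) ∣ v.ord (u : F) := Iff.rfl

/-- `m`-th powers inside the units. -/
def powSubgroup (m : ℕ) : Subgroup Fˣ := (powMonoidHom m : Fˣ →* Fˣ).range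

variable {F} in
theorem mem_powSubgroup {m : ℕ} {u : Fˣ} : u ∈ powSubgroup F m ↔ ∃ g : Fˣ, g ^ m = u := Iff.rfl

theorem powSubgroup_le (m : ℕ) : powSubgroup F m ≤ kummerSubgroup K F m := by
  rintro _ ⟨g, rfl⟩ v
  refine ⟨v.ord (g : F), ?_⟩
  simp only [powMonoidHom_apply, Units.val_pow_eq_pow_val]
  exact Fermat.Agent.FF.ord_pow v (g : F) m

/-- The Kummer group `{u : m ∣ div u} / (Fˣ)^m`. -/
abbrev KummerGroup (m : ℕ) : Type _ :=
  kummerSubgroup K F m ⧸ (powSubgroup F m).subgroupOf (kummerSubgroup K F m)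

end Fermat.Agent.Top
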