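import Mathlib

/-!
# Holomorphic `m`-th roots on the upper half plane

If `f` is holomorphic on the upper half plane, not identically zero, and all its orders of
vanishing are divisible by `m`, then `f` is the `m`-th power of a holomorphic function.
-/

set_option autoImplicit false

noncomputable section

namespace Fermat.Agent.Top

open Complex Metric Set Filter Topology

theorem exists_log_ball {g : ℂ → ℂ} {c : ℂ} {R : ℝ} (hg : DifferentiableOn ℂ g (ball c R))
    (hne : ∀ z ∈ ball c R, g z ≠ 0) :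
    ∃ F : ℂ → ℂ, DifferentiableOn ℂ F (ball c R) ∧ ∀ z ∈ ball c R, Complex.exp (F z) = g z := by
  rcases le_or_gt R 0 with hR | hR
  · exact ⟨0, by simp [ball_eq_empty.mpr hR], by simp [ball_eq_empty.mpr hR]⟩
  have hd : DifferentiableOn ℂ (fun z => deriv g z / g z) (ball c R) :=
    (hg.deriv isOpen_ball).div hg hne
  obtain ⟨F, hFc, hF⟩ := hd.isExactOn_ball.with_val_at c (Complex.log (g c))
  have hFd : DifferentiableOn ℂ F (ball c R) := fun z hz =>
    (hF z hz).differentiableAt.differentiableWithinAt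
  refine ⟨F, hFd, fun z hz => ?_⟩
  have hcR : c ∈ ball c R := mem_ball_self hR
  -- g * exp (-F) is constant
  have hk : ∀ z ∈ ball c R, HasDerivAt (fun z => g z * Complex.exp (-F z)) 0 z := by
    intro z hz
    have h1 : HasDerivAt g (deriv g z) z :=
      (hg.differentiableAt (isOpen_ball.mem_nhds hz)).hasDerivAt
    have h2 := h1.mul ((hF z hz).neg.cexp)
    refine h2.congr_deriv ?_
    have h3 : deriv g z / g z * g z = deriv g z := div_mul_cancel₀ _ (hne z hz)
    simp only [Pi.neg_apply]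
    linear_combination (-Complex.exp (-F z)) * h3
  have hconst := (convex_ball c R).is_const_of_fderivWithin_eq_zero (𝕜 := ℂ)
    (f := fun z => g z * Complex.exp (-F z))
    (fun z hz => (hk z hz).differentiableAt.differentiableWithinAt) (fun z hz => by
      rw [fderivWithin_of_isOpen isOpen_ball hz]
      exact (hk z hz).hasFDerivAt.fderiv.trans (by ext; simp)) hz hcR
  simp only [hFc] at hconst
  rw [Complex.exp_neg, Complex.exp_neg, Complex.exp_log (hne c hcR),
    mul_inv_cancel₀ (hne c hcR)] at hconst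
  exact ((mul_inv_eq_one₀ (Complex.exp_ne_zero _)).mp hconst).symm

theorem exists_root_ball {f : ℂ → ℂ} {c : ℂ} {R : ℝ} {m : ℕ} (hm : m ≠ 0)
    (hf : AnalyticOnNhd ℂ f (closedBall c R))
    (hord : ∀ z ∈ closedBall c R, ∃ k : ℕ, analyticOrderAt f z = ((m * k : ℕ) : ℕ∞)) :
    ∃ V : ℂ → ℂ, DifferentiableOn ℂ V (ball c R) ∧ ∀ z ∈ ball c R, V z ^ m = f z := by
  have hmer : MeromorphicOn f (closedBall c R) := hf.meromorphicOn
  have hordm : ∀ z ∈ closedBall c R, ∃ k : ℕ, meromorphicOrderAt f z = ((m * k : ℕ) : ℤ) := by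
    intro z hz
    obtain ⟨k, hk⟩ := hord z hz
    exact ⟨k, by rw [(hf z hz).meromorphicOrderAt_eq, hk]; rfl⟩
  have hnetop : ∀ u : closedBall c R, meromorphicOrderAt f u ≠ ⊤ := by
    intro u
    obtain ⟨k, hk⟩ := hordm u u.2
    rw [hk]; exact WithTop.coe_ne_top
  have hfin : (MeromorphicOn.divisor f (closedBall c R)).support.Finite :=
    (MeromorphicOn.divisor f (closedBall c R)).finiteSupport (isCompact_closedBall c R)
  obtain ⟨g, hg, hgne, hfg⟩ := hmer.extract_zeros_poles hnetop hfin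
  set D := MeromorphicOn.divisor f (closedBall c R) with hDdef
  have hD : ∀ z, ∃ k : ℕ, D z = ((m * k : ℕ) : ℤ) := by
    intro z
    by_cases hz : z ∈ closedBall c R
    · obtain ⟨k, hk⟩ := hordm z hz
      refine ⟨k, ?_⟩
      rw [hDdef, MeromorphicOn.divisor_apply hmer hz, hk]
      rfl
    · exact ⟨0, by simpa using Function.locallyFinsuppWithin.apply_eq_zero_of_notMem D hz⟩
  choose k hk using hD
  have hksupp : (Function.support fun z => (k z : ℤ)) ⊆ D.support := by
    intro z hz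
    simp only [Function.mem_support, ne_eq] at hz ⊢
    rw [hk z]
    push_cast
    exact mul_ne_zero (by exact_mod_cast hm) (by exact_mod_cast hz)
  have hkfin : (Function.support fun z => (k z : ℤ)).Finite := hfin.subset hksupp
  set P : ℂ → ℂ := ∏ᶠ u, (· - u) ^ (D u) with hP
  set Q : ℂ → ℂ := ∏ᶠ u, (· - u) ^ ((k u : ℤ)) with hQ
  have hQP : Q ^ m = P := by
    rw [hQ, hP, finprod_pow]
    · refine finprod_congr fun u => ?_
      rw [hk u]
      funext x
      simp only [Pi.pow_apply]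
      rw [← zpow_natCast, ← zpow_mul]
      push_cast
      ring_nf
    · have := Function.FactorizedRational.mulSupport (fun z => (k z : ℤ))
      rw [Function.HasFiniteMulSupport]
      exact hkfin.subset this.le
  have hPan : ∀ z, AnalyticAt ℂ P z := fun z =>
    Function.FactorizedRational.analyticAt (by rw [hk z]; exact Int.natCast_nonneg _)
  have hQan : ∀ z, AnalyticAt ℂ Q z := fun z =>
    Function.FactorizedRational.analyticAt (Int.natCast_nonneg _)
  have hfPg : ∀ z ∈ ball c R, f z = P z * g z := by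
    intro z hz
    have hz' := ball_subset_closedBall hz
    have h1 : ContinuousAt f z := (hf z hz').continuousAt
    have h2 : ContinuousAt (P • g) z := ((hPan z).smul (hg z hz')).continuousAt
    have h3 : ∀ᶠ y in 𝓝[≠] z, f y = (P • g) y := by
      have h4 := mem_codiscreteWithin_iff_forall_mem_nhdsNE.mp hfg z hz'
      have h5 : closedBall c R ∈ 𝓝[≠] z :=
        nhdsWithin_le_nhds (mem_of_superset (isOpen_ball.mem_nhds hz) ball_subset_closedBall)
      filter_upwards [h4, h5] with y hy hy'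
      rcases hy with hy | hy
      · exact hy
      · exact absurd hy' hy
    have h6 := (h1.eventuallyEq_nhds_iff_eventuallyEq_nhdsNE h2).mp h3
    exact h6.eq_of_nhds
  have hgd : DifferentiableOn ℂ g (ball c R) := fun z hz =>
    (hg z (ball_subset_closedBall hz)).differentiableAt.differentiableWithinAt
  obtain ⟨F, hF, hFg⟩ := exists_log_ball hgd fun z hz => hgne ⟨z, ball_subset_closedBall hz⟩
  refine ⟨fun z => Q z * Complex.exp (F z / m), ?_, fun z hz => ?_⟩
  · exact DifferentiableOn.mul (fun z _ => (hQan z).differentiableAt.differentiableWithinAt)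
      (hF.div_const _).cexp
  · rw [mul_pow, ← Complex.exp_nat_mul, mul_div_cancel₀ _ (by exact_mod_cast hm), hFg z hz,
      hfPg z hz, ← hQP]
    rfl

/-- Two holomorphic functions on a connected open set with the same `m`-th power and the same
nonzero value at a point agree. -/
theorem eqOn_of_pow_eq {U : Set ℂ} (hU : IsOpen U) (hpre : IsPreconnected U) {m : ℕ} (hm : m ≠ 0)
    {V W : ℂ → ℂ} (hV : DifferentiableOn ℂ V U) (hW : DifferentiableOn ℂ W U)
    (hpow : ∀ z ∈ U, V z ^ m = W z ^ m) {b : ℂ} (hb : b ∈ U) (hVb : V b = W b)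
    (hne : W b ≠ 0) : EqOn V W U := by
  have hVc : ContinuousAt V b := hV.continuousOn.continuousAt (hU.mem_nhds hb)
  have hWc : ContinuousAt W b := hW.continuousOn.continuousAt (hU.mem_nhds hb)
  have hWne : ∀ᶠ z in 𝓝 b, W z ≠ 0 := hWc.eventually_ne hne
  have hq : ContinuousAt (fun z => V z / W z) b := hVc.div hWc hne
  have hq1 : (fun z => V z / W z) b = 1 := by
    simp only [hVb]; exact div_self hne
  have hfin : {ζ : ℂ | ζ ^ m = 1}.Finite := by
    have : {ζ : ℂ | ζ ^ m = 1} ⊆ (Polynomial.nthRoots m (1 : ℂ)).toFinset := by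
      intro ζ hζ
      simpa [Polynomial.mem_nthRoots (Nat.pos_of_ne_zero hm)] using hζ
    exact (Finset.finite_toSet _).subset this
  have hcl : IsClosed ({ζ : ℂ | ζ ^ m = 1} \ {1}) := (hfin.subset sdiff_subset).isClosed
  have hev : ∀ᶠ z in 𝓝 b, V z / W z ∉ ({ζ : ℂ | ζ ^ m = 1} \ {1}) := by
    have h0 : ({ζ : ℂ | ζ ^ m = 1} \ {1})ᶜ ∈ 𝓝 ((fun z => V z / W z) b) := by
      apply hcl.isOpen_compl.mem_nhds
      rw [hq1]
      simp
    exact hq.eventually h0
  have heq : V =ᶠ[𝓝 b] W := by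
    filter_upwards [hev, hWne, hU.mem_nhds hb] with z h1 h2 h3
    have h4 : (V z / W z) ^ m = 1 := by
      rw [div_pow, hpow z h3, div_self (pow_ne_zero _ h2)]
    have h5 : V z / W z = 1 := by
      by_contra h6
      exact h1 ⟨h4, h6⟩
    exact (div_eq_one_iff_eq h2).mp h5
  exact (hV.analyticOnNhd hU).eqOn_of_preconnected_of_eventuallyEq (hW.analyticOnNhd hU) hpre hb heq

theorem exists_root_of_exhaustion {B : ℕ → Set ℂ} (hB : ∀ n, IsOpen (B n))
    (hpre : ∀ n, IsPreconnected (B n)) (hmono : Monotone B) {m : ℕ} (hm : m ≠ 0) {f : ℂ → ℂ}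
    (hf0 : ∃ b ∈ ⋃ n, B n, f b ≠ 0)
    (hroot : ∀ n, ∃ V : ℂ → ℂ, DifferentiableOn ℂ V (B n) ∧ ∀ z ∈ B n, V z ^ m = f z) :
    ∃ V : ℂ → ℂ, DifferentiableOn ℂ V (⋃ n, B n) ∧ ∀ z ∈ ⋃ n, B n, V z ^ m = f z := by
  obtain ⟨b, hb, hfb⟩ := hf0
  obtain ⟨n0, hn0⟩ := mem_iUnion.mp hb
  obtain ⟨v0, hv0⟩ : ∃ v0 : ℂ, v0 ^ m = f b :=
    IsAlgClosed.exists_pow_nat_eq (f b) (Nat.pos_of_ne_zero hm)
  have hv0ne : v0 ≠ 0 := fun h => hfb (by rw [← hv0, h, zero_pow hm])
  have hbB : ∀ n, b ∈ B (n0 + n) := fun n => hmono (Nat.le_add_right _ _) hn0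
  have h1 : ∀ n, ∃ V : ℂ → ℂ, DifferentiableOn ℂ V (B (n0 + n)) ∧
      (∀ z ∈ B (n0 + n), V z ^ m = f z) ∧ V b = v0 := by
    intro n
    obtain ⟨V, hV, hVf⟩ := hroot (n0 + n)
    have hVb : V b ≠ 0 := fun h => hfb (by rw [← hVf b (hbB n), h, zero_pow hm])
    refine ⟨fun z => v0 / V b * V z, hV.const_mul _, fun z hz => ?_, ?_⟩
    · rw [mul_pow, div_pow, hVf z hz, hVf b (hbB n), hv0, div_self hfb, one_mul]
    · exact div_mul_cancel₀ _ hVb
  choose V hV hVf hVb using h1
  have hcompat : ∀ {n n' : ℕ}, n ≤ n' → EqOn (V n') (V n) (B (n0 + n)) := by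
    intro n n' hnn
    have hsub : B (n0 + n) ⊆ B (n0 + n') := hmono (by omega)
    refine eqOn_of_pow_eq (hB _) (hpre _) hm ((hV n').mono hsub) (hV n) (fun z hz => ?_) (hbB n)
      ((hVb n').trans (hVb n).symm) ?_
    · rw [hVf n' z (hsub hz), hVf n z hz]
    · rw [hVb n]; exact hv0ne
  have hcompat' : ∀ {n n' : ℕ} {z : ℂ}, z ∈ B (n0 + n) → z ∈ B (n0 + n') → V n z = V n' z := by
    intro n n' z hz hz'
    rcases le_total n n' with h | h
    · exact (hcompat h hz).symm
    · exact hcompat h hz'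
  have hcov : ∀ z ∈ ⋃ n, B n, ∃ n, z ∈ B (n0 + n) := by
    intro z hz
    obtain ⟨n, hn⟩ := mem_iUnion.mp hz
    exact ⟨n, hmono (by omega) hn⟩
  classical
  let W : ℂ → ℂ := fun z => if h : ∃ n, z ∈ B (n0 + n) then V h.choose z else 0
  have hW : ∀ n, EqOn W (V n) (B (n0 + n)) := by
    intro n z hz
    have h : ∃ n, z ∈ B (n0 + n) := ⟨n, hz⟩
    simp only [W]
    rw [dif_pos h]
    exact hcompat' h.choose_spec hz
  refine ⟨W, fun z hz => ?_, fun z hz => ?_⟩
  · obtain ⟨n, hn⟩ := hcov z hz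
    have h2 : DifferentiableAt ℂ (V n) z := (hV n).differentiableAt ((hB _).mem_nhds hn)
    have h3 : W =ᶠ[𝓝 z] V n := by
      filter_upwards [(hB _).mem_nhds hn] with y hy using hW n hy
    exact (h3.differentiableAt_iff.mpr h2).differentiableWithinAt
  · obtain ⟨n, hn⟩ := hcov z hz
    rw [hW n hn, hVf n z hn]

/-- exhausting discs of the upper half plane -/
def exDisc (n : ℕ) : Set ℂ := ball ((n + 1 : ℝ) * Complex.I) ((n + 1 : ℝ) - 1 / (n + 1 : ℝ))

theorem mem_exDisc {n : ℕ} {z : ℂ} :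
    z ∈ exDisc n ↔ z.re ^ 2 + (z.im - (n + 1)) ^ 2 < ((n + 1 : ℝ) - 1 / (n + 1 : ℝ)) ^ 2 ∧
      0 < ((n + 1 : ℝ) - 1 / (n + 1 : ℝ)) := by
  rw [exDisc, mem_ball, Complex.dist_eq_re_im]
  have h1 : (((n : ℝ) + 1 : ℝ) * Complex.I).re = 0 := by simp
  have h2 : (((n : ℝ) + 1 : ℝ) * Complex.I).im = n + 1 := by simp
  constructor
  · intro h
    have hpos : 0 < ((n + 1 : ℝ) - 1 / (n + 1 : ℝ)) := (Real.sqrt_nonneg _).trans_lt (by exact_mod_cast h)
    refine ⟨?_, hpos⟩
    rw [Real.sqrt_lt' (by exact_mod_cast hpos)] at h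
    simpa using h
  · rintro ⟨h, hpos⟩
    rw [Real.sqrt_lt' (by exact_mod_cast hpos)]
    simpa using h

theorem closedBall_subset_upper (n : ℕ) :
    closedBall ((n + 1 : ℝ) * Complex.I : ℂ) ((n + 1 : ℝ) - 1 / (n + 1 : ℝ)) ⊆ {z | 0 < z.im} := by
  intro z hz
  rw [mem_closedBall, Complex.dist_eq] at hz
  have h1 := (Complex.abs_im_le_norm (z - ((n + 1 : ℝ) * Complex.I : ℂ))).trans hz
  have h2 : (z - ((n + 1 : ℝ) * Complex.I : ℂ)).im = z.im - (n + 1) := by simp
  rw [h2] at h1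
  have h3 := (abs_le.mp h1).1
  have h4 : 0 < 1 / (n + 1 : ℝ) := by positivity
  simp only [mem_ofPred_eq]
  linarith

theorem exDisc_mono : Monotone exDisc := by
  refine monotone_nat_of_le_succ fun n => ?_
  rw [exDisc, exDisc]
  apply ball_subset_ball'
  have h1 : dist (((n + 1 : ℝ) : ℂ) * Complex.I) ((((n + 1 : ℕ) + 1 : ℝ) : ℂ) * Complex.I) = 1 := by
    rw [Complex.dist_eq, ← sub_mul, norm_mul, Complex.norm_I, mul_one]
    push_cast
    ring_nf
    simp
  have h2 : 1 / (((n + 1 : ℕ) : ℝ) + 1) ≤ 1 / ((n : ℝ) + 1) := by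
    apply one_div_le_one_div_of_le (by positivity)
    push_cast
    linarith
  have h3 : (n + 1 : ℝ) - 1 / (n + 1 : ℝ) + dist (((n + 1 : ℝ) : ℂ) * Complex.I)
      ((((n + 1 : ℕ) + 1 : ℝ) : ℂ) * Complex.I) ≤ (((n + 1 : ℕ) : ℝ) + 1) - 1 / (((n + 1 : ℕ) : ℝ) + 1) := by
    rw [h1]
    push_cast at h2 ⊢
    linarith
  exact h3

theorem iUnion_exDisc : ⋃ n, exDisc n = {z : ℂ | 0 < z.im} := by
  apply Subset.antisymm
  · apply iUnion_subset
    intro n
    exact ball_subset_closedBall.trans (closedBall_subset_upper n)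
  · intro z hz
    rw [mem_ofPred_eq] at hz
    obtain ⟨n, hn⟩ := exists_nat_gt ((z.re ^ 2 + z.im ^ 2 + 2) / (2 * z.im) + 1)
    refine mem_iUnion.mpr ⟨n, mem_exDisc.mpr ⟨?_, ?_⟩⟩
    · have h1 : (z.re ^ 2 + z.im ^ 2 + 2) < 2 * z.im * (n + 1) := by
        have : (z.re ^ 2 + z.im ^ 2 + 2) / (2 * z.im) < n + 1 := by linarith
        rw [div_lt_iff₀ (by positivity)] at this
        linarith
      have h2 : ((n + 1 : ℝ) - 1 / (n + 1 : ℝ)) ^ 2 = (n + 1) ^ 2 - 2 + (1 / (n + 1 : ℝ)) ^ 2 := by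
        have : (n + 1 : ℝ) ≠ 0 := by positivity
        field_simp
        ring
      rw [h2]
      have h3 : 0 ≤ (1 / (n + 1 : ℝ)) ^ 2 := by positivity
      nlinarith
    · have h0 : (0 : ℝ) < n := by
        have : 0 ≤ (z.re ^ 2 + z.im ^ 2 + 2) / (2 * z.im) := by positivity
        linarith
      have h4 : 1 / (n + 1 : ℝ) < 1 := by
        rw [div_lt_one (by positivity)]; linarith
      linarith

/-- **`m`-th roots on the upper half plane.** -/
theorem exists_root_upper {f : ℂ → ℂ} {m : ℕ} (hm : m ≠ 0)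
    (hf : DifferentiableOn ℂ f {z | 0 < z.im}) (hf0 : ∃ z, 0 < z.im ∧ f z ≠ 0)
    (hord : ∀ z : ℂ, 0 < z.im → ∀ k : ℕ, analyticOrderAt f z = k → m ∣ k) :
    ∃ V : ℂ → ℂ, DifferentiableOn ℂ V {z | 0 < z.im} ∧ ∀ z, 0 < z.im → V z ^ m = f z := by
  have hopen : IsOpen {z : ℂ | 0 < z.im} := isOpen_lt continuous_const Complex.continuous_im
  have hpre : IsPreconnected {z : ℂ | 0 < z.im} := (convex_halfSpace_im_gt 0).isPreconnected
  have hfan : AnalyticOnNhd ℂ f {z | 0 < z.im} := hf.analyticOnNhd hopen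
  obtain ⟨b, hb, hfb⟩ := hf0
  have hnetop : ∀ z : ℂ, 0 < z.im → analyticOrderAt f z ≠ ⊤ := by
    intro z hz htop
    rw [analyticOrderAt_eq_top] at htop
    exact hfb (hfan.eqOn_zero_of_preconnected_of_eventuallyEq_zero hpre hz htop hb)
  have := exists_root_of_exhaustion (B := exDisc) (fun n => isOpen_ball)
    (fun n => (convex_ball _ _).isPreconnected) exDisc_mono hm (f := f)
    ⟨b, by rw [iUnion_exDisc]; exact hb, hfb⟩ (fun n => by
      refine exists_root_ball hm (hfan.mono (closedBall_subset_upper n)) fun z hz => ?_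
      have hz' := closedBall_subset_upper n hz
      obtain ⟨k, hk⟩ := ENat.ne_top_iff_exists.mp (hnetop z hz')
      obtain ⟨j, rfl⟩ := hord z hz' k hk.symm
      exact ⟨j, hk.symm⟩)
  rw [iUnion_exDisc] at this
  exact this

end Fermat.Agent.Top
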