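import Mathlib
import Fermat.Agent.Top.Index
import Fermat.Agent.Top.Root
import Fermat.Agent.Top.KummerGroup

/-!
# Characters of `Γ₀(N)` and the Kummer group of the modular function field
-/

set_option autoImplicit false
set_option linter.unusedSectionVars false
set_option linter.style.haveILetI false

noncomputable section

namespace Fermat.Agent.Top

open UpperHalfPlane hiding I
open ModularForm Filter Topology Fermat.Agent.ModFn Fermat.Agent.Support Polynomial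
open ModularCurve IntermediateField Fermat.Agent.FF WithZero AlgebraicCurve
open scoped MatrixGroups Manifold

variable {N : ℕ} [NeZero N]

/-- The characters of `Γ₀(N)` killed by `m` and trivial on parabolic and elliptic elements. -/
def admSub (N m : ℕ) : Subgroup (CongruenceSubgroup.Gamma0 N →* ℂˣ) where
  carrier := {χ | IsParaChar χ ∧
    (∀ (γ : CongruenceSubgroup.Gamma0 N) (τ : ℍ), (γ : SL(2, ℤ)) • τ = τ → χ γ = 1) ∧ χ ^ m = 1}
  one_mem' := ⟨fun _ _ => rfl, fun _ _ _ => rfl, one_pow m⟩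
  mul_mem' {χ ψ} hχ hψ := ⟨fun γ hγ => by rw [MonoidHom.mul_apply, hχ.1 γ hγ, hψ.1 γ hγ, one_mul],
    fun γ τ h => by rw [MonoidHom.mul_apply, hχ.2.1 γ τ h, hψ.2.1 γ τ h, one_mul],
    (mul_pow χ ψ m).trans (by
      rw [hχ.2.2, hψ.2.2]
      exact one_mul (1 : CongruenceSubgroup.Gamma0 N →* ℂˣ))⟩
  inv_mem' {χ} hχ := ⟨fun γ hγ => by rw [MonoidHom.inv_apply, hχ.1 γ hγ, inv_one],
    fun γ τ h => by rw [MonoidHom.inv_apply, hχ.2.1 γ τ h, inv_one],
    (inv_pow χ m).trans ((congrArg _ hχ.2.2).trans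
      (inv_one (G := CongruenceSubgroup.Gamma0 N →* ℂˣ)))⟩

theorem mem_admSub {m : ℕ} {χ : CongruenceSubgroup.Gamma0 N →* ℂˣ} :
    χ ∈ admSub N m ↔ IsParaChar χ ∧
    (∀ (γ : CongruenceSubgroup.Gamma0 N) (τ : ℍ), (γ : SL(2, ℤ)) • τ = τ → χ γ = 1) ∧
      χ ^ m = 1 := Iff.rfl

theorem isOfFinOrder_of_pow {m : ℕ} (hm : m ≠ 0) {χ : CongruenceSubgroup.Gamma0 N →* ℂˣ}
    (h : χ ^ m = 1) (γ : CongruenceSubgroup.Gamma0 N) : IsOfFinOrder (χ γ) := by
  rw [isOfFinOrder_iff_pow_eq_one]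
  exact ⟨m, Nat.pos_of_ne_zero hm, by rw [← MonoidHom.pow_apply, h, MonoidHom.one_apply]⟩

/-- A nonzero element of `WN N` as a unit of the function field. -/
def unitWN (f : WN N) (hf : f ≠ 0) : (FC N)ˣ := Units.mk0 (toFC N f) (toFC_ne_zero hf)

@[simp] theorem coe_unitWN (f : WN N) (hf : f ≠ 0) : (unitWN f hf : FC N) = toFC N f := rfl

variable {m : ℕ} {χ ψ : CongruenceSubgroup.Gamma0 N →* ℂˣ} {V W : ℍ → ℂ}

/-- the `m`-th power of a form with character killed by `m`. -/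
def powW (hV : IsCForm N χ V) (hm : χ ^ m = 1) : WN N :=
  ⟨V ^ m, mem_WN_iff_isCForm.mpr ((hV.pow m).congr hm)⟩

@[simp] theorem coe_powW (hV : IsCForm N χ V) (hm : χ ^ m = 1) : (powW hV hm).1 = V ^ m := rfl

theorem powW_ne_zero (hV : IsCForm N χ V) (hm : χ ^ m = 1) (h0 : V ≠ 0) : powW hV hm ≠ 0 :=
  fun h => hV.pow_ne_zero h0 m (congrArg Subtype.val h)

/-- the unit attached to `V ^ m`. -/
def powU (hV : IsCForm N χ V) (hm : χ ^ m = 1) (h0 : V ≠ 0) : (FC N)ˣ :=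
  unitWN (powW hV hm) (powW_ne_zero hV hm h0)

@[simp] theorem coe_powU (hV : IsCForm N χ V) (hm : χ ^ m = 1) (h0 : V ≠ 0) :
    (powU hV hm h0 : FC N) = toFC N (powW hV hm) := rfl

theorem expW_powW (hV : IsCForm N χ V) (hm : χ ^ m = 1) (δ : SL(2, ℤ)) :
    expW N δ (powW hV hm) = hV.expAt δ ^ m :=
  expW_eq ((hV.hasExp_expAt δ).pow m)

theorem order_pow_laurent (φ : LaurentSeries ℂ) (n : ℕ) :
    (φ ^ n).order = n * φ.order := by
  rw [HahnSeries.order_pow, nsmul_eq_mul]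

theorem IsCForm.ne_zero_pow_ordZ (hV : IsCForm N χ V) (h0 : V ≠ 0) (τ : ℍ) (n : ℕ) :
    ordZ (V ^ n) τ = n * ordZ V τ := by
  induction n with
  | zero =>
    rw [pow_zero, Nat.cast_zero, zero_mul]
    exact (ordZ_eq_zero (WN.mdiff (1 : WN N)) (WN.coe_ne_zero WN.one_ne_zero') τ).mpr
      (by simp)
  | succ n ih =>
    rw [pow_succ, ordZ_mul (hV.pow n).mdifferentiable hV.mdifferentiable (hV.pow_ne_zero h0 n) h0,
      ih]
    push_cast
    ring

/-- (K1) The divisor of `V ^ m` is divisible by `m`. -/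
theorem powU_mem (hV : IsCForm N χ V) (hχ : χ ∈ admSub N m) (h0 : V ≠ 0) :
    powU hV hχ.2.2 h0 ∈ kummerSubgroup ℂ (FC N) m := by
  rw [mem_kummerSubgroup]
  intro P
  rw [coe_powU]
  rcases lt_or_ge (P.ord (jF N)) 0 with hP | hP
  · obtain ⟨δ, e, h⟩ := exists_isCuspPlace_of_ord_neg P hP
    have h1 := h.2 (toFC N (powW hV hχ.2.2)) (toFC_ne_zero (powW_ne_zero hV hχ.2.2 h0))
    rw [kap_toFC, expW_powW, order_pow_laurent] at h1
    obtain ⟨k, hk⟩ := h.dvd_order (hV.hasExp_expAt δ) (hV.expAt_ne_zero h0 δ)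
      (fun k hk z => hV.smul_T_zpow hχ.1 δ hk z)
    rw [hk] at h1
    have he : (e : ℤ) ≠ 0 := by exact_mod_cast h.1.ne'
    refine ⟨k, mul_left_cancel₀ he ?_⟩
    rw [← h1]
    ring
  · obtain ⟨τ, e, h⟩ := exists_isPtPlace_of_ord_nonneg P hP
    have h1 := h.2 (powW hV hχ.2.2) (powW_ne_zero hV hχ.2.2 h0)
    rw [coe_powW, hV.ne_zero_pow_ordZ h0] at h1
    obtain ⟨k, hk⟩ := h.dvd_ordZ hV.mdifferentiable h0 (fun γ hγ hτ z => by
      have := hV.inv ⟨γ, hγ⟩ z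
      rwa [hχ.2.1 ⟨γ, hγ⟩ τ hτ, Units.val_one, one_mul] at this)
    rw [hk] at h1
    have he : (e : ℤ) ≠ 0 := by exact_mod_cast h.1.ne'
    refine ⟨k, mul_left_cancel₀ he ?_⟩
    rw [← h1]
    ring

/-- (K2) If `V`, `W` have the same character then `V ^ m / W ^ m` is an `m`-th power. -/
theorem powU_div_mem (hV : IsCForm N χ V) (hW : IsCForm N χ W) (hχ : χ ^ m = 1) (hm : m ≠ 0)
    (h0 : V ≠ 0) (h0' : W ≠ 0) : (powU hV hχ h0)⁻¹ * powU hW hχ h0' ∈ powSubgroup (FC N) m := by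
  obtain ⟨k, rfl⟩ := Nat.exists_eq_succ_of_ne_zero hm
  have hmem : W * V ^ k ∈ WN N := by
    rw [mem_WN_iff_isCForm]
    exact (hW.mul (hV.pow k)).congr ((pow_succ' χ k).symm.trans hχ)
  have hne : (⟨W * V ^ k, hmem⟩ : WN N) ≠ 0 := fun h =>
    hW.mul_ne_zero (hV.pow k) h0' (hV.pow_ne_zero h0 k) (congrArg Subtype.val h)
  rw [mem_powSubgroup]
  refine ⟨(powU hV hχ h0)⁻¹ * unitWN ⟨W * V ^ k, hmem⟩ hne, ?_⟩
  have key : unitWN ⟨W * V ^ k, hmem⟩ hne ^ (k + 1) = powU hW hχ h0' * powU hV hχ h0 ^ k := by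
    apply Units.ext
    simp only [Units.val_mul, Units.val_pow_eq_pow_val, coe_powU, coe_unitWN]
    rw [← map_pow, ← map_pow, ← map_mul]
    congr 1
    apply Subtype.ext
    change (W * V ^ k) ^ (k + 1) = W ^ (k + 1) * (V ^ (k + 1)) ^ k
    rw [mul_pow]
    congr 1
    rw [← pow_mul, ← pow_mul, mul_comm]
  change ((powU hV hχ h0)⁻¹ * unitWN ⟨W * V ^ k, hmem⟩ hne) ^ (k + 1) = _
  rw [mul_pow, key, inv_pow, pow_succ']
  have hk : powU hV hχ h0 ^ k * (powU hV hχ h0 ^ k)⁻¹ = 1 := mul_inv_cancel _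
  calc (powU hV hχ h0 * powU hV hχ h0 ^ k)⁻¹ * (powU hW hχ h0' * powU hV hχ h0 ^ k)
      = (powU hV hχ h0)⁻¹ * powU hW hχ h0' * (powU hV hχ h0 ^ k * (powU hV hχ h0 ^ k)⁻¹) := by
        rw [mul_inv, mul_mul_mul_comm, mul_comm (powU hV hχ h0 ^ k)⁻¹]
    _ = _ := by rw [hk, mul_one]

theorem ofComplex_comp_differentiableOn {f : ℍ → ℂ} (hf : MDiff f) :
    DifferentiableOn ℂ (f ∘ ofComplex) {z | 0 < z.im} :=
  UpperHalfPlane.mdifferentiable_iff.mp hf

/-- two holomorphic functions on `ℍ` with the same `m`-th power are proportional -/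
theorem exists_const_of_pow_eq (hm : m ≠ 0) (hV : MDiff V) (hW : MDiff W)
    (h : V ^ m = W ^ m) (h0 : W ≠ 0) : ∃ ζ : ℂ, ζ ^ m = 1 ∧ V = fun z => ζ * W z := by
  obtain ⟨b, hb⟩ : ∃ b, W b ≠ 0 := Function.ne_iff.mp h0
  have hbm := congrFun h b
  rw [Pi.pow_apply, Pi.pow_apply] at hbm
  refine ⟨V b / W b, ?_, ?_⟩
  · rw [div_pow, hbm, div_self (pow_ne_zero m hb)]
  · have hpre : IsPreconnected {z : ℂ | 0 < z.im} := (convex_halfSpace_im_gt 0).isPreconnected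
    have hopen : IsOpen {z : ℂ | 0 < z.im} := isOpen_lt continuous_const Complex.continuous_im
    have h1 := eqOn_of_pow_eq hopen hpre hm (ofComplex_comp_differentiableOn hV)
      (W := fun z => V b / W b * (W ∘ ofComplex) z)
      ((ofComplex_comp_differentiableOn hW).const_mul _) (fun z hz => by
        simp only [Function.comp_apply, mul_pow, div_pow, hbm, div_self (pow_ne_zero m hb), one_mul]
        exact congrFun h (ofComplex z)) (b := (b : ℂ)) b.im_pos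
      (by simp only [Function.comp_apply, ofComplex_apply]; rw [div_mul_cancel₀ _ hb]) ?_
    · funext z
      have := h1 z.im_pos
      simpa only [Function.comp_apply, ofComplex_apply] using this
    · simp only [Function.comp_apply, ofComplex_apply]
      rw [div_mul_cancel₀ _ hb]
      intro hVb
      rw [hVb, zero_pow hm] at hbm
      exact pow_ne_zero m hb hbm.symm

/-- (K3) If `V ^ m` is an `m`-th power then the character is trivial. -/
theorem eq_one_of_powU_mem (hV : IsCForm N χ V) (hχ : χ ^ m = 1) (hm : m ≠ 0)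
    (h0 : V ≠ 0) (h : powU hV hχ h0 ∈ powSubgroup (FC N) m) : χ = 1 := by
  rw [mem_powSubgroup] at h
  obtain ⟨g, hg⟩ := h
  obtain ⟨a, b, hb, hab⟩ := exists_div (N := N) (g : FC N)
  have hg' := congrArg Units.val hg
  rw [Units.val_pow_eq_pow_val, coe_powU, hab, div_pow,
    div_eq_iff (pow_ne_zero m (toFC_ne_zero hb)), ← map_pow, ← map_pow, ← map_mul] at hg'
  have h1 := congrArg Subtype.val (toFC_injective hg')
  change a.1 ^ m = V ^ m * b.1 ^ m at h1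
  rw [← mul_pow] at h1
  have hbC : IsCForm N 1 b.1 := mem_WN_iff_isCForm.mp b.2
  have haC : IsCForm N 1 a.1 := mem_WN_iff_isCForm.mp a.2
  have hVb := hV.mul hbC
  have hVb0 : V * b.1 ≠ 0 := hV.mul_ne_zero hbC h0 (WN.coe_ne_zero hb)
  obtain ⟨ζ, hζ, hζa⟩ := exists_const_of_pow_eq hm haC.mdifferentiable hVb.mdifferentiable h1 hVb0
  have hζ0 : ζ ≠ 0 := by
    rintro rfl
    rw [zero_pow hm] at hζ
    exact zero_ne_one hζ
  obtain ⟨z, hz⟩ : ∃ z, (V * b.1) z ≠ 0 := Function.ne_iff.mp hVb0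
  ext γ
  have h2 := haC.inv γ z
  rw [hζa] at h2
  simp only at h2
  rw [hVb.inv γ z, MonoidHom.one_apply, Units.val_one, one_mul] at h2
  have h3 := mul_left_cancel₀ hζ0 h2
  have h4 : ((χ * 1) γ : ℂ) = 1 := mul_right_cancel₀ hz (h3.trans (one_mul _).symm)
  rw [MonoidHom.mul_apply, MonoidHom.one_apply, mul_one] at h4
  rw [h4, MonoidHom.one_apply, Units.val_one]

/-! ### The homomorphism `κ` -/

/-- The class of `V ^ m` in the Kummer group. -/
def clsU (hV : IsCForm N χ V) (hχ : χ ∈ admSub N m) (h0 : V ≠ 0) : KummerGroup ℂ (FC N) m :=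
  QuotientGroup.mk ⟨powU hV hχ.2.2 h0, powU_mem hV hχ h0⟩

theorem clsU_eq (hm : m ≠ 0) (hV : IsCForm N χ V) (hW : IsCForm N χ W) (hχ : χ ∈ admSub N m)
    (h0 : V ≠ 0) (h0' : W ≠ 0) : clsU hV hχ h0 = clsU hW hχ h0' := by
  rw [clsU, clsU, QuotientGroup.eq, Subgroup.mem_subgroupOf]
  exact powU_div_mem hV hW hχ.2.2 hm h0 h0'

theorem clsU_mul (hV : IsCForm N χ V) (hW : IsCForm N ψ W) (hχ : χ ∈ admSub N m)
    (hψ : ψ ∈ admSub N m) (h0 : V ≠ 0) (h0' : W ≠ 0) :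
    clsU (hV.mul hW) (mul_mem hχ hψ) (hV.mul_ne_zero hW h0 h0') = clsU hV hχ h0 * clsU hW hψ h0' := by
  rw [clsU, clsU, clsU, ← QuotientGroup.mk_mul]
  congr 1
  apply Subtype.ext
  apply Units.ext
  simp only [Subgroup.coe_mul, Units.val_mul, coe_powU]
  rw [← map_mul]
  congr 1
  apply Subtype.ext
  exact mul_pow V W m

theorem clsU_one (hV : IsCForm N 1 V) (h0 : V ≠ 0) :
    clsU (m := m) hV (one_mem _) h0 = 1 := by
  rw [clsU, QuotientGroup.eq_one_iff, Subgroup.mem_subgroupOf, mem_powSubgroup]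
  refine ⟨unitWN ⟨V, mem_WN_iff_isCForm.mpr hV⟩ fun h => h0 (congrArg Subtype.val h), ?_⟩
  apply Units.ext
  simp only [Units.val_pow_eq_pow_val, coe_powU, coe_unitWN]
  rw [← map_pow]
  rfl

theorem chiForm_spec (hm : m ≠ 0) (hχ : χ ∈ admSub N m) :
    IsCForm N χ (chiForm χ) ∧ chiForm χ ≠ 0 :=
  ⟨isCForm_chiForm hχ.1 (isOfFinOrder_of_pow hm hχ.2.2),
    chiForm_ne_zero hχ.1 (isOfFinOrder_of_pow hm hχ.2.2)⟩

variable (N) in
/-- The class of `V ^ m`, for any form `V` with character `χ`. -/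
def kapChi {m : ℕ} (hm : m ≠ 0) : admSub N m →* KummerGroup ℂ (FC N) m where
  toFun χ := clsU (chiForm_spec hm χ.2).1 χ.2 (chiForm_spec hm χ.2).2
  map_one' := clsU_one _ _
  map_mul' χ ψ := by
    rw [← clsU_mul]
    exact clsU_eq hm _ _ _ _ _

theorem kapChi_eq (hm : m ≠ 0) (hV : IsCForm N χ V) (hχ : χ ∈ admSub N m) (h0 : V ≠ 0) :
    kapChi N hm ⟨χ, hχ⟩ = clsU hV hχ h0 := clsU_eq hm _ _ _ _ _

theorem kapChi_injective (hm : m ≠ 0) : Function.Injective (kapChi N hm) := by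
  rw [injective_iff_map_eq_one]
  rintro ⟨χ, hχ⟩ h
  rw [kapChi_eq hm (chiForm_spec hm hχ).1 hχ (chiForm_spec hm hχ).2, clsU,
    QuotientGroup.eq_one_iff, Subgroup.mem_subgroupOf] at h
  exact Subtype.ext (eq_one_of_powU_mem (chiForm_spec hm hχ).1 hχ.2.2 hm (chiForm_spec hm hχ).2 h)

end Fermat.Agent.Top
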