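import Mathlib
import Fermat.Agent.Top.Kummer
import Fermat.Agent.Top.HomLattice

/-!
# Finiteness of the Kummer group of the modular function field
-/

set_option autoImplicit false
set_option linter.unusedSectionVars false
set_option linter.style.haveILetI false

noncomputable section

namespace Fermat.Agent.Top

open UpperHalfPlane hiding I
open ModularForm Filter Topology Fermat.Agent.ModFn Fermat.Agent.Support Polynomial
open ModularCurve IntermediateField Fermat.Agent.FF WithZero AlgebraicCurve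
open scoped MatrixGroups Manifold

variable {N : ℕ} [NeZero N] {m : ℕ}

theorem hasExp_qpar_zpow (n : ℤ) : HasExp N (fun τ => qpar N τ ^ n) (HahnSeries.single n 1) :=
  fun τ => by simpa using SumsTo.single n 1 (qpar N τ)

/-- An `m`-th root of a function with an expansion, which is `N`-periodic and holomorphic, has
an expansion. -/
theorem exists_hasExp_of_pow {f : ℍ → ℂ} {ψ : LaurentSeries ℂ} (hm : m ≠ 0) (hf : MDiff f)
    (hψ : HasExp N (f ^ m) ψ)
    (hper : ∀ z, f ((ModularGroup.T ^ (N : ℤ) : SL(2, ℤ)) • z) = f z) :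
    ∃ φ, HasExp N f φ := by
  set k : ℕ := ψ.order.natAbs with hk
  set g : ℍ → ℂ := fun z => qpar N z ^ (k : ℤ) * f z with hg
  have hgexp : HasExp N (g ^ m) (HahnSeries.single (k : ℤ) 1 ^ m * ψ) := by
    refine (((hasExp_qpar_zpow (N := N) (k : ℤ)).pow m).mul hψ).congr ?_ rfl
    funext z
    simp [hg, mul_pow]
  have hbdd : IsBoundedAtImInfty (g ^ m) := by
    refine hgexp.isBoundedAtImInfty fun n hn => ?_
    rw [HahnSeries.single_pow, one_pow]
    have h1 : m • (k : ℤ) = (m : ℤ) * k := by simp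
    rw [h1, show n = (n - m * k) + m * k by ring, HahnSeries.coeff_single_mul_add, one_mul]
    apply HahnSeries.coeff_eq_zero_of_lt_order
    have h2 : (1 : ℤ) ≤ m := by exact_mod_cast Nat.one_le_iff_ne_zero.mpr hm
    have h3 : (k : ℤ) = |ψ.order| := by rw [hk, Int.natCast_natAbs]
    have h4 := neg_abs_le ψ.order
    have h5 : (k : ℤ) ≤ m * k := by nlinarith [Int.natCast_nonneg k]
    omega
  have hgb : IsBoundedAtImInfty g := by
    rw [isBoundedAtImInfty_iff] at hbdd ⊢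
    obtain ⟨M, A, hM⟩ := hbdd
    refine ⟨max M 1, A, fun z hz => ?_⟩
    have h1 := hM z hz
    rw [Pi.pow_apply, norm_pow] at h1
    by_contra hcon
    rw [not_le, max_lt_iff] at hcon
    have h2 : ‖g z‖ ≤ ‖g z‖ ^ m := le_self_pow₀ hcon.2.le hm
    linarith [hcon.1]
  have hgd : MDiff g := (hasExp_qpar_zpow (N := N) (k : ℤ)).mdifferentiable.mul hf
  have hgper : ∀ z, g ((ModularGroup.T ^ (N : ℤ) : SL(2, ℤ)) • z) = g z := by
    intro z
    simp only [hg, hper]
    congr 2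
    rw [qpar_def, qpar_def, ModularGroup.coe_T_zpow_smul_eq]
    have hN : (N : ℂ) ≠ 0 := by exact_mod_cast NeZero.ne N
    rw [show 2 * (Real.pi : ℂ) * Complex.I * ((z : ℂ) + ((N : ℤ) : ℂ)) / N =
      2 * Real.pi * Complex.I * z / N + 2 * Real.pi * Complex.I by
        push_cast; field_simp]
    rw [Complex.exp_add, Complex.exp_two_pi_mul_I, mul_one]
  have hgE := HasExp.of_periodic (h := N) (periodic_of_T_zpow hgper) hgd hgb
  refine ⟨_, ((hasExp_qpar_zpow (N := N) (-k : ℤ)).mul hgE).congr ?_ rfl⟩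
  funext z
  simp only [hg, Pi.mul_apply]
  rw [← mul_assoc, ← zpow_add₀ (qpar_ne_zero N z)]
  simp

theorem mdiff_comp_smul {f : ℍ → ℂ} (hf : MDiff f) (γ : SL(2, ℤ)) :
    MDiff (fun z => f (γ • z)) := by
  have h1 : MDiff (fun z : ℍ => (γ : GL (Fin 2) ℝ) • z) := mdifferentiable_smul (by simp)
  exact hf.comp h1

/-! ### Roots of elements of the Kummer subgroup -/

variable (N) in
/-- `V` is a holomorphic `m`-th root, with character `χ`, of a representative of `u` modulo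
`m`-th powers. -/
structure IsRoot (m : ℕ) (u : (FC N)ˣ) (V : ℍ → ℂ) (χ : CongruenceSubgroup.Gamma0 N →* ℂˣ) :
    Prop where
  mdiff : MDiff V
  ne : V ≠ 0
  inv : ∀ (γ : CongruenceSubgroup.Gamma0 N) (z : ℍ), V ((γ : SL(2, ℤ)) • z) = χ γ * V z
  pow : χ ^ m = 1
  cls : ∃ (C : WN N) (hC : C ≠ 0) (g : (FC N)ˣ), C.1 = V ^ m ∧ unitWN C hC = u * g ^ m

theorem IsRoot.mem_WN {u : (FC N)ˣ} {V : ℍ → ℂ} {χ : CongruenceSubgroup.Gamma0 N →* ℂˣ}
    (h : IsRoot N m u V χ) : V ^ m ∈ WN N := by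
  obtain ⟨C, -, -, hC, -⟩ := h.cls
  rw [← hC]
  exact C.2

theorem exists_isRoot (hm : m ≠ 0) {u : (FC N)ˣ} (hu : u ∈ kummerSubgroup ℂ (FC N) m) :
    ∃ (V : ℍ → ℂ) (χ : CongruenceSubgroup.Gamma0 N →* ℂˣ), IsRoot N m u V χ := by
  obtain ⟨k, rfl⟩ := Nat.exists_eq_succ_of_ne_zero hm
  obtain ⟨a, b, hb, hab⟩ := exists_div (N := N) (u : FC N)
  have ha : a ≠ 0 := by
    rintro rfl
    rw [map_zero, zero_div] at hab
    exact u.ne_zero hab
  have hC0 : a * b ^ k ≠ 0 := mul_ne_zero ha (pow_ne_zero _ hb)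
  have hcls : unitWN (a * b ^ k) hC0 = u * unitWN b hb ^ (k + 1) := by
    apply Units.ext
    simp only [coe_unitWN, Units.val_mul, Units.val_pow_eq_pow_val, hab, map_mul, map_pow]
    have := toFC_ne_zero hb
    rw [pow_succ, ← mul_assoc, mul_comm (toFC N a / toFC N b), mul_assoc, div_mul_cancel₀ _ this,
      mul_comm]
  have hCmem : unitWN (a * b ^ k) hC0 ∈ kummerSubgroup ℂ (FC N) (k + 1) := by
    rw [hcls]
    exact mul_mem hu (powSubgroup_le (K := ℂ) (F := FC N) _ ⟨unitWN b hb, rfl⟩)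
  set C := a * b ^ k with hC
  have hord : ∀ τ : ℍ, ((k + 1 : ℕ) : ℤ) ∣ ordZ C.1 τ := by
    intro τ
    obtain ⟨P, e, hP⟩ := exists_isPtPlace (N := N) τ
    rw [hP.2 C hC0]
    exact Dvd.dvd.mul_left (hCmem P) _
  obtain ⟨V', hV'd, hV'⟩ := exists_root_upper (f := C.1 ∘ ofComplex) (m := k + 1) (by omega)
    (ofComplex_comp_differentiableOn (WN.mdiff C)) (by
      obtain ⟨z, hz⟩ : ∃ z, C.1 z ≠ 0 := Function.ne_iff.mp (WN.coe_ne_zero hC0)
      exact ⟨z, z.im_pos, by rwa [Function.comp_apply, ofComplex_apply]⟩)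
    (fun z hz n hn => by
      have h1 : ordAt C.1 ⟨z, hz⟩ = n := hn
      have h2 := hord ⟨z, hz⟩
      rw [ordZ, h1] at h2
      exact_mod_cast h2)
  set V : ℍ → ℂ := fun z => V' z with hVdef
  have hVd : MDiff V := by
    rw [UpperHalfPlane.mdifferentiable_iff]
    refine hV'd.congr fun z hz => ?_
    simp only [Function.comp_apply, hVdef, ofComplex_apply_of_im_pos hz]
  have hVpow : C.1 = V ^ (k + 1) := by
    funext z
    have := hV' z z.im_pos
    rw [Function.comp_apply, ofComplex_apply] at this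
    exact this.symm
  have hV0 : V ≠ 0 := by
    intro h
    rw [h, zero_pow (by omega)] at hVpow
    exact WN.coe_ne_zero hC0 hVpow
  have hex : ∀ γ : CongruenceSubgroup.Gamma0 N, ∃ ζ : ℂ, ζ ^ (k + 1) = 1 ∧
      (fun z => V ((γ : SL(2, ℤ)) • z)) = fun z => ζ * V z := by
    intro γ
    refine exists_const_of_pow_eq (by omega) (mdiff_comp_smul hVd _) hVd ?_ hV0
    funext z
    have h1 := C.2.2 γ γ.2 z
    rw [hVpow] at h1
    exact h1
  choose ζ hζ1 hζ2 using hex
  obtain ⟨z0, hz0⟩ : ∃ z, V z ≠ 0 := Function.ne_iff.mp hV0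
  have hζne : ∀ γ, ζ γ ≠ 0 := fun γ h => by
    have := hζ1 γ
    rw [h, zero_pow (by omega)] at this
    exact zero_ne_one this
  refine ⟨V, MonoidHom.mk' (fun γ => Units.mk0 (ζ γ) (hζne γ)) (fun γ γ' => ?_), ?_⟩
  · apply Units.ext
    rw [Units.val_mul]
    change ζ (γ * γ') = ζ γ * ζ γ'
    have h1 := congrFun (hζ2 (γ * γ')) z0
    have h2 := congrFun (hζ2 γ) ((γ' : SL(2, ℤ)) • z0)
    have h3 := congrFun (hζ2 γ') z0
    rw [h3, ← mul_smul, ← Subgroup.coe_mul, h1, ← mul_assoc] at h2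
    exact mul_right_cancel₀ hz0 h2
  · refine ⟨hVd, hV0, fun γ z => congrFun (hζ2 γ) z, ?_, ⟨C, hC0, unitWN b hb, hVpow, hcls⟩⟩
    ext γ
    rw [MonoidHom.pow_apply, Units.val_pow_eq_pow_val, MonoidHom.one_apply, Units.val_one]
    exact hζ1 γ

/-- If two elements of the Kummer group have the same character then they are equal. -/
theorem IsRoot.div_mem (hm : m ≠ 0) {u u' : (FC N)ˣ} {V V' : ℍ → ℂ}
    {χ : CongruenceSubgroup.Gamma0 N →* ℂˣ}
    (h : IsRoot N m u V χ) (h' : IsRoot N m u' V' χ) : u⁻¹ * u' ∈ powSubgroup (FC N) m := by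
  obtain ⟨C, hC, g, hCV, hCg⟩ := h.cls
  obtain ⟨C', hC', g', hCV', hCg'⟩ := h'.cls
  obtain ⟨k, rfl⟩ := Nat.exists_eq_succ_of_ne_zero hm
  set f : ℍ → ℂ := V' * V ^ k with hf
  have hfpow : f ^ (k + 1) = C'.1 * C.1 ^ k := by
    rw [hf, mul_pow, hCV, hCV', ← pow_mul, ← pow_mul, mul_comm k]
  have hfd : MDiff f := h'.mdiff.mul (h.mdiff.pow k)
  have hfinv : ∀ (γ : CongruenceSubgroup.Gamma0 N) (z : ℍ), f ((γ : SL(2, ℤ)) • z) = f z := by
    intro γ z
    simp only [hf, Pi.mul_apply, Pi.pow_apply, h.inv, h'.inv, mul_pow]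
    have h1 := congrArg Units.val (DFunLike.congr_fun h.pow γ)
    rw [MonoidHom.pow_apply, Units.val_pow_eq_pow_val, MonoidHom.one_apply, Units.val_one,
      pow_succ'] at h1
    linear_combination (V' z * V z ^ k) * h1
  have hfmem : f ∈ WN N := by
    refine ⟨fun δ => ?_, fun γ hγ z => hfinv ⟨γ, hγ⟩ z⟩
    refine exists_hasExp_of_pow (m := k + 1) (by omega) (mdiff_comp_smul hfd δ)
      (ψ := expW N δ (C' * C ^ k)) ?_ ?_
    · refine (hasExp_expW δ (C' * C ^ k)).congr ?_ rfl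
      funext z
      exact (congrFun hfpow (δ • z)).symm
    · intro z
      have := hfinv ⟨_, exists_conj_mem_Gamma0 N δ (h := N) (dvd_mul_left _ _)⟩ (δ • z)
      rw [← this, ← mul_smul, ← mul_smul]
      congr 2
      simp [mul_assoc]
  have hfne : (⟨f, hfmem⟩ : WN N) ≠ 0 := by
    intro h0
    have h1 : f = 0 := congrArg Subtype.val h0
    rw [h1, zero_pow (by omega)] at hfpow
    exact mul_ne_zero hC' (pow_ne_zero k hC) (Subtype.ext hfpow.symm)
  have key : unitWN ⟨f, hfmem⟩ hfne ^ (k + 1) = unitWN C' hC' * unitWN C hC ^ k := by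
    apply Units.ext
    simp only [Units.val_mul, Units.val_pow_eq_pow_val, coe_unitWN]
    rw [← map_pow, ← map_pow, ← map_mul]
    congr 1
    exact Subtype.ext hfpow
  have h2 : u' = unitWN C' hC' * (g' ^ (k + 1))⁻¹ := by
    rw [hCg', mul_inv_cancel_right]
  have h3 : u = unitWN C hC * (g ^ (k + 1))⁻¹ := by
    rw [hCg, mul_inv_cancel_right]
  rw [mem_powSubgroup]
  refine ⟨unitWN ⟨f, hfmem⟩ hfne * (unitWN C hC)⁻¹ * g'⁻¹ * g, ?_⟩
  rw [h2, h3]
  change (_) ^ (k + 1) = _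
  rw [mul_pow, mul_pow, mul_pow, key, inv_pow, inv_pow, pow_succ' (unitWN C hC) k]
  generalize unitWN C hC = x
  generalize unitWN C' hC' = y
  generalize g ^ (k + 1) = s
  generalize g' ^ (k + 1) = t
  simp only [mul_inv, inv_inv]
  have hk : x ^ k * (x ^ k)⁻¹ = 1 := mul_inv_cancel _
  calc y * x ^ k * (x⁻¹ * (x ^ k)⁻¹) * t⁻¹ * s = x⁻¹ * s * (y * t⁻¹) * (x ^ k * (x ^ k)⁻¹) := by
        ac_rfl
    _ = _ := by rw [hk, mul_one]

/-! ### Finiteness -/

/-- A finitely generated group has finitely many characters killed by `m`. -/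
theorem finite_char (Γ : Type*) [Group Γ] [Group.FG Γ] (hm : m ≠ 0) :
    Finite {χ : Γ →* ℂˣ // χ ^ m = 1} := by
  obtain ⟨s, hs⟩ := Group.fg_def.mp (inferInstance : Group.FG Γ)
  haveI : NeZero m := ⟨hm⟩
  let r : {χ : Γ →* ℂˣ // χ ^ m = 1} → (s → rootsOfUnity m ℂ) := fun χ x =>
    ⟨χ.1 (x : Γ), by
      rw [mem_rootsOfUnity, ← MonoidHom.pow_apply, χ.2, MonoidHom.one_apply]⟩
  refine Finite.of_injective r ?_
  rintro ⟨χ, hχ⟩ ⟨ψ, hψ⟩ h
  have h1 : Subgroup.closure (s : Set Γ) ≤ χ.eqLocus ψ := by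
    rw [Subgroup.closure_le]
    intro x hx
    have := congrArg Subtype.val (congrFun h ⟨x, hx⟩)
    exact this
  apply Subtype.ext
  ext x
  have h2 : x ∈ Subgroup.closure (s : Set Γ) := by rw [hs]; trivial
  exact congrArg Units.val (h1 h2)

/-- **The Kummer group of the complex modular function field is finite.** -/
theorem finite_kummerGroup_FC (hm : m ≠ 0) : Finite (KummerGroup ℂ (FC N) m) := by
  have hfin := finite_char (CongruenceSubgroup.Gamma0 N) hm
  choose V χ hVχ using fun u : kummerSubgroup ℂ (FC N) m => exists_isRoot hm u.2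
  let F : KummerGroup ℂ (FC N) m → {χ : CongruenceSubgroup.Gamma0 N →* ℂˣ // χ ^ m = 1} :=
    fun q => ⟨χ q.out, (hVχ q.out).pow⟩
  refine Finite.of_injective F fun q q' h => ?_
  have h1 : χ q.out = χ q'.out := congrArg Subtype.val h
  have h2 := hVχ q'.out
  rw [← h1] at h2
  have h3 := IsRoot.div_mem hm (hVχ q.out) h2
  rw [← QuotientGroup.out_eq' q, ← QuotientGroup.out_eq' q', QuotientGroup.eq,
    Subgroup.mem_subgroupOf]
  exact h3

end Fermat.Agent.Top
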