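import Mathlib
import Fermat.Agent.Top.KummerFin

/-!
# Parabolic homomorphisms and the Kummer group
-/

set_option autoImplicit false
set_option linter.unusedSectionVars false
set_option linter.style.haveILetI false

noncomputable section

namespace Fermat.Agent.Top

open UpperHalfPlane hiding I
open ModularForm Filter Topology Fermat.Agent.ModFn Fermat.Agent.Support Polynomial
open ModularCurve IntermediateField Fermat.Agent.FF WithZero AlgebraicCurve
open scoped MatrixGroups Manifold

/-! ### Elements of finite order -/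

theorem sl2_ext {γ δ : SL(2, ℤ)} (h00 : γ 0 0 = δ 0 0) (h01 : γ 0 1 = δ 0 1)
    (h10 : γ 1 0 = δ 1 0) (h11 : γ 1 1 = δ 1 1) : γ = δ := by
  ext i j
  fin_cases i <;> fin_cases j
  · exact h00
  · exact h01
  · exact h10
  · exact h11

theorem sq_eq_of_trace (M : Matrix (Fin 2) (Fin 2) ℤ) (hM : M.det = 1) :
    M * M = (M 0 0 + M 1 1) • M - 1 := by
  rw [Matrix.det_fin_two] at hM
  ext i j
  simp only [Matrix.mul_apply, Fin.sum_univ_two, Matrix.sub_apply, Matrix.smul_apply, smul_eq_mul]
  fin_cases i <;> fin_cases j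
  · simp only [Fin.zero_eta, Matrix.one_apply_eq]
    linear_combination -hM
  · simp
    ring
  · simp
    ring
  · simp only [Fin.mk_one, Matrix.one_apply_eq]
    linear_combination -hM

/-- An element of `SL₂(ℤ)` fixing a point of `ℍ` satisfies `γ ^ 12 = 1`. -/
theorem pow_twelve_of_fix {γ : SL(2, ℤ)} {τ : ℍ} (hγ : γ • τ = τ) : γ ^ 12 = 1 := by
  have hfix := fix_eq hγ
  have heig := eigen_eq hγ
  have hdet := γ.det_coe
  have hdet' := hdet
  rw [Matrix.det_fin_two] at hdet'
  have hCH := sq_eq_of_trace (γ : Matrix (Fin 2) (Fin 2) ℤ) hdet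
  suffices h : (γ : Matrix (Fin 2) (Fin 2) ℤ) ^ 12 = 1 by
    apply Subtype.ext
    rw [Matrix.SpecialLinearGroup.coe_pow, h]
    rfl
  by_cases hc : γ 1 0 = 0
  · have hc' : (γ 1 0 : ℂ) = 0 := by rw [hc]; simp
    rw [hc', zero_mul, zero_add] at hfix
    have him := congrArg Complex.im hfix
    have hre := congrArg Complex.re hfix
    simp at him hre
    have hda : γ 1 1 = γ 0 0 := by
      have : ((γ 1 1 : ℝ) - γ 0 0) = 0 := by
        rcases him with h | h
        · exact h
        · exact absurd h τ.im_ne_zero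
      exact_mod_cast sub_eq_zero.mp this
    have hb : γ 0 1 = 0 := by
      rw [hda] at hre
      simp at hre
      exact hre
    have hM2 : (γ : Matrix (Fin 2) (Fin 2) ℤ) ^ 2 = 1 := by
      rw [pow_two]
      rw [hc, mul_zero, sub_zero, hda] at hdet'
      ext i j
      simp only [Matrix.mul_apply, Fin.sum_univ_two]
      fin_cases i <;> fin_cases j <;> simp [hc, hb, hda, hdet']
    rw [show 12 = 2 * 6 by norm_num, pow_mul, hM2, one_pow]
  · have ht : (γ 0 0 + γ 1 1) ^ 2 < 4 := by
      set w : ℂ := (γ 1 0 : ℂ) * τ + γ 1 1 with hw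
      have hwim : w.im = γ 1 0 * τ.im := by simp [hw]
      have hy : w.im ≠ 0 := by
        rw [hwim]
        exact mul_ne_zero (by exact_mod_cast hc) τ.im_ne_zero
      obtain ⟨t, ht⟩ : ∃ t : ℤ, t = γ 0 0 + γ 1 1 := ⟨_, rfl⟩
      have ht' : (γ 0 0 : ℂ) + γ 1 1 = (t : ℝ) := by rw [ht]; push_cast; ring
      rw [ht'] at heig
      have him := congrArg Complex.im heig
      have hre := congrArg Complex.re heig
      simp only [Complex.add_im, Complex.sub_im, Complex.mul_im, Complex.ofReal_re,
        Complex.ofReal_im, pow_two, Complex.one_im, Complex.zero_im, zero_mul, add_zero,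
        Complex.add_re, Complex.sub_re, Complex.mul_re, Complex.one_re, Complex.zero_re,
        sub_zero] at him hre
      have h1 : 2 * w.re = t := by
        have : w.im * (2 * w.re - t) = 0 := by linarith
        rcases mul_eq_zero.mp this with h | h
        · exact absurd h hy
        · linarith
      have h2 : 0 < w.im ^ 2 := by positivity
      have h3 : (t : ℝ) ^ 2 < 4 := by
        rw [← h1] at hre ⊢
        nlinarith
      rw [← ht]
      exact_mod_cast h3
    obtain ⟨t, htdef⟩ : ∃ t : ℤ, t = γ 0 0 + γ 1 1 := ⟨_, rfl⟩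
    rw [← htdef] at ht hCH
    have hlo : -1 ≤ t := by nlinarith
    have hhi : t ≤ 1 := by nlinarith
    generalize (γ : Matrix (Fin 2) (Fin 2) ℤ) = M at hCH
    interval_cases t
    · have h3 : M ^ 3 = 1 := by
        rw [pow_succ, pow_two, hCH, sub_mul, one_mul, smul_mul_assoc, hCH]
        simp
      rw [show 12 = 3 * 4 by norm_num, pow_mul, h3, one_pow]
    · have h2 : M ^ 2 = -1 := by rw [pow_two, hCH]; simp
      rw [show 12 = 2 * 6 by norm_num, pow_mul, h2]
      exact Even.neg_one_pow (by decide)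
    · have h3 : M ^ 3 = -1 := by
        rw [pow_succ, pow_two, hCH, sub_mul, one_mul, smul_mul_assoc, hCH]
        simp
      rw [show 12 = 3 * 4 by norm_num, pow_mul, h3]
      exact Even.neg_one_pow (by decide)

variable {N : ℕ} [NeZero N] {m : ℕ}

/-! ### The exponential of a homomorphism -/

/-- the character `γ ↦ exp (2πi φ(γ) / m)`. -/
def expChar (m : ℕ) (φ : Additive (CongruenceSubgroup.Gamma0 N) →+ ℤ) :
    CongruenceSubgroup.Gamma0 N →* ℂˣ :=
  (zpowersHom ℂˣ (zetaU m)).comp (AddMonoidHom.toMultiplicativeRight φ)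

theorem expChar_apply (φ : Additive (CongruenceSubgroup.Gamma0 N) →+ ℤ)
    (γ : CongruenceSubgroup.Gamma0 N) : expChar m φ γ = zetaU m ^ φ (Additive.ofMul γ) := rfl

theorem expChar_add (φ ψ : Additive (CongruenceSubgroup.Gamma0 N) →+ ℤ) :
    expChar m (φ + ψ) = expChar m φ * expChar m ψ := by
  ext γ
  rw [MonoidHom.mul_apply, expChar_apply, expChar_apply, expChar_apply, AddMonoidHom.add_apply,
    zpow_add]

theorem expChar_zero : expChar (N := N) m 0 = 1 := by
  ext γ
  rw [expChar_apply, AddMonoidHom.zero_apply, zpow_zero, MonoidHom.one_apply]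

theorem expChar_mem [NeZero m] (φ : parM N ℤ) : expChar m φ.1 ∈ admSub N m := by
  refine ⟨fun γ hγ => ?_, fun γ τ hτ => ?_, ?_⟩
  · rw [expChar_apply, φ.2 γ hγ, zpow_zero]
  · have h1 : γ ^ 12 = 1 := by
      apply Subtype.ext
      rw [Subgroup.coe_pow, pow_twelve_of_fix hτ]
      rfl
    have h2 : 12 • φ.1 (Additive.ofMul γ) = 0 := by
      rw [← map_nsmul, ← ofMul_pow, h1]
      exact map_zero _
    have h3 : φ.1 (Additive.ofMul γ) = 0 := by
      rw [smul_eq_zero] at h2
      exact h2.resolve_left (by norm_num)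
    rw [expChar_apply, h3, zpow_zero]
  · ext γ
    rw [MonoidHom.pow_apply, expChar_apply, ← zpow_natCast, ← zpow_mul, MonoidHom.one_apply,
      mul_comm, zpow_mul, (zetaU_zpow_eq_one_iff m (m : ℤ)).mpr dvd_rfl, one_zpow]

variable (N m) in
/-- **The map from parabolic homomorphisms to the Kummer group.** -/
def iotaC [NeZero m] : parM N ℤ →+ Additive (KummerGroup ℂ (FC N) m) where
  toFun φ := Additive.ofMul (kapChi N (NeZero.ne m) ⟨expChar m φ.1, expChar_mem φ⟩)
  map_zero' := by
    have h : (⟨expChar m (0 : parM N ℤ).1, expChar_mem (0 : parM N ℤ)⟩ : admSub N m) = 1 :=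
      Subtype.ext expChar_zero
    rw [h, map_one, ofMul_one]
  map_add' φ ψ := by
    have h : (⟨expChar m (φ + ψ).1, expChar_mem (φ + ψ)⟩ : admSub N m) =
        ⟨expChar m φ.1, expChar_mem φ⟩ * ⟨expChar m ψ.1, expChar_mem ψ⟩ :=
      Subtype.ext (expChar_add _ _)
    rw [h, map_mul, ofMul_mul]

theorem iotaC_apply [NeZero m] (φ : parM N ℤ) :
    iotaC N m φ = Additive.ofMul (kapChi N (NeZero.ne m) ⟨expChar m φ.1, expChar_mem φ⟩) := rfl

/-- **Injectivity modulo `m`.** -/
theorem exists_of_iotaC_eq_zero [NeZero m] (φ : parM N ℤ) (h : iotaC N m φ = 0) :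
    ∃ φ' : parM N ℤ, φ = m • φ' := by
  rw [iotaC_apply, ofMul_eq_zero] at h
  have h1 := kapChi_injective (N := N) (NeZero.ne m) (h.trans (map_one _).symm)
  have h2 : expChar m φ.1 = 1 := congrArg Subtype.val h1
  have h3 : ∀ γ, (m : ℤ) ∣ φ.1 γ := by
    intro γ
    rw [← zetaU_zpow_eq_one_iff]
    exact DFunLike.congr_fun h2 (Additive.toMul γ)
  choose f hf using h3
  have hm : (m : ℤ) ≠ 0 := by exact_mod_cast NeZero.ne m
  refine ⟨⟨AddMonoidHom.mk' f fun a b => ?_, fun γ hγ => ?_⟩, ?_⟩
  · apply mul_left_cancel₀ hm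
    rw [mul_add, ← hf, ← hf, ← hf, map_add]
  · apply mul_left_cancel₀ hm
    change (m : ℤ) * f _ = _
    rw [← hf, mul_zero]
    exact φ.2 γ hγ
  · apply Subtype.ext
    ext γ
    exact (hf (Additive.ofMul γ)).trans (nsmul_eq_mul m (f (Additive.ofMul γ))).symm

end Fermat.Agent.Top
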