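import Mathlib
import Fermat.Agent.Top.Iota
import Fermat.Agent.Top.HeckeHom

/-!
# Multiplicative Hecke operators on forms with character
-/

set_option autoImplicit false
set_option linter.unusedSectionVars false
set_option linter.style.haveILetI false

noncomputable section

namespace Fermat.Agent.Top

open UpperHalfPlane hiding I
open ModularForm Filter Topology Fermat.Agent.ModFn Fermat.Agent.Support Polynomial
open ModularCurve IntermediateField Fermat.Agent.FF WithZero AlgebraicCurve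
open scoped MatrixGroups Manifold

variable {N : ℕ} [NeZero N] {m ℓ : ℕ}

theorem HR_smul_eq_act (hℓ : ℓ ≠ 0) (i : Option (Fin ℓ)) (z : ℍ) : HR ℓ i • z = act (HM ℓ i) z := by
  have hdet : (HM ℓ i).det ≠ 0 := by rw [det_HM]; exact_mod_cast hℓ
  rw [act_of_ne _ hdet]
  congr 1
  apply Units.ext
  rw [HR_apply hℓ, toGLR_val]
  rfl

variable (N) in
/-- The multiplicative Hecke operator. -/
def heckeProd (ℓ : ℕ) (F : ℍ → ℂ) (z : ℍ) : ℂ := ∏ i : HI N ℓ, F (HR ℓ i.1 • z)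

theorem heckeProd_eq (hℓN : ¬ ℓ ∣ N) (F : ℍ → ℂ) (z : ℍ) :
    heckeProd N ℓ F z = (∏ j : Fin ℓ, F (HR ℓ (some j) • z)) * F (HR ℓ none • z) := by
  classical
  have h := sum_HI (A := Additive ℂ) N ℓ (fun i => Additive.ofMul (F (HR ℓ i • z)))
  rw [if_neg hℓN] at h
  exact h

theorem heckeProd_pow (F : ℍ → ℂ) (n : ℕ) : heckeProd N ℓ (F ^ n) = heckeProd N ℓ F ^ n := by
  funext z
  simp only [heckeProd, Pi.pow_apply, Finset.prod_pow]

theorem heckeProd_ne_zero_of {F : ℍ → ℂ} (h : ∀ z, F z ≠ 0) (z : ℍ) : heckeProd N ℓ F z ≠ 0 :=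
  Finset.prod_ne_zero_iff.mpr fun _ _ => h _

/-- expansions of `V ((az+b)/d)` at all cusps. -/
theorem exists_hasExp_act {V : ℍ → ℂ} (hV : V ∈ bigA N) (hℓ : 0 < ℓ) (A : Matrix (Fin 2) (Fin 2) ℤ)
    (hA : A.det = ℓ) (δ : SL(2, ℤ)) :
    ∃ φ : LaurentSeries ℂ, HasExp (N * ℓ) (fun z => V (act A (δ • z))) φ := by
  have hA0 : A.det ≠ 0 := by rw [hA]; exact_mod_cast hℓ.ne'
  have hdet : (A * (δ : Matrix (Fin 2) (Fin 2) ℤ)).det = ℓ := by
    rw [Matrix.det_mul, hA, δ.det_coe, mul_one]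
  obtain ⟨γ, a, d, b, ha, hd, hb, hbd, had, hM⟩ := exists_eq_mul_upper
    (A * (δ : Matrix (Fin 2) (Fin 2) ℤ)) (by rw [hdet]; exact_mod_cast hℓ)
  rw [hdet] at had
  have had' : a * d = ℓ := by exact_mod_cast had
  haveI : NeZero a := ⟨ha.ne'⟩
  haveI : NeZero d := ⟨hd.ne'⟩
  obtain ⟨φ, hφ⟩ := hV γ
  have hU0 : (!![(a : ℤ), b; 0, (d : ℤ)] : Matrix (Fin 2) (Fin 2) ℤ).det ≠ 0 := by
    rw [Matrix.det_fin_two_of, mul_zero, sub_zero]
    exact_mod_cast (mul_pos ha hd).ne'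
  have h1 := (hφ.affine b (act !![(a : ℤ), b; 0, (d : ℤ)]) (coe_act_upper a d b)
    (g := fun z => V (act A (δ • z))) (fun τ => by
      rw [← act_mul_coe _ hA0, hM, act_coe_mul _ _ hU0])).qExpand (m := a)
  have h2 : N * d * a = N * ℓ := by rw [← had']; ring
  rw [h2] at h1
  exact ⟨_, h1⟩

theorem heckeProd_exp {V : ℍ → ℂ} (hV : V ∈ bigA N) (hℓ : 0 < ℓ) (δ : SL(2, ℤ)) :
    ∃ φ : LaurentSeries ℂ, HasExp (N * ℓ) (fun z => heckeProd N ℓ V (δ • z)) φ := by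
  haveI : NeZero ℓ := ⟨hℓ.ne'⟩
  choose φ hφ using fun i : HI N ℓ => exists_hasExp_act hV hℓ (HM ℓ i.1) (det_HM ℓ i.1) δ
  refine ⟨_, (HasExp.prod (h := N * ℓ) Finset.univ (fun i _ => hφ i)).congr ?_ rfl⟩
  funext z
  simp only [Finset.prod_apply, heckeProd]
  exact Finset.prod_congr rfl fun i _ => by rw [HR_smul_eq_act hℓ.ne']

theorem bigA_of_isCForm {χ : CongruenceSubgroup.Gamma0 N →* ℂˣ} {V : ℍ → ℂ}
    (hV : IsCForm N χ V) : V ∈ bigA N := hV.exp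

theorem heckeProd_inv (hℓ : ℓ.Prime) {χ : CongruenceSubgroup.Gamma0 N →* ℂˣ} {V : ℍ → ℂ}
    (hV : IsCForm N χ V) (γ : CongruenceSubgroup.Gamma0 N) (z : ℍ) :
    heckeProd N ℓ V ((γ : SL(2, ℤ)) • z) = (hreps N hℓ).opMul χ γ * heckeProd N ℓ V z := by
  have h := (hreps N hℓ).prod_smul_smul V ((Units.coeHom ℂ).comp χ)
    (fun γ z => by rw [toGL_smul, hV.inv]; rfl) γ z
  simp only [hreps_δ, toGL_smul] at h
  rw [heckeProd, heckeProd, h]
  congr 1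
  rw [Reps.opMul_apply, Reps.opMul_apply]
  simp only [MonoidHom.comp_apply, Units.coeHom_apply]
  exact (map_prod (Units.coeHom ℂ) _ _).symm

theorem isCForm_heckeProd (hℓ : ℓ.Prime) {χ : CongruenceSubgroup.Gamma0 N →* ℂˣ} {V : ℍ → ℂ}
    (hV : IsCForm N χ V) (hχ : IsParaChar ((hreps N hℓ).opMul χ)) :
    IsCForm N ((hreps N hℓ).opMul χ) (heckeProd N ℓ V) where
  inv := heckeProd_inv hℓ hV
  exp δ := by
    haveI : NeZero ℓ := ⟨hℓ.ne_zero⟩
    obtain ⟨φ, hφ⟩ := heckeProd_exp (bigA_of_isCForm hV) hℓ.pos δ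
    have h1 : ∀ z, heckeProd N ℓ V (δ • ((((N : ℤ) : ℝ) +ᵥ z : ℍ))) =
        heckeProd N ℓ V (δ • z) := by
      intro z
      rw [← T_zpow_smul_eq_vadd]
      have h2 := heckeProd_inv hℓ hV ⟨_, exists_conj_mem_Gamma0 N δ (h := N) (dvd_mul_left _ _)⟩
        (δ • z)
      rw [hχ _ (by rw [trace_conj_T_zpow]; norm_num), Units.val_one, one_mul] at h2
      rw [← h2, ← mul_smul, ← mul_smul]
      congr 2
      simp [mul_assoc]
    exact ⟨_, (HasExp.contract hφ h1).1⟩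

theorem opMul_one (hℓ : ℓ.Prime) :
    (hreps N hℓ).opMul (1 : CongruenceSubgroup.Gamma0 N →* ℂˣ) = 1 := by
  ext γ
  simp [Reps.opMul_apply]

theorem heckeProd_mem_WN (hℓ : ℓ.Prime) {V : ℍ → ℂ} (hV : V ∈ WN N) : heckeProd N ℓ V ∈ WN N := by
  rw [mem_WN_iff_isCForm] at hV ⊢
  have := isCForm_heckeProd hℓ hV (by rw [opMul_one]; exact fun _ _ => rfl)
  rwa [opMul_one] at this

theorem heckeProd_ne_zero (hℓ : 0 < ℓ) {V : ℍ → ℂ} (hV : V ∈ bigA N) (h0 : V ≠ 0) :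
    heckeProd N ℓ V ≠ 0 := by
  haveI : NeZero ℓ := ⟨hℓ.ne'⟩
  choose φ hφ using fun i : HI N ℓ => exists_hasExp_act hV hℓ (HM ℓ i.1) (det_HM ℓ i.1) 1
  have hne : ∀ i, φ i ≠ 0 := by
    intro i hi
    have h1 := (hφ i).eq_zero_iff.mpr hi
    apply h0
    funext z
    have h2 := congrFun h1 ((HR ℓ i.1)⁻¹ • z)
    simp only [one_smul, ← HR_smul_eq_act hℓ.ne', smul_inv_smul] at h2
    exact h2
  have h1 := HasExp.prod (h := N * ℓ) Finset.univ (fun i _ => hφ i)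
  intro hcon
  have h2 : (∏ i : HI N ℓ, fun z : ℍ => V (act (HM ℓ i.1) ((1 : SL(2, ℤ)) • z))) = 0 := by
    rw [← hcon]
    funext z
    simp only [Finset.prod_apply, heckeProd, one_smul]
    exact Finset.prod_congr rfl fun i _ => by rw [HR_smul_eq_act hℓ.ne']
  exact Finset.prod_ne_zero_iff.mpr (fun i _ => hne i) (h1.eq_zero_iff.mp h2)

/-- The expansion of the product. -/
theorem qExpand_wq_heckeProd (hℓ : ℓ.Prime) (hℓN : ¬ ℓ ∣ N) (W : WN N) :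
    haveI : NeZero ℓ := ⟨hℓ.ne_zero⟩
    qExpand ℂ ℓ (wq N ⟨heckeProd N ℓ W.1, heckeProd_mem_WN hℓ W.2⟩) =
      qExpand ℂ (ℓ ^ 2) (wq N W) * ∏ j ∈ Finset.range ℓ, twist (zetaU ℓ ^ j) (wq N W) := by
  haveI : NeZero ℓ := ⟨hℓ.ne_zero⟩
  have h1 := (hasExp_wq (N := N) ⟨heckeProd N ℓ W.1, heckeProd_mem_WN hℓ W.2⟩).qExpand (m := ℓ)
  have hW := hasExp_wq (N := N) W
  have h2 : HasExp ℓ (fun z => W.1 (HR ℓ none • z)) (qExpand ℂ (ℓ ^ 2) (wq N W)) := by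
    have h3 := (hW.affine (d := 1) (a := ℓ) 0 (fun z => HR ℓ none • z) (fun τ => by
      rw [HR_smul_eq_act hℓ.ne_zero, HM_none]
      simpa using coe_act_upper ℓ 1 0 τ) (g := fun z => W.1 (HR ℓ none • z)) (fun τ => rfl)).qExpand
      (m := ℓ)
    rw [zpow_zero, one_mul, one_mul] at h3
    refine h3.congr rfl ?_
    rw [qExpand_qExpand, twist_one]
    exact qExpand_congr (by ring) _
  have h3 : ∀ j : Fin ℓ, HasExp ℓ (fun z => W.1 (HR ℓ (some j) • z))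
      (twist (zetaU ℓ ^ (j : ℕ)) (wq N W)) := by
    intro j
    have h3 := (hW.affine (d := ℓ) (a := 1) (j : ℕ) (fun z => HR ℓ (some j) • z) (fun τ => by
      rw [HR_smul_eq_act hℓ.ne_zero, HM_some]
      simpa using coe_act_upper 1 ℓ (j : ℕ) τ) (g := fun z => W.1 (HR ℓ (some j) • z))
      (fun τ => rfl))
    rw [one_mul, qExpand_one_apply, zpow_natCast] at h3
    exact h3
  rw [one_mul] at h1
  refine h1.unique (((HasExp.prod Finset.univ fun j _ => h3 j).mul h2).congr ?_ ?_)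
  · funext z
    refine Eq.trans ?_ (heckeProd_eq hℓN W.1 z).symm
    simp only [Pi.mul_apply, Finset.prod_apply]
  · rw [mul_comm]
    congr 1
    rw [Finset.prod_range]

/-! ### Compatibility of `iotaC` with the Hecke operators -/

/-- The relation between the expansion of a function and that of its multiplicative Hecke
transform. -/
def IsNormL {R : Type*} [CommRing R] (ζ : Rˣ) (ℓ : ℕ) [NeZero ℓ] (f g : LaurentSeries R) : Prop :=
  qExpand R ℓ g = qExpand R (ℓ ^ 2) f * ∏ j ∈ Finset.range ℓ, twist (ζ ^ j) f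

theorem opMul_expChar (hℓ : ℓ.Prime) (φ : Additive (CongruenceSubgroup.Gamma0 N) →+ ℤ) :
    (hreps N hℓ).opMul (expChar m φ) = expChar m ((hreps N hℓ).op φ) :=
  (hreps N hℓ).opMul_comp (zpowersHom ℂˣ (zetaU m)) φ

/-- **Hecke compatibility.** -/
theorem exists_iotaC_hop [NeZero m] (ℓ : Nat.Primes) (hℓN : ¬ (ℓ : ℕ) ∣ N) (φ : parM N ℤ) :
    haveI : NeZero (ℓ : ℕ) := ⟨ℓ.2.ne_zero⟩
    ∃ u v : kummerSubgroup ℂ (FC N) m,
      iotaC N m φ = Additive.ofMul (QuotientGroup.mk u) ∧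
      iotaC N m (hopPar N ℤ ℓ φ) = Additive.ofMul (QuotientGroup.mk v) ∧
      IsNormL (zetaU ℓ) ℓ (((u : (FC N)ˣ) : FC N) : LaurentSeries ℂ)
        (((v : (FC N)ˣ) : FC N) : LaurentSeries ℂ) := by
  haveI : NeZero (ℓ : ℕ) := ⟨ℓ.2.ne_zero⟩
  have hm : m ≠ 0 := NeZero.ne m
  set χ := expChar m φ.1 with hχdef
  have hχ : χ ∈ admSub N m := expChar_mem φ
  obtain ⟨hV, hV0⟩ := chiForm_spec hm hχ
  have hopχ : (hreps N ℓ.2).opMul χ = expChar m (hopPar N ℤ ℓ φ).1 := opMul_expChar ℓ.2 φ.1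
  have hχ' : (hreps N ℓ.2).opMul χ ∈ admSub N m := by
    rw [hopχ]
    exact expChar_mem _
  have hW := isCForm_heckeProd ℓ.2 hV hχ'.1
  have hW0 := heckeProd_ne_zero ℓ.2.pos (bigA_of_isCForm hV) hV0
  refine ⟨⟨powU hV hχ.2.2 hV0, powU_mem hV hχ hV0⟩, ⟨powU hW hχ'.2.2 hW0, powU_mem hW hχ' hW0⟩,
    ?_, ?_, ?_⟩
  · rw [iotaC_apply, kapChi_eq hm hV (expChar_mem φ) hV0]
    rfl
  · rw [iotaC_apply]
    congr 1
    have h1 : (⟨expChar m (hopPar N ℤ ℓ φ).1, expChar_mem _⟩ : admSub N m) =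
        ⟨(hreps N ℓ.2).opMul χ, hχ'⟩ := Subtype.ext hopχ.symm
    rw [h1, kapChi_eq hm hW hχ' hW0]
    rfl
  · rw [IsNormL]
    have h2 := qExpand_wq_heckeProd ℓ.2 hℓN (powW hV hχ.2.2)
    have h3 : powW hW hχ'.2.2 = ⟨heckeProd N ℓ (powW hV hχ.2.2).1,
        heckeProd_mem_WN ℓ.2 (powW hV hχ.2.2).2⟩ :=
      Subtype.ext (heckeProd_pow (N := N) (ℓ := ℓ) (chiForm χ) m).symm
    rw [← h3] at h2
    exact h2

end Fermat.Agent.Top
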