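import Fermat.Agent.Top.PicKummer
import Fermat.Agent.JZ.BaseChange
import Fermat.Agent.JZ.ModularComm

/-!
# Correspondences on the Kummer group
-/

set_option autoImplicit false
set_option linter.style.haveILetI false

open AlgebraicCurve

namespace Fermat.Agent.Top

section Corr

variable {K F F' : Type*} [Field K] [Field F] [Field F'] [Algebra K F] [Algebra K F']
  [IsAlgClosed K] [FF.IsFnField K F] [HasPrincipalDivisors K F']
variable (φ ψ : F →ₐ[K] F') (hφ : φ.toRingHom.IsIntegral) (hψ : ψ.toRingHom.IsIntegral)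
variable (hfin : FiniteAlong K ψ) (hN : NormFormulaAlong K ψ hfin)

include hN in
theorem mul_correspondence_rootDiv {m : ℕ} {u : F} (hu0 : u ≠ 0)
    (hu : ∀ v : Place K F, (m : ℤ) ∣ v.ord u) (v : Place K F) :
    (m : ℤ) * Divisor.correspondence φ ψ hφ hψ (rootDiv m u) v =
      v.ord (JZ.normAlong ψ (φ u)) := by
  have h1 : (m : ℤ) * Divisor.correspondence φ ψ hφ hψ (rootDiv m u) v =
      Divisor.correspondence φ ψ hφ hψ (RR.divOf u) v := by
    rw [← nsmul_rootDiv hu, map_nsmul, Finsupp.smul_apply, nsmul_eq_mul]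
  rw [h1, Divisor.correspondence_apply]
  apply JZ.pushforwardAlong_apply_of_ord ψ hψ hfin hN ((map_ne_zero φ).2 hu0)
  intro w
  rw [Divisor.pullbackAlong_apply, Place.ord_restrictAlong φ hφ, RR.divOf_apply]

variable (hFI : FundamentalIdentityAlong K φ hφ)

theorem correspondence_kummerToPic (m : ℕ) [NeZero m] {u u' : kummerSubgroup K F m}
    (h : ((u' : Fˣ) : F) = JZ.normAlong ψ (φ ((u : Fˣ) : F))) :
    Pic0.correspondence φ ψ hφ hψ hFI hfin hN (kummerToPic K F m (Additive.ofMul u)) =
      kummerToPic K F m (Additive.ofMul u') := by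
  change Pic0.correspondence φ ψ hφ hψ hFI hfin hN (Pic0.mk _) = _
  rw [Pic0.correspondence_mk]
  symm
  apply kummerToPic_eq_mk
  intro v
  rw [Pic0.coe_degZeroCorrespondence, h]
  exact mul_correspondence_rootDiv φ ψ hφ hψ hfin hN (Units.ne_zero _) u.2 v

include hφ hψ hfin hN in
theorem dvd_ord_norm {m : ℕ} {u : F} (hu0 : u ≠ 0) (hu : ∀ v : Place K F, (m : ℤ) ∣ v.ord u)
    (v : Place K F) : (m : ℤ) ∣ v.ord (JZ.normAlong ψ (φ u)) :=
  ⟨_, (mul_correspondence_rootDiv φ ψ hφ hψ hfin hN hu0 hu v).symm⟩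

end Corr

section Modular

open ModularCurve

variable {L : Type} [Field L] [Algebra ℚ L] [IsAlgClosed L]

/-- Hecke operators on the Kummer group are given by norms. -/
theorem exists_heckeOperatorAlong_kummerToPic (H : JZ.ModularFieldInputs L)
    (hNF : JZ.NormInputs L) (N m ℓ : ℕ) [NeZero N] [NeZero m] [NeZero ℓ]
    [FF.IsFnField L (laurentBaseChange L (modularFunctionFieldFull N))]
    (u : kummerSubgroup L (laurentBaseChange L (modularFunctionFieldFull N)) m) :
    ∃ u' : kummerSubgroup L (laurentBaseChange L (modularFunctionFieldFull N)) m,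
      ((u' : (laurentBaseChange L (modularFunctionFieldFull N))ˣ) :
        laurentBaseChange L (modularFunctionFieldFull N)) =
          JZ.normAlong (heckeAlphaBar L N ℓ) (heckeBetaBar L N ℓ
            ((u : (laurentBaseChange L (modularFunctionFieldFull N))ˣ))) ∧
      heckeOperatorAlong L N ℓ (kummerToPic L _ m (Additive.ofMul u)) =
        kummerToPic L _ m (Additive.ofMul u') := by
  have hin := JZ.heckeInputsAlong H hNF N ℓ
  obtain ⟨hα, hβ, hP, hfin, hFI, hN⟩ := hin
  refine ⟨⟨Units.mk0 (JZ.normAlong (heckeAlphaBar L N ℓ) (heckeBetaBar L N ℓ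
    ((u : (laurentBaseChange L (modularFunctionFieldFull N))ˣ)))) ?_, ?_⟩, rfl, ?_⟩
  · exact JZ.normAlong_ne_zero _ hfin ((map_ne_zero _).2 (Units.ne_zero _))
  · exact dvd_ord_norm (heckeBetaBar L N ℓ) (heckeAlphaBar L N ℓ) hβ hα hfin hN
      (Units.ne_zero _) u.2
  · rw [heckeOperatorAlong_eq hα hβ hFI hfin hN]
    exact correspondence_kummerToPic (heckeBetaBar L N ℓ) (heckeAlphaBar L N ℓ) hβ hα hfin hN hFI m
      rfl

end Modular

end Fermat.Agent.Top
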