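import Fermat.Agent.Top.Support
import Fermat.Agent.Top.KummerHecke
import Fermat.Agent.Top.HeckeForm
import Fermat.Agent.Top.KummerFin
import Fermat.Agent.ESh.NormExp
import Fermat.Agent.ESh.AtkinLehner
import Fermat.Agent.S24Lib.NormInputs

/-!
# The support map and the finiteness of the torsion of `J₀(N)`, unconditionally
-/

set_option autoImplicit false
set_option linter.style.haveILetI false

open HahnSeries ModularCurve AlgebraicCurve

namespace Fermat.Agent.Top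

local notation "Qb" => AlgebraicClosure ℚ

section Norm

variable {L : Type} [Field L] [Algebra ℚ L] [Algebra L ℂ] [IsAlgClosed L]

omit [Algebra L ℂ] [IsAlgClosed L] in
theorem finrankAlong_heckeAlphaBar (H : JZ.ModularFieldInputs L) (N ℓ : ℕ) [NeZero N] [NeZero ℓ]
    (hℓ : ℓ.Prime) (hN : ¬ ℓ ∣ N) : finrankAlong L (heckeAlphaBar L N ℓ) = ℓ + 1 := by
  haveI : NeZero (N * ℓ) := ⟨mul_ne_zero (NeZero.ne N) (NeZero.ne ℓ)⟩
  rw [heckeAlphaBar_eq_inclusion N ℓ (JZ.FN_mono (L := L) (dvd_mul_right N ℓ)),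
    JZ.finrankAlong_inclusion]
  have := JZ.relfinrank_FN_prime H (M := N) (p := ℓ) hℓ
  rw [if_neg hN] at this
  exact this

omit [IsAlgClosed L] in
theorem isHeckeNorm_normAlong (H : JZ.ModularFieldInputs L) (N ℓ : ℕ) [NeZero N] [NeZero ℓ]
    (hℓ : ℓ.Prime) (hN : ¬ ℓ ∣ N) {ζ : Lˣ} (hζ : IsPrimitiveRoot ζ ℓ)
    (h : laurentBaseChange L (modularFunctionFieldFull N)) :
    IsHeckeNorm ℓ ζ (h : LaurentSeries L)
      ((JZ.normAlong (heckeAlphaBar L N ℓ) (heckeBetaBar L N ℓ h) :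
        laurentBaseChange L (modularFunctionFieldFull N)) : LaurentSeries L) := by
  haveI : NeZero (N * ℓ) := ⟨mul_ne_zero (NeZero.ne N) (NeZero.ne ℓ)⟩
  haveI := H.fnField N
  haveI := H.fnField (N * ℓ)
  obtain ⟨w, hα, hβ⟩ := ESh.exists_atkinLehner L N ℓ hℓ hN
  have h1 := ESh.qExpand_normAlong hℓ.one_lt (JZ.finiteAlong _)
    (finrankAlong_heckeAlphaBar H N ℓ hℓ hN) w hα hβ ζ hζ.eq_orderOf.symm h
  unfold IsHeckeNorm
  rw [h1, qExpand_qExpand, Finset.prod_range]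
  congr 1
  exact qExpand_congr (by ring) _

end Norm

variable (N m : ℕ) [NeZero N] [NeZero m]

theorem exists_primitive_unit (L : Type) [Field L] [IsAlgClosed L] [CharZero L] (n : ℕ) [NeZero n] :
    ∃ ζ : Lˣ, IsPrimitiveRoot ζ n := by
  have : NeZero (n : L) := ⟨by exact_mod_cast NeZero.ne n⟩
  obtain ⟨ζ, hζ⟩ := HasEnoughRootsOfUnity.exists_primitiveRoot L n
  exact ⟨(hζ.isUnit (NeZero.ne n)).unit, IsPrimitiveRoot.coe_units_iff.1 hζ⟩

theorem normSeriesInputC : NormSeriesInputC N := by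
  intro ℓ hℓ f
  obtain ⟨ζ, hζ⟩ := exists_primitive_unit ℂ (ℓ : ℕ)
  exact ⟨ζ, _, hζ, isHeckeNorm_normAlong JZ.modularFieldInputsC N ℓ ℓ.2 hℓ hζ f⟩

theorem kummerHeckeInput : KummerHeckeInput N m := by
  intro ℓ hℓ u
  have : Algebra.IsAlgebraic ℚ Qb := AlgebraicClosure.isAlgebraic ℚ
  let _ : Algebra Qb ℂ := (IsAlgClosed.lift (R := ℚ) (S := Qb) (M := ℂ)).toRingHom.toAlgebra
  obtain ⟨ζ, hζ⟩ := exists_primitive_unit Qb (ℓ : ℕ)
  obtain ⟨u', hu', hT⟩ := exists_heckeOperatorAlong_kummerToPic JZ.modularFieldInputsBar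
    (FF.normInputs Qb) N m ℓ u
  refine ⟨ζ, u', hζ, ?_, ?_⟩
  · rw [hu']
    exact isHeckeNorm_normAlong JZ.modularFieldInputsBar N ℓ ℓ.2 hℓ hζ _
  · rw [heckeOperatorBar_apply]
    exact hT

theorem complexInputs : ComplexInputs N m where
  finite := finite_kummerGroup_FC (NeZero.ne m)
  iota := by
    refine ⟨iotaC N m, fun φ hφ => exists_of_iotaC_eq_zero φ hφ, fun ℓ hℓ φ => ?_⟩
    obtain ⟨u, v, hu, hv, huv⟩ := exists_iotaC_hop (m := m) ℓ hℓ φ
    exact ⟨ModFn.zetaU ℓ, u, v, IsPrimitiveRoot.coe_units_iff.1 (ModFn.isPrimitiveRoot_zetaU ℓ),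
      hu, hv, huv⟩

instance finiteKummerFC : Finite (KummerGroup ℂ (FC N) m) := finite_kummerGroup_FC (NeZero.ne m)

/-- Hecke equivariance of `W_m(ℂ) → J₀(N)`. -/
theorem kummerC_hecke [Algebra Qb ℂ] {ℓ : Nat.Primes} (hℓ : ¬ (ℓ : ℕ) ∣ N) {ζ : ℂˣ}
    (hζ : IsPrimitiveRoot ζ (ℓ : ℕ)) {u u' : kummerSubgroup ℂ (FC N) m}
    (huu' : IsHeckeNorm (ℓ : ℕ) ζ (((u : (FC N)ˣ) : FC N) : LaurentSeries ℂ)
        (((u' : (FC N)ˣ) : FC N) : LaurentSeries ℂ)) :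
    kummerC N m (Additive.ofMul (QuotientGroup.mk u')) =
      heckeOperatorBar N ℓ (kummerC N m (Additive.ofMul (QuotientGroup.mk u))) :=
  kummerC_hecke_of N m (normSeriesInputC N) (kummerHeckeInput N m) hℓ hζ huu'

/-- The support map. -/
noncomputable def iotaJ [Algebra Qb ℂ] : parM N ℤ →+ JZero N := (kummerC N m).comp (iotaC N m)

theorem iotaJ_apply [Algebra Qb ℂ] (φ : parM N ℤ) : iotaJ N m φ = kummerC N m (iotaC N m φ) := rfl

theorem nsmul_iotaJ [Algebra Qb ℂ] (φ : parM N ℤ) : m • iotaJ N m φ = 0 := nsmul_kummerC N m _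

theorem exists_of_iotaJ_eq_zero [Algebra Qb ℂ] {φ : parM N ℤ} (h : iotaJ N m φ = 0) :
    ∃ φ', φ = m • φ' :=
  exists_of_iotaC_eq_zero φ ((map_eq_zero_iff _ (kummerC_injective N m)).1 h)

theorem iotaJ_hopPar [Algebra Qb ℂ] (ℓ : Nat.Primes) (hℓ : ¬ (ℓ : ℕ) ∣ N) (φ : parM N ℤ) :
    iotaJ N m (hopPar N ℤ ℓ φ) = heckeOperatorBar N ℓ (iotaJ N m φ) := by
  obtain ⟨u, v, hu, hv, huv⟩ := exists_iotaC_hop (m := m) ℓ hℓ φ
  rw [iotaJ_apply, iotaJ_apply, hu, hv]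
  exact kummerC_hecke N m hℓ (IsPrimitiveRoot.coe_units_iff.1 (ModFn.isPrimitiveRoot_zetaU ℓ)) huv

/-- **The support map exists**, for all `N` and `m`. -/
theorem supportMap : RepTwo.SupportMap N m :=
  supportMap_of (complexInputs N m) (normSeriesInputC N) (kummerHeckeInput N m)

/-- **`J₀(N)[m]` is finite.** -/
theorem finite_pTor : Finite (RepTwo.pTor (JZero N) m) :=
  finite_pTor_of (finite_kummerGroup_FC (NeZero.ne m))

end Fermat.Agent.Top
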