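import Mathlib
import Fermat.Prelude.Def_ModularCurve_ArithmeticGalois

/-!
# Descent of constants for subfields of Laurent series fields

For `F₀ ⊆ ℚ((q))` and an extension `K ⊆ E`, `laurentBaseChange E F₀ ∩ K((q)) =
laurentBaseChange K F₀`.
-/

set_option autoImplicit false

open HahnSeries ModularCurve

namespace Fermat.Agent.Top

section LinFun

variable {K E : Type*} [Field K] [Field E] [Algebra K E]

/-- Coefficientwise application of a linear functional. -/
noncomputable def mapFun (lam : E →ₗ[K] K) : LaurentSeries E →+ LaurentSeries K where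
  toFun x := x.map lam
  map_zero' := by ext k; simp
  map_add' x y := by ext k; simp

@[simp] theorem mapFun_coeff (lam : E →ₗ[K] K) (x : LaurentSeries E) (n : ℤ) :
    (mapFun lam x).coeff n = lam (x.coeff n) := rfl

theorem support_mapFun_subset (lam : E →ₗ[K] K) (x : LaurentSeries E) :
    (mapFun lam x).support ⊆ x.support := by
  intro n hn h
  apply hn
  rw [mapFun_coeff, h, map_zero]

theorem support_coeffMap (z : LaurentSeries K) :
    (coeffMap (algebraMap K E) z).support = z.support := by
  ext n
  simp [HahnSeries.mem_support]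

/-- `mapFun lam` is `K((q))`-linear. -/
theorem mapFun_coeffMap_mul (lam : E →ₗ[K] K) (z : LaurentSeries K) (b : LaurentSeries E) :
    mapFun lam (coeffMap (algebraMap K E) z * b) = z * mapFun lam b := by
  ext n
  rw [mapFun_coeff, HahnSeries.coeff_mul_left' z.isPWO_support (support_coeffMap z).subset,
    HahnSeries.coeff_mul_right' b.isPWO_support (support_mapFun_subset lam b), map_sum]
  refine Finset.sum_congr rfl (fun ij _ => ?_)
  rw [coeffMap_coeff, mapFun_coeff, ← Algebra.smul_def, map_smul, smul_eq_mul]

end LinFun

section BaseChange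

variable {K E : Type*} [Field K] [Field E] [Algebra K E] [Algebra ℚ K] [Algebra ℚ E]
variable {F₀ : IntermediateField ℚ (LaurentSeries ℚ)}

theorem coeffMap_coeffEmb' (x : LaurentSeries ℚ) :
    coeffMap (algebraMap K E) (coeffEmb K x) = coeffEmb E x := by
  rw [coeffEmb, coeffMap_coeffMap]
  exact coeffMap_congr (Subsingleton.elim _ _) x

omit [Algebra ℚ K] [Algebra ℚ E] in
theorem coeffMap_algebraMap' (c : K) :
    coeffMap (algebraMap K E) (algebraMap K (LaurentSeries K) c) =
      algebraMap E (LaurentSeries E) (algebraMap K E c) := by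
  rw [algebraMap_laurentSeries_eq_single, algebraMap_laurentSeries_eq_single, coeffMap_single]

theorem coeffMap_mem_baseChange {x : LaurentSeries K} (hx : x ∈ laurentBaseChange K F₀) :
    coeffMap (algebraMap K E) x ∈ laurentBaseChange E F₀ := by
  rw [mem_laurentBaseChange_iff] at hx
  induction hx using Subfield.closure_induction with
  | mem y hy =>
      rcases hy with ⟨a, rfl⟩ | ⟨z, hz, rfl⟩
      · rw [coeffMap_algebraMap']
        exact (laurentBaseChange E F₀).algebraMap_mem _
      · rw [coeffMap_coeffEmb']
        exact coeffEmb_mem_laurentBaseChange E hz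
  | one => simp
  | add x y _ _ hx hy => simpa using add_mem hx hy
  | neg x _ hx => simpa using neg_mem hx
  | inv x _ hx => simpa using inv_mem hx
  | mul x y _ _ hx hy => simpa using mul_mem hx hy

variable (K E F₀) in
/-- The inclusion `F_K → F_E`. -/
noncomputable def baseChangeEmb : laurentBaseChange K F₀ →+* laurentBaseChange E F₀ where
  toFun x := ⟨coeffMap (algebraMap K E) (x : LaurentSeries K), coeffMap_mem_baseChange x.2⟩
  map_one' := Subtype.ext (map_one _)
  map_zero' := Subtype.ext (map_zero _)
  map_mul' _ _ := Subtype.ext (map_mul _ _ _)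
  map_add' _ _ := Subtype.ext (map_add _ _ _)

@[simp] theorem coe_baseChangeEmb (x : laurentBaseChange K F₀) :
    (baseChangeEmb K E F₀ x : LaurentSeries E) = coeffMap (algebraMap K E) (x : LaurentSeries K) :=
  rfl

omit [Algebra ℚ K] [Algebra ℚ E] in
theorem coeffMap_injective : Function.Injective (coeffMap (algebraMap K E)) := by
  intro x y h
  ext n
  apply (algebraMap K E).injective
  rw [← coeffMap_coeff, ← coeffMap_coeff, h]

theorem baseChangeEmb_algebraMap (c : K) :
    baseChangeEmb K E F₀ (algebraMap K _ c) = algebraMap E _ (algebraMap K E c) :=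
  Subtype.ext (coeffMap_algebraMap' c)

variable (E F₀) in
/-- Products of a constant and an element of `F₀`. -/
def prodSet : Set (LaurentSeries E) :=
  {y | ∃ (e : E) (f : LaurentSeries ℚ), f ∈ F₀ ∧ y = algebraMap E _ e * coeffEmb E f}

theorem mul_mem_closure_prodSet {x y : LaurentSeries E}
    (hx : x ∈ AddSubgroup.closure (prodSet E F₀)) (hy : y ∈ AddSubgroup.closure (prodSet E F₀)) :
    x * y ∈ AddSubgroup.closure (prodSet E F₀) := by
  induction hx using AddSubgroup.closure_induction with
  | mem x hx =>
      obtain ⟨e, f, hf, rfl⟩ := hx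
      induction hy using AddSubgroup.closure_induction with
      | mem y hy =>
          obtain ⟨e', f', hf', rfl⟩ := hy
          refine AddSubgroup.subset_closure ⟨e * e', f * f', mul_mem hf hf', ?_⟩
          rw [map_mul, map_mul]; ring
      | zero => rw [mul_zero]; exact zero_mem _
      | add _ _ _ _ h1 h2 => rw [mul_add]; exact add_mem h1 h2
      | neg _ _ h1 => rw [mul_neg]; exact neg_mem h1
  | zero => rw [zero_mul]; exact zero_mem _
  | add _ _ _ _ h1 h2 => rw [add_mul]; exact add_mem h1 h2
  | neg _ _ h1 => rw [neg_mul]; exact neg_mem h1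

theorem mem_closure_prodSet_of_mem_adjoin {x : LaurentSeries E}
    (hx : x ∈ Algebra.adjoin E (⇑(coeffEmb E) '' (F₀ : Set (LaurentSeries ℚ)))) :
    x ∈ AddSubgroup.closure (prodSet E F₀) := by
  induction hx using Algebra.adjoin_induction with
  | mem x hx =>
      obtain ⟨f, hf, rfl⟩ := hx
      exact AddSubgroup.subset_closure ⟨1, f, hf, by simp⟩
  | algebraMap r =>
      exact AddSubgroup.subset_closure ⟨r, 1, one_mem _, by simp⟩
  | add _ _ _ _ h1 h2 => exact add_mem h1 h2
  | mul _ _ _ _ h1 h2 => exact mul_mem_closure_prodSet h1 h2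

theorem mapFun_mem_of_mem_closure (lam : E →ₗ[K] K) {x : LaurentSeries E}
    (hx : x ∈ AddSubgroup.closure (prodSet E F₀)) :
    mapFun lam x ∈ laurentBaseChange K F₀ := by
  induction hx using AddSubgroup.closure_induction with
  | mem x h =>
      obtain ⟨e, y, hy, rfl⟩ := h
      have : mapFun lam (algebraMap E _ e * coeffEmb E y) =
          algebraMap K _ (lam e) * coeffEmb K y := by
        rw [← coeffMap_coeffEmb' (K := K) (E := E) y, mul_comm (algebraMap E _ e),
          mapFun_coeffMap_mul, mul_comm]
        congr 1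
        ext n
        rw [mapFun_coeff, algebraMap_laurentSeries_eq_single, algebraMap_laurentSeries_eq_single]
        by_cases hn : n = 0
        · subst hn; simp
        · rw [HahnSeries.coeff_single_of_ne hn, map_zero, HahnSeries.coeff_single_of_ne hn]
      rw [this]
      exact mul_mem (IntermediateField.algebraMap_mem _ _) (coeffEmb_mem_laurentBaseChange K hy)
  | zero => rw [map_zero]; exact zero_mem _
  | add x y _ _ hx hy => rw [map_add]; exact add_mem hx hy
  | neg x _ hx => rw [map_neg]; exact neg_mem hx

/-- **Descent of constants**: `F_E ∩ K((q)) = F_K`. -/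
theorem mem_baseChange_of_coeffMap_mem {z : LaurentSeries K}
    (hz : coeffMap (algebraMap K E) z ∈ laurentBaseChange E F₀) : z ∈ laurentBaseChange K F₀ := by
  rw [laurentBaseChange, IntermediateField.mem_adjoin_iff_div] at hz
  obtain ⟨a, ha, b, hb, hab⟩ := hz
  by_cases hb0 : b = 0
  · rw [hb0, div_zero] at hab
    have : z = 0 := coeffMap_injective (K := K) (E := E) (by rw [hab, map_zero])
    rw [this]; exact zero_mem _
  have hmul : coeffMap (algebraMap K E) z * b = a := by
    rw [hab, div_mul_cancel₀ _ hb0]
  obtain ⟨n, hn⟩ : ∃ n, b.coeff n ≠ 0 := by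
    by_contra hcon
    push Not at hcon
    exact hb0 (HahnSeries.ext (funext hcon))
  obtain ⟨lam, hlam⟩ := Module.Projective.exists_dual_ne_zero K hn
  have h1 := congrArg (mapFun lam) hmul
  rw [mapFun_coeffMap_mul] at h1
  have h2 : mapFun lam b ≠ 0 := by
    intro h
    apply hlam
    rw [← mapFun_coeff, h, HahnSeries.coeff_zero]
  have h3 : z = mapFun lam a / mapFun lam b := by
    rw [eq_div_iff h2, h1]
  rw [h3]
  exact div_mem (mapFun_mem_of_mem_closure lam (mem_closure_prodSet_of_mem_adjoin ha))
    (mapFun_mem_of_mem_closure lam (mem_closure_prodSet_of_mem_adjoin hb))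

end BaseChange

end Fermat.Agent.Top
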