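import Fermat.Agent.Top.CanRep
import Fermat.Agent.Top.DescentSeries

/-!
# Descent of Kummer classes

For `K ⊆ E` algebraically closed of characteristic zero and `F₀ ⊆ ℚ((q))`, if the Kummer group
`KummerGroup E F_E m` is finite then `KummerGroup K F_K m → KummerGroup E F_E m` is bijective.
-/

set_option autoImplicit false

open HahnSeries ModularCurve AlgebraicCurve

namespace Fermat.Agent.Top

section Series

variable {K E : Type*} [Field K] [Field E]

theorem order_coeffMap (σ : K →+* E) (z : LaurentSeries K) :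
    (coeffMap σ z).order = z.order := by
  by_cases hz : z = 0
  · rw [hz, map_zero, HahnSeries.order_zero, HahnSeries.order_zero]
  have hcz : coeffMap σ z ≠ 0 := by
    intro h
    apply hz
    ext n
    apply σ.injective
    rw [← coeffMap_coeff, h]
    simp
  apply le_antisymm
  · apply HahnSeries.order_le_of_coeff_ne_zero
    rw [coeffMap_coeff, Ne, map_eq_zero, HahnSeries.coeff_order_eq_zero]
    exact hz
  · apply HahnSeries.order_le_of_coeff_ne_zero
    intro h
    have h1 : (coeffMap σ z).coeff (coeffMap σ z).order = 0 := by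
      rw [coeffMap_coeff, h, map_zero]
    rw [HahnSeries.coeff_order_eq_zero] at h1
    exact hcz h1

theorem leadingCoeff_coeffMap (σ : K →+* E) (z : LaurentSeries K) :
    (coeffMap σ z).leadingCoeff = σ z.leadingCoeff := by
  rw [HahnSeries.leadingCoeff_eq, HahnSeries.leadingCoeff_eq, order_coeffMap, coeffMap_coeff]

/-- A series all of whose coefficients are in the image comes from a series. -/
theorem exists_coeffMap_eq (σ : K →+* E) {z : LaurentSeries E}
    (hz : ∀ n, z.coeff n ∈ σ.range) : ∃ z₀ : LaurentSeries K, coeffMap σ z₀ = z := by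
  choose c hc using hz
  refine ⟨⟨c, ?_⟩, ?_⟩
  · refine z.isPWO_support.mono ?_
    intro n hn h
    apply hn
    apply σ.injective
    rw [hc, h, map_zero]
  · ext n
    rw [coeffMap_coeff]
    exact hc n

end Series

section Smul

variable {E : Type*} [Field E] [Algebra ℚ E] {F₀ : IntermediateField ℚ (LaurentSeries ℚ)}

theorem order_smul (σ : E ≃ₐ[ℚ] E) (f : laurentBaseChange E F₀) :
    ((arithmeticGalois F₀ σ • f : laurentBaseChange E F₀) : LaurentSeries E).order =
      (f : LaurentSeries E).order := by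
  rw [coe_arithmeticGalois_smul, order_coeffMap]

theorem smul_qPlace {w : Place E (laurentBaseChange E F₀)} {e : ℤ} (he : 0 < e)
    (hw : ∀ f : laurentBaseChange E F₀, (f : LaurentSeries E).order = w.ord f * e)
    (σ : E ≃ₐ[ℚ] E) : arithmeticGalois F₀ σ • w = w := by
  apply FF.eq_of_le
  intro f hf
  have h1 : f = arithmeticGalois F₀ σ • ((arithmeticGalois F₀ σ)⁻¹ • f) := (smul_inv_smul _ _).symm
  have h2 := FF.ord_nonneg_of_mem _ hf
  rw [h1, SemilinearAut.ord_smul] at h2
  apply FF.mem_of_ord_nonneg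
  have h3 : w.ord ((arithmeticGalois F₀ σ)⁻¹ • f) * e = w.ord f * e := by
    rw [← hw, ← hw, ← map_inv]
    exact order_smul σ⁻¹ f
  have h4 : w.ord ((arithmeticGalois F₀ σ)⁻¹ • f) = w.ord f := by
    exact mul_right_cancel₀ he.ne' h3
  rw [← h4]; exact h2

theorem IsCan.smul {w : Place E (laurentBaseChange E F₀)} {e : ℤ} (he : 0 < e)
    (hw : ∀ f : laurentBaseChange E F₀, (f : LaurentSeries E).order = w.ord f * e)
    (σ : E ≃ₐ[ℚ] E) {m : ℕ} {c : laurentBaseChange E F₀} (hc : IsCan w m c) :
    IsCan w m (arithmeticGalois F₀ σ • c) := by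
  obtain ⟨h0, h1, h2, h3⟩ := hc
  set g := arithmeticGalois F₀ σ with hg
  have hgw : g • w = w := smul_qPlace he hw σ
  have hne : ∀ v, v ≠ w → g⁻¹ • v ≠ w := by
    intro v hv h
    apply hv
    rw [← hgw, ← h, smul_inv_smul]
  have hord : ∀ (v : Place E (laurentBaseChange E F₀)) (f : laurentBaseChange E F₀),
      v.ord (g • f) = (g⁻¹ • v).ord f := by
    intro v f
    have := SemilinearAut.ord_smul g (g⁻¹ • v) f
    rwa [smul_inv_smul] at this
  refine ⟨?_, ?_, ?_, ?_⟩
  · intro h
    apply h0
    rw [smul_eq_zero_iff_eq] at h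
    exact h
  · intro v hv
    rw [hord]
    exact h1 _ (hne v hv)
  · rw [hg, coe_arithmeticGalois_smul, leadingCoeff_coeffMap, h2, map_one]
  · intro f hf hf'
    have h4 : g • c * f ^ m = g • (c * (g⁻¹ • f) ^ m) := by
      rw [smul_mul', smul_pow', smul_inv_smul]
    rw [h4]
    rw [hg, order_smul, order_smul]
    apply h3 (g⁻¹ • f)
    · intro h
      apply hf
      rw [smul_eq_zero_iff_eq] at h
      exact h
    · intro v hv
      have hv' : g • v ≠ w := by
        intro h
        apply hv
        rw [← inv_smul_smul g v, h]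
        conv_lhs => rw [← hgw]
        rw [inv_smul_smul]
      have h5 := hf' (g • v) hv'
      rw [h4, SemilinearAut.ord_smul] at h5
      exact h5

end Smul

section Main

variable {K E : Type*} [Field K] [Field E] [Algebra K E] [Algebra ℚ K] [Algebra ℚ E]
variable {F₀ : IntermediateField ℚ (LaurentSeries ℚ)}

/-- Restriction of scalars of automorphisms. -/
noncomputable def restrictAut (σ : E ≃ₐ[K] E) : E ≃ₐ[ℚ] E :=
  haveI : IsScalarTower ℚ K E := IsScalarTower.of_algebraMap_eq' (Subsingleton.elim _ _)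
  AlgEquiv.restrictScalars ℚ σ

theorem restrictAut_apply (σ : E ≃ₐ[K] E) (x : E) : restrictAut σ x = σ x := rfl

variable [IsAlgClosed K] [IsAlgClosed E] [CharZero K]

/-- An element of `F_E` with finite orbit under `Aut(E/K)` comes from `F_K`. -/
theorem exists_emb_eq_of_finite_orbit {f : laurentBaseChange E F₀}
    (hf : (Set.range (fun σ : E ≃ₐ[K] E => arithmeticGalois F₀ (restrictAut σ) • f)).Finite) :
    ∃ f₀ : laurentBaseChange K F₀, baseChangeEmb K E F₀ f₀ = f := by
  have h1 : ∀ n, (f : LaurentSeries E).coeff n ∈ (algebraMap K E).range := by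
    intro n
    apply mem_range_of_finite_orbit
    refine (hf.image (fun g : laurentBaseChange E F₀ => (g : LaurentSeries E).coeff n)).subset ?_
    rintro _ ⟨σ, rfl⟩
    refine ⟨_, ⟨σ, rfl⟩, ?_⟩
    change ((arithmeticGalois F₀ (restrictAut σ) • f : laurentBaseChange E F₀) :
      LaurentSeries E).coeff n = _
    rw [coe_arithmeticGalois_smul, coeffMap_coeff]
    rfl
  obtain ⟨z, hz⟩ := exists_coeffMap_eq (algebraMap K E) h1
  have h2 : z ∈ laurentBaseChange K F₀ := by
    apply mem_baseChange_of_coeffMap_mem (E := E)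
    rw [hz]
    exact f.2
  exact ⟨⟨z, h2⟩, Subtype.ext hz⟩

omit [IsAlgClosed K] [IsAlgClosed E] [CharZero K] in
/-- Galois automorphisms over `K` fix the image of `F_K`. -/
theorem smul_baseChangeEmb (σ : E ≃ₐ[K] E) (f : laurentBaseChange K F₀) :
    arithmeticGalois F₀ (restrictAut σ) • baseChangeEmb K E F₀ f = baseChangeEmb K E F₀ f := by
  apply Subtype.ext
  rw [coe_arithmeticGalois_smul, coe_baseChangeEmb, coeffMap_coeffMap]
  apply coeffMap_congr
  ext x
  exact σ.commutes x

/-- **Roots descend.** -/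
theorem exists_emb_eq_of_pow_eq {m : ℕ} (hm : 0 < m) {g : laurentBaseChange E F₀}
    {h : laurentBaseChange K F₀} (hg : g ^ m = baseChangeEmb K E F₀ h) :
    ∃ g₀ : laurentBaseChange K F₀, baseChangeEmb K E F₀ g₀ = g ∧ g₀ ^ m = h := by
  classical
  obtain ⟨g₀, hg₀⟩ := exists_emb_eq_of_finite_orbit (K := K) (f := g) (by
    have h1 : ({x | x ^ m = g ^ m} : Set (laurentBaseChange E F₀)).Finite := by
      refine (Polynomial.nthRoots m (g ^ m)).toFinset.finite_toSet.subset ?_
      intro x hx
      simp only [Finset.mem_coe, Multiset.mem_toFinset]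
      rw [Polynomial.mem_nthRoots hm]
      exact hx
    refine h1.subset ?_
    rintro _ ⟨σ, rfl⟩
    change (arithmeticGalois F₀ (restrictAut σ) • g) ^ m = g ^ m
    rw [← smul_pow', hg, smul_baseChangeEmb])
  refine ⟨g₀, hg₀, ?_⟩
  apply (baseChangeEmb K E F₀).injective
  rw [map_pow, hg₀, hg]

variable [CharZero E] [FF.IsFnField K (laurentBaseChange K F₀)]
  [FF.IsFnField E (laurentBaseChange E F₀)]

omit [IsAlgClosed E] in
/-- Divisibility of divisors is the same over `K` and `E`. -/
theorem dvd_ord_emb_iff {m : ℤ} {f : laurentBaseChange K F₀} :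
    (∀ v : Place E (laurentBaseChange E F₀), m ∣ v.ord (baseChangeEmb K E F₀ f)) ↔
      ∀ w : Place K (laurentBaseChange K F₀), m ∣ w.ord f := by
  constructor
  · intro h w
    obtain ⟨v, hv⟩ := exists_place_lift E w
    rw [← hv]
    exact h v
  · intro h v
    rcases exists_restrict (baseChangeEmb K E F₀) baseChangeEmb_algebraMap v with h1 | ⟨w, e, -, h1⟩
    · rw [h1]; exact dvd_zero _
    · rw [h1]; exact dvd_mul_of_dvd_left (h w) _

/-- **Kummer classes descend**, provided there are only finitely many. -/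
theorem exists_kummer_descent {m : ℕ} (hm : 0 < m)
    [hfin : Finite (KummerGroup E (laurentBaseChange E F₀) m)]
    {x : LaurentSeries ℚ} (hx : x ∈ F₀) (hx' : x.order ≠ 0)
    {h : laurentBaseChange E F₀} (hh : h ≠ 0)
    (hdvd : ∀ v : Place E (laurentBaseChange E F₀), (m : ℤ) ∣ v.ord h) :
    ∃ (h₀ : laurentBaseChange K F₀) (f : laurentBaseChange E F₀), h₀ ≠ 0 ∧ f ≠ 0 ∧
      (∀ w : Place K (laurentBaseChange K F₀), (m : ℤ) ∣ w.ord h₀) ∧
      h * f ^ m = baseChangeEmb K E F₀ h₀ := by
  classical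
  let x' : laurentBaseChange E F₀ := ⟨coeffEmb E x, coeffEmb_mem_laurentBaseChange E hx⟩
  have hx'' : (x' : LaurentSeries E).order ≠ 0 := by
    change (coeffEmb E x).order ≠ 0
    rw [coeffEmb, order_coeffMap]
    exact hx'
  obtain ⟨w, e, he, hw⟩ := exists_qPlace (F := laurentBaseChange E F₀) hx''
  obtain ⟨f, hf0, hcan⟩ := exists_isCan he hw hm hh hdvd
  set c := h * f ^ m with hc
  have hc0 : c ≠ 0 := hcan.1
  have hcdvd : ∀ v : Place E (laurentBaseChange E F₀), (m : ℤ) ∣ v.ord c := by
    intro v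
    rw [hc, v.ord_mul hh (pow_ne_zero _ hf0), FF.ord_pow]
    exact dvd_add (hdvd v) (dvd_mul_right _ _)
  -- translates
  let tr : (E ≃ₐ[K] E) → laurentBaseChange E F₀ := fun σ =>
    arithmeticGalois F₀ (restrictAut σ) • c
  have htr0 : ∀ σ, tr σ ≠ 0 := fun σ => (IsCan.smul he hw (restrictAut σ) hcan).1
  have htrdvd : ∀ σ, ∀ v : Place E (laurentBaseChange E F₀), (m : ℤ) ∣ v.ord (tr σ) := by
    intro σ v
    have h1 := SemilinearAut.ord_smul (arithmeticGalois F₀ (restrictAut σ))
      ((arithmeticGalois F₀ (restrictAut σ))⁻¹ • v) c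
    rw [smul_inv_smul] at h1
    change (m : ℤ) ∣ v.ord (arithmeticGalois F₀ (restrictAut σ) • c)
    rw [h1]
    exact hcdvd _
  let cls : (E ≃ₐ[K] E) → KummerGroup E (laurentBaseChange E F₀) m := fun σ =>
    QuotientGroup.mk ⟨Units.mk0 (tr σ) (htr0 σ), htrdvd σ⟩
  have hcls : ∀ σ τ, cls σ = cls τ → tr σ = tr τ := by
    intro σ τ h1
    have h2 := QuotientGroup.eq.1 h1
    rw [Subgroup.mem_subgroupOf] at h2
    obtain ⟨g, hg⟩ := h2
    have hg' : (g : laurentBaseChange E F₀) ^ m = (tr σ)⁻¹ * tr τ := by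
      have := congrArg (fun u : (laurentBaseChange E F₀)ˣ => (u : laurentBaseChange E F₀)) hg
      simpa using this
    have h3 : tr τ = tr σ * (g : laurentBaseChange E F₀) ^ m := by
      rw [hg', mul_inv_cancel_left₀ (htr0 σ)]
    have h4 := IsCan.unique hm (IsCan.smul he hw (restrictAut σ) hcan) g.ne_zero
      (by
        have h5 := IsCan.smul he hw (restrictAut τ) hcan
        change IsCan w m (tr τ) at h5
        rw [h3] at h5
        exact h5) (htrdvd σ)
    rw [h3]
    exact h4.symm
  obtain ⟨h₀, hh₀⟩ := exists_emb_eq_of_finite_orbit (K := K) (f := c) (by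
    have h6 : (Set.range tr).Finite := by
      have h7 : (Set.range tr).Finite ↔ True := by
        refine ⟨fun _ => trivial, fun _ => ?_⟩
        have : Function.FactorsThrough tr cls := fun σ τ h => hcls σ τ h
        obtain ⟨k, hk⟩ := (Function.factorsThrough_iff tr).1 this
        rw [hk]
        exact (Set.finite_range k).subset (Set.range_comp_subset_range _ _)
      exact h7.2 trivial
    exact h6)
  refine ⟨h₀, f, ?_, hf0, ?_, hh₀.symm⟩
  · rintro rfl
    rw [map_zero] at hh₀
    exact hc0 hh₀.symm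
  · rw [← dvd_ord_emb_iff (E := E), hh₀]
    exact hcdvd

end Main

section Package

variable (K E : Type*) [Field K] [Field E] [Algebra K E] [Algebra ℚ K] [Algebra ℚ E]
variable (F₀ : IntermediateField ℚ (LaurentSeries ℚ))
variable [IsAlgClosed K] [IsAlgClosed E] [CharZero K] [CharZero E]
  [FF.IsFnField K (laurentBaseChange K F₀)] [FF.IsFnField E (laurentBaseChange E F₀)]

omit [IsAlgClosed E] in
theorem map_kummerSubgroup_le (m : ℕ) :
    kummerSubgroup K (laurentBaseChange K F₀) m ≤
      (kummerSubgroup E (laurentBaseChange E F₀) m).comap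
        (Units.map (baseChangeEmb K E F₀ : laurentBaseChange K F₀ →* laurentBaseChange E F₀)) := by
  intro u hu
  rw [Subgroup.mem_comap, mem_kummerSubgroup]
  exact dvd_ord_emb_iff.2 hu

/-- The map on units whose divisor is divisible by `m`. -/
noncomputable def kummerUnitsMap (m : ℕ) :
    kummerSubgroup K (laurentBaseChange K F₀) m →* kummerSubgroup E (laurentBaseChange E F₀) m :=
  ((Units.map (baseChangeEmb K E F₀ : laurentBaseChange K F₀ →* laurentBaseChange E F₀)).comp
    (kummerSubgroup K (laurentBaseChange K F₀) m).subtype).codRestrict _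
      (fun u => map_kummerSubgroup_le K E F₀ m u.2)

omit [IsAlgClosed E] in
@[simp] theorem coe_kummerUnitsMap (m : ℕ) (u : kummerSubgroup K (laurentBaseChange K F₀) m) :
    (((kummerUnitsMap K E F₀ m u : kummerSubgroup E (laurentBaseChange E F₀) m) :
      (laurentBaseChange E F₀)ˣ) : laurentBaseChange E F₀) =
      baseChangeEmb K E F₀ ((u : (laurentBaseChange K F₀)ˣ) : laurentBaseChange K F₀) := rfl

/-- The map on Kummer groups. -/
noncomputable def kummerMap (m : ℕ) :
    KummerGroup K (laurentBaseChange K F₀) m →* KummerGroup E (laurentBaseChange E F₀) m :=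
  QuotientGroup.map _ _ (kummerUnitsMap K E F₀ m) (by
    intro u hu
    rw [Subgroup.mem_subgroupOf] at hu
    obtain ⟨g, hg⟩ := hu
    rw [Subgroup.mem_comap, Subgroup.mem_subgroupOf]
    refine ⟨Units.map (baseChangeEmb K E F₀ : laurentBaseChange K F₀ →* laurentBaseChange E F₀) g, ?_⟩
    have h1 : (powMonoidHom m) (Units.map (baseChangeEmb K E F₀ : laurentBaseChange K F₀ →*
        laurentBaseChange E F₀) g) = Units.map (baseChangeEmb K E F₀ : laurentBaseChange K F₀ →*
        laurentBaseChange E F₀) ((powMonoidHom m) g) := by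
      rw [powMonoidHom_apply, powMonoidHom_apply, map_pow]
    rw [h1, hg]
    rfl)

omit [IsAlgClosed E] in
theorem kummerMap_mk (m : ℕ) (u : kummerSubgroup K (laurentBaseChange K F₀) m) :
    kummerMap K E F₀ m (QuotientGroup.mk u) = QuotientGroup.mk (kummerUnitsMap K E F₀ m u) := rfl

theorem kummerMap_injective {m : ℕ} (hm : 0 < m) : Function.Injective (kummerMap K E F₀ m) := by
  rw [injective_iff_map_eq_one]
  intro x hx
  induction x using QuotientGroup.induction_on with
  | H u =>
    rw [kummerMap_mk, QuotientGroup.eq_one_iff, Subgroup.mem_subgroupOf] at hx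
    obtain ⟨g, hg⟩ := hx
    have hg' : (g : laurentBaseChange E F₀) ^ m =
        baseChangeEmb K E F₀ ((u : (laurentBaseChange K F₀)ˣ) : laurentBaseChange K F₀) := by
      have := congrArg (fun u : (laurentBaseChange E F₀)ˣ => (u : laurentBaseChange E F₀)) hg
      simpa using this
    obtain ⟨g₀, hg₀, hg₀m⟩ := exists_emb_eq_of_pow_eq hm hg'
    rw [QuotientGroup.eq_one_iff, Subgroup.mem_subgroupOf]
    have hg₀0 : g₀ ≠ 0 := by
      rintro rfl
      rw [map_zero] at hg₀
      exact g.ne_zero hg₀.symm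
    refine ⟨Units.mk0 g₀ hg₀0, Units.ext ?_⟩
    simpa using hg₀m

theorem kummerMap_surjective {m : ℕ} (hm : 0 < m)
    [Finite (KummerGroup E (laurentBaseChange E F₀) m)]
    {x : LaurentSeries ℚ} (hx : x ∈ F₀) (hx' : x.order ≠ 0) :
    Function.Surjective (kummerMap K E F₀ m) := by
  intro y
  induction y using QuotientGroup.induction_on with
  | H u =>
    obtain ⟨h₀, f, hh₀, hf, hdvd, heq⟩ := exists_kummer_descent (K := K) hm hx hx'
      (u : (laurentBaseChange E F₀)ˣ).ne_zero u.2
    refine ⟨QuotientGroup.mk ⟨Units.mk0 h₀ hh₀, hdvd⟩, ?_⟩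
    rw [kummerMap_mk]
    symm
    rw [QuotientGroup.eq, Subgroup.mem_subgroupOf]
    refine ⟨Units.mk0 f hf, Units.ext ?_⟩
    change f ^ m = ((u : (laurentBaseChange E F₀)ˣ)⁻¹ : (laurentBaseChange E F₀)ˣ) *
      baseChangeEmb K E F₀ h₀
    rw [← heq, Units.inv_mul_cancel_left]

/-- **Descent of the Kummer group**: `W_m(K) ≃ W_m(E)`. -/
noncomputable def kummerEquiv {m : ℕ} (hm : 0 < m)
    [Finite (KummerGroup E (laurentBaseChange E F₀) m)]
    {x : LaurentSeries ℚ} (hx : x ∈ F₀) (hx' : x.order ≠ 0) :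
    KummerGroup K (laurentBaseChange K F₀) m ≃* KummerGroup E (laurentBaseChange E F₀) m :=
  MulEquiv.ofBijective (kummerMap K E F₀ m)
    ⟨kummerMap_injective K E F₀ hm, kummerMap_surjective K E F₀ hm hx hx'⟩

end Package

end Fermat.Agent.Top
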