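import Fermat.Agent.Top.HomLattice
import Fermat.Agent.RepTwo.ESData
import Fermat.Agent.Eigenform.Converse

set_option autoImplicit false

/-!
# Faithfulness of `Hom_par(Γ₀(N), ℤ)` over the Hecke algebra
-/

open UpperHalfPlane Filter Topology Function CongruenceSubgroup ModularCurve.Period
open scoped MatrixGroups ModularForm Manifold Pointwise

namespace Fermat.Agent.Top

open Matrix.SpecialLinearGroup ModularForm ModularCurve Fermat.Agent.Period

/-- A Hecke polynomial killing the parabolic homomorphisms with values in `ℤ` kills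
the parabolic homomorphisms with values in any torsion free group. -/
theorem evalHom_eq_zero_of_evalPar {N : ℕ} [NeZero N] {t : HeckeAlg} (ht : evalPar N ℤ t = 0)
    {A : Type*} [AddCommGroup A] [IsAddTorsionFree A] {ψ : Additive (Gamma0 N) →+ A}
    (hψ : IsParabolicHom (Gamma0 N) ψ) : evalHom N A t ψ = 0 := by
  obtain ⟨n, c, φ, h1, h2⟩ := exists_decomp ψ
  have h3 : ψ = ∑ i, (zmultiplesHom A (c i)).comp (φ i) := by
    refine AddMonoidHom.ext fun γ ↦ ?_
    rw [h1 γ, AddMonoidHom.finsetSum_apply]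
    rfl
  rw [h3, map_sum]
  refine Finset.sum_eq_zero fun i _ ↦ ?_
  rw [evalHom_comp_left]
  have h4 : φ i ∈ parM N ℤ := fun γ hγ ↦ h2 i _ (hψ γ hγ)
  have h5 := coe_evalPar N ℤ t ⟨φ i, h4⟩
  rw [ht] at h5
  have h6 : evalHom N ℤ t (φ i) = 0 := h5.symm
  rw [h6, AddMonoidHom.comp_zero]

/-- A Hecke polynomial killing the parabolic homomorphisms with values in `ℤ` kills
the cusp forms of weight two. -/
theorem heckeEvalForms_eq_zero {N : ℕ} [NeZero N] {t : HeckeAlg} (ht : evalPar N ℤ t = 0) :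
    CuspForm.heckeEvalForms N 2 t = 0 := by
  apply Subtype.ext
  refine LinearMap.ext fun f ↦ ?_
  apply periodLin_injective N
  have h : evalHom N ℂ t (periodLin N f) = 0 :=
    evalHom_eq_zero_of_evalPar ht (isParabolicHom_periodMap f)
  rw [periodLin_heckeEvalForms, h]
  exact (map_zero (periodLin N)).symm

theorem ker_evalPar_le (N : ℕ) [NeZero N] :
    RingHom.ker (evalPar N ℤ) ≤ RingHom.ker (CuspForm.heckeEvalForms N 2) :=
  fun _ ht ↦ heckeEvalForms_eq_zero ht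

/-- Faithfulness modulo powers of `p`. -/
theorem exists_faithful (N : ℕ) [NeZero N] (B : Subalgebra ℤ HeckeAlg) (p : ℕ) :
    ∃ c : ℕ, ∀ n ≥ c, ∀ t ∈ B, (∀ φ : parM N ℤ, ∃ φ', evalPar N ℤ t φ = p ^ n • φ') →
      ∃ s ∈ B, CuspForm.heckeEvalForms N 2 t = p ^ (n - c) • CuspForm.heckeEvalForms N 2 s := by
  obtain ⟨c, hc⟩ := exists_artinRees (M := parM N ℤ)
    (B.map (evalPar N ℤ)).toSubring.toAddSubgroup p
  refine ⟨c, fun n hn t ht h ↦ ?_⟩
  obtain ⟨_, ⟨s, hs, rfl⟩, hst⟩ := hc n hn (evalPar N ℤ t) ⟨t, ht, rfl⟩ h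
  refine ⟨s, hs, ?_⟩
  have h1 : evalPar N ℤ (t - p ^ (n - c) • s) = 0 := by
    rw [map_sub, hst, map_nsmul]
    exact sub_self _
  have h2 := heckeEvalForms_eq_zero h1
  rwa [map_sub, map_nsmul, sub_eq_zero] at h2

/-- Annihilators modulo `p` and eigensystems. -/
theorem eq_zero_of_mod_p {N : ℕ} [NeZero N] {K : Type*} [CommRing K] [IsDomain K] {p : ℕ} (hp : (p : K) = 0)
    (χ : HeckeAlg →+* K) (hχ : RingHom.ker (evalPar N ℤ) ≤ RingHom.ker χ) {t : HeckeAlg}
    (ht : ∀ φ : parM N ℤ, ∃ φ', evalPar N ℤ t φ = p • φ') : χ t = 0 := by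
  have hrange : LinearMap.range (evalPar N ℤ t) ≤
      (Ideal.span {(p : ℤ)}) • (⊤ : Submodule ℤ (parM N ℤ)) := by
    rintro _ ⟨φ, rfl⟩
    obtain ⟨φ', h⟩ := ht φ
    rw [h, ← natCast_zsmul]
    exact Submodule.smul_mem_smul (Ideal.mem_span_singleton_self _) trivial
  obtain ⟨q, hq1, -, hq2, hq3⟩ :=
    LinearMap.exists_monic_and_natDegree_eq_and_coeff_mem_pow_and_aeval_eq_zero ℤ
      (evalPar N ℤ t) _ hrange
  have h1 : Polynomial.aeval t q ∈ RingHom.ker χ := by
    apply hχ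
    rw [RingHom.mem_ker]
    exact (Polynomial.aeval_algHom_apply (evalPar N ℤ) t q).symm.trans hq3
  rw [RingHom.mem_ker] at h1
  have h2 : χ (Polynomial.aeval t q) = χ t ^ q.natDegree := by
    rw [Polynomial.aeval_eq_sum_range, map_sum, Finset.sum_range_succ]
    rw [hq1.coeff_natDegree, one_smul, map_pow]
    have h3 : ∑ x ∈ Finset.range q.natDegree, χ (q.coeff x • t ^ x) = 0 := by
      refine Finset.sum_eq_zero fun i hi ↦ ?_
      have hi' : q.natDegree - i ≠ 0 := by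
        have := Finset.mem_range.mp hi
        omega
      have h4 : q.coeff i ∈ Ideal.span {(p : ℤ)} := Ideal.pow_le_self hi' (hq2 i)
      obtain ⟨a, ha⟩ := Ideal.mem_span_singleton.mp h4
      rw [ha, zsmul_eq_mul, map_mul, map_intCast]
      push_cast
      rw [hp]
      ring
    rw [h3, zero_add]
  rw [h2] at h1
  exact eq_zero_of_pow_eq_zero h1

/-- The eigensystem modulo `p` of a normalised eigenform is in the support of `M / p M`, where
`M = Hom_par(Γ₀(N), ℤ)`. -/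
theorem exists_eigenChar_mod_p {N : ℕ} [NeZero N] {g : CuspForm (Gamma0 N) 2}
    (hg : g.IsNormalizedEigenform) {K : Type*} [Field K] {p : ℕ} (hp : (p : K) = 0)
    (ψ : integralClosure ℤ ℂ →+* K) :
    ∃ χ : HeckeAlg →+* K,
      (∀ (ℓ : Nat.Primes) (a : integralClosure ℤ ℂ), (a : ℂ) = ModularFormClass.qCoeff g ℓ →
        χ (heckeGen ℓ) = ψ a) ∧
      ∀ t : HeckeAlg, (∀ φ : parM N ℤ, ∃ φ', evalPar N ℤ t φ = p • φ') → χ t = 0 := by
  obtain ⟨χ₀, hχ₀⟩ := Eigenform.exists_eigenChar hg ∅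
  have hg0 := Eigenform.ne_zero_of_isNormalizedEigenform hg
  have huniq : ∀ {x y : ℂ}, x • g = y • g → x = y := fun h => smul_left_injective ℂ hg0 h
  refine ⟨ψ.comp (χ₀.comp (CuspForm.heckeEvalForms N 2)), ?_, ?_⟩
  · intro ℓ a ha
    rw [RingHom.comp_apply, RingHom.comp_apply, CuspForm.heckeEvalForms_heckeGen]
    congr 1
    apply Subtype.ext
    apply huniq
    rw [← hχ₀, ha]
    by_cases hℓN : (ℓ : ℕ) ∣ N
    · rw [CuspForm.heckeFormsGen_of_dvd hℓN, CuspForm.heckeAlgebra.coe_U,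
        Eigenform.heckeULin_eigen hg ℓ.2 hℓN]
    · rw [CuspForm.heckeFormsGen_of_not_dvd hℓN, CuspForm.heckeAlgebra.coe_T,
        Eigenform.heckeTLin_eigen hg ℓ.2 hℓN]
  · intro t ht
    refine eq_zero_of_mod_p hp _ (fun s hs ↦ ?_) ht
    have h1 : CuspForm.heckeEvalForms N 2 s = 0 := heckeEvalForms_eq_zero hs
    rw [RingHom.mem_ker, RingHom.comp_apply, RingHom.comp_apply, h1, map_zero, map_zero]

section HeckePoly

open Fermat.Agent.RepTwo

/-- Hecke polynomials away from `N` and `S` as elements of the full abstract Hecke algebra. -/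
noncomputable def polyIncl (N : ℕ) (S : Set ℕ) : HeckePoly N S →ₐ[ℤ] HeckeAlg :=
  MvPolynomial.rename fun ℓ ↦ (⟨ℓ.1, ℓ.2.1⟩ : Nat.Primes)

theorem polyIncl_X {N : ℕ} {S : Set ℕ} (ℓ : GoodPrime N S) :
    polyIncl N S (MvPolynomial.X ℓ) = heckeGen ⟨ℓ.1, ℓ.2.1⟩ := MvPolynomial.rename_X _ _

theorem coe_evalHecke (N : ℕ) [NeZero N] (S : Set ℕ) (t : HeckePoly N S) :
    (evalHecke N S t : Module.End ℂ (CuspForm (Gamma0 N) 2)) =
      (CuspForm.heckeEvalForms N 2 (polyIncl N S t) : Module.End ℂ (CuspForm (Gamma0 N) 2)) := by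
  have h : ((CuspForm.heckeAlgebra N 2 S).val.toRingHom.comp (evalHecke N S).toRingHom) =
      ((CuspForm.heckeAlgebra N 2 ∅).val.toRingHom.comp
        ((CuspForm.heckeEvalForms N 2).comp (polyIncl N S).toRingHom)) := by
    apply MvPolynomial.ringHom_ext
    · intro a
      rw [eq_intCast MvPolynomial.C a, map_intCast, map_intCast]
    · intro i
      have h1 : (evalHecke N S).toRingHom (MvPolynomial.X i) =
        CuspForm.heckeAlgebra.T i.2.1 i.2.2.1 i.2.2.2 := evalHecke_X i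
      have h2 : (polyIncl N S).toRingHom (MvPolynomial.X i) = heckeGen ⟨i.1, i.2.1⟩ := polyIncl_X i
      have h3 := CuspForm.heckeEvalForms_heckeGen_of_not_dvd (N := N) (k := 2)
        (ℓ := ⟨i.1, i.2.1⟩) i.2.2.1
      rw [RingHom.comp_apply, RingHom.comp_apply, RingHom.comp_apply, h1, h2, h3]
      have h4 := CuspForm.heckeAlgebra.coe_T (N := N) (k := 2) (S := S) i.2.1 i.2.2.1 i.2.2.2
      have h5 := CuspForm.heckeAlgebra.coe_T (N := N) (k := 2) (S := ∅) i.2.1 i.2.2.1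
        (Set.notMem_empty _)
      exact h4.trans h5.symm
  exact DFunLike.congr_fun h t

/-- Faithfulness modulo powers of `p`, in terms of `HeckePoly N S`. -/
theorem exists_faithful_heckePoly (N : ℕ) [NeZero N] (S : Set ℕ) (p : ℕ) :
    ∃ c : ℕ, ∀ n ≥ c, ∀ t : HeckePoly N S,
      (∀ φ : parM N ℤ, ∃ φ', evalPar N ℤ (polyIncl N S t) φ = p ^ n • φ') →
      ∃ u : CuspForm.heckeAlgebra N 2 S, evalHecke N S t = p ^ (n - c) • u := by
  obtain ⟨c, hc⟩ := exists_faithful N (polyIncl N S).range p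
  refine ⟨c, fun n hn t ht ↦ ?_⟩
  obtain ⟨_, ⟨s, rfl⟩, hs⟩ := hc n hn _ ⟨t, rfl⟩ ht
  refine ⟨evalHecke N S s, Subtype.ext ?_⟩
  have h1 := coe_evalHecke N S t
  have h2 := congrArg Subtype.val hs
  have h3 := coe_evalHecke N S s
  rw [h1]
  refine h2.trans ?_
  change p ^ (n - c) • (CuspForm.heckeEvalForms N 2 (polyIncl N S s) :
    Module.End ℂ (CuspForm (Gamma0 N) 2)) = p ^ (n - c) • (evalHecke N S s :
    Module.End ℂ (CuspForm (Gamma0 N) 2))
  rw [h3]

end HeckePoly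

end Fermat.Agent.Top
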