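import Mathlib
import Fermat.Agent.ModFn.Growth

/-!
# Lifting characters of finite order to integral homomorphisms
-/

set_option autoImplicit false
set_option linter.style.haveILetI false

namespace Fermat.Agent.Top

open Fermat.Agent.ModFn

/-- Abstract form: `M` a finitely generated abelian group. -/
theorem exists_lift_addChar (M : Type*) [AddCommGroup M] [Module.Finite ℤ M] :
    ∃ c : ℕ, c ≠ 0 ∧ ∀ m : ℕ, m ≠ 0 → ∀ χ : M →+ Additive ℂˣ, (∀ x, m • χ x = 0) →
      ∃ φ : M →+ ℤ, ∀ x, Additive.ofMul (zetaU m ^ φ x) = c • χ x := by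
  classical
  let T := Submodule.torsion ℤ M
  have hTfin : Finite T := Module.finite_of_fg_torsion T (Submodule.torsion_isTorsion)
  refine ⟨Nat.card T, Nat.card_pos.ne', fun m hm χ hχ => ?_⟩
  haveI : NeZero m := ⟨hm⟩
  -- the character `c • χ` factors through `M / T`
  let ψ : M →ₗ[ℤ] Additive ℂˣ := (Nat.card T • χ).toIntLinearMap
  have hψ : T ≤ LinearMap.ker ψ := by
    intro x hx
    rw [LinearMap.mem_ker]
    change Nat.card T • χ x = 0
    rw [← map_nsmul]
    have h1 : Nat.card T • (⟨x, hx⟩ : T) = 0 := card_nsmul_eq_zero'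
    have h2 : Nat.card T • x = 0 := congrArg Subtype.val h1
    rw [h2, map_zero]
  let ψ' : (M ⧸ T) →ₗ[ℤ] Additive ℂˣ := T.liftQ ψ hψ
  haveI : Module.Free ℤ (M ⧸ T) := Module.free_of_finite_type_torsion_free'
  let b := Module.Free.chooseBasis ℤ (M ⧸ T)
  have hex : ∀ i, ∃ n : ℤ, Additive.ofMul (zetaU m ^ n) = ψ' (b i) := by
    intro i
    obtain ⟨x, hx⟩ := Submodule.Quotient.mk_surjective T (b i)
    have h1 : m • ψ' (b i) = 0 := by
      rw [← hx]
      change m • (Nat.card T • χ x) = 0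
      rw [smul_comm, hχ, smul_zero]
    have h2 : ((ψ' (b i)).toMul : ℂˣ) ^ m = 1 := h1
    obtain ⟨k, -, hk⟩ := (isPrimitiveRoot_zetaU m).eq_pow_of_pow_eq_one
      (ξ := ((ψ' (b i)).toMul : ℂ)) (by rw [← Units.val_pow_eq_pow_val, h2, Units.val_one])
    refine ⟨k, ?_⟩
    rw [zpow_natCast]
    apply Additive.toMul.injective
    apply Units.ext
    rw [toMul_ofMul, Units.val_pow_eq_pow_val]
    exact hk
  choose n hn using hex
  let φ' : (M ⧸ T) →ₗ[ℤ] ℤ := b.constr ℤ n
  let z : ℤ →+ Additive ℂˣ := zmultiplesHom (Additive ℂˣ) (Additive.ofMul (zetaU m))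
  have hz : ∀ k : ℤ, z k = Additive.ofMul (zetaU m ^ k) := fun k => rfl
  have heq : z.toIntLinearMap.comp φ' = ψ' := by
    refine b.ext fun i => ?_
    rw [LinearMap.comp_apply]
    change z (φ' (b i)) = _
    rw [hz, Module.Basis.constr_basis, hn]
  refine ⟨(φ'.comp T.mkQ).toAddMonoidHom, fun x => ?_⟩
  rw [← hz]
  have := LinearMap.congr_fun heq (T.mkQ x)
  exact this

/-- Lifting a power of a character of finite order, trivial on `P`. -/
theorem exists_lift_char (Γ : Type*) [Group Γ] [Group.FG Γ] (P : Set Γ) :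
    ∃ c : ℕ, c ≠ 0 ∧ ∀ m : ℕ, m ≠ 0 → ∀ χ : Γ →* ℂˣ, (∀ γ ∈ P, χ γ = 1) → χ ^ m = 1 →
      ∃ φ : Additive Γ →+ ℤ, (∀ γ ∈ P, φ (Additive.ofMul γ) = 0) ∧
        ∀ γ, zetaU m ^ φ (Additive.ofMul γ) = χ γ ^ c := by
  classical
  haveI h0 : AddGroup.FG (Additive (Abelianization Γ)) :=
    GroupFG.iff_add_fg.mp (Group.fg_of_surjective (f := Abelianization.of (G := Γ))
      (QuotientGroup.mk'_surjective _))
  haveI h1 : Module.Finite ℤ (Additive (Abelianization Γ)) :=
    Module.Finite.iff_addGroup_fg.mpr h0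
  let S : Submodule ℤ (Additive (Abelianization Γ)) :=
    Submodule.span ℤ ((fun γ => Additive.ofMul (Abelianization.of γ)) '' P)
  obtain ⟨c, hc, H⟩ := exists_lift_addChar (Additive (Abelianization Γ) ⧸ S)
  refine ⟨c, hc, fun m hm χ hP hχ => ?_⟩
  let χ' : Additive (Abelianization Γ) →ₗ[ℤ] Additive ℂˣ :=
    (MonoidHom.toAdditive (Abelianization.lift χ)).toIntLinearMap
  have hχ' : ∀ γ, χ' (Additive.ofMul (Abelianization.of γ)) = Additive.ofMul (χ γ) := fun γ => rfl
  have hS : S ≤ LinearMap.ker χ' := by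
    rw [Submodule.span_le]
    rintro _ ⟨γ, hγ, rfl⟩
    change χ' (Additive.ofMul (Abelianization.of γ)) = 0
    rw [hχ', hP γ hγ, ofMul_one]
  let χ'' : (Additive (Abelianization Γ) ⧸ S) →ₗ[ℤ] Additive ℂˣ := S.liftQ χ' hS
  obtain ⟨φ, hφ⟩ := H m hm χ''.toAddMonoidHom (fun x => by
    obtain ⟨y, rfl⟩ := Submodule.Quotient.mk_surjective S x
    obtain ⟨γ, hγ⟩ := QuotientGroup.mk_surjective y.toMul
    have hy : y = Additive.ofMul (Abelianization.of γ) := by
      apply Additive.toMul.injective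
      exact hγ.symm
    rw [hy]
    change m • χ' (Additive.ofMul (Abelianization.of γ)) = 0
    rw [hχ', ← ofMul_pow, ← MonoidHom.pow_apply, hχ, MonoidHom.one_apply, ofMul_one])
  let pr : Additive Γ →+ (Additive (Abelianization Γ) ⧸ S) :=
    S.mkQ.toAddMonoidHom.comp (MonoidHom.toAdditive Abelianization.of)
  refine ⟨φ.comp pr, fun γ hγ => ?_, fun γ => ?_⟩
  · have : pr (Additive.ofMul γ) = 0 := by
      change S.mkQ (Additive.ofMul (Abelianization.of γ)) = 0
      rw [Submodule.mkQ_apply, Submodule.Quotient.mk_eq_zero]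
      exact Submodule.subset_span ⟨γ, hγ, rfl⟩
    rw [AddMonoidHom.comp_apply, this, map_zero]
  · have h2 := hφ (pr (Additive.ofMul γ))
    have h3 : χ''.toAddMonoidHom (pr (Additive.ofMul γ)) = Additive.ofMul (χ γ) := hχ' γ
    rw [h3, ← ofMul_pow] at h2
    exact Additive.ofMul.injective h2

end Fermat.Agent.Top
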