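import Mathlib
import Fermat.Agent.Top.Iota
import Fermat.Agent.Top.CharLift

/-!
# Every class of the complex Kummer group comes from an admissible character
-/

set_option autoImplicit false
set_option linter.unusedSectionVars false
set_option linter.style.haveILetI false
set_option linter.unusedSimpArgs false

noncomputable section

namespace Fermat.Agent.Top

open UpperHalfPlane hiding I
open ModularForm Filter Topology Fermat.Agent.ModFn Fermat.Agent.Support Polynomial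
open ModularCurve IntermediateField Fermat.Agent.FF WithZero AlgebraicCurve
open scoped MatrixGroups Manifold

variable {N : ℕ} [NeZero N]

/-! ### Elliptic elements -/

theorem denom_pow_eq {f : ℍ → ℂ} (hf : MDiff f) (hf0 : f ≠ 0) {γ : SL(2, ℤ)} {τ : ℍ}
    (hγ : γ • τ = τ) {c : ℂ} (hinv : ∀ z, f (γ • z) = c * f z) :
    c * ((γ 1 0 : ℂ) * τ + γ 1 1) ^ (2 * (ordAt f τ).toNat) = 1 := by
  set k := (ordAt f τ).toNat with hk
  have hden : ∀ z : ℍ, ((γ 1 0 : ℂ) * z + γ 1 1) ≠ 0 := fun z => by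
    have := denom_ne_zero γ z
    rwa [ModularGroup.denom_apply] at this
  have hord : analyticOrderAt (f ∘ ofComplex) (τ : ℂ) = k :=
    (ENat.natCast_toNat (ordAt_ne_top hf hf0 τ)).symm
  obtain ⟨g, hg, hg0, hfg⟩ := (analyticAt_of_mdiff hf τ).analyticOrderAt_eq_natCast.mp hord
  let m : ℂ → ℂ := fun z => ((γ 0 0 : ℂ) * z + γ 0 1) / ((γ 1 0 : ℂ) * z + γ 1 1)
  have hm : ∀ z : ℍ, m z = ((γ • z : ℍ) : ℂ) := fun z => by
    rw [UpperHalfPlane.coe_specialLinearGroup_apply]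
    rfl
  have hmτ : m τ = τ := by rw [hm, hγ]
  have hdet : ((γ 0 0 : ℂ) * γ 1 1 - γ 0 1 * γ 1 0) = 1 := by
    have h := γ.det_coe
    rw [Matrix.det_fin_two] at h
    exact_mod_cast congrArg (fun n : ℤ => (n : ℂ)) h
  let w : ℂ → ℂ := fun z => 1 / (((γ 1 0 : ℂ) * z + γ 1 1) * ((γ 1 0 : ℂ) * τ + γ 1 1))
  have hmc : ContinuousAt m τ := by
    have : AnalyticAt ℂ m τ := AnalyticAt.div (by fun_prop) (by fun_prop) (hden τ)
    exact this.continuousAt
  have hmw : ∀ᶠ z in 𝓝 (τ : ℂ), m z - τ = (z - τ) * w z := by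
    filter_upwards [(isOpen_lt continuous_const Complex.continuous_im).mem_nhds τ.im_pos]
      with z hz
    have h1 := hden ⟨z, hz⟩
    have h1' : ((γ 1 0 : ℂ) * z + γ 1 1) ≠ 0 := h1
    have h2 := hden τ
    have h3 : (τ : ℂ) = ((γ 0 0 : ℂ) * τ + γ 0 1) / ((γ 1 0 : ℂ) * τ + γ 1 1) := hmτ.symm
    have h4 : m z - τ = ((γ 0 0 : ℂ) * z + γ 0 1) / ((γ 1 0 : ℂ) * z + γ 1 1) -
        ((γ 0 0 : ℂ) * τ + γ 0 1) / ((γ 1 0 : ℂ) * τ + γ 1 1) := by
      rw [← h3]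
    rw [h4]
    simp only [w]
    rw [div_sub_div _ _ h1' h2, mul_one_div]
    congr 1
    linear_combination (z - τ) * hdet
  have hfm : ∀ᶠ z in 𝓝 (τ : ℂ), (f ∘ ofComplex) (m z) = c * (f ∘ ofComplex) z := by
    filter_upwards [(isOpen_lt continuous_const Complex.continuous_im).mem_nhds τ.im_pos]
      with z hz
    have hz' : z = ((⟨z, hz⟩ : ℍ) : ℂ) := rfl
    rw [hz', hm, Function.comp_apply, Function.comp_apply, ofComplex_apply, ofComplex_apply, hinv]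
  have hev : ∀ᶠ z in 𝓝[≠] (τ : ℂ), w z ^ k * g (m z) = c * g z := by
    have h1 : ∀ᶠ z in 𝓝 (τ : ℂ), (f ∘ ofComplex) (m z) = (m z - τ) ^ k • g (m z) := by
      have : Tendsto m (𝓝 (τ : ℂ)) (𝓝 (τ : ℂ)) := by
        have := hmc.tendsto
        rwa [hmτ] at this
      exact this.eventually hfg
    rw [eventually_nhdsWithin_iff]
    filter_upwards [hmw, hfm, hfg, h1] with z h2 h3 h4 h5 hz
    have hzτ : z - τ ≠ 0 := sub_ne_zero.mpr hz
    rw [h5, h2, h4, smul_eq_mul, smul_eq_mul, mul_pow, mul_assoc] at h3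
    apply mul_left_cancel₀ (pow_ne_zero k hzτ)
    rw [h3]
    ring
  have hgc : ContinuousAt g τ := hg.continuousAt
  have hwc : ContinuousAt w τ := by
    have : AnalyticAt ℂ w τ := AnalyticAt.div (by fun_prop) (by fun_prop)
      (mul_ne_zero (hden τ) (hden τ))
    exact this.continuousAt
  have hlim1 : Tendsto (fun z => w z ^ k * g (m z)) (𝓝[≠] (τ : ℂ)) (𝓝 (w τ ^ k * g τ)) := by
    have h1 : ContinuousAt (fun z => w z ^ k * g (m z)) τ := by
      refine (hwc.pow k).mul (ContinuousAt.comp ?_ hmc)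
      rw [hmτ]; exact hgc
    have h2 := h1.tendsto
    simp only [hmτ] at h2
    exact h2.mono_left nhdsWithin_le_nhds
  have hlim2 : Tendsto (fun z => c * g z) (𝓝[≠] (τ : ℂ)) (𝓝 (c * g τ)) :=
    (hgc.tendsto.const_mul c).mono_left nhdsWithin_le_nhds
  have hfin : w τ ^ k * g τ = c * g τ := tendsto_nhds_unique (hlim1.congr' hev) hlim2
  have hw1 : w τ ^ k = c := mul_right_cancel₀ hg0 hfin
  have hw2 : w τ = (((γ 1 0 : ℂ) * τ + γ 1 1) ^ 2)⁻¹ := by
    simp only [w, one_div, pow_two]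
  rw [← hw1, hw2, inv_pow, ← pow_mul]
  exact inv_mul_cancel₀ (pow_ne_zero _ (hden τ))

theorem exists_ord_eq_one_div (P : Place ℂ (FC N)) : ∃ (g h : WN N), g ≠ 0 ∧ h ≠ 0 ∧
    P.ord (toFC N g) - P.ord (toFC N h) = 1 := by
  obtain ⟨t, ht0, ht⟩ := exists_ord_eq_one P
  obtain ⟨g, h, hh, hgh⟩ := exists_div t
  have hg : g ≠ 0 := by
    rintro rfl
    rw [map_zero, zero_div] at hgh
    exact ht0 hgh
  refine ⟨g, h, hg, hh, ?_⟩
  rw [← ht, hgh, div_eq_mul_inv, P.ord_mul (toFC_ne_zero hg) (inv_ne_zero (toFC_ne_zero hh)),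
    P.ord_inv]
  ring

theorem IsPtPlace.denom_zpow {τ : ℍ} {P : Place ℂ (FC N)} {e : ℕ} (h : IsPtPlace τ P e)
    {γ : SL(2, ℤ)} (hγ : γ ∈ CongruenceSubgroup.Gamma0 N) (hτ : γ • τ = τ) :
    ((γ 1 0 : ℂ) * τ + γ 1 1) ^ (2 * (e : ℤ)) = 1 := by
  obtain ⟨a, b, ha, hb, hab⟩ := exists_ord_eq_one_div P
  have hden : ((γ 1 0 : ℂ) * τ + γ 1 1) ≠ 0 := by
    have := denom_ne_zero γ τ
    rwa [ModularGroup.denom_apply] at this
  have key : ∀ f : WN N, f ≠ 0 → ((γ 1 0 : ℂ) * τ + γ 1 1) ^ (2 * ordZ f.1 τ) = 1 := by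
    intro f hf
    have := denom_pow_eq_one (WN.mdiff f) (WN.coe_ne_zero hf) hτ (fun z => f.2.2 γ hγ z)
    rw [ordZ]
    exact_mod_cast this
  have h1 : (e : ℤ) = ordZ a.1 τ - ordZ b.1 τ := by
    rw [h.2 a ha, h.2 b hb, ← mul_sub, hab, mul_one]
  rw [h1, mul_sub, zpow_sub₀ hden, key a ha, key b hb, div_one]

/-- The character of a root is trivial on the elements fixing a point. -/
theorem IsRoot.ell {m : ℕ} (hm : m ≠ 0) {u : (FC N)ˣ} (hu : u ∈ kummerSubgroup ℂ (FC N) m)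
    {V : ℍ → ℂ} {χ : CongruenceSubgroup.Gamma0 N →* ℂˣ} (h : IsRoot N m u V χ)
    (γ : CongruenceSubgroup.Gamma0 N) (τ : ℍ) (hτ : (γ : SL(2, ℤ)) • τ = τ) : χ γ = 1 := by
  obtain ⟨C, hC, g, hCV, hCg⟩ := h.cls
  obtain ⟨P, e, hP⟩ := exists_isPtPlace (N := N) τ
  have hCmem : unitWN C hC ∈ kummerSubgroup ℂ (FC N) m := by
    rw [hCg]
    exact mul_mem hu (powSubgroup_le (K := ℂ) (F := FC N) _ ⟨g, rfl⟩)
  obtain ⟨k, hk⟩ := hCmem P
  rw [coe_unitWN] at hk
  have h1 := hP.2 C hC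
  have hord : ∀ n : ℕ, ordZ (V ^ n) τ = n * ordZ V τ := by
    intro n
    have hVn : ∀ n : ℕ, V ^ n ≠ 0 := by
      intro n hn
      obtain ⟨z, hz⟩ : ∃ z, V z ≠ 0 := Function.ne_iff.mp h.ne
      exact pow_ne_zero n hz (congrFun hn z)
    induction n with
    | zero =>
      rw [pow_zero, Nat.cast_zero, zero_mul]
      exact (ordZ_eq_zero (WN.mdiff (1 : WN N)) (WN.coe_ne_zero WN.one_ne_zero') τ).mpr
        (by simp)
    | succ n ih =>
      rw [pow_succ, ordZ_mul (h.mdiff.pow n) h.mdiff (hVn n) h.ne, ih]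
      push_cast
      ring
  rw [hCV, hord, hk] at h1
  have hm' : (m : ℤ) ≠ 0 := by exact_mod_cast hm
  have h2 : ordZ V τ = e * k := by
    apply mul_left_cancel₀ hm'
    rw [h1]; ring
  have h3 := denom_pow_eq h.mdiff h.ne hτ (fun z => h.inv γ z)
  have h4 := hP.denom_zpow γ.2 hτ
  have h5 : (((γ : SL(2, ℤ)) 1 0 : ℂ) * τ + (γ : SL(2, ℤ)) 1 1) ^ (2 * (ordAt V τ).toNat) = 1 := by
    have h6 : ((((γ : SL(2, ℤ)) 1 0 : ℂ) * τ + (γ : SL(2, ℤ)) 1 1) ^ (2 * ordZ V τ)) = 1 := by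
      rw [h2, ← mul_assoc, zpow_mul, h4, one_zpow]
    rw [ordZ] at h6
    exact_mod_cast h6
  rw [h5, mul_one] at h3
  exact Units.ext h3

/-! ### Parabolic elements -/

theorem exists_conj_of_trace (γ : SL(2, ℤ))
    (h : (γ : Matrix (Fin 2) (Fin 2) ℤ).trace ^ 2 = 4) :
    ∃ (δ : SL(2, ℤ)) (k : ℤ), γ * δ = δ * ModularGroup.T ^ k ∨
      γ * δ = -(δ * ModularGroup.T ^ k) := by
  have hdet := γ.det_coe
  rw [Matrix.det_fin_two] at hdet
  rw [Matrix.trace_fin_two] at h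
  obtain ⟨ε, hε, htr⟩ : ∃ ε : ℤ, ε ^ 2 = 1 ∧ γ 0 0 + γ 1 1 = 2 * ε := by
    have : (γ 0 0 + γ 1 1 - 2) * (γ 0 0 + γ 1 1 + 2) = 0 := by linear_combination h
    rcases mul_eq_zero.mp this with h | h
    · exact ⟨1, by norm_num, by linarith⟩
    · exact ⟨-1, by norm_num, by linarith⟩
  -- a primitive eigenvector
  obtain ⟨p, q, hpq, h1, h2⟩ : ∃ p q : ℤ, IsCoprime p q ∧
      γ 0 0 * p + γ 0 1 * q = ε * p ∧ γ 1 0 * p + γ 1 1 * q = ε * q := by
    set x := γ 0 0 - ε with hx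
    by_cases h0 : x = 0 ∧ γ 1 0 = 0
    · refine ⟨1, 0, isCoprime_one_left, ?_, ?_⟩
      · have : γ 0 0 = ε := by linarith [h0.1]
        rw [this]; ring
      · rw [h0.2]; ring
    · have hg : 0 < Int.gcd x (γ 1 0) := by
        rw [Int.gcd_pos_iff]
        by_contra hcon
        push Not at hcon
        exact h0 hcon
      obtain ⟨p, q, hpq, hp, hq⟩ := Int.exists_gcd_one hg
      have hg' : (Int.gcd x (γ 1 0) : ℤ) ≠ 0 := by exact_mod_cast hg.ne'
      generalize (Int.gcd x (γ 1 0) : ℤ) = g at hp hq hg'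
      refine ⟨p, q, Int.isCoprime_iff_gcd_eq_one.mpr hpq, ?_, ?_⟩
      · apply mul_right_cancel₀ hg'
        have e3 : (γ 0 0 * p + γ 0 1 * q) * g = γ 0 0 * x + γ 0 1 * γ 1 0 := by
          rw [hp, hq]; ring
        rw [e3, mul_assoc, ← hp, hx]
        have h11 : γ 1 1 = 2 * ε - γ 0 0 := by linarith
        rw [h11] at hdet
        linear_combination -hdet + hε
      · apply mul_right_cancel₀ hg'
        have e3 : (γ 1 0 * p + γ 1 1 * q) * g = γ 1 0 * x + γ 1 1 * γ 1 0 := by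
          rw [hp, hq]; ring
        rw [e3, mul_assoc, ← hq, hx]
        linear_combination γ 1 0 * htr
  obtain ⟨s, r, hsr⟩ := hpq
  let δ : SL(2, ℤ) := ⟨!![p, -r; q, s], by
    rw [Matrix.det_fin_two_of]; linear_combination hsr⟩
  obtain ⟨y0, hy0⟩ : ∃ y0, y0 = γ 0 0 * (-r) + γ 0 1 * s := ⟨_, rfl⟩
  obtain ⟨y1, hy1⟩ : ∃ y1, y1 = γ 1 0 * (-r) + γ 1 1 * s := ⟨_, rfl⟩
  have hβ : p * y1 - q * y0 = ε := by
    have e1 : ε * (p * y1 - q * y0) = 1 := by
      have e2 : (γ 0 0 * p + γ 0 1 * q) * y1 - (γ 1 0 * p + γ 1 1 * q) * y0 = 1 := by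
        rw [hy0, hy1]
        linear_combination (s * p + r * q) * hdet + hsr
      rw [h1, h2] at e2
      linear_combination e2
    linear_combination ε * e1 - (p * y1 - q * y0) * hε
  have hcol0 : y0 = p * (s * y0 + r * y1) + (-r) * ε := by
    linear_combination -r * hβ - y0 * hsr
  have hcol1 : y1 = q * (s * y0 + r * y1) + s * ε := by
    linear_combination s * hβ - y1 * hsr
  have hT : ∀ n : ℤ, ((δ * ModularGroup.T ^ n : SL(2, ℤ)) : Matrix (Fin 2) (Fin 2) ℤ) =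
      !![p, p * n - r; q, q * n + s] := by
    intro n
    rw [Matrix.SpecialLinearGroup.coe_mul, ModularGroup.coe_T_zpow]
    ext i j
    fin_cases i <;> fin_cases j <;> simp [δ, Matrix.mul_apply, Fin.sum_univ_two]; ring
  have hM : ((γ * δ : SL(2, ℤ)) : Matrix (Fin 2) (Fin 2) ℤ) = !![ε * p, y0; ε * q, y1] := by
    rw [Matrix.SpecialLinearGroup.coe_mul]
    ext i j
    fin_cases i <;> fin_cases j <;>
      simp [δ, Matrix.mul_apply, Fin.sum_univ_two, h1, h2, hy0, hy1]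
  have hε' : ε = 1 ∨ ε = -1 := by
    rcases mul_eq_zero.mp (show (ε - 1) * (ε + 1) = 0 by linear_combination hε) with h | h
    · left; linarith
    · right; linarith
  refine ⟨δ, ε * (s * y0 + r * y1), ?_⟩
  rcases hε' with rfl | rfl
  · left
    apply Subtype.ext
    rw [hM, hT]
    congr 1
    ext i j
    fin_cases i <;> fin_cases j
    · simp
    · simp only [Fin.zero_eta, Fin.mk_one, Matrix.cons_val', Matrix.cons_val_zero,
        Matrix.cons_val_one, Matrix.cons_val_fin_one, Matrix.of_apply]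
      linear_combination hcol0
    · simp
    · simp only [Fin.mk_one, Matrix.cons_val', Matrix.cons_val_zero,
        Matrix.cons_val_one, Matrix.cons_val_fin_one, Matrix.of_apply]
      linear_combination hcol1
  · right
    apply Subtype.ext
    rw [Matrix.SpecialLinearGroup.coe_neg, hM, hT]
    ext i j
    fin_cases i <;> fin_cases j
    · simp
    · simp only [Fin.zero_eta, Fin.mk_one, Matrix.cons_val', Matrix.cons_val_zero,
        Matrix.cons_val_one, Matrix.cons_val_fin_one, Matrix.of_apply, Matrix.neg_apply]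
      linear_combination hcol0
    · simp
    · simp only [Fin.mk_one, Matrix.cons_val', Matrix.cons_val_zero,
        Matrix.cons_val_one, Matrix.cons_val_fin_one, Matrix.of_apply, Matrix.neg_apply]
      linear_combination hcol1

theorem exists_conj_of_trace' (γ : SL(2, ℤ))
    (h : (γ : Matrix (Fin 2) (Fin 2) ℤ).trace ^ 2 = 4) :
    ∃ (δ : SL(2, ℤ)) (k : ℤ), ∀ z : ℍ, γ • δ • z = δ • (ModularGroup.T ^ k : SL(2, ℤ)) • z := by
  obtain ⟨δ, k, hk⟩ := exists_conj_of_trace γ h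
  refine ⟨δ, k, fun z => ?_⟩
  rw [← mul_smul, ← mul_smul]
  rcases hk with hk | hk
  · rw [hk]
  · rw [hk]
    exact ModularGroup.SL_neg_smul _ _


theorem IsCuspPlace.dvd_mul {δ : SL(2, ℤ)} {P : Place ℂ (FC N)} {e : ℕ}
    (h : IsCuspPlace δ P e) {k : ℤ}
    (hk : ∀ f : WN N, ∀ z : ℍ, f.1 (δ • (ModularGroup.T ^ k : SL(2, ℤ)) • z) = f.1 (δ • z)) :
    (N : ℤ) ∣ k * e := by
  obtain ⟨a, b, ha, hb, hab⟩ := exists_ord_eq_one_div P
  have key : ∀ f : WN N, f ≠ 0 → (N : ℤ) ∣ k * (e * P.ord (toFC N f)) := by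
    intro f hf
    have h1 := h.2 (toFC N f) (toFC_ne_zero hf)
    rw [kap_toFC] at h1
    rw [← h1]
    refine dvd_order_of_invariant (hasExp_expW δ f) ?_ (hk f)
    intro h0
    exact hf (expW_injective δ (h0.trans (map_zero _).symm))
  have h2 := dvd_sub (key a ha) (key b hb)
  have h3 : k * (e * P.ord (toFC N a)) - k * (e * P.ord (toFC N b)) = k * e := by
    rw [← mul_sub, ← mul_sub, hab, mul_one]
  rwa [h3] at h2

/-- The character of a root is trivial on parabolic elements. -/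
theorem IsRoot.para {m : ℕ} (hm : m ≠ 0) {u : (FC N)ˣ} (hu : u ∈ kummerSubgroup ℂ (FC N) m)
    {V : ℍ → ℂ} {χ : CongruenceSubgroup.Gamma0 N →* ℂˣ} (h : IsRoot N m u V χ) :
    IsParaChar χ := by
  intro γ htr
  haveI : NeZero m := ⟨hm⟩
  obtain ⟨C, hC, g, hCV, hCg⟩ := h.cls
  obtain ⟨δ, k, hδ⟩ := exists_conj_of_trace' (γ : SL(2, ℤ)) htr
  obtain ⟨P, e, hP⟩ := exists_isCuspPlace (N := N) δ
  have hCmem : unitWN C hC ∈ kummerSubgroup ℂ (FC N) m := by
    rw [hCg]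
    exact mul_mem hu (powSubgroup_le (K := ℂ) (F := FC N) _ ⟨g, rfl⟩)
  obtain ⟨l, hl⟩ := hCmem P
  rw [coe_unitWN] at hl
  have h1 := hP.2 (toFC N C) (toFC_ne_zero hC)
  rw [kap_toFC, hl] at h1
  have hNk : (N : ℤ) ∣ k * e := hP.dvd_mul (k := k) fun f z => by
    rw [← hδ, f.2.2 _ γ.2]
  -- the function at the cusp
  set W : ℍ → ℂ := fun z => V (δ • z) with hW
  have hWd : MDiff W := mdiff_comp_smul h.mdiff δ
  have hWm : HasExp (N * m) (W ^ m) (qExpand ℂ m (expW N δ C)) := by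
    refine ((hasExp_expW δ C).qExpand (m := m)).congr ?_ rfl
    funext z
    rw [hCV]
    rfl
  have hWN : ∀ z, W ((ModularGroup.T ^ (N : ℤ) : SL(2, ℤ)) • z) =
      χ ⟨_, exists_conj_mem_Gamma0 N δ (h := N) (dvd_mul_left _ _)⟩ * W z := by
    intro z
    have := h.inv ⟨_, exists_conj_mem_Gamma0 N δ (h := N) (dvd_mul_left _ _)⟩ (δ • z)
    rw [← this]
    simp only [hW]
    rw [← mul_smul, ← mul_smul]
    congr 2
    simp [mul_assoc]
  have hper : ∀ z, W ((ModularGroup.T ^ ((N * m : ℕ) : ℤ) : SL(2, ℤ)) • z) = W z := by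
    intro z
    set c := χ ⟨_, exists_conj_mem_Gamma0 N δ (h := N) (dvd_mul_left _ _)⟩ with hc
    have h2 : ∀ (j : ℕ) (z : ℍ), W ((ModularGroup.T ^ ((N * j : ℕ) : ℤ) : SL(2, ℤ)) • z) =
        (c : ℂ) ^ j * W z := by
      intro j
      induction j with
      | zero => intro z; simp
      | succ j ih =>
        intro z
        have e1 : (ModularGroup.T ^ ((N * (j + 1) : ℕ) : ℤ) : SL(2, ℤ)) =
            ModularGroup.T ^ (N : ℤ) * ModularGroup.T ^ ((N * j : ℕ) : ℤ) := by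
          rw [← zpow_add]; congr 1; push_cast; ring
        rw [e1, mul_smul, hWN, ih, pow_succ']
        ring
    rw [h2, ← Units.val_pow_eq_pow_val, hc, ← MonoidHom.pow_apply, h.pow, MonoidHom.one_apply,
      Units.val_one, one_mul]
  obtain ⟨φ, hφ⟩ := exists_hasExp_of_pow (N := N * m) hm hWd hWm hper
  have hW0 : W ≠ 0 := by
    intro h0
    apply h.ne
    funext z
    have := congrFun h0 (δ⁻¹ • z)
    simpa [hW] using this
  have hφ0 : φ ≠ 0 := fun h0 => hW0 (hφ.eq_zero_iff.mpr h0)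
  have hpow : φ ^ m = qExpand ℂ m (expW N δ C) := (hφ.pow m).unique hWm
  have hm' : (m : ℤ) ≠ 0 := by exact_mod_cast hm
  have hord : φ.order = e * (m * l) := by
    have h3 := congrArg HahnSeries.order hpow
    rw [order_pow_laurent, order_qExpand, h1] at h3
    apply mul_left_cancel₀ hm'
    rw [h3]
  -- compare
  have h4 := hφ.translate k (g := fun z => χ γ * W z) (fun z => by
    rw [← T_zpow_smul_eq_vadd]
    simp only [hW]
    rw [← hδ, h.inv])
  have h5 : HasExp (N * m) (fun z => (χ γ : ℂ) * W z) (HahnSeries.C (χ γ : ℂ) * φ) := by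
    have := hφ.smul (χ γ : ℂ)
    exact this
  have h6 := congrArg (fun ψ : LaurentSeries ℂ => ψ.coeff φ.order) (h4.unique h5)
  simp only [twist_coeff, HahnSeries.C_mul_eq_smul, HahnSeries.coeff_smul, smul_eq_mul] at h6
  have h7 : φ.coeff φ.order ≠ 0 := HahnSeries.coeff_order_eq_zero.not.mpr hφ0
  have h8 := mul_right_cancel₀ h7 h6
  rw [Units.val_inj, ← zpow_mul] at h8
  rw [← h8, zetaU_zpow_eq_one_iff]
  obtain ⟨t, ht⟩ := hNk
  refine ⟨t * l, ?_⟩
  rw [hord]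
  push_cast
  linear_combination (m * l : ℤ) * ht

theorem IsRoot.mem_admSub {m : ℕ} (hm : m ≠ 0) {u : (FC N)ˣ}
    (hu : u ∈ kummerSubgroup ℂ (FC N) m)
    {V : ℍ → ℂ} {χ : CongruenceSubgroup.Gamma0 N →* ℂˣ} (h : IsRoot N m u V χ) :
    χ ∈ admSub N m := ⟨h.para hm hu, fun γ τ hτ => h.ell hm hu γ τ hτ, h.pow⟩

theorem IsRoot.isCForm {m : ℕ} (hm : m ≠ 0) {u : (FC N)ˣ}
    (hu : u ∈ kummerSubgroup ℂ (FC N) m)
    {V : ℍ → ℂ} {χ : CongruenceSubgroup.Gamma0 N →* ℂˣ} (h : IsRoot N m u V χ) :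
    IsCForm N χ V where
  inv := h.inv
  exp δ := by
    obtain ⟨C, hC, g, hCV, hCg⟩ := h.cls
    refine exists_hasExp_of_pow (m := m) hm (mdiff_comp_smul h.mdiff δ) (ψ := expW N δ C) ?_ ?_
    · refine (hasExp_expW δ C).congr ?_ rfl
      funext z
      rw [hCV]
      rfl
    · intro z
      have h1 := h.inv ⟨_, exists_conj_mem_Gamma0 N δ (h := N) (dvd_mul_left _ _)⟩ (δ • z)
      rw [h.para hm hu _ (by rw [trace_conj_T_zpow]; norm_num), Units.val_one, one_mul] at h1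
      rw [← h1, ← mul_smul, ← mul_smul]
      congr 2
      simp [mul_assoc]

/-- **Every class of the complex Kummer group comes from an admissible character.** -/
theorem kapChi_surjective {m : ℕ} (hm : m ≠ 0) : Function.Surjective (kapChi N hm) := by
  intro q
  obtain ⟨u, rfl⟩ := QuotientGroup.mk_surjective q
  obtain ⟨V, χ, h⟩ := exists_isRoot hm u.2
  have hχ := h.mem_admSub hm u.2
  refine ⟨⟨χ, hχ⟩, ?_⟩
  rw [kapChi_eq hm (h.isCForm hm u.2) hχ h.ne, clsU, QuotientGroup.eq, Subgroup.mem_subgroupOf]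
  obtain ⟨C, hC, g, hCV, hCg⟩ := h.cls
  refine ⟨g⁻¹, ?_⟩
  have h1 : powU (h.isCForm hm u.2) hχ.2.2 h.ne = unitWN C hC := by
    apply Units.ext
    rw [coe_powU, coe_unitWN]
    congr 1
    exact Subtype.ext hCV.symm
  change g⁻¹ ^ m = (powU (h.isCForm hm u.2) hχ.2.2 h.ne)⁻¹ * (u : (FC N)ˣ)
  rw [h1, hCg, mul_inv, mul_comm (u : (FC N)ˣ)⁻¹, mul_assoc, inv_mul_cancel, mul_one, inv_pow]

/-- A power of each admissible character lifts to a parabolic homomorphism. -/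
theorem exists_expChar_eq_pow (N : ℕ) [NeZero N] : ∃ c : ℕ, c ≠ 0 ∧ ∀ m : ℕ, m ≠ 0 →
    ∀ χ ∈ admSub N m, ∃ φ : parM N ℤ, expChar m φ.1 = χ ^ c := by
  obtain ⟨c, hc, H⟩ := exists_lift_char (CongruenceSubgroup.Gamma0 N)
    {γ | ((γ : SL(2, ℤ)) : Matrix (Fin 2) (Fin 2) ℤ).trace ^ 2 = 4}
  refine ⟨c, hc, fun m hm χ hχ => ?_⟩
  obtain ⟨φ, hφ, hφχ⟩ := H m hm χ hχ.1 hχ.2.2
  refine ⟨⟨φ, hφ⟩, ?_⟩
  ext γ
  rw [expChar_apply, hφχ, MonoidHom.pow_apply]

/-- **Bounded cokernel of `iotaC`.** -/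
theorem exists_iotaC_bounded (N : ℕ) [NeZero N] : ∃ c : ℕ, c ≠ 0 ∧ ∀ (m : ℕ) [NeZero m],
    ∀ x : Additive (KummerGroup ℂ (FC N) m), ∃ φ : parM N ℤ, iotaC N m φ = c • x := by
  obtain ⟨c, hc, H⟩ := exists_expChar_eq_pow N
  refine ⟨c, hc, fun m _ x => ?_⟩
  obtain ⟨χ, hχ⟩ := kapChi_surjective (N := N) (NeZero.ne m) x.toMul
  obtain ⟨φ, hφ⟩ := H m (NeZero.ne m) χ.1 χ.2
  refine ⟨φ, ?_⟩
  rw [iotaC_apply]
  have h1 : (⟨expChar m φ.1, expChar_mem φ⟩ : admSub N m) = χ ^ c := Subtype.ext hφ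
  rw [h1, map_pow, hχ, ofMul_pow]
  rfl

end Fermat.Agent.Top
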