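import Fermat.Agent.Top.SupportFinal
import Fermat.Agent.Top.KummerSurj

/-!
# The support map with bounded cokernel
-/

set_option autoImplicit false
set_option linter.style.haveILetI false

open HahnSeries ModularCurve AlgebraicCurve

namespace Fermat.Agent.Top

local notation "Qb" => AlgebraicClosure ℚ

/-- Bounded cokernel of the support map. -/
theorem exists_iotaJ_bounded (N : ℕ) [NeZero N] [Algebra Qb ℂ] : ∃ c : ℕ, c ≠ 0 ∧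
    ∀ (m : ℕ) [NeZero m], ∀ x : JZero N, m • x = 0 → ∃ φ : parM N ℤ, c • x = iotaJ N m φ := by
  obtain ⟨c, hc, H⟩ := exists_iotaC_bounded N
  refine ⟨c, hc, fun m _ x hx => ?_⟩
  obtain ⟨y, rfl⟩ := exists_kummerC_eq N m hx
  obtain ⟨φ, hφ⟩ := H m y
  refine ⟨φ, ?_⟩
  rw [iotaJ_apply, hφ, map_nsmul]

/-- **The support map, with bounded cokernel.** -/
theorem exists_supportMap_bounded (N : ℕ) [NeZero N] : ∃ c : ℕ, c ≠ 0 ∧ ∀ m : ℕ, m ≠ 0 →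
    ∃ ι : parM N ℤ →+ JZero N, (∀ φ, m • ι φ = 0) ∧ (∀ φ, ι φ = 0 → ∃ φ', φ = m • φ') ∧
      (∀ ℓ : Nat.Primes, ¬ (ℓ : ℕ) ∣ N → ∀ φ, ι (hopPar N ℤ ℓ φ) = heckeOperatorBar N ℓ (ι φ)) ∧
      (∀ x : JZero N, m • x = 0 → ∃ φ, c • x = ι φ) := by
  have : Algebra.IsAlgebraic ℚ Qb := AlgebraicClosure.isAlgebraic ℚ
  let _ : Algebra Qb ℂ := (IsAlgClosed.lift (R := ℚ) (S := Qb) (M := ℂ)).toRingHom.toAlgebra
  obtain ⟨c, hc, H⟩ := exists_iotaJ_bounded N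
  refine ⟨c, hc, fun m hm => ?_⟩
  haveI : NeZero m := ⟨hm⟩
  exact ⟨iotaJ N m, nsmul_iotaJ N m, fun φ h => exists_of_iotaJ_eq_zero N m h,
    fun ℓ hℓ φ => iotaJ_hopPar N m ℓ hℓ φ, fun x hx => H m x hx⟩

end Fermat.Agent.Top
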