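import Mathlib
import Fermat.Agent.JZ.BaseChange

/-!
# The norm as a product over embeddings in a field which need not be algebraically closed
-/

set_option autoImplicit false

namespace Fermat.Agent.Top

/-- If a finite separable extension `L/K` has `[L : K]` distinct extensions `σ i : L → E` of
`ε : K → E`, then `ε (N x) = ∏ σ i x`. -/
theorem norm_eq_prod_of_card {K L E : Type*} [Field K] [Field L] [Field E] [Algebra K L]
    [FiniteDimensional K L] [Algebra.IsSeparable K L] (ε : K →+* E) {I : Type*} [Fintype I]
    (σ : I → L →+* E) (hσ : ∀ i, (σ i).comp (algebraMap K L) = ε) (hinj : Function.Injective σ)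
    (hcard : Fintype.card I = Module.finrank K L) (x : L) :
    ε (Algebra.norm K x) = ∏ i, σ i x := by
  classical
  let E' := AlgebraicClosure E
  let : Algebra K E' := ((algebraMap E E').comp ε).toAlgebra
  let τ : I → (L →ₐ[K] E') := fun i =>
    { ((algebraMap E E').comp (σ i)) with
      commutes' := fun r => by
        change algebraMap E E' (σ i (algebraMap K L r)) = algebraMap E E' (ε r)
        rw [← hσ i]
        rfl }
  have hτ : Function.Injective τ := by
    intro i j hij
    apply hinj
    ext y
    apply (algebraMap E E').injective
    exact DFunLike.congr_fun hij y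
  have hbij : Function.Bijective τ := by
    rw [Fintype.bijective_iff_injective_and_card]
    exact ⟨hτ, hcard.trans (AlgHom.card K L E').symm⟩
  apply (algebraMap E E').injective
  have h1 := Algebra.norm_eq_prod_embeddings K E' x
  have h2 : algebraMap K E' (Algebra.norm K x) = algebraMap E E' (ε (Algebra.norm K x)) := rfl
  rw [← h2, h1, map_prod]
  exact (Function.Bijective.prod_comp hbij (fun ρ : L →ₐ[K] E' => ρ x)).symm

open AlgebraicCurve Fermat.Agent.JZ in
/-- version for the norm along a morphism -/
theorem normAlong_eq_prod {K F F' E : Type*} [Field K] [CharZero K] [Field F] [Field F'] [Field E]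
    [Algebra K F] [Algebra K F'] (φ : F →ₐ[K] F') (hfin : FiniteAlong K φ) (ε : F →+* E)
    {I : Type*} [Fintype I] (σ : I → F' →+* E) (hσ : ∀ i x, σ i (φ x) = ε x)
    (hinj : Function.Injective σ) (hcard : Fintype.card I = finrankAlong K φ) (x : F') :
    ε (normAlong φ x) = ∏ i, σ i x := by
  let A := algebraAlong φ
  have hfin' : Module.Finite F F' := hfin
  have h0 : CharZero F := charZero_of_injective_algebraMap (algebraMap K F).injective
  exact norm_eq_prod_of_card ε σ (fun i => RingHom.ext (hσ i)) hinj hcard x

end Fermat.Agent.Top
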