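import Mathlib
import Fermat.Agent.Top.HeckeForm
import Fermat.Agent.Top.NormEmb
import Fermat.Agent.JZ.FieldInputs
import Fermat.Agent.JZ.Along

/-!
# The norm of `β u` along the degeneracy map, over `ℂ`
-/

set_option autoImplicit false
set_option linter.unusedSectionVars false
set_option linter.style.haveILetI false

noncomputable section

namespace Fermat.Agent.Top

open UpperHalfPlane hiding I
open ModularForm Filter Topology Fermat.Agent.ModFn Fermat.Agent.Support Polynomial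
open ModularCurve IntermediateField Fermat.Agent.FF WithZero AlgebraicCurve Fermat.Agent.JZ
open scoped MatrixGroups Manifold

variable {N ℓ : ℕ} [NeZero N] [NeZero ℓ]

/-! ### The two degeneracy maps on functions -/

theorem mem_WN_mul {g : ℍ → ℂ} (hg : g ∈ WN N) (ℓ : ℕ) [NeZero ℓ] : g ∈ WN (N * ℓ) := by
  refine ⟨fun δ => ?_, fun γ hγ z => hg.2 γ ?_ z⟩
  · obtain ⟨φ, hφ⟩ := hg.1 δ
    exact ⟨_, hφ.qExpand (m := ℓ)⟩
  · rw [CongruenceSubgroup.Gamma0_mem, ZMod.intCast_zmod_eq_zero_iff_dvd] at hγ ⊢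
    exact (Dvd.intro _ (by push_cast; rfl)).trans hγ

variable (N ℓ) in
/-- `α` on functions -/
def alphaW (g : WN N) : WN (N * ℓ) := ⟨g.1, mem_WN_mul g.2 ℓ⟩

theorem coe_alphaW (g : WN N) : (alphaW N ℓ g).1 = g.1 := Subtype.coe_mk g.1 (mem_WN_mul g.2 ℓ)

theorem wq_alphaW (g : WN N) : wq (N * ℓ) (alphaW N ℓ g) = wq N g := by
  refine wq_eq (alphaW N ℓ g) ?_
  rw [coe_alphaW]
  exact hasExp_wq g

theorem alpha_toFC (g : WN N) :
    heckeAlphaBar ℂ N ℓ (toFC N g) = toFC (N * ℓ) (alphaW N ℓ g) := by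
  apply Subtype.ext
  rw [coe_heckeAlphaBar]
  exact (wq_alphaW g).symm

theorem mem_WN_beta {g : ℍ → ℂ} (hg : g ∈ WN N) (ℓ : ℕ) [NeZero ℓ] :
    (fun z => g (act !![(ℓ : ℤ), 0; 0, 1] z)) ∈ WN (N * ℓ) := by
  have hℓ : 0 < ℓ := Nat.pos_of_neZero ℓ
  have hdet : (!![(ℓ : ℤ), 0; 0, 1] : Matrix (Fin 2) (Fin 2) ℤ).det = ℓ := by
    rw [Matrix.det_fin_two_of]; ring
  have hdet0 : (!![(ℓ : ℤ), 0; 0, 1] : Matrix (Fin 2) (Fin 2) ℤ).det ≠ 0 := by
    rw [hdet]; exact_mod_cast hℓ.ne'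
  refine ⟨fun δ => exists_hasExp_act hg.1 hℓ _ hdet δ, fun γ hγ z => ?_⟩
  rw [CongruenceSubgroup.Gamma0_mem, ZMod.intCast_zmod_eq_zero_iff_dvd] at hγ
  obtain ⟨k, hk⟩ := hγ
  have hdγ := γ.det_coe
  rw [Matrix.det_fin_two] at hdγ
  let γ' : SL(2, ℤ) := ⟨!![γ 0 0, γ 0 1 * ℓ; N * k, γ 1 1], by
    rw [Matrix.det_fin_two_of]
    push_cast at hk
    linear_combination hdγ + (γ 0 1 : ℤ) * hk⟩
  have hmul : !![(ℓ : ℤ), 0; 0, 1] * (γ : Matrix (Fin 2) (Fin 2) ℤ) =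
      (γ' : Matrix (Fin 2) (Fin 2) ℤ) * !![(ℓ : ℤ), 0; 0, 1] := by
    push_cast at hk
    ext i j
    fin_cases i <;> fin_cases j <;> simp [γ', Matrix.mul_apply, Fin.sum_univ_two, hk] <;> ring
  have hγ' : γ' ∈ CongruenceSubgroup.Gamma0 N := by
    rw [CongruenceSubgroup.Gamma0_mem, ZMod.intCast_zmod_eq_zero_iff_dvd]
    exact ⟨k, rfl⟩
  change g (act !![(ℓ : ℤ), 0; 0, 1] (γ • z)) = g (act !![(ℓ : ℤ), 0; 0, 1] z)
  rw [← act_mul_coe _ hdet0, hmul, act_coe_mul _ _ hdet0, hg.2 γ' hγ']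

variable (N ℓ) in
/-- `β` on functions -/
def betaW (g : WN N) : WN (N * ℓ) := ⟨fun z => g.1 (act !![(ℓ : ℤ), 0; 0, 1] z), mem_WN_beta g.2 ℓ⟩

theorem coe_betaW (g : WN N) : (betaW N ℓ g).1 = fun z => g.1 (act !![(ℓ : ℤ), 0; 0, 1] z) :=
  Subtype.coe_mk _ (mem_WN_beta g.2 ℓ)

theorem wq_betaW (g : WN N) : wq (N * ℓ) (betaW N ℓ g) = qExpand ℂ ℓ (wq N g) := by
  refine wq_eq (betaW N ℓ g) ?_
  rw [coe_betaW]
  have h := (hasExp_wq g).affine (d := 1) (a := ℓ) 0 (act !![(ℓ : ℤ), 0; 0, 1])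
    (by simpa using coe_act_upper ℓ 1 0) (g := fun z => g.1 (act !![(ℓ : ℤ), 0; 0, 1] z))
    (fun τ => rfl)
  rw [zpow_zero, one_mul, twist_one] at h
  exact h

theorem beta_toFC (g : WN N) :
    heckeBetaBar ℂ N ℓ (toFC N g) = toFC (N * ℓ) (betaW N ℓ g) := by
  apply Subtype.ext
  rw [coe_heckeBetaBar]
  exact (wq_betaW g).symm

/-! ### Expansions at elements of `Γ₀(N)` -/

theorem kap_alpha {δ : SL(2, ℤ)} (hδ : δ ∈ CongruenceSubgroup.Gamma0 N) (x : FC N) :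
    kap (N * ℓ) δ (heckeAlphaBar ℂ N ℓ x) = qExpand ℂ (N * ℓ) (x : LaurentSeries ℂ) := by
  have h1 : ∀ g : WN N, kap (N * ℓ) δ (heckeAlphaBar ℂ N ℓ (toFC N g)) =
      qExpand ℂ (N * ℓ) (wq N g) := by
    intro g
    rw [alpha_toFC, kap_toFC]
    refine expW_eq ?_
    rw [coe_alphaW]
    have h2 : (fun z => g.1 (δ • z)) = g.1 := funext fun z => g.2.2 δ hδ z
    rw [h2]
    exact hasExp_of_one (hasExp_wq g)
  obtain ⟨a, b, hb, rfl⟩ := exists_div x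
  rw [map_div₀, map_div₀, h1, h1, ← map_div₀]
  rfl

theorem kap_beta (δ : SL(2, ℤ)) (g : WN N) :
    HasExp (N * ℓ) (fun z => g.1 (act !![(ℓ : ℤ), 0; 0, 1] (δ • z)))
      (kap (N * ℓ) δ (heckeBetaBar ℂ N ℓ (toFC N g))) := by
  rw [beta_toFC, kap_toFC]
  have h := hasExp_expW (N := N * ℓ) δ (betaW N ℓ g)
  rw [coe_betaW] at h
  exact h

/-! ### Representatives -/

theorem exists_reps (hℓ : ℓ.Prime) (hℓN : ¬ ℓ ∣ N) (i : Option (Fin ℓ)) :
    ∃ γ ∈ CongruenceSubgroup.Gamma0 N, ∃ δ ∈ CongruenceSubgroup.Gamma0 N,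
      HM ℓ i = (γ : Matrix (Fin 2) (Fin 2) ℤ) * (!![(ℓ : ℤ), 0; 0, 1] *
        (δ : Matrix (Fin 2) (Fin 2) ℤ)) := by
  cases i with
  | none => exact ⟨1, one_mem _, 1, one_mem _, by simp⟩
  | some j =>
    have hcop : IsCoprime (((j : ℕ) : ℤ) * N + ℓ) (N : ℤ) := by
      have h1 : IsCoprime (ℓ : ℤ) (N : ℤ) :=
        Nat.isCoprime_iff_coprime.mpr ((Nat.Prime.coprime_iff_not_dvd hℓ).mpr hℓN)
      have := h1.add_mul_right_left ((j : ℕ) : ℤ)
      rwa [add_comm] at this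
    obtain ⟨a, b, hab⟩ := hcop
    let γ : SL(2, ℤ) := ⟨!![1, ((j : ℕ) : ℤ) * a + b; -(N : ℤ), ℓ * a], by
      rw [Matrix.det_fin_two_of]
      linear_combination hab⟩
    let δ : SL(2, ℤ) := ⟨!![a, -b; (N : ℤ), ((j : ℕ) : ℤ) * N + ℓ], by
      rw [Matrix.det_fin_two_of]
      linear_combination hab⟩
    refine ⟨γ, ?_, δ, ?_, ?_⟩
    · rw [CongruenceSubgroup.Gamma0_mem, ZMod.intCast_zmod_eq_zero_iff_dvd]
      exact ⟨-1, by simp [γ]⟩
    · rw [CongruenceSubgroup.Gamma0_mem, ZMod.intCast_zmod_eq_zero_iff_dvd]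
      exact ⟨1, by simp [δ]⟩
    · rw [HM_some]
      ext i' j'
      fin_cases i' <;> fin_cases j' <;>
        simp [γ, δ, Matrix.mul_apply, Fin.sum_univ_two]
      · linear_combination -hab
      · linear_combination (-((j : ℕ) : ℤ)) * hab
      · ring
      · linear_combination (-(ℓ : ℤ)) * hab

/-- the chosen `δ i` -/
def repD (hℓ : ℓ.Prime) (hℓN : ¬ ℓ ∣ N) (i : Option (Fin ℓ)) : SL(2, ℤ) :=
  (exists_reps hℓ hℓN i).choose_spec.2.choose

theorem repD_mem (hℓ : ℓ.Prime) (hℓN : ¬ ℓ ∣ N) (i : Option (Fin ℓ)) :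
    repD hℓ hℓN i ∈ CongruenceSubgroup.Gamma0 N :=
  (exists_reps hℓ hℓN i).choose_spec.2.choose_spec.1

theorem repD_spec (hℓ : ℓ.Prime) (hℓN : ¬ ℓ ∣ N) (i : Option (Fin ℓ)) :
    ∃ γ ∈ CongruenceSubgroup.Gamma0 N, HM ℓ i = (γ : Matrix (Fin 2) (Fin 2) ℤ) *
      (!![(ℓ : ℤ), 0; 0, 1] * (repD hℓ hℓN i : Matrix (Fin 2) (Fin 2) ℤ)) :=
  ⟨_, (exists_reps hℓ hℓN i).choose_spec.1, (exists_reps hℓ hℓN i).choose_spec.2.choose_spec.2⟩

theorem apply_repD (hℓ : ℓ.Prime) (hℓN : ¬ ℓ ∣ N) (i : Option (Fin ℓ)) (g : WN N) (z : ℍ) :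
    g.1 (act !![(ℓ : ℤ), 0; 0, 1] (repD hℓ hℓN i • z)) = g.1 (act (HM ℓ i) z) := by
  obtain ⟨γ, h0, h1⟩ := repD_spec hℓ hℓN i
  have hdet0 : (!![(ℓ : ℤ), 0; 0, 1] : Matrix (Fin 2) (Fin 2) ℤ).det ≠ 0 := by
    rw [Matrix.det_fin_two_of]
    simpa using hℓ.ne_zero
  have h2 : (!![(ℓ : ℤ), 0; 0, 1] * (repD hℓ hℓN i : Matrix (Fin 2) (Fin 2) ℤ)).det ≠ 0 := by
    rw [Matrix.det_mul, (repD hℓ hℓN i).det_coe, mul_one]
    exact hdet0
  rw [h1, act_coe_mul _ _ h2, g.2.2 _ h0, act_mul_coe _ hdet0]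

/-- the embeddings of the big function field -/
def sigD (hℓ : ℓ.Prime) (hℓN : ¬ ℓ ∣ N) (i : HI N ℓ) : FC (N * ℓ) →+* LaurentSeries ℂ :=
  (kap (N * ℓ) (repD hℓ hℓN i.1) : FC (N * ℓ) →+* LaurentSeries ℂ)

theorem sigD_alpha (hℓ : ℓ.Prime) (hℓN : ¬ ℓ ∣ N) (i : HI N ℓ) (x : FC N) :
    sigD hℓ hℓN i (heckeAlphaBar ℂ N ℓ x) = qExpand ℂ (N * ℓ) (x : LaurentSeries ℂ) :=
  kap_alpha (repD_mem hℓ hℓN i.1) x

theorem sigD_beta (hℓ : ℓ.Prime) (hℓN : ¬ ℓ ∣ N) (i : HI N ℓ) (g : WN N) :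
    HasExp (N * ℓ) (fun z => g.1 (act (HM ℓ i.1) z))
      (sigD hℓ hℓN i (heckeBetaBar ℂ N ℓ (toFC N g))) := by
  refine (kap_beta (repD hℓ hℓN i.1) g).congr ?_ rfl
  funext z
  exact apply_repD hℓ hℓN i.1 g z

theorem hasExp_act_none {f : ℍ → ℂ} {φ : LaurentSeries ℂ} (hf : HasExp 1 f φ) :
    HasExp ℓ (fun z => f (act (HM ℓ none) z)) (qExpand ℂ (ℓ ^ 2) φ) := by
  have h3 := (hf.affine (d := 1) (a := ℓ) 0 (fun z => act (HM ℓ none) z) (fun τ => by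
    rw [HM_none]
    simpa using coe_act_upper ℓ 1 0 τ) (g := fun z => f (act (HM ℓ none) z))
      (fun τ => rfl)).qExpand (m := ℓ)
  rw [zpow_zero, one_mul, one_mul] at h3
  refine h3.congr rfl ?_
  rw [qExpand_qExpand, twist_one]
  exact qExpand_congr (by ring) _

theorem hasExp_act_some {f : ℍ → ℂ} {φ : LaurentSeries ℂ} (hf : HasExp 1 f φ) (j : Fin ℓ) :
    HasExp ℓ (fun z => f (act (HM ℓ (some j)) z)) (twist (zetaU ℓ ^ (j : ℕ)) φ) := by
  have h3 := (hf.affine (d := ℓ) (a := 1) (j : ℕ) (fun z => act (HM ℓ (some j)) z) (fun τ => by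
    rw [HM_some]
    simpa using coe_act_upper 1 ℓ (j : ℕ) τ) (g := fun z => f (act (HM ℓ (some j)) z))
    (fun τ => rfl))
  rw [one_mul, qExpand_one_apply, zpow_natCast] at h3
  exact h3

theorem jH_act_injective (hℓ : ℓ.Prime) {i i' : Option (Fin ℓ)}
    (h : ∀ z, jH (act (HM ℓ i) z) = jH (act (HM ℓ i') z)) : i = i' := by
  have hord1 : ∀ j : Fin ℓ, (twist (zetaU ℓ ^ (j : ℕ)) (jqModC ℂ)).order = -1 := fun j => by
    rw [twist_order, order_jqModC]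
  have hord2 : (qExpand ℂ (ℓ ^ 2) (jqModC ℂ)).order = -((ℓ : ℤ) ^ 2) := by
    rw [order_qExpand, order_jqModC]
    push_cast
    ring
  have hne : -((ℓ : ℤ) ^ 2) ≠ -1 := by
    have : (2 : ℤ) ≤ ℓ := by exact_mod_cast hℓ.two_le
    nlinarith
  cases i with
  | none =>
    cases i' with
    | none => rfl
    | some j =>
      exfalso
      have h1 := (hasExp_act_none (ℓ := ℓ) hasExp_jH).unique
        ((hasExp_act_some hasExp_jH j).congr (funext fun z => (h z).symm) rfl)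
      apply hne
      rw [← hord2, h1, hord1]
  | some j =>
    cases i' with
    | none =>
      exfalso
      have h1 := (hasExp_act_none (ℓ := ℓ) hasExp_jH).unique
        ((hasExp_act_some hasExp_jH j).congr (funext fun z => (h z)) rfl)
      apply hne
      rw [← hord2, h1, hord1]
    | some j' =>
      have h1 := (hasExp_act_some hasExp_jH j).unique
        ((hasExp_act_some hasExp_jH j').congr (funext fun z => (h z).symm) rfl)
      have h2 := congrArg (fun φ : LaurentSeries ℂ => φ.coeff (-1)) h1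
      simp only [twist_coeff] at h2
      have h3 : (jqModC ℂ).coeff (-1) ≠ 0 := by
        have := jqModC_pow_coeff_self (O := ℂ) 1
        rw [pow_one, Nat.cast_one] at this
        rw [this]
        exact one_ne_zero
      have h4 := mul_right_cancel₀ h3 h2
      rw [Units.val_inj, zpow_neg_one, zpow_neg_one, inv_inj] at h4
      have h5 : zetaU ℓ ^ ((j : ℕ) - (j' : ℕ) : ℤ) = 1 := by
        rw [zpow_sub, zpow_natCast, zpow_natCast, h4, mul_inv_cancel]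
      rw [zetaU_zpow_eq_one_iff] at h5
      have h6 : (j : ℕ) = (j' : ℕ) := by
        have hj := j.2
        have hj' := j'.2
        obtain ⟨k, hk⟩ := h5
        have hk0 : k = 0 := by
          have hl : (0 : ℤ) < ℓ := by exact_mod_cast hℓ.pos
          by_contra hk0
          rcases lt_or_gt_of_ne hk0 with h | h
          · have : k ≤ -1 := by omega
            have : (ℓ : ℤ) * k ≤ -ℓ := by nlinarith
            omega
          · have : 1 ≤ k := by omega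
            have : (ℓ : ℤ) ≤ ℓ * k := by nlinarith
            omega
        rw [hk0, mul_zero] at hk
        omega
      rw [Fin.ext h6]

theorem sigD_injective (hℓ : ℓ.Prime) (hℓN : ¬ ℓ ∣ N) :
    Function.Injective (sigD (N := N) hℓ hℓN) := by
  intro i i' h
  apply Subtype.ext
  apply jH_act_injective hℓ
  have h1 := sigD_beta hℓ hℓN i ⟨jH, jH_mem_WN N⟩
  have h2 := sigD_beta hℓ hℓN i' ⟨jH, jH_mem_WN N⟩
  rw [h] at h1
  exact fun z => congrFun (h1.eq_of_same h2) z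

/-! ### The norm -/

theorem finrankAlong_alpha (hℓ : ℓ.Prime) (hℓN : ¬ ℓ ∣ N) :
    finrankAlong ℂ (heckeAlphaBar ℂ N ℓ) = ℓ + 1 := by
  have h1 : FC N ≤ FC (N * ℓ) := FN_mono (dvd_mul_right N ℓ)
  rw [heckeAlphaBar_eq_inclusion N ℓ h1, finrankAlong_inclusion,
    relfinrank_FN_prime modularFieldInputsC hℓ, if_neg hℓN]

theorem normAlong_beta_toFC (hℓ : ℓ.Prime) (hℓN : ¬ ℓ ∣ N) (g : WN N) :
    normAlong (heckeAlphaBar ℂ N ℓ) (heckeBetaBar ℂ N ℓ (toFC N g)) =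
      toFC N ⟨heckeProd N ℓ g.1, heckeProd_mem_WN hℓ g.2⟩ := by
  classical
  set W : WN N := ⟨heckeProd N ℓ g.1, heckeProd_mem_WN hℓ g.2⟩ with hW
  have hfin : FiniteAlong ℂ (heckeAlphaBar ℂ N ℓ) := finiteAlong _
  apply Subtype.ext
  apply qExpand_injective (N * ℓ)
  have h1 := normAlong_eq_prod (heckeAlphaBar ℂ N ℓ) hfin
    ((qExpand ℂ (N * ℓ)).comp (algebraMap (FC N) (LaurentSeries ℂ)))
    (sigD (N := N) hℓ hℓN) (sigD_alpha hℓ hℓN) (sigD_injective hℓ hℓN)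
    (by rw [card_HI, if_neg hℓN, finrankAlong_alpha hℓ hℓN]) (heckeBetaBar ℂ N ℓ (toFC N g))
  refine Eq.trans h1 ?_
  have h2 : HasExp (N * ℓ) W.1 (qExpand ℂ (N * ℓ) (wq N W)) := hasExp_of_one (hasExp_wq W)
  refine (HasExp.unique (h2.congr ?_ rfl)
    (HasExp.prod (h := N * ℓ) Finset.univ (fun i _ => sigD_beta hℓ hℓN i g))).symm
  funext z
  simp only [hW, Finset.prod_apply, heckeProd]
  exact Finset.prod_congr rfl fun i _ => by rw [HR_smul_eq_act hℓ.ne_zero]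

/-! ### The relation `IsNormL` -/

theorem IsNormL.mul {R : Type*} [CommRing R] {ζ : Rˣ} {f g f' g' : LaurentSeries R}
    (h : IsNormL ζ ℓ f g) (h' : IsNormL ζ ℓ f' g') : IsNormL ζ ℓ (f * f') (g * g') := by
  rw [IsNormL] at h h' ⊢
  rw [map_mul, h, h', map_mul]
  simp only [map_mul, Finset.prod_mul_distrib]
  ring

theorem IsNormL.of_mul {R : Type*} [Field R] {ζ : Rˣ} {f g f' g' : LaurentSeries R}
    (h : IsNormL ζ ℓ (f * f') (g * g')) (h' : IsNormL ζ ℓ f' g') (h0 : f' ≠ 0) :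
    IsNormL ζ ℓ f g := by
  rw [IsNormL] at h h' ⊢
  rw [map_mul, h', map_mul] at h
  simp only [map_mul, Finset.prod_mul_distrib] at h
  have hne : qExpand R (ℓ ^ 2) f' * ∏ j ∈ Finset.range ℓ, twist (ζ ^ j) f' ≠ 0 := by
    refine mul_ne_zero (fun hz => h0 (qExpand_injective (ℓ ^ 2) (hz.trans (map_zero _).symm))) ?_
    rw [Finset.prod_ne_zero_iff]
    exact fun j _ hz => h0 (twist_injective _ (hz.trans (map_zero _).symm))
  apply mul_right_cancel₀ hne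
  rw [h]
  ring

theorem IsNormL.unique {R : Type*} [CommRing R] {ζ : Rˣ} {f g g' : LaurentSeries R}
    (h : IsNormL ζ ℓ f g) (h' : IsNormL ζ ℓ f g') : g = g' :=
  qExpand_injective ℓ (h.trans h'.symm)

theorem isNormL_toFC (hℓ : ℓ.Prime) (hℓN : ¬ ℓ ∣ N) (g : WN N) :
    IsNormL (zetaU ℓ) ℓ (wq N g)
      (normAlong (heckeAlphaBar ℂ N ℓ) (heckeBetaBar ℂ N ℓ (toFC N g)) : LaurentSeries ℂ) := by
  rw [normAlong_beta_toFC hℓ hℓN]
  exact qExpand_wq_heckeProd hℓ hℓN g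

/-- **The norm of `β u` along `α`, over `ℂ`.** -/
theorem isNormL_normAlong (hℓ : ℓ.Prime) (hℓN : ¬ ℓ ∣ N) (u : FC N) :
    IsNormL (zetaU ℓ) ℓ (u : LaurentSeries ℂ)
      (normAlong (heckeAlphaBar ℂ N ℓ) (heckeBetaBar ℂ N ℓ u) : LaurentSeries ℂ) := by
  obtain ⟨a, b, hb, hab⟩ := exists_div u
  have hb0 : toFC N b ≠ 0 := toFC_ne_zero hb
  have h1 : u * toFC N b = toFC N a := by rw [hab, div_mul_cancel₀ _ hb0]
  refine IsNormL.of_mul (f' := wq N b) (g' := (normAlong (heckeAlphaBar ℂ N ℓ)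
    (heckeBetaBar ℂ N ℓ (toFC N b)) : LaurentSeries ℂ)) ?_ (isNormL_toFC hℓ hℓN b) ?_
  · have h2 := isNormL_toFC hℓ hℓN a
    have h3 : (normAlong (heckeAlphaBar ℂ N ℓ) (heckeBetaBar ℂ N ℓ u) : LaurentSeries ℂ) *
        (normAlong (heckeAlphaBar ℂ N ℓ) (heckeBetaBar ℂ N ℓ (toFC N b)) : LaurentSeries ℂ) =
        (normAlong (heckeAlphaBar ℂ N ℓ) (heckeBetaBar ℂ N ℓ (toFC N a)) : LaurentSeries ℂ) := by
      rw [← h1, map_mul, map_mul]
      rfl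
    have h4 : (u : LaurentSeries ℂ) * wq N b = wq N a := congrArg Subtype.val h1
    rw [h3, h4]
    exact h2
  · exact fun h => hb0 (Subtype.ext h)

end Fermat.Agent.Top
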