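import Fermat.Agent.Top.KummerGroup
import Fermat.Agent.RR.HOne
import Fermat.Prelude.Def_AlgebraicCurve_BaseChangeGalois

/-!
# The torsion of the divisor class group and the Kummer group

`Pic0.torsion K F m ≃ KummerGroup K F m`, Galois-equivariantly.
-/

set_option autoImplicit false

open AlgebraicCurve

namespace Fermat.Agent.Top

variable {K F : Type*} [Field K] [Field F] [Algebra K F] [IsAlgClosed K] [FF.IsFnField K F]

/-- The divisor `div(u) / m`. -/
noncomputable def rootDiv (m : ℕ) (f : F) : Divisor K F :=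
  (RR.divOf (K := K) f).mapRange (fun z => z / (m : ℤ)) (by simp)

theorem rootDiv_apply (m : ℕ) (f : F) (v : Place K F) : rootDiv m f v = v.ord f / (m : ℤ) := rfl

theorem mul_rootDiv {m : ℕ} {f : F} (h : ∀ v : Place K F, (m : ℤ) ∣ v.ord f) (v : Place K F) :
    (m : ℤ) * rootDiv m f v = v.ord f := Int.mul_ediv_cancel' (h v)

theorem nsmul_rootDiv {m : ℕ} {f : F} (h : ∀ v : Place K F, (m : ℤ) ∣ v.ord f) :
    m • rootDiv m f = RR.divOf (K := K) f := by
  ext v
  rw [Finsupp.smul_apply, nsmul_eq_mul, mul_rootDiv h, RR.divOf_apply]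

theorem degree_rootDiv {m : ℕ} (hm : 0 < m) {f : F} (h : ∀ v : Place K F, (m : ℤ) ∣ v.ord f) :
    Divisor.degree (rootDiv (K := K) m f) = 0 := by
  have h1 := congrArg Divisor.degree (nsmul_rootDiv h)
  rw [map_nsmul, RR.degree_divOf, nsmul_eq_mul] at h1
  rcases mul_eq_zero.1 h1 with h2 | h2
  · exact absurd h2 (by exact_mod_cast hm.ne')
  · exact h2

/-- characterisation of `rootDiv` -/
theorem eq_rootDiv {m : ℕ} (hm : 0 < m) {f : F} {D : Divisor K F}
    (h : ∀ v : Place K F, (m : ℤ) * D v = v.ord f) : D = rootDiv m f := by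
  ext v
  have h1 := mul_rootDiv (m := m) (f := f) (fun v => ⟨D v, (h v).symm⟩) v
  have h2 := h v
  have hm' : (m : ℤ) ≠ 0 := by exact_mod_cast hm.ne'
  exact mul_left_cancel₀ hm' (h2.trans h1.symm)

theorem rootDiv_mul {m : ℕ} (hm : 0 < m) {f g : F} (hf0 : f ≠ 0) (hg0 : g ≠ 0)
    (hf : ∀ v : Place K F, (m : ℤ) ∣ v.ord f)
    (hg : ∀ v : Place K F, (m : ℤ) ∣ v.ord g) :
    rootDiv (K := K) m (f * g) = rootDiv m f + rootDiv m g := by
  symm
  apply eq_rootDiv hm
  intro v
  rw [Finsupp.add_apply, mul_add, mul_rootDiv hf, mul_rootDiv hg, v.ord_mul hf0 hg0]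

variable (K F) in
/-- `u ↦ [div(u) / m]`. -/
noncomputable def kummerToPic (m : ℕ) [NeZero m] :
    Additive (kummerSubgroup K F m) →+ Pic0 K F where
  toFun u := Pic0.mk ⟨rootDiv m ((u.toMul : Fˣ) : F),
    Divisor.mem_degZero.2 (degree_rootDiv (NeZero.pos m) u.toMul.2)⟩
  map_zero' := by
    rw [← Pic0.mk_zero]
    congr 1
    apply Subtype.ext
    symm
    apply eq_rootDiv (NeZero.pos m)
    intro v
    simp
  map_add' u v := by
    rw [← Pic0.mk_add]
    congr 1
    apply Subtype.ext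
    exact rootDiv_mul (NeZero.pos m) (Units.ne_zero _) (Units.ne_zero _) u.toMul.2 v.toMul.2

omit [IsAlgClosed K] [FF.IsFnField K F] in
theorem mk_eq_zero_iff {D : Divisor.degZero (K := K) (F := F)} :
    Pic0.mk D = 0 ↔ Divisor.IsPrincipal (D : Divisor K F) := by
  have h : Pic0.mk D = 0 ↔ D ∈ (Divisor.principal (K := K) (F := F)).addSubgroupOf
      (Divisor.degZero (K := K) (F := F)) := QuotientAddGroup.eq_zero_iff D
  rw [h, AddSubgroup.mem_addSubgroupOf]
  exact Divisor.mem_principal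

theorem kummerToPic_mem_torsion (m : ℕ) [NeZero m] (u : Additive (kummerSubgroup K F m)) :
    kummerToPic K F m u ∈ Pic0.torsion K F m := by
  rw [Pic0.mem_torsion]
  change (m : ℤ) • Pic0.mk _ = 0
  rw [natCast_zsmul]
  have h : m • Pic0.mk (⟨rootDiv m ((u.toMul : Fˣ) : F),
    Divisor.mem_degZero.2 (degree_rootDiv (NeZero.pos m) u.toMul.2)⟩ :
      Divisor.degZero (K := K) (F := F)) = Pic0.mk (m • ⟨rootDiv m ((u.toMul : Fˣ) : F),
    Divisor.mem_degZero.2 (degree_rootDiv (NeZero.pos m) u.toMul.2)⟩) := rfl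
  rw [h, mk_eq_zero_iff]
  refine ⟨((u.toMul : Fˣ) : F), Units.ne_zero _, fun v => ?_⟩
  change (m • rootDiv (K := K) m ((u.toMul : Fˣ) : F)) v = _
  rw [nsmul_rootDiv u.toMul.2, RR.divOf_apply]

theorem kummerToPic_eq_zero_iff (m : ℕ) [NeZero m] (u : Additive (kummerSubgroup K F m)) :
    kummerToPic K F m u = 0 ↔ ∃ g : Fˣ, g ^ m = (u.toMul : Fˣ) := by
  have hm := NeZero.pos m
  have hm' : (m : ℤ) ≠ 0 := by exact_mod_cast hm.ne'
  change Pic0.mk _ = 0 ↔ _
  rw [mk_eq_zero_iff]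
  constructor
  · rintro ⟨g, hg0, hg⟩
    have h1 : ∀ v : Place K F, v.ord (((u.toMul : Fˣ) : F) / g ^ m) = 0 := by
      intro v
      have h2 := hg v
      change rootDiv m ((u.toMul : Fˣ) : F) v = v.ord g at h2
      have h3 := mul_rootDiv u.toMul.2 v
      rw [div_eq_mul_inv, v.ord_mul (Units.ne_zero _) (inv_ne_zero (pow_ne_zero _ hg0)), v.ord_inv,
        FF.ord_pow, ← h2]
      change v.ord _ + -((m : ℤ) * rootDiv m ((u.toMul : Fˣ) : F) v) = 0
      rw [h3]
      omega
    obtain ⟨a, ha⟩ := RR.exists_algebraMap_eq_of_forall_ord_nonneg (fun v => (h1 v).ge)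
    obtain ⟨b, hb⟩ := IsAlgClosed.exists_pow_nat_eq a hm
    have ha0 : a ≠ 0 := by
      rintro rfl
      rw [map_zero] at ha
      exact (div_ne_zero (Units.ne_zero _) (pow_ne_zero _ hg0)) ha.symm
    have hb0 : b ≠ 0 := by
      rintro rfl
      rw [zero_pow hm.ne'] at hb
      exact ha0 hb.symm
    refine ⟨Units.mk0 (algebraMap K F b * g) (mul_ne_zero ((map_ne_zero _).2 hb0) hg0),
      Units.ext ?_⟩
    push_cast
    rw [Units.val_mk0, mul_pow, ← map_pow, hb, ha, div_mul_cancel₀ _ (pow_ne_zero _ hg0)]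
  · rintro ⟨g, hg⟩
    refine ⟨g, g.ne_zero, fun v => ?_⟩
    change rootDiv m ((u.toMul : Fˣ) : F) v = _
    apply mul_left_cancel₀ hm'
    rw [mul_rootDiv u.toMul.2, ← hg]
    push_cast
    rw [FF.ord_pow]

theorem exists_kummerToPic_eq (m : ℕ) [NeZero m] {x : Pic0 K F} (hx : x ∈ Pic0.torsion K F m) :
    ∃ u, kummerToPic K F m u = x := by
  have hm := NeZero.pos m
  obtain ⟨D, rfl⟩ := Pic0.mk_surjective x
  rw [Pic0.mem_torsion, natCast_zsmul] at hx
  have h : m • Pic0.mk D = Pic0.mk (m • D) := rfl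
  rw [h, mk_eq_zero_iff] at hx
  obtain ⟨f, hf0, hf⟩ := hx
  have h1 : ∀ v : Place K F, (m : ℤ) * (D : Divisor K F) v = v.ord f := by
    intro v
    rw [← hf v]
    change _ = (m • (D : Divisor K F)) v
    rw [Finsupp.smul_apply, nsmul_eq_mul]
  refine ⟨Additive.ofMul ⟨Units.mk0 f hf0, fun v => ⟨(D : Divisor K F) v, (h1 v).symm⟩⟩, ?_⟩
  change Pic0.mk _ = Pic0.mk D
  congr 1
  apply Subtype.ext
  exact (eq_rootDiv hm h1).symm

variable (K F) in
/-- The map `W_m → Pic0[m]`. -/
noncomputable def kummerPicHom (m : ℕ) [NeZero m] :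
    Additive (KummerGroup K F m) →+ Pic0.torsion K F m :=
  MonoidHom.toAdditiveLeft (QuotientGroup.lift _
    (AddMonoidHom.toMultiplicativeRight
      ((kummerToPic K F m).codRestrict _ (kummerToPic_mem_torsion m))) (by
    intro u hu
    rw [Subgroup.mem_subgroupOf] at hu
    obtain ⟨g, hg⟩ := hu
    have h := (kummerToPic_eq_zero_iff m (Additive.ofMul u)).2 ⟨g, hg⟩
    change Multiplicative.ofAdd _ = Multiplicative.ofAdd _
    congr 1
    exact Subtype.ext h))

theorem kummerPicHom_mk (m : ℕ) [NeZero m] (u : kummerSubgroup K F m) :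
    (kummerPicHom K F m (Additive.ofMul (QuotientGroup.mk u)) : Pic0 K F) =
      kummerToPic K F m (Additive.ofMul u) := rfl

theorem kummerPicHom_injective (m : ℕ) [NeZero m] : Function.Injective (kummerPicHom K F m) := by
  rw [injective_iff_map_eq_zero]
  intro x hx
  obtain ⟨u, hu⟩ := QuotientGroup.mk_surjective x.toMul
  have hx' : x = Additive.ofMul (QuotientGroup.mk u) := by rw [hu]; rfl
  rw [hx'] at hx ⊢
  have h := congrArg Subtype.val hx
  rw [kummerPicHom_mk] at h
  obtain ⟨g, hg⟩ := (kummerToPic_eq_zero_iff m _).1 h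
  have h2 : (QuotientGroup.mk u : KummerGroup K F m) = 1 := by
    rw [QuotientGroup.eq_one_iff, Subgroup.mem_subgroupOf]
    exact ⟨g, hg⟩
  rw [h2]
  rfl

theorem kummerPicHom_surjective (m : ℕ) [NeZero m] : Function.Surjective (kummerPicHom K F m) := by
  rintro ⟨x, hx⟩
  obtain ⟨u, hu⟩ := exists_kummerToPic_eq m hx
  exact ⟨Additive.ofMul (QuotientGroup.mk u.toMul), Subtype.ext hu⟩

variable (K F) in
/-- **The torsion of `Pic0` is the Kummer group**. -/
noncomputable def kummerPicEquiv (m : ℕ) [NeZero m] :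
    Additive (KummerGroup K F m) ≃+ Pic0.torsion K F m :=
  AddEquiv.ofBijective (kummerPicHom K F m)
    ⟨kummerPicHom_injective m, kummerPicHom_surjective m⟩

theorem kummerPicEquiv_mk (m : ℕ) [NeZero m] (u : kummerSubgroup K F m) :
    (kummerPicEquiv K F m (Additive.ofMul (QuotientGroup.mk u)) : Pic0 K F) =
      kummerToPic K F m (Additive.ofMul u) := rfl

theorem kummerToPic_eq_mk (m : ℕ) [NeZero m] {u : kummerSubgroup K F m}
    {D : Divisor.degZero (K := K) (F := F)}
    (h : ∀ v : Place K F, (m : ℤ) * (D : Divisor K F) v = v.ord ((u : Fˣ) : F)) :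
    kummerToPic K F m (Additive.ofMul u) = Pic0.mk D := by
  change Pic0.mk _ = Pic0.mk D
  congr 1
  apply Subtype.ext
  exact (eq_rootDiv (NeZero.pos m) h).symm

/-- Galois equivariance. -/
theorem kummerToPic_smul (m : ℕ) [NeZero m] (g : SemilinearAut K F)
    {u u' : kummerSubgroup K F m} (h : ((u' : Fˣ) : F) = g • ((u : Fˣ) : F)) :
    kummerToPic K F m (Additive.ofMul u') = g • kummerToPic K F m (Additive.ofMul u) := by
  change _ = g • Pic0.mk _
  rw [SemilinearAut.pic0_smul_mk]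
  apply kummerToPic_eq_mk
  intro v
  rw [SemilinearAut.coe_degZeroSMulHom, SemilinearAut.divisor_smul_apply]
  change (m : ℤ) * rootDiv m ((u : Fˣ) : F) (g⁻¹ • v) = _
  rw [mul_rootDiv u.2, h]
  have h1 := SemilinearAut.ord_smul g (g⁻¹ • v) ((u : Fˣ) : F)
  rw [smul_inv_smul] at h1
  exact h1.symm

theorem finite_torsion_iff (m : ℕ) [NeZero m] :
    Finite (Pic0.torsion K F m) ↔ Finite (KummerGroup K F m) := by
  constructor
  · intro h
    exact Finite.of_equiv _ ((kummerPicEquiv K F m).symm.toEquiv.trans Additive.toMul)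
  · intro h
    exact Finite.of_equiv _ (Additive.ofMul.trans (kummerPicEquiv K F m).toEquiv)

theorem card_torsion_eq (m : ℕ) [NeZero m] :
    Nat.card (Pic0.torsion K F m) = Nat.card (KummerGroup K F m) :=
  Nat.card_congr ((kummerPicEquiv K F m).symm.toEquiv.trans Additive.toMul)

end Fermat.Agent.Top
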