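import Fermat.Agent.ModFn.ExpAlg

/-!
# The relation `u'(q) = u(q^ℓ) ∏_i u(ζ^i q^{1/ℓ})` on Laurent series
-/

set_option autoImplicit false

open HahnSeries ModularCurve Fermat.Agent.ModFn

namespace Fermat.Agent.Top

variable {L : Type*} [Field L] {ℓ : ℕ} [NeZero ℓ]

/-- `u'(q) = u(q^ℓ) ∏_i u(ζ^i q^{1/ℓ})`. -/
def IsHeckeNorm (ℓ : ℕ) [NeZero ℓ] (ζ : Lˣ) (u u' : LaurentSeries L) : Prop :=
  qExpand L ℓ u' = qExpand L (ℓ ^ 2) u * ∏ i ∈ Finset.range ℓ, twist (ζ ^ i) u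

theorem IsHeckeNorm.unique {ζ : Lˣ} {u a b : LaurentSeries L} (ha : IsHeckeNorm ℓ ζ u a)
    (hb : IsHeckeNorm ℓ ζ u b) : a = b :=
  qExpand_injective ℓ (ha.trans hb.symm)

theorem IsHeckeNorm.one (ζ : Lˣ) : IsHeckeNorm ℓ ζ (1 : LaurentSeries L) 1 := by
  simp [IsHeckeNorm]

theorem IsHeckeNorm.mul {ζ : Lˣ} {u u' v v' : LaurentSeries L} (hu : IsHeckeNorm ℓ ζ u u')
    (hv : IsHeckeNorm ℓ ζ v v') : IsHeckeNorm ℓ ζ (u * v) (u' * v') := by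
  unfold IsHeckeNorm at *
  rw [map_mul, hu, hv, map_mul]
  simp only [map_mul, Finset.prod_mul_distrib]
  ring

theorem IsHeckeNorm.pow {ζ : Lˣ} {u u' : LaurentSeries L} (hu : IsHeckeNorm ℓ ζ u u') (n : ℕ) :
    IsHeckeNorm ℓ ζ (u ^ n) (u' ^ n) := by
  induction n with
  | zero => rw [pow_zero, pow_zero]; exact IsHeckeNorm.one ζ
  | succ n ih => rw [pow_succ, pow_succ]; exact ih.mul hu

theorem IsHeckeNorm.map {M : Type*} [Field M] (f : L →+* M) {ζ : Lˣ} {u u' : LaurentSeries L}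
    (h : IsHeckeNorm ℓ ζ u u') :
    IsHeckeNorm ℓ (Units.map f.toMonoidHom ζ) (coeffMap f u) (coeffMap f u') := by
  unfold IsHeckeNorm at *
  rw [← coeffMap_qExpand, h, map_mul, coeffMap_qExpand, map_prod]
  congr 1
  refine Finset.prod_congr rfl fun i _ => ?_
  rw [coeffMap_twist, map_pow]

theorem IsHeckeNorm.ne_zero {ζ : Lˣ} {u u' : LaurentSeries L} (hu : IsHeckeNorm ℓ ζ u u')
    (h0 : u ≠ 0) : u' ≠ 0 := by
  rintro rfl
  unfold IsHeckeNorm at hu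
  rw [map_zero] at hu
  have h1 : qExpand L (ℓ ^ 2) u ≠ 0 := fun h =>
    h0 (qExpand_injective (ℓ ^ 2) (h.trans (map_zero _).symm))
  have h2 : ∏ i ∈ Finset.range ℓ, twist (ζ ^ i) u ≠ 0 := by
    rw [Finset.prod_ne_zero_iff]
    intro i _ h
    exact h0 (twist_injective _ (h.trans (map_zero _).symm))
  exact mul_ne_zero h1 h2 hu.symm

end Fermat.Agent.Top
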