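import Fermat.Agent.Top.HeckeNorm
import Fermat.Agent.Top.PicKummer
import Fermat.Agent.Top.DescentKummer
import Fermat.Agent.Top.HomLattice
import Fermat.Agent.Top.FC
import Fermat.Agent.JZ.FieldInputs
import Fermat.Agent.RepTwo.JZeroES
import Fermat.Agent.ModFn.Cusp

/-!
# The lattice `Hom_par(Γ₀(N), ℤ)` mod `m` embeds in `J₀(N)[m]`

Assembly of the topological side (over `ℂ`), of the descent `ℂ → ℚ̄`, and of the description of the
Hecke operators on the Kummer group.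
-/

set_option autoImplicit false

open HahnSeries ModularCurve AlgebraicCurve

namespace Fermat.Agent.Top

local notation "Qb" => AlgebraicClosure ℚ

/-- The product in `IsHeckeNorm` does not depend on the primitive root of unity. -/
theorem prod_twist_eq {L : Type*} [Field L] {ℓ : ℕ} (hℓ : 0 < ℓ) {ζ ξ : Lˣ}
    (hζ : IsPrimitiveRoot ζ ℓ) (hξ : IsPrimitiveRoot ξ ℓ) (u : LaurentSeries L) :
    ∏ i ∈ Finset.range ℓ, ModFn.twist (ζ ^ i) u = ∏ i ∈ Finset.range ℓ, ModFn.twist (ξ ^ i) u := by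
  classical
  have key : ∀ {ζ : Lˣ}, IsPrimitiveRoot ζ ℓ →
      ∏ i ∈ Finset.range ℓ, ModFn.twist (ζ ^ i) u =
        ∏ η ∈ (Finset.range ℓ).image (fun i => ζ ^ i), ModFn.twist η u := by
    intro ζ hζ
    rw [Finset.prod_image]
    intro i hi j hj hij
    exact hζ.pow_inj (Finset.mem_range.1 hi) (Finset.mem_range.1 hj) hij
  have hsub : ∀ {ζ ξ : Lˣ}, IsPrimitiveRoot ζ ℓ → IsPrimitiveRoot ξ ℓ →
      (Finset.range ℓ).image (fun i => ξ ^ i) ⊆ (Finset.range ℓ).image (fun i => ζ ^ i) := by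
    intro ζ ξ hζ hξ η hη
    rw [Finset.mem_image] at hη ⊢
    obtain ⟨i, _, rfl⟩ := hη
    have : NeZero ℓ := ⟨hℓ.ne'⟩
    have h1 : (ξ ^ i) ^ ℓ = 1 := by rw [← pow_mul, mul_comm, pow_mul, hξ.pow_eq_one, one_pow]
    have h2 : ((ξ ^ i : Lˣ) : L) ^ ℓ = 1 := by rw [← Units.val_pow_eq_pow_val, h1, Units.val_one]
    have hζ' : IsPrimitiveRoot (ζ : L) ℓ := IsPrimitiveRoot.coe_units_iff.2 hζ
    obtain ⟨k, hk, hk'⟩ := hζ'.eq_pow_of_pow_eq_one h2
    exact ⟨k, Finset.mem_range.2 hk, Units.ext (by rw [Units.val_pow_eq_pow_val, hk'])⟩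
  rw [key hζ, key hξ, Finset.Subset.antisymm (hsub hξ hζ) (hsub hζ hξ)]

theorem IsHeckeNorm.congr_root {L : Type*} [Field L] {ℓ : ℕ} [NeZero ℓ] {ζ ξ : Lˣ}
    (hζ : IsPrimitiveRoot ζ ℓ) (hξ : IsPrimitiveRoot ξ ℓ) {u u' : LaurentSeries L}
    (h : IsHeckeNorm ℓ ζ u u') : IsHeckeNorm ℓ ξ u u' := by
  unfold IsHeckeNorm at *
  rw [h, prod_twist_eq (NeZero.pos ℓ) hζ hξ]

instance neZeroPrimes (ℓ : Nat.Primes) : NeZero (ℓ : ℕ) := ⟨ℓ.2.ne_zero⟩

instance isFnFieldBar (N : ℕ) [NeZero N] : FF.IsFnField Qb (modularFunctionFieldBar N) :=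
  JZ.modularFieldInputsBar.fnField N

instance isFnFieldFC (N : ℕ) [NeZero N] : FF.IsFnField ℂ (FC N) :=
  JZ.modularFieldInputsC.fnField N

/-- Topological input: the lattice embeds in the Kummer group over `ℂ`. -/
structure ComplexInputs (N m : ℕ) [NeZero N] : Prop where
  finite : Finite (KummerGroup ℂ (FC N) m)
  iota : ∃ ιC : parM N ℤ →+ Additive (KummerGroup ℂ (FC N) m),
    (∀ φ, ιC φ = 0 → ∃ φ', φ = m • φ') ∧
    ∀ ℓ : Nat.Primes, ¬ (ℓ : ℕ) ∣ N → ∀ φ, ∃ (ζ : ℂˣ) (u u' : kummerSubgroup ℂ (FC N) m),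
      IsPrimitiveRoot ζ (ℓ : ℕ) ∧ ιC φ = Additive.ofMul (QuotientGroup.mk u) ∧
      ιC (hopPar N ℤ ℓ φ) = Additive.ofMul (QuotientGroup.mk u') ∧
      IsHeckeNorm (ℓ : ℕ) ζ (((u : (FC N)ˣ) : FC N) : LaurentSeries ℂ)
        (((u' : (FC N)ˣ) : FC N) : LaurentSeries ℂ)

/-- Formal norm formula over `ℂ`. -/
def NormSeriesInputC (N : ℕ) [NeZero N] : Prop :=
  ∀ ℓ : Nat.Primes, ¬ (ℓ : ℕ) ∣ N → ∀ f : FC N, ∃ (ζ : ℂˣ) (f' : FC N),
    IsPrimitiveRoot ζ (ℓ : ℕ) ∧ IsHeckeNorm (ℓ : ℕ) ζ (f : LaurentSeries ℂ) (f' : LaurentSeries ℂ)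

/-- Hecke operators on the Kummer group over `ℚ̄`. -/
def KummerHeckeInput (N m : ℕ) [NeZero N] [NeZero m] : Prop :=
  ∀ ℓ : Nat.Primes, ¬ (ℓ : ℕ) ∣ N → ∀ u : kummerSubgroup Qb (modularFunctionFieldBar N) m,
    ∃ (ζ : Qbˣ) (u' : kummerSubgroup Qb (modularFunctionFieldBar N) m),
      IsPrimitiveRoot ζ (ℓ : ℕ) ∧
      IsHeckeNorm (ℓ : ℕ) ζ
        (((u : (modularFunctionFieldBar N)ˣ) : modularFunctionFieldBar N) : LaurentSeries Qb)
        (((u' : (modularFunctionFieldBar N)ˣ) : modularFunctionFieldBar N) : LaurentSeries Qb) ∧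
      heckeOperatorBar N ℓ (kummerToPic Qb (modularFunctionFieldBar N) m (Additive.ofMul u)) =
        kummerToPic Qb (modularFunctionFieldBar N) m (Additive.ofMul u')

theorem jq_mem_full (N : ℕ) [NeZero N] : jq ∈ modularFunctionFieldFull N :=
  modularFunctionField_le_full N (jq_mem N)

theorem order_jq_ne_zero : jq.order ≠ 0 := by
  rw [← jqModC_rat, ModFn.order_jqModC]
  norm_num

section KummerC

variable (N m : ℕ) [NeZero N] [NeZero m] [Algebra Qb ℂ] [Finite (KummerGroup ℂ (FC N) m)]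

/-- The identification of the Kummer groups over `ℚ̄` and `ℂ`. -/
noncomputable def kummerQbC :
    KummerGroup Qb (modularFunctionFieldBar N) m ≃* KummerGroup ℂ (FC N) m :=
  kummerEquiv Qb ℂ (modularFunctionFieldFull N) (NeZero.pos m) (jq_mem_full N) order_jq_ne_zero

/-- Inverse of `kummerQbC`, additively. -/
noncomputable def kummerCQb : Additive (KummerGroup ℂ (FC N) m) →+
    Additive (KummerGroup Qb (modularFunctionFieldBar N) m) :=
  MonoidHom.toAdditive (kummerQbC N m).symm.toMonoidHom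

theorem kummerCQb_ofMul (y : KummerGroup ℂ (FC N) m) :
    kummerCQb N m (Additive.ofMul y) = Additive.ofMul ((kummerQbC N m).symm y) := rfl

/-- The map `W_m(ℂ) → J₀(N)`, an isomorphism onto the `m`-torsion. -/
noncomputable def kummerC : Additive (KummerGroup ℂ (FC N) m) →+ JZero N :=
  (Pic0.torsion Qb (modularFunctionFieldBar N) m).subtype.comp
    ((kummerPicHom Qb (modularFunctionFieldBar N) m).comp (kummerCQb N m))

theorem kummerC_ofMul (h : kummerSubgroup Qb (modularFunctionFieldBar N) m) :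
    kummerC N m (Additive.ofMul (kummerQbC N m (QuotientGroup.mk h))) =
      kummerToPic Qb (modularFunctionFieldBar N) m (Additive.ofMul h) := by
  change ((kummerPicHom Qb (modularFunctionFieldBar N) m (kummerCQb N m _) :
    Pic0.torsion Qb (modularFunctionFieldBar N) m) : JZero N) = _
  rw [kummerCQb_ofMul, MulEquiv.symm_apply_apply, kummerPicHom_mk]

theorem nsmul_kummerC (y : Additive (KummerGroup ℂ (FC N) m)) : m • kummerC N m y = 0 := by
  have h1 := (kummerPicHom Qb (modularFunctionFieldBar N) m (kummerCQb N m y)).2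
  rw [Pic0.mem_torsion, natCast_zsmul] at h1
  exact h1

theorem kummerC_injective : Function.Injective (kummerC N m) := by
  rw [injective_iff_map_eq_zero]
  intro y hy
  have h1 : kummerPicHom Qb (modularFunctionFieldBar N) m (kummerCQb N m y) = 0 := Subtype.ext hy
  have h2 : kummerCQb N m y = 0 := (map_eq_zero_iff _ (kummerPicHom_injective m)).1 h1
  have h3 : (kummerQbC N m).symm y.toMul = 1 := h2
  have h4 : y.toMul = 1 := by
    rw [← (kummerQbC N m).apply_symm_apply y.toMul, h3, map_one]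
  exact h4

theorem exists_kummerC_eq {x : JZero N} (hx : m • x = 0) : ∃ y, kummerC N m y = x := by
  have hx' : x ∈ Pic0.torsion Qb (modularFunctionFieldBar N) m := by
    rw [Pic0.mem_torsion, natCast_zsmul]
    exact hx
  obtain ⟨u, hu⟩ := exists_kummerToPic_eq m hx'
  refine ⟨Additive.ofMul (kummerQbC N m (QuotientGroup.mk u.toMul)), ?_⟩
  rw [kummerC_ofMul]
  exact hu

/-- Hecke equivariance of `W_m(ℂ) → J₀(N)`. -/
theorem kummerC_hecke_of (hN : NormSeriesInputC N) (hK : KummerHeckeInput N m)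
    {ℓ : Nat.Primes} (hℓ : ¬ (ℓ : ℕ) ∣ N) {ζ : ℂˣ} (hζ : IsPrimitiveRoot ζ (ℓ : ℕ))
    {u u' : kummerSubgroup ℂ (FC N) m}
    (huu' : IsHeckeNorm (ℓ : ℕ) ζ (((u : (FC N)ˣ) : FC N) : LaurentSeries ℂ)
        (((u' : (FC N)ˣ) : FC N) : LaurentSeries ℂ)) :
    kummerC N m (Additive.ofMul (QuotientGroup.mk u')) =
      heckeOperatorBar N ℓ (kummerC N m (Additive.ofMul (QuotientGroup.mk u))) := by
  have hm : 0 < m := NeZero.pos m
  obtain ⟨h, hh⟩ := QuotientGroup.mk_surjective ((kummerQbC N m).symm (QuotientGroup.mk u))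
  have hh' : kummerQbC N m (QuotientGroup.mk h) = QuotientGroup.mk u := by
    rw [hh, MulEquiv.apply_symm_apply]
  obtain ⟨ζ', h', hζ', hhh', hT'⟩ := hK ℓ hℓ h
  -- the two classes differ by an `m`-th power
  have h1 : (QuotientGroup.mk (kummerUnitsMap Qb ℂ (modularFunctionFieldFull N) m h) :
      KummerGroup ℂ (FC N) m) = QuotientGroup.mk u := hh'
  obtain ⟨f, hf⟩ := QuotientGroup.eq.1 h1
  have hf' : (((u : (FC N)ˣ) : FC N)) =
      baseChangeEmb Qb ℂ (modularFunctionFieldFull N) ((h : (modularFunctionFieldBar N)ˣ)) *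
        (f : FC N) ^ m := by
    have h2 := congrArg (fun u : (FC N)ˣ => (u : FC N)) hf
    have h3 : (f : FC N) ^ m = (baseChangeEmb Qb ℂ (modularFunctionFieldFull N)
        ((h : (modularFunctionFieldBar N)ˣ)))⁻¹ * ((u : (FC N)ˣ) : FC N) := by
      simpa using h2
    rw [h3, mul_inv_cancel_left₀]
    exact (map_ne_zero _).2 (Units.ne_zero _)
  obtain ⟨ξ, f', hξ, hff'⟩ := hN ℓ hℓ (f : FC N)
  -- base change of the relation for `h`
  have hemb : IsHeckeNorm (ℓ : ℕ) ζ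
      ((baseChangeEmb Qb ℂ (modularFunctionFieldFull N) ((h : (modularFunctionFieldBar N)ˣ)) :
        FC N) : LaurentSeries ℂ)
      ((baseChangeEmb Qb ℂ (modularFunctionFieldFull N) ((h' : (modularFunctionFieldBar N)ˣ)) :
        FC N) : LaurentSeries ℂ) := by
    rw [coe_baseChangeEmb, coe_baseChangeEmb]
    refine IsHeckeNorm.congr_root ?_ hζ (hhh'.map (algebraMap Qb ℂ))
    rw [← IsPrimitiveRoot.coe_units_iff] at hζ' ⊢
    exact hζ'.map_of_injective (algebraMap Qb ℂ).injective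
  have hprod := hemb.mul ((hff'.congr_root hξ hζ).pow m)
  have huv : (((u' : (FC N)ˣ) : FC N)) =
      baseChangeEmb Qb ℂ (modularFunctionFieldFull N) ((h' : (modularFunctionFieldBar N)ˣ)) *
        f' ^ m := by
    apply Subtype.ext
    refine huu'.unique ?_
    have h4 := congrArg (fun z : FC N => (z : LaurentSeries ℂ)) hf'
    change (((u : (FC N)ˣ) : FC N) : LaurentSeries ℂ) = _ at h4
    rw [h4]
    exact hprod
  have hf'0 : f' ≠ 0 := by
    rintro rfl
    rw [zero_pow hm.ne', mul_zero] at huv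
    exact Units.ne_zero _ huv
  have hcl : (QuotientGroup.mk u' : KummerGroup ℂ (FC N) m) =
      kummerQbC N m (QuotientGroup.mk h') := by
    symm
    change (QuotientGroup.mk (kummerUnitsMap Qb ℂ (modularFunctionFieldFull N) m h') :
      KummerGroup ℂ (FC N) m) = QuotientGroup.mk u'
    rw [QuotientGroup.eq]
    refine ⟨Units.mk0 f' hf'0, Units.ext ?_⟩
    change f' ^ m = (((kummerUnitsMap Qb ℂ (modularFunctionFieldFull N) m h' : (FC N)ˣ)⁻¹ :
      (FC N)ˣ) : FC N) * ((u' : (FC N)ˣ) : FC N)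
    rw [huv, Units.val_inv_eq_inv_val, coe_kummerUnitsMap, inv_mul_cancel_left₀]
    exact (map_ne_zero _).2 (Units.ne_zero _)
  rw [hcl, kummerC_ofMul, ← hh', kummerC_ofMul, hT']

end KummerC

/-- An embedding of `ℚ̄` in `ℂ`, as an algebra structure. -/
@[reducible] noncomputable def algQbC : Algebra Qb ℂ :=
  haveI : Algebra.IsAlgebraic ℚ Qb := AlgebraicClosure.isAlgebraic ℚ
  (IsAlgClosed.lift (R := ℚ) (S := Qb) (M := ℂ)).toRingHom.toAlgebra

/-- **The support map**. -/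
theorem supportMap_of {N m : ℕ} [NeZero N] [NeZero m]
    (hC : ComplexInputs N m) (hN : NormSeriesInputC N) (hK : KummerHeckeInput N m) :
    RepTwo.SupportMap N m := by
  let _ : Algebra Qb ℂ := algQbC
  obtain ⟨hfin, ιC, hιC, hT⟩ := hC
  refine ⟨(kummerC N m).comp ιC, fun φ => nsmul_kummerC N m _, fun φ hφ => ?_, fun ℓ hℓ φ => ?_⟩
  · exact hιC φ ((map_eq_zero_iff _ (kummerC_injective N m)).1 hφ)
  · obtain ⟨ζ, u, u', hζ, hu, hu', huu'⟩ := hT ℓ hℓ φ
    rw [AddMonoidHom.comp_apply, AddMonoidHom.comp_apply, hu, hu']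
    exact kummerC_hecke_of N m hN hK hℓ hζ huu'

/-- **Finiteness of the torsion of `J₀(N)`**. -/
theorem finite_pTor_of {N m : ℕ} [NeZero N] [NeZero m]
    (hfin : Finite (KummerGroup ℂ (FC N) m)) : Finite (RepTwo.pTor (JZero N) m) := by
  have hm : 0 < m := NeZero.pos m
  have : Algebra.IsAlgebraic ℚ Qb := AlgebraicClosure.isAlgebraic ℚ
  let _ : Algebra Qb ℂ := (IsAlgClosed.lift (R := ℚ) (S := Qb) (M := ℂ)).toRingHom.toAlgebra
  have h1 : Finite (KummerGroup Qb (modularFunctionFieldBar N) m) :=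
    Finite.of_injective _ (kummerMap_injective Qb ℂ (modularFunctionFieldFull N) hm)
  have h2 : Finite (Pic0.torsion Qb (modularFunctionFieldBar N) m) :=
    (finite_torsion_iff m).2 h1
  refine Finite.of_injective (fun x : RepTwo.pTor (JZero N) m =>
    (⟨x.1, ?_⟩ : Pic0.torsion Qb (modularFunctionFieldBar N) m)) ?_
  · rw [Pic0.mem_torsion, natCast_zsmul]
    exact x.2
  · intro x y hxy
    exact Subtype.ext (congrArg Subtype.val hxy)

/-- The Kummer description of the `m`-torsion over `ℂ` and `ℚ̄`: cardinality. -/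
theorem card_torsion_JZero {N m : ℕ} [NeZero N] [NeZero m]
    (hfin : Finite (KummerGroup ℂ (FC N) m)) :
    Nat.card (Pic0.torsion Qb (modularFunctionFieldBar N) m) =
      Nat.card (KummerGroup ℂ (FC N) m) := by
  have : Algebra.IsAlgebraic ℚ Qb := AlgebraicClosure.isAlgebraic ℚ
  let _ : Algebra Qb ℂ := (IsAlgClosed.lift (R := ℚ) (S := Qb) (M := ℂ)).toRingHom.toAlgebra
  rw [card_torsion_eq]
  exact Nat.card_congr (kummerEquiv Qb ℂ (modularFunctionFieldFull N) (NeZero.pos m)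
    (jq_mem_full N) order_jq_ne_zero).toEquiv

end Fermat.Agent.Top
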