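import Mathlib

/-!
# Automorphisms of algebraically closed fields

An element of an algebraically closed field `E` with finite orbit under `Aut(E/K)` is algebraic
over `K`.
-/

set_option autoImplicit false

open MvPolynomial

namespace Fermat.Agent.Top

section

variable {K E : Type*} [Field K] [Field E] [Algebra K E]

/-- Extending a bijection of transcendence bases to an automorphism. -/
theorem exists_algEquiv_of_isTranscendenceBasis [IsAlgClosed E] {ι : Type*} {v w : ι → E}
    (hv : IsTranscendenceBasis K v) (hw : IsTranscendenceBasis K w) :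
    ∃ σ : E ≃ₐ[K] E, ∀ i, σ (v i) = w i := by
  let _ : IsAlgClosure (Algebra.adjoin K (Set.range v)) E :=
    IsAlgClosed.isAlgClosure_of_transcendence_basis v hv
  let _ : IsAlgClosure (Algebra.adjoin K (Set.range w)) E :=
    IsAlgClosed.isAlgClosure_of_transcendence_basis w hw
  let e : Algebra.adjoin K (Set.range v) ≃ₐ[K] Algebra.adjoin K (Set.range w) :=
    hv.1.aevalEquiv.symm.trans hw.1.aevalEquiv
  have he : ∀ i, ((e ⟨v i, Algebra.subset_adjoin (Set.mem_range_self i)⟩ :
      Algebra.adjoin K (Set.range w)) : E) = w i := by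
    intro i
    have h1 : hv.1.aevalEquiv (X i) = ⟨v i, Algebra.subset_adjoin (Set.mem_range_self i)⟩ := by
      apply Subtype.ext
      rw [AlgebraicIndependent.aevalEquiv_apply_coe]
      simp
    have h2 : hv.1.aevalEquiv.symm ⟨v i, Algebra.subset_adjoin (Set.mem_range_self i)⟩ = X i := by
      rw [← h1, AlgEquiv.symm_apply_apply]
    change ((hw.1.aevalEquiv (hv.1.aevalEquiv.symm _) : Algebra.adjoin K (Set.range w)) : E) = w i
    rw [h2, AlgebraicIndependent.aevalEquiv_apply_coe]
    simp
  let s : E ≃+* E := IsAlgClosure.equivOfEquiv E E e.toRingEquiv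
  have hs : ∀ x : Algebra.adjoin K (Set.range v), s (x : E) = (e x : E) := fun x =>
    IsAlgClosure.equivOfEquiv_algebraMap E E e.toRingEquiv x
  refine ⟨AlgEquiv.ofRingEquiv (f := s) (fun c => ?_), fun i => ?_⟩
  · have h1 := hs (algebraMap K _ c)
    rw [e.commutes] at h1
    exact h1
  · exact (hs ⟨v i, Algebra.subset_adjoin (Set.mem_range_self i)⟩).trans (he i)

/-- A transcendental element can be translated by an automorphism. -/
theorem exists_algEquiv_apply_eq_add [IsAlgClosed E] {z : E} (hz : Transcendental K z) (c : K) :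
    ∃ σ : E ≃ₐ[K] E, σ z = z + algebraMap K E c := by
  classical
  have hz' : AlgebraicIndepOn K id ({z} : Set E) := by
    rw [AlgebraicIndepOn]
    exact algebraicIndependent_unique_type_iff.mpr hz
  obtain ⟨t, hzt, ht⟩ := exists_isTranscendenceBasis_superset hz'
  have hzt' : z ∈ t := hzt rfl
  let i₀ : t := ⟨z, hzt'⟩
  let v : t → E := Subtype.val
  let shift (c : K) : MvPolynomial t K →ₐ[K] MvPolynomial t K :=
    aeval (fun i => if i = i₀ then X i + C c else X i)
  have hshift : ∀ c : K, (shift (-c)).comp (shift c) = AlgHom.id K _ := by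
    intro c
    ext i
    simp only [shift, AlgHom.comp_apply, aeval_X, AlgHom.id_apply]
    by_cases h : i = i₀
    · subst h
      simp
    · simp [h]
  let w : t → E := fun i => if i = i₀ then v i + algebraMap K E c else v i
  have hwaeval : (aeval w : MvPolynomial t K →ₐ[K] E) = (aeval v).comp (shift c) := by
    ext i
    simp only [shift, AlgHom.comp_apply, aeval_X, w]
    by_cases h : i = i₀
    · subst h
      simp
    · simp [h]
  have hwind : AlgebraicIndependent K w := by
    have h1 : Function.Injective (shift c) := by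
      intro a b hab
      have := congrArg (shift (-c)) hab
      rw [← AlgHom.comp_apply, ← AlgHom.comp_apply, hshift] at this
      exact this
    have h2 : Function.Injective (aeval v : MvPolynomial t K →ₐ[K] E) := ht.1
    rw [AlgebraicIndependent, hwaeval]
    exact h2.comp h1
  have hadj : Algebra.adjoin K (Set.range w) = Algebra.adjoin K (Set.range v) := by
    rw [Algebra.adjoin_range_eq_range_aeval, Algebra.adjoin_range_eq_range_aeval, hwaeval]
    apply le_antisymm
    · rintro _ ⟨p, rfl⟩
      exact ⟨shift c p, rfl⟩
    · rintro _ ⟨p, rfl⟩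
      refine ⟨shift (-c) p, ?_⟩
      have h2 : (shift c).comp (shift (-c)) = AlgHom.id K _ := by
        have := hshift (-c)
        rwa [neg_neg] at this
      have h3 : shift c (shift (-c) p) = p := DFunLike.congr_fun h2 p
      change aeval v (shift c (shift (-c) p)) = _
      rw [h3]
      rfl
  have hw : IsTranscendenceBasis K w := by
    rw [hwind.isTranscendenceBasis_iff_isAlgebraic, hadj]
    exact ht.isAlgebraic
  obtain ⟨σ, hσ⟩ := exists_algEquiv_of_isTranscendenceBasis ht hw
  refine ⟨σ, ?_⟩
  have := hσ i₀
  simpa [w, i₀, v] using this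

theorem isAlgebraic_of_finite_orbit [IsAlgClosed E] [CharZero K] {z : E}
    (hfin : (Set.range (fun σ : E ≃ₐ[K] E => σ z)).Finite) : IsAlgebraic K z := by
  by_contra hz
  have hz' : Transcendental K z := hz
  choose σ hσ using fun n : ℕ => exists_algEquiv_apply_eq_add hz' (n : K)
  have hinj : Function.Injective (fun n : ℕ => σ n z) := by
    intro m n h
    simp only [hσ] at h
    have h1 := add_left_cancel h
    exact Nat.cast_injective ((algebraMap K E).injective h1)
  have h2 : (Set.range (fun n : ℕ => σ n z)).Infinite := Set.infinite_range_of_injective hinj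
  apply h2
  refine hfin.subset ?_
  rintro _ ⟨n, rfl⟩
  exact ⟨σ n, rfl⟩

/-- Elements with finite orbit under `Aut(E/K)` lie in `K` if `K` is algebraically closed. -/
theorem mem_range_of_finite_orbit [IsAlgClosed K] [IsAlgClosed E] [CharZero K] {z : E}
    (hfin : (Set.range (fun σ : E ≃ₐ[K] E => σ z)).Finite) : z ∈ (algebraMap K E).range := by
  have h1 := (isAlgebraic_of_finite_orbit hfin).isIntegral
  have h2 := IsAlgClosed.splits (minpoly K z)
  have h3 := minpoly.irreducible h1
  have h4 : (minpoly K z).degree = 1 := h2.degree_eq_one_of_irreducible h3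
  exact minpoly.mem_range_of_degree_eq_one K z h4

theorem mem_range_of_forall_fixed [IsAlgClosed K] [IsAlgClosed E] [CharZero K] {z : E}
    (h : ∀ σ : E ≃ₐ[K] E, σ z = z) : z ∈ (algebraMap K E).range := by
  apply mem_range_of_finite_orbit
  refine (Set.finite_singleton z).subset ?_
  rintro _ ⟨σ, rfl⟩
  exact h σ

end

end Fermat.Agent.Top
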