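import Fermat.Agent.Top.AutFix
import Fermat.Agent.Top.KummerGroup
import Fermat.Agent.Top.PlaceLift
import Fermat.Agent.RR.HOne

/-!
# Canonical representatives in the Kummer group, and their descent
-/

set_option autoImplicit false

open HahnSeries ModularCurve AlgebraicCurve

namespace Fermat.Agent.Top

section QPlace

variable {E : Type*} [Field E] {F : IntermediateField E (LaurentSeries E)}

theorem order_coe_mul {x y : F} (hx : x ≠ 0) (hy : y ≠ 0) :
    ((x * y : F) : LaurentSeries E).order = (x : LaurentSeries E).order +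
      (y : LaurentSeries E).order := by
  push_cast
  exact HahnSeries.order_mul (fun h => hx (Subtype.ext h)) (fun h => hy (Subtype.ext h))

theorem order_coe_inv (x : F) :
    ((x⁻¹ : F) : LaurentSeries E).order = -(x : LaurentSeries E).order := by
  by_cases hx : x = 0
  · subst hx; simp
  have h := order_coe_mul hx (inv_ne_zero hx)
  rw [mul_inv_cancel₀ hx] at h
  have h1 : ((1 : F) : LaurentSeries E).order = 0 := by
    push_cast
    exact HahnSeries.order_one
  omega

variable (F) in
/-- The valuation ring of series without pole. -/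
def qSubring : ValuationSubring F where
  carrier := {f | 0 ≤ (f : LaurentSeries E).order}
  mul_mem' {x y} hx hy := by
    change 0 ≤ ((x * y : F) : LaurentSeries E).order
    by_cases hx0 : x = 0
    · rw [hx0, zero_mul]; simp
    by_cases hy0 : y = 0
    · rw [hy0, mul_zero]; simp
    rw [order_coe_mul hx0 hy0]
    exact add_nonneg hx hy
  one_mem' := by
    change 0 ≤ ((1 : F) : LaurentSeries E).order
    push_cast
    rw [HahnSeries.order_one]
  add_mem' {x y} hx hy := by
    change 0 ≤ ((x + y : F) : LaurentSeries E).order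
    by_cases h : ((x + y : F) : LaurentSeries E) = 0
    · rw [h, HahnSeries.order_zero]
    · push_cast at h ⊢
      exact (le_min hx hy).trans (HahnSeries.min_order_le_order_add h)
  zero_mem' := by
    change 0 ≤ ((0 : F) : LaurentSeries E).order
    simp
  neg_mem' {x} hx := by
    change 0 ≤ ((-x : F) : LaurentSeries E).order
    push_cast
    rw [HahnSeries.order_neg]
    exact hx
  mem_or_inv_mem' x := by
    change 0 ≤ (x : LaurentSeries E).order ∨ 0 ≤ ((x⁻¹ : F) : LaurentSeries E).order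
    rw [order_coe_inv]
    omega

theorem mem_qSubring {f : F} : f ∈ qSubring F ↔ 0 ≤ (f : LaurentSeries E).order := Iff.rfl

/-- The place of `F` given by the order in `q`. -/
theorem exists_qPlace {x : F} (hx : (x : LaurentSeries E).order ≠ 0) :
    ∃ (w : Place E F) (e : ℤ), 0 < e ∧ ∀ f : F, (f : LaurentSeries E).order = w.ord f * e := by
  have hK : ∀ a : E, algebraMap E F a ∈ qSubring F := by
    intro a
    rw [mem_qSubring]
    have h1 : ((algebraMap E F a : F) : LaurentSeries E) = HahnSeries.single 0 a :=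
      algebraMap_laurentSeries_eq_single E a
    rw [h1]
    by_cases ha : a = 0
    · rw [ha]; simp
    · rw [HahnSeries.order_single ha]
  have hmem : ∀ f : F, f ≠ 0 → (f ∈ qSubring F ↔ 0 ≤ (f : LaurentSeries E).order) :=
    fun f _ => mem_qSubring
  have hmul : ∀ f g : F, f ≠ 0 → g ≠ 0 → ((f * g : F) : LaurentSeries E).order =
      (f : LaurentSeries E).order + (g : LaurentSeries E).order := fun f g hf hg =>
    order_coe_mul hf hg
  have hne : qSubring F ≠ ⊤ := by
    intro htop
    have h1 : x ∈ qSubring F := by rw [htop]; trivial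
    have h2 : x⁻¹ ∈ qSubring F := by rw [htop]; trivial
    rw [mem_qSubring] at h1 h2
    rw [order_coe_inv] at h2
    omega
  let w : Place E F := mkPlace (qSubring F) (fun f => (f : LaurentSeries E).order) hK hne hmem hmul
  obtain ⟨t, ht0, ht⟩ := FF.exists_ord_eq_one w
  refine ⟨w, (t : LaurentSeries E).order, ?_, fun f => ?_⟩
  · have h1 : t ∈ w.toValuationSubring := FF.mem_of_ord_nonneg w (by rw [ht]; norm_num)
    have h2 : 0 ≤ (t : LaurentSeries E).order := (hmem t ht0).1 h1
    have h3 : t⁻¹ ∉ w.toValuationSubring := by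
      intro h
      have := FF.ord_nonneg_of_mem w h
      rw [w.ord_inv, ht] at this
      norm_num at this
    have h4 : ¬ 0 ≤ ((t⁻¹ : F) : LaurentSeries E).order :=
      fun h => h3 ((hmem _ (inv_ne_zero ht0)).2 h)
    rw [order_coe_inv] at h4
    omega
  · rcases eq_or_ne f 0 with rfl | hf
    · simp
    · exact ord_eq_mul_of_mem_iff w (fun f : F => (f : LaurentSeries E).order) hmem hmul ht hf

end QPlace

section Can

variable {E : Type*} [Field E] {F : IntermediateField E (LaurentSeries E)}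

/-- A representative whose only possible pole is the `q`-place, with maximal `q`-order and
leading coefficient `1`. -/
def IsCan (w : Place E F) (m : ℕ) (c : F) : Prop :=
  c ≠ 0 ∧ (∀ v, v ≠ w → 0 ≤ v.ord c) ∧ (c : LaurentSeries E).leadingCoeff = 1 ∧
  ∀ f : F, f ≠ 0 → (∀ v, v ≠ w → 0 ≤ v.ord (c * f ^ m)) →
    ((c * f ^ m : F) : LaurentSeries E).order ≤ (c : LaurentSeries E).order

theorem leadingCoeff_coe_mul {x y : F} (hx : x ≠ 0) (hy : y ≠ 0) :
    ((x * y : F) : LaurentSeries E).leadingCoeff = (x : LaurentSeries E).leadingCoeff *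
      (y : LaurentSeries E).leadingCoeff := by
  have hx' : (x : LaurentSeries E) ≠ 0 := fun h => hx (Subtype.ext h)
  have hy' : (y : LaurentSeries E) ≠ 0 := fun h => hy (Subtype.ext h)
  push_cast
  apply HahnSeries.leadingCoeff_mul_of_ne_zero
  exact mul_ne_zero (HahnSeries.leadingCoeff_ne_zero.2 hx') (HahnSeries.leadingCoeff_ne_zero.2 hy')

theorem leadingCoeff_coe_pow {x : F} (hx : x ≠ 0) (n : ℕ) :
    ((x ^ n : F) : LaurentSeries E).leadingCoeff = (x : LaurentSeries E).leadingCoeff ^ n := by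
  induction n with
  | zero =>
      rw [pow_zero, pow_zero]
      exact HahnSeries.leadingCoeff_one
  | succ n ih => rw [pow_succ, leadingCoeff_coe_mul (pow_ne_zero _ hx) hx, ih, pow_succ]

theorem order_coe_pow (x : F) (n : ℕ) :
    ((x ^ n : F) : LaurentSeries E).order = n * (x : LaurentSeries E).order := by
  push_cast
  rw [HahnSeries.order_pow]
  simp

theorem order_coe_algebraMap (a : E) :
    ((algebraMap E F a : F) : LaurentSeries E).order = 0 := by
  have h1 : ((algebraMap E F a : F) : LaurentSeries E) = HahnSeries.single 0 a :=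
    algebraMap_laurentSeries_eq_single E a
  rw [h1]
  by_cases ha : a = 0
  · rw [ha]; simp
  · rw [HahnSeries.order_single ha]

theorem leadingCoeff_coe_algebraMap (a : E) :
    ((algebraMap E F a : F) : LaurentSeries E).leadingCoeff = a := by
  have h1 : ((algebraMap E F a : F) : LaurentSeries E) = HahnSeries.single 0 a :=
    algebraMap_laurentSeries_eq_single E a
  rw [h1, HahnSeries.leadingCoeff_of_single]

variable [IsAlgClosed E] [FF.IsFnField E F]

theorem ord_nonpos_of_forall_ne {w : Place E F} {c : F} (h : ∀ v, v ≠ w → 0 ≤ v.ord c) :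
    w.ord c ≤ 0 := by
  classical
  by_contra hcon
  push Not at hcon
  have h1 : Finsupp.single w (1 : ℤ) ≤ RR.divOf (K := E) c := by
    intro v
    rw [RR.divOf_apply, Finsupp.single_apply]
    split_ifs with hv
    · subst hv; omega
    · exact h v (Ne.symm hv)
  have h2 := RR.degree_mono h1
  rw [RR.degree_single', RR.degree_divOf] at h2
  omega

/-- Existence of canonical representatives. -/
theorem exists_isCan [CharZero E] {w : Place E F} {e : ℤ} (he : 0 < e)
    (hw : ∀ f : F, (f : LaurentSeries E).order = w.ord f * e) {m : ℕ} (hm : 0 < m)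
    {h : F} (hh : h ≠ 0) (hdvd : ∀ v : Place E F, (m : ℤ) ∣ v.ord h) :
    ∃ f : F, f ≠ 0 ∧ IsCan w m (h * f ^ m) := by
  classical
  -- the Riemann–Roch space
  let D : Divisor E F := (RR.divOf (K := E) h).mapRange (fun z => z / (m : ℤ)) (by simp)
  have hD : ∀ v, (m : ℤ) * D v = v.ord h := by
    intro v
    change (m : ℤ) * (v.ord h / m) = v.ord h
    exact Int.mul_ediv_cancel' (hdvd v)
  obtain ⟨c, hc⟩ := RR.exists_defect_le E F
  obtain ⟨N, hN⟩ : ∃ N : ℤ, c < Divisor.degree (D + Finsupp.single w N) := by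
    refine ⟨c + 1 - Divisor.degree D, ?_⟩
    rw [map_add, RR.degree_single']
    omega
  have hpos : 0 < RR.ell (D + Finsupp.single w N) := by
    have := hc (D + Finsupp.single w N)
    unfold RR.defect at this
    omega
  obtain ⟨f₀, hf₀, hf₀0⟩ := RR.exists_mem_ne_zero_of_ell_pos hpos
  have hP₀ : ∀ v, v ≠ w → 0 ≤ v.ord (h * f₀ ^ m) := by
    intro v hv
    have h1 := (mem_riemannRochSpace_iff.1 hf₀ v).resolve_left hf₀0
    rw [Finsupp.add_apply, Finsupp.single_apply, if_neg (Ne.symm hv), add_zero] at h1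
    rw [v.ord_mul hh (pow_ne_zero _ hf₀0), FF.ord_pow, ← hD v]
    have hm' : (0 : ℤ) ≤ m := by positivity
    nlinarith
  obtain ⟨M, ⟨f, hf0, hPf, hfM⟩, hM⟩ := Int.exists_greatest_of_bdd
    (P := fun z => ∃ f : F, f ≠ 0 ∧ (∀ v, v ≠ w → 0 ≤ v.ord (h * f ^ m)) ∧
      w.ord (h * f ^ m) = z)
    ⟨0, fun z hz => by
      obtain ⟨f, -, hf, rfl⟩ := hz
      exact ord_nonpos_of_forall_ne hf⟩ ⟨_, f₀, hf₀0, hP₀, rfl⟩
  have hhf : h * f ^ m ≠ 0 := mul_ne_zero hh (pow_ne_zero _ hf0)
  have hlc : ((h * f ^ m : F) : LaurentSeries E).leadingCoeff ≠ 0 :=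
    HahnSeries.leadingCoeff_ne_zero.2 (fun h' => hhf (Subtype.ext h'))
  obtain ⟨μ, hμ⟩ := IsAlgClosed.exists_pow_nat_eq
    (((h * f ^ m : F) : LaurentSeries E).leadingCoeff)⁻¹ hm
  have hμ0 : μ ≠ 0 := by
    rintro rfl
    rw [zero_pow hm.ne'] at hμ
    exact inv_ne_zero hlc hμ.symm
  have hμ' : algebraMap E F μ ≠ 0 := (map_ne_zero _).2 hμ0
  have heq : h * (algebraMap E F μ * f) ^ m = algebraMap E F (μ ^ m) * (h * f ^ m) := by
    rw [map_pow]; ring
  have hμm : algebraMap E F (μ ^ m) ≠ 0 := (map_ne_zero _).2 (pow_ne_zero _ hμ0)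
  refine ⟨algebraMap E F μ * f, mul_ne_zero hμ' hf0, ?_, ?_, ?_, ?_⟩
  · exact mul_ne_zero hh (pow_ne_zero _ (mul_ne_zero hμ' hf0))
  · intro v hv
    rw [heq, v.ord_mul hμm hhf, FF.ord_algebraMap, zero_add]
    exact hPf v hv
  · rw [heq, leadingCoeff_coe_mul hμm hhf, leadingCoeff_coe_algebraMap, hμ,
      inv_mul_cancel₀ hlc]
  · intro g hg0 hg
    have h1 : h * (algebraMap E F μ * f) ^ m * g ^ m =
        h * (algebraMap E F μ * f * g) ^ m := by ring
    rw [h1] at hg ⊢
    rw [hw, hw]
    apply mul_le_mul_of_nonneg_right _ he.le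
    have h2 := hM _ ⟨algebraMap E F μ * f * g, mul_ne_zero (mul_ne_zero hμ' hf0) hg0, hg, rfl⟩
    refine h2.trans (le_of_eq ?_)
    rw [heq, w.ord_mul hμm hhf, FF.ord_algebraMap, zero_add, hfM]

omit [IsAlgClosed E] [FF.IsFnField E F] in
/-- Uniqueness of canonical representatives. -/
theorem IsCan.unique {w : Place E F} {m : ℕ} (hm : 0 < m) {c f : F} (hc : IsCan w m c)
    (hf : f ≠ 0) (hcf : IsCan w m (c * f ^ m)) (hdvd : ∀ v : Place E F, (m : ℤ) ∣ v.ord c) :
    c * f ^ m = c := by
  obtain ⟨hc0, hc1, hc2, hc3⟩ := hc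
  obtain ⟨hd0, hd1, hd2, hd3⟩ := hcf
  have hfm : f ^ m ≠ 0 := pow_ne_zero _ hf
  -- orders agree
  have h1 := hc3 f hf hd1
  have h2 := hd3 f⁻¹ (inv_ne_zero hf) (by
    rw [mul_assoc, ← mul_pow, mul_inv_cancel₀ hf, one_pow, mul_one]; exact hc1)
  rw [mul_assoc, ← mul_pow, mul_inv_cancel₀ hf, one_pow, mul_one] at h2
  rw [order_coe_mul hc0 hfm, order_coe_pow] at h1 h2
  have hord : (f : LaurentSeries E).order = 0 := by
    have h3 : (m : ℤ) * (f : LaurentSeries E).order = 0 := by omega
    rcases mul_eq_zero.1 h3 with h | h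
    · exact absurd h (by exact_mod_cast hm.ne')
    · exact h
  -- leading coefficient
  have hlc : (f : LaurentSeries E).leadingCoeff ^ m = 1 := by
    rw [leadingCoeff_coe_mul hc0 hfm, hc2, one_mul, leadingCoeff_coe_pow hf] at hd2
    exact hd2
  set ζ := (f : LaurentSeries E).leadingCoeff with hζ
  have hζ0 : ζ ≠ 0 := by
    intro h
    rw [h, zero_pow hm.ne'] at hlc
    exact zero_ne_one hlc
  set f₁ : F := algebraMap E F ζ⁻¹ * f with hf₁
  have hζ' : algebraMap E F ζ⁻¹ ≠ 0 := (map_ne_zero _).2 (inv_ne_zero hζ0)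
  have hf₁0 : f₁ ≠ 0 := mul_ne_zero hζ' hf
  have hf₁m : f₁ ^ m = f ^ m := by
    rw [hf₁, mul_pow, ← map_pow, inv_pow, hlc, inv_one, map_one, one_mul]
  have hf₁o : (f₁ : LaurentSeries E).order = 0 := by
    rw [hf₁, order_coe_mul hζ' hf, order_coe_algebraMap, hord, add_zero]
  have hf₁l : (f₁ : LaurentSeries E).leadingCoeff = 1 := by
    rw [hf₁, leadingCoeff_coe_mul hζ' hf, leadingCoeff_coe_algebraMap, inv_mul_cancel₀ hζ0]
  rw [← hf₁m]
  by_cases hg : f₁ = 1
  · rw [hg, one_pow, mul_one]
  exfalso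
  have hg0 : f₁ - 1 ≠ 0 := sub_ne_zero.2 hg
  have hgo : 0 < ((f₁ - 1 : F) : LaurentSeries E).order := by
    have h4 : ((f₁ - 1 : F) : LaurentSeries E) ≠ 0 := fun h => hg0 (Subtype.ext h)
    have h5 : ((f₁ - 1 : F) : LaurentSeries E).coeff
        ((f₁ - 1 : F) : LaurentSeries E).order ≠ 0 := by
      rw [Ne, HahnSeries.coeff_order_eq_zero]; exact h4
    by_contra hcon
    push Not at hcon
    rcases hcon.lt_or_eq with h6 | h6
    · apply h5
      have h7 : ((f₁ - 1 : F) : LaurentSeries E).coeff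
          ((f₁ - 1 : F) : LaurentSeries E).order =
          (f₁ : LaurentSeries E).coeff ((f₁ - 1 : F) : LaurentSeries E).order -
          (1 : LaurentSeries E).coeff ((f₁ - 1 : F) : LaurentSeries E).order := by
        conv_lhs => rw [show ((f₁ - 1 : F) : LaurentSeries E) = (f₁ : LaurentSeries E) - 1 from by
          push_cast; rfl]
        rw [HahnSeries.coeff_sub]
        congr 1
      rw [h7, HahnSeries.coeff_eq_zero_of_lt_order (by rw [hf₁o]; exact h6),
        HahnSeries.coeff_eq_zero_of_lt_order (by rw [HahnSeries.order_one]; exact h6), sub_zero]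
    · apply h5
      rw [h6]
      push_cast
      rw [HahnSeries.coeff_sub, HahnSeries.coeff_one, if_pos rfl]
      have h8 := HahnSeries.leadingCoeff_eq (x := (f₁ : LaurentSeries E))
      rw [hf₁o, hf₁l] at h8
      rw [← h8, sub_self]
  have h9 := hc3 (f₁ - 1) hg0 (by
    intro v hv
    obtain ⟨d, hd⟩ := hdvd v
    have h10 := hd1 v hv
    rw [← hf₁m, v.ord_mul hc0 (pow_ne_zero _ hf₁0), FF.ord_pow, hd] at h10
    have h11 := hc1 v hv
    rw [hd] at h11
    rw [v.ord_mul hc0 (pow_ne_zero _ hg0), FF.ord_pow, hd]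
    have hm' : (0 : ℤ) < m := by exact_mod_cast hm
    have h12 : 0 ≤ d := by nlinarith
    have h13 : 0 ≤ d + v.ord f₁ := by nlinarith
    have h14 : min (v.ord f₁) (v.ord (-1 : F)) ≤ v.ord (f₁ - 1) := by
      rw [sub_eq_add_neg]
      exact FF.min_le_ord_add v (by rw [← sub_eq_add_neg]; exact hg0)
    rw [FF.ord_neg, v.ord_one] at h14
    have h15 : 0 ≤ d + v.ord (f₁ - 1) := by
      rcases min_le_iff.1 h14 with h | h <;> omega
    nlinarith)
  rw [order_coe_mul hc0 (pow_ne_zero _ hg0), order_coe_pow] at h9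
  have hm' : (0 : ℤ) < m := by exact_mod_cast hm
  nlinarith

end Can

end Fermat.Agent.Top
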