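import Mathlib

set_option autoImplicit false

/-!
# Abstract transfer operators attached to finite systems of coset representatives
-/

namespace Fermat.Agent.Top

open Finset

/-- A finite system `δ i` of elements of `G`, permuted up to left multiplication by `Γ` under right
multiplication by elements of `Γ`. -/
structure Reps {Γ G : Type*} [Group Γ] [Group G] (ι : Γ →* G) (I : Type*) where
  /-- the representatives -/
  δ : I → G
  /-- the permutation attached to an element of `Γ` -/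
  σ : Γ → I → I
  /-- the factor attached to an element of `Γ` -/
  c : Γ → I → Γ
  inj : Function.Injective ι
  mul_eq : ∀ γ i, δ i * ι γ = ι (c γ i) * δ (σ γ i)
  σ_one : ∀ i, σ 1 i = i
  σ_mul : ∀ γ γ' i, σ (γ * γ') i = σ γ' (σ γ i)

namespace Reps

variable {Γ G : Type*} [Group Γ] [Group G] {ι : Γ →* G} {I I' : Type*}

theorem σ_one_of_uniq {δ : I → G} (uniq : ∀ (g : Γ) (i j : I), ι g * δ i = δ j → i = j)
    {c : Γ → I → Γ} {σ : Γ → I → I} (e : ∀ γ i, δ i * ι γ = ι (c γ i) * δ (σ γ i)) (i : I) :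
    σ 1 i = i := by
  have h4 := e 1 i
  rw [map_one, mul_one] at h4
  exact uniq _ _ _ h4.symm

theorem σ_mul_of_uniq {δ : I → G} (uniq : ∀ (g : Γ) (i j : I), ι g * δ i = δ j → i = j)
    {c : Γ → I → Γ} {σ : Γ → I → I} (e : ∀ γ i, δ i * ι γ = ι (c γ i) * δ (σ γ i)) (γ γ' : Γ)
    (i : I) : σ (γ * γ') i = σ γ' (σ γ i) := by
  refine uniq ((c γ' (σ γ i))⁻¹ * (c γ i)⁻¹ * (c (γ * γ') i)) _ _ ?_
  rw [map_mul, mul_assoc, ← e, map_mul, map_mul, map_inv, map_inv, ← mul_assoc (δ i), e γ i,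
    mul_assoc (ι (c γ i)), e γ' (σ γ i)]
  group

/-- Construct a system of representatives from existence and uniqueness. -/
noncomputable def mk' (inj : Function.Injective ι) (δ : I → G)
    (h : ∀ γ i, ∃ (g : Γ) (j : I), δ i * ι γ = ι g * δ j)
    (uniq : ∀ (g : Γ) (i j : I), ι g * δ i = δ j → i = j) : Reps ι I where
  δ := δ
  σ γ i := (h γ i).choose_spec.choose
  c γ i := (h γ i).choose
  inj := inj
  mul_eq γ i := (h γ i).choose_spec.choose_spec
  σ_one i := σ_one_of_uniq uniq (c := fun γ i ↦ (h γ i).choose)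
    (σ := fun γ i ↦ (h γ i).choose_spec.choose) (fun γ i ↦ (h γ i).choose_spec.choose_spec) i
  σ_mul γ γ' i := σ_mul_of_uniq uniq (c := fun γ i ↦ (h γ i).choose)
    (σ := fun γ i ↦ (h γ i).choose_spec.choose) (fun γ i ↦ (h γ i).choose_spec.choose_spec) γ γ' i

@[simp] theorem mk'_δ (inj : Function.Injective ι) (δ : I → G)
    (h : ∀ γ i, ∃ (g : Γ) (j : I), δ i * ι γ = ι g * δ j)
    (uniq : ∀ (g : Γ) (i j : I), ι g * δ i = δ j → i = j) : (mk' inj δ h uniq).δ = δ := rfl

variable (R : Reps ι I) (R' : Reps ι I')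

theorem c_mul (γ γ' : Γ) (i : I) : R.c (γ * γ') i = R.c γ i * R.c γ' (R.σ γ i) := by
  apply R.inj
  have h1 := R.mul_eq (γ * γ') i
  rw [R.σ_mul, map_mul, ← mul_assoc, R.mul_eq γ i, mul_assoc, R.mul_eq γ', ← mul_assoc] at h1
  rw [map_mul]
  exact (mul_right_cancel h1).symm

theorem c_one (i : I) : R.c 1 i = 1 := by
  have h := R.c_mul 1 1 i
  rw [R.σ_one, mul_one] at h
  simpa using h

/-- The permutation attached to an element of `Γ`. -/
def perm (γ : Γ) : Equiv.Perm I where
  toFun := R.σ γ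
  invFun := R.σ γ⁻¹
  left_inv i := by rw [← R.σ_mul, mul_inv_cancel, R.σ_one]
  right_inv i := by rw [← R.σ_mul, inv_mul_cancel, R.σ_one]

@[simp] theorem perm_apply (γ : Γ) (i : I) : R.perm γ i = R.σ γ i := rfl

theorem σ_pow (γ : Γ) (n : ℕ) (i : I) : R.σ (γ ^ n) i = (R.perm γ ^ n) i := by
  induction n generalizing i with
  | zero => simp [R.σ_one]
  | succ n ih =>
    rw [pow_succ', R.σ_mul, ih, pow_succ, Equiv.Perm.mul_apply, perm_apply]

/-- Composition of systems of representatives. -/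
def comp : Reps ι (I × I') where
  δ x := R.δ x.1 * R'.δ x.2
  σ γ x := (R.σ (R'.c γ x.2) x.1, R'.σ γ x.2)
  c γ x := R.c (R'.c γ x.2) x.1
  inj := R.inj
  mul_eq γ x := by
    rw [mul_assoc, R'.mul_eq, ← mul_assoc, R.mul_eq, mul_assoc]
  σ_one x := by rw [R'.c_one, R.σ_one, R'.σ_one]
  σ_mul γ γ' x := by rw [R'.c_mul, R.σ_mul, R'.σ_mul]

@[simp] theorem comp_δ (x : I × I') : (R.comp R').δ x = R.δ x.1 * R'.δ x.2 := rfl

@[simp] theorem comp_c (γ : Γ) (x : I × I') :
    (R.comp R').c γ x = R.c (R'.c γ x.2) x.1 := rfl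

section Op

variable [Fintype I] [Fintype I']

/-- The transfer operator on homomorphisms to a commutative monoid (multiplicative version). -/
def opMul {B : Type*} [CommMonoid B] (χ : Γ →* B) : Γ →* B where
  toFun γ := ∏ i, χ (R.c γ i)
  map_one' := by simp [R.c_one]
  map_mul' γ γ' := by
    simp only [R.c_mul, map_mul, Finset.prod_mul_distrib]
    congr 1
    exact Equiv.prod_comp (R.perm γ) (fun i ↦ χ (R.c γ' i))

theorem opMul_apply {B : Type*} [CommMonoid B] (χ : Γ →* B) (γ : Γ) :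
    R.opMul χ γ = ∏ i, χ (R.c γ i) := rfl

/-- The transfer operator on homomorphisms to an abelian group. -/
def op {A : Type*} [AddCommGroup A] : (Additive Γ →+ A) →+ (Additive Γ →+ A) where
  toFun φ :=
    { toFun := fun γ ↦ ∑ i, φ (Additive.ofMul (R.c (Additive.toMul γ) i))
      map_zero' := by simp [R.c_one]
      map_add' := fun γ γ' ↦ by
        simp only [toMul_add, R.c_mul, ofMul_mul, map_add, Finset.sum_add_distrib]
        congr 1
        exact Equiv.sum_comp (R.perm (Additive.toMul γ))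
          (fun i ↦ φ (Additive.ofMul (R.c (Additive.toMul γ') i))) }
  map_zero' := by ext; simp
  map_add' φ ψ := by ext; simp [Finset.sum_add_distrib]

variable {A A' : Type*} [AddCommGroup A] [AddCommGroup A']

theorem op_apply (φ : Additive Γ →+ A) (γ : Γ) :
    R.op φ (Additive.ofMul γ) = ∑ i, φ (Additive.ofMul (R.c γ i)) := rfl

/-- Naturality. -/
theorem op_comp_left (g : A →+ A') (φ : Additive Γ →+ A) : R.op (g.comp φ) = g.comp (R.op φ) := by
  ext γ
  change ∑ i, g (φ _) = g (∑ i, φ _)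
  rw [map_sum]

/-- Compatibility of the multiplicative and the additive version. -/
theorem opMul_comp {B : Type*} [CommMonoid B] (e : Multiplicative A →* B) (φ : Additive Γ →+ A) :
    R.opMul (e.comp (AddMonoidHom.toMultiplicativeRight φ)) =
      e.comp (AddMonoidHom.toMultiplicativeRight (R.op φ)) := by
  ext γ
  change ∏ i, e (Multiplicative.ofAdd (φ (Additive.ofMul (R.c γ i)))) =
    e (Multiplicative.ofAdd (∑ i, φ (Additive.ofMul (R.c γ i))))
  rw [ofAdd_sum, map_prod]

theorem op_smul {S : Type*} [Semiring S] [Module S A] (s : S) (φ : Additive Γ →+ A) :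
    R.op (s • φ) = s • R.op φ := by
  ext γ
  change ∑ i, s • (φ _) = s • (∑ i, φ _)
  rw [Finset.smul_sum]

/-- The transfer operator as a linear map. -/
def opLin (S : Type*) [Semiring S] [Module S A] : (Additive Γ →+ A) →ₗ[S] (Additive Γ →+ A) where
  toFun := R.op
  map_add' := map_add _
  map_smul' s φ := R.op_smul s φ

@[simp] theorem opLin_apply (S : Type*) [Semiring S] [Module S A] (φ : Additive Γ →+ A) :
    R.opLin S φ = R.op φ := rfl

/-- The transfer operator and functions with a transformation law. -/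
theorem sum_smul_smul {X : Type*} [MulAction G X] (F : X → A) (φ : Additive Γ →+ A)
    (hF : ∀ (γ : Γ) (x : X), F (ι γ • x) = φ (Additive.ofMul γ) + F x) (γ : Γ) (x : X) :
    ∑ i, F (R.δ i • (ι γ • x)) = R.op φ (Additive.ofMul γ) + ∑ i, F (R.δ i • x) := by
  have h : ∀ i, F (R.δ i • (ι γ • x)) =
      φ (Additive.ofMul (R.c γ i)) + F (R.δ (R.perm γ i) • x) := by
    intro i
    rw [← mul_smul, R.mul_eq, mul_smul, hF, perm_apply]
  rw [Finset.sum_congr rfl fun i _ ↦ h i, Finset.sum_add_distrib, op_apply]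
  congr 1
  exact Equiv.sum_comp (R.perm γ) (fun i ↦ F (R.δ i • x))

theorem prod_smul_smul {X B : Type*} [CommMonoid B] [MulAction G X] (F : X → B) (χ : Γ →* B)
    (hF : ∀ (γ : Γ) (x : X), F (ι γ • x) = χ γ * F x) (γ : Γ) (x : X) :
    ∏ i, F (R.δ i • (ι γ • x)) = R.opMul χ γ * ∏ i, F (R.δ i • x) := by
  have h : ∀ i, F (R.δ i • (ι γ • x)) = χ (R.c γ i) * F (R.δ (R.perm γ i) • x) := by
    intro i
    rw [← mul_smul, R.mul_eq, mul_smul, hF, perm_apply]
  rw [Finset.prod_congr rfl fun i _ ↦ h i, Finset.prod_mul_distrib, opMul_apply]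
  congr 1
  exact Equiv.prod_comp (R.perm γ) (fun i ↦ F (R.δ i • x))

theorem op_comp (φ : Additive Γ →+ A) : (R.comp R').op φ = R'.op (R.op φ) := by
  refine AddMonoidHom.ext fun γ ↦ ?_
  change ∑ x : I × I', φ (Additive.ofMul (R.c (R'.c _ x.2) x.1)) = ∑ i', ∑ i, φ _
  rw [Fintype.sum_prod_type_right]
  rfl

/-- Two equivalent systems of representatives define the same operator. -/
theorem op_congr (uniq : ∀ (g : Γ) (i j : I), ι g * R.δ i = R.δ j → i = j)
    (uniq' : ∀ (g : Γ) (i j : I'), ι g * R'.δ i = R'.δ j → i = j)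
    (he : ∀ i, ∃ (g : Γ) (j : I'), R.δ i = ι g * R'.δ j)
    (hcard : Fintype.card I = Fintype.card I') (φ : Additive Γ →+ A) :
    R.op φ = R'.op φ := by
  choose g e he using he
  have hinj : Function.Injective e := by
    intro i j hij
    refine uniq (g j * (g i)⁻¹) i j ?_
    rw [he i, he j, hij, map_mul, map_inv]
    group
  have hbij : Function.Bijective e := (Fintype.bijective_iff_injective_and_card e).mpr ⟨hinj, hcard⟩
  refine AddMonoidHom.ext fun γ' ↦ ?_
  obtain ⟨γ, rfl⟩ := Additive.ofMul.surjective γ'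
  have key : ∀ i, ι (R.c γ i * g (R.σ γ i)) * R'.δ (e (R.σ γ i)) =
      ι (g i * R'.c γ (e i)) * R'.δ (R'.σ γ (e i)) := by
    intro i
    rw [map_mul, mul_assoc, ← he, ← R.mul_eq, he i, mul_assoc, R'.mul_eq, map_mul, mul_assoc]
  have h1 : ∀ i, e (R.σ γ i) = R'.σ γ (e i) := by
    intro i
    refine uniq' ((g i * R'.c γ (e i))⁻¹ * (R.c γ i * g (R.σ γ i))) _ _ ?_
    rw [map_mul, mul_assoc, key i, map_inv]
    group
  have h2 : ∀ i, R.c γ i * g (R.σ γ i) = g i * R'.c γ (e i) := by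
    intro i
    have h3 := key i
    rw [h1 i] at h3
    exact R.inj (mul_right_cancel h3)
  have h3 : ∑ i, φ (Additive.ofMul (R.c γ i * g (R.σ γ i))) =
      ∑ i, φ (Additive.ofMul (g i * R'.c γ (e i))) := by
    simp only [h2]
  simp only [ofMul_mul, map_add, Finset.sum_add_distrib] at h3
  have h4 : ∑ i, φ (Additive.ofMul (g (R.σ γ i))) = ∑ i, φ (Additive.ofMul (g i)) :=
    Equiv.sum_comp (R.perm γ) (fun i ↦ φ (Additive.ofMul (g i)))
  have h5 : ∑ i, φ (Additive.ofMul (R'.c γ (e i))) = ∑ i, φ (Additive.ofMul (R'.c γ i)) :=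
    Equiv.sum_comp (Equiv.ofBijective e hbij) (fun i ↦ φ (Additive.ofMul (R'.c γ i)))
  rw [h4, h5, add_comm] at h3
  rw [op_apply, op_apply]
  exact add_left_cancel h3

/-- If `P` is a property of elements of `Γ` stable under powers and transported along
`δ i * γ = γ' * δ i`, and `φ` vanishes on elements satisfying `P`, then so does `R.op φ`, when `A`
is torsion free. -/
theorem op_eq_zero_of [IsAddTorsionFree A] (P : Γ → Prop) (hpow : ∀ γ, P γ → ∀ n : ℕ, P (γ ^ n))
    (hconj : ∀ γ γ' i, P γ → R.δ i * ι γ = ι γ' * R.δ i → P γ')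
    (φ : Additive Γ →+ A) (hφ : ∀ γ, P γ → φ (Additive.ofMul γ) = 0) (γ : Γ) (hγ : P γ) :
    R.op φ (Additive.ofMul γ) = 0 := by
  classical
  set n := orderOf (R.perm γ) with hn
  have hn0 : n ≠ 0 := (orderOf_pos (R.perm γ)).ne'
  have h1 : R.op φ (Additive.ofMul (γ ^ n)) = 0 := by
    rw [op_apply]
    refine Finset.sum_eq_zero fun i _ ↦ hφ _ ?_
    have h2 : R.σ (γ ^ n) i = i := by
      rw [R.σ_pow, hn, pow_orderOf_eq_one]; rfl
    have h3 := R.mul_eq (γ ^ n) i
    rw [h2] at h3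
    exact hconj _ _ i (hpow γ hγ n) h3
  rw [ofMul_pow, map_nsmul] at h1
  exact (smul_eq_zero.mp h1).resolve_left hn0

end Op

end Reps

end Fermat.Agent.Top
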