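import Fermat.Agent.Top.Reps
import Fermat.Agent.Period.MaxPrinciple
import Fermat.Agent.Period.Parabolic
import Fermat.Prelude.Def_CuspForm_HeckeAlgebra

set_option autoImplicit false

/-!
# Transfer Hecke operators on `Hom(Γ₀(N), A)`
-/

open UpperHalfPlane Filter Topology Function CongruenceSubgroup ModularCurve.Period
open scoped MatrixGroups ModularForm Manifold Pointwise

namespace Fermat.Agent.Top

open Matrix.SpecialLinearGroup ModularForm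

/-- The inclusion `Γ₀(N) → GL₂(ℝ)`. -/
noncomputable def toGL (N : ℕ) : Gamma0 N →* GL (Fin 2) ℝ := (mapGL ℝ).comp (Gamma0 N).subtype

theorem toGL_apply {N : ℕ} (γ : Gamma0 N) : toGL N γ = mapGL ℝ (γ : SL(2, ℤ)) := rfl

theorem mapGL_injective' : Function.Injective (mapGL ℝ : SL(2, ℤ) →* GL (Fin 2) ℝ) :=
  Matrix.SpecialLinearGroup.mapGL_injective

theorem toGL_injective (N : ℕ) : Function.Injective (toGL N) :=
  mapGL_injective'.comp (Subgroup.subtype_injective _)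

theorem toGL_smul {N : ℕ} (γ : Gamma0 N) (τ : ℍ) : toGL N γ • τ = (γ : SL(2, ℤ)) • τ := rfl

/-- The indices of the representatives of the Hecke operator at `ℓ` on `Γ₀(N)`. -/
def HI (N ℓ : ℕ) : Type := {x : Option (Fin ℓ) // ℓ ∣ N → x ≠ none}

noncomputable instance (N ℓ : ℕ) : Fintype (HI N ℓ) := by
  classical
  unfold HI
  infer_instance

/-- Integral matrices representing the Hecke operator. -/
def HM (ℓ : ℕ) : Option (Fin ℓ) → Matrix (Fin 2) (Fin 2) ℤ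
  | none => !![(ℓ : ℤ), 0; 0, 1]
  | some j => !![1, ((j : ℕ) : ℤ); 0, (ℓ : ℤ)]

@[simp] theorem HM_none (ℓ : ℕ) : HM ℓ none = !![(ℓ : ℤ), 0; 0, 1] := rfl

@[simp] theorem HM_some (ℓ : ℕ) (j : Fin ℓ) : HM ℓ (some j) = !![1, ((j : ℕ) : ℤ); 0, (ℓ : ℤ)] := rfl

/-- The representatives as elements of `GL₂(ℝ)`. -/
noncomputable def HR (ℓ : ℕ) : Option (Fin ℓ) → GL (Fin 2) ℝ
  | none => heckeDiagMatrix ℓ
  | some j => heckeMatrix ℓ j

@[simp] theorem HR_none (ℓ : ℕ) : HR ℓ none = heckeDiagMatrix ℓ := rfl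

@[simp] theorem HR_some (ℓ : ℕ) (j : Fin ℓ) : HR ℓ (some j) = heckeMatrix ℓ j := rfl

theorem det_HM (ℓ : ℕ) (i : Option (Fin ℓ)) : (HM ℓ i).det = ℓ := by
  cases i <;> simp [HM, Matrix.det_fin_two_of]

theorem HR_apply {ℓ : ℕ} (hℓ : ℓ ≠ 0) (i : Option (Fin ℓ)) :
    ((HR ℓ i : GL (Fin 2) ℝ) : Matrix (Fin 2) (Fin 2) ℝ) = (HM ℓ i).map (Int.cast : ℤ → ℝ) := by
  cases i with
  | none =>
    rw [HR_none, val_heckeDiagMatrix hℓ]
    ext i j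
    fin_cases i <;> fin_cases j <;> simp
  | some j =>
    rw [HR_some, val_heckeMatrix hℓ]
    ext i j
    fin_cases i <;> fin_cases j <;> simp

theorem det_HR_pos (ℓ : ℕ) (i : Option (Fin ℓ)) : 0 < ((HR ℓ i).det : ℝ) := by
  cases i with
  | none => exact det_heckeDiagMatrix_pos ℓ
  | some j => exact det_heckeMatrix_pos ℓ j

theorem det_HR {ℓ : ℕ} (hℓ : ℓ ≠ 0) (i : Option (Fin ℓ)) : ((HR ℓ i).det : ℝ) = ℓ := by
  cases i with
  | none => exact det_heckeDiagMatrix hℓ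
  | some j => exact det_heckeMatrix hℓ j

theorem mapGL_coe (g : SL(2, ℤ)) : ((mapGL ℝ g : GL (Fin 2) ℝ) : Matrix (Fin 2) (Fin 2) ℝ) =
    (g : Matrix (Fin 2) (Fin 2) ℤ).map (Int.cast : ℤ → ℝ) := by
  ext i j
  simp

theorem map_mul_cast (A B : Matrix (Fin 2) (Fin 2) ℤ) :
    (A * B).map (Int.cast : ℤ → ℝ) = A.map (Int.cast : ℤ → ℝ) * B.map (Int.cast : ℤ → ℝ) :=
  Matrix.map_mul (f := Int.castRingHom ℝ)

theorem map_cast_injective {A B : Matrix (Fin 2) (Fin 2) ℤ}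
    (h : A.map (Int.cast : ℤ → ℝ) = B.map (Int.cast : ℤ → ℝ)) : A = B := by
  ext i j
  have := congrFun (congrFun h i) j
  simpa using this

/-- The semigroup `Δ₀(N)` -/
def IsDelta (N : ℕ) (A : Matrix (Fin 2) (Fin 2) ℤ) : Prop :=
  (N : ℤ) ∣ A 1 0 ∧ IsCoprime (A 0 0) (N : ℤ)

theorem IsDelta.mul {N : ℕ} {A B : Matrix (Fin 2) (Fin 2) ℤ} (hA : IsDelta N A)
    (hB : IsDelta N B) : IsDelta N (A * B) := by
  obtain ⟨h1, h2⟩ := hA
  obtain ⟨h3, h4⟩ := hB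
  constructor
  · simp only [Matrix.mul_apply, Fin.sum_univ_two]
    exact dvd_add (h1.mul_right _) (h3.mul_left _)
  · simp only [Matrix.mul_apply, Fin.sum_univ_two]
    obtain ⟨c, hc⟩ := h3
    rw [hc, show A 0 0 * B 0 0 + A 0 1 * ((N : ℤ) * c) = A 0 0 * B 0 0 + (N : ℤ) * (A 0 1 * c) by ring]
    exact (h2.mul_left h4).add_mul_left_left _

theorem isDelta_of_mem {N : ℕ} (γ : Gamma0 N) :
    IsDelta N ((γ : SL(2, ℤ)) : Matrix (Fin 2) (Fin 2) ℤ) := by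
  have h1 : (N : ℤ) ∣ ((γ : SL(2, ℤ)) : Matrix (Fin 2) (Fin 2) ℤ) 1 0 :=
    (ZMod.intCast_zmod_eq_zero_iff_dvd _ _).mp (Gamma0_mem.mp γ.2)
  refine ⟨h1, ?_⟩
  obtain ⟨c, hc⟩ := h1
  have hdet := (γ : SL(2, ℤ)).det_coe
  rw [Matrix.det_fin_two, hc] at hdet
  exact ⟨((γ : SL(2, ℤ)) : Matrix (Fin 2) (Fin 2) ℤ) 1 1,
    -((γ : SL(2, ℤ)) : Matrix (Fin 2) (Fin 2) ℤ) 0 1 * c, by linear_combination hdet⟩

theorem exists_mem_of_isDelta {N : ℕ} {A : Matrix (Fin 2) (Fin 2) ℤ} (hA : IsDelta N A)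
    (hdet : A.det = 1) : ∃ γ : Gamma0 N, ((γ : SL(2, ℤ)) : Matrix (Fin 2) (Fin 2) ℤ) = A :=
  ⟨⟨⟨A, hdet⟩, Gamma0_mem.mpr ((ZMod.intCast_zmod_eq_zero_iff_dvd _ _).mpr hA.1)⟩, rfl⟩

theorem isDelta_HM {N ℓ : ℕ} (hℓ : ℓ.Prime) (i : HI N ℓ) : IsDelta N (HM ℓ i.1) := by
  obtain ⟨i, hi⟩ := i
  cases i with
  | none =>
    have h : ¬ ℓ ∣ N := fun h ↦ hi h rfl
    refine ⟨by simp, ?_⟩
    simpa using Nat.isCoprime_iff_coprime.mpr ((Nat.Prime.coprime_iff_not_dvd hℓ).mpr h)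
  | some j => exact ⟨by simp, by simpa using isCoprime_one_left⟩

/-- Factorisation of elements of `Δ₀(N)`. -/
theorem exists_factor {N ℓ : ℕ} (hℓ : ℓ.Prime) {A : Matrix (Fin 2) (Fin 2) ℤ}
    (hA : IsDelta N A) (hdet : (ℓ : ℤ) ∣ A.det) :
    ∃ (i : HI N ℓ) (B : Matrix (Fin 2) (Fin 2) ℤ), IsDelta N B ∧ A = B * HM ℓ i.1 := by
  have hℓ' : Prime (ℓ : ℤ) := Nat.prime_iff_prime_int.mp hℓ
  obtain ⟨h1, h2⟩ := hA
  rw [Matrix.det_fin_two] at hdet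
  by_cases h : (ℓ : ℤ) ∣ A 0 0 ∧ (ℓ : ℤ) ∣ A 1 0
  · obtain ⟨⟨a, ha⟩, ⟨c, hc⟩⟩ := h
    have hN : ¬ ℓ ∣ N := by
      intro hN
      have h3 : IsCoprime (ℓ : ℤ) (ℓ : ℤ) :=
        (h2.of_isCoprime_of_dvd_left ⟨a, ha⟩).of_isCoprime_of_dvd_right
          (Int.natCast_dvd_natCast.mpr hN)
      exact hℓ'.not_isUnit (isCoprime_self.mp h3)
    have hcop : IsCoprime (N : ℤ) (ℓ : ℤ) :=
      (Nat.isCoprime_iff_coprime.mpr ((Nat.Prime.coprime_iff_not_dvd hℓ).mpr hN)).symm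
    refine ⟨⟨none, fun h ↦ absurd h hN⟩, !![a, A 0 1; c, A 1 1], ⟨?_, ?_⟩, ?_⟩
    · simp only [Matrix.of_apply, Matrix.cons_val', Matrix.cons_val_zero, Matrix.cons_val_one,
        Matrix.cons_val_fin_one]
      exact hcop.dvd_of_dvd_mul_left (hc ▸ h1)
    · simp only [Matrix.of_apply, Matrix.cons_val', Matrix.cons_val_zero, Matrix.cons_val_one,
        Matrix.cons_val_fin_one]
      exact h2.of_isCoprime_of_dvd_left ⟨ℓ, by rw [ha]; ring⟩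
    · ext i j
      fin_cases i <;> fin_cases j <;> simp [Matrix.mul_apply, Fin.sum_univ_two, ha, hc, mul_comm]
  · -- find `j`
    obtain ⟨j, hj0, hj1⟩ : ∃ j : Fin ℓ, (ℓ : ℤ) ∣ A 0 1 - (j : ℕ) * A 0 0 ∧
        (ℓ : ℤ) ∣ A 1 1 - (j : ℕ) * A 1 0 := by
      have : Fact ℓ.Prime := ⟨hℓ⟩
      have : NeZero ℓ := ⟨hℓ.ne_zero⟩
      have hd : ((A 0 0 : ℤ) : ZMod ℓ) * ((A 1 1 : ℤ) : ZMod ℓ) -
          ((A 0 1 : ℤ) : ZMod ℓ) * ((A 1 0 : ℤ) : ZMod ℓ) = 0 := by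
        have := (ZMod.intCast_zmod_eq_zero_iff_dvd _ ℓ).mpr hdet
        push_cast at this
        exact this
      obtain ⟨y, hy0, hy1⟩ : ∃ y : ZMod ℓ, ((A 0 1 : ℤ) : ZMod ℓ) = y * ((A 0 0 : ℤ) : ZMod ℓ) ∧
          ((A 1 1 : ℤ) : ZMod ℓ) = y * ((A 1 0 : ℤ) : ZMod ℓ) := by
        by_cases h0 : ((A 0 0 : ℤ) : ZMod ℓ) = 0
        · have h1' : ((A 1 0 : ℤ) : ZMod ℓ) ≠ 0 := by
            intro h1'
            exact h ⟨(ZMod.intCast_zmod_eq_zero_iff_dvd _ ℓ).mp h0,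
              (ZMod.intCast_zmod_eq_zero_iff_dvd _ ℓ).mp h1'⟩
          refine ⟨((A 1 1 : ℤ) : ZMod ℓ) / ((A 1 0 : ℤ) : ZMod ℓ), ?_, ?_⟩
          · rw [h0, zero_mul, zero_sub, neg_eq_zero] at hd
            rw [h0, mul_zero]
            exact (mul_eq_zero.mp hd).resolve_right h1'
          · field_simp
        · refine ⟨((A 0 1 : ℤ) : ZMod ℓ) / ((A 0 0 : ℤ) : ZMod ℓ), ?_, ?_⟩
          · field_simp
          · field_simp
            linear_combination hd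
      refine ⟨⟨y.val, y.val_lt⟩, ?_, ?_⟩
      · rw [← ZMod.intCast_zmod_eq_zero_iff_dvd]
        push_cast
        rw [ZMod.natCast_zmod_val, hy0, sub_self]
      · rw [← ZMod.intCast_zmod_eq_zero_iff_dvd]
        push_cast
        rw [ZMod.natCast_zmod_val, hy1, sub_self]
    obtain ⟨b, hb⟩ := hj0
    obtain ⟨d, hd⟩ := hj1
    refine ⟨⟨some j, fun _ ↦ by simp⟩, !![A 0 0, b; A 1 0, d], ⟨by simpa using h1,
      by simpa using h2⟩, ?_⟩
    ext i k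
    fin_cases i <;> fin_cases k <;> simp [Matrix.mul_apply, Fin.sum_univ_two]
    · linear_combination hb
    · linear_combination hd

theorem HM_unique {ℓ : ℕ} (hℓ : ℓ.Prime) (g : SL(2, ℤ)) (i j : Option (Fin ℓ))
    (h : (g : Matrix (Fin 2) (Fin 2) ℤ) * HM ℓ i = HM ℓ j) : i = j := by
  have hℓ1 : ¬ (ℓ : ℤ) ∣ 1 := fun h ↦ hℓ.one_lt.ne' (by exact_mod_cast Int.eq_one_of_dvd_one (by positivity) h)
  have h00 := congrFun (congrFun h 0) 0
  have h01 := congrFun (congrFun h 0) 1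
  have h10 := congrFun (congrFun h 1) 0
  have h11 := congrFun (congrFun h 1) 1
  cases i with
  | none =>
    cases j with
    | none => rfl
    | some b =>
      simp [Matrix.mul_apply, Fin.sum_univ_two] at h00
      exact absurd ⟨g 0 0, by linear_combination -h00⟩ hℓ1
  | some a =>
    cases j with
    | none =>
      simp [Matrix.mul_apply, Fin.sum_univ_two] at h00 h01 h10 h11
      rw [h10, zero_mul, zero_add] at h11
      exact absurd ⟨g 1 1, by linear_combination -h11⟩ hℓ1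
    | some b =>
      simp [Matrix.mul_apply, Fin.sum_univ_two] at h00 h01 h10 h11
      rw [h00, one_mul] at h01
      have h2 : ((a : ℕ) : ℤ) ≡ ((b : ℕ) : ℤ) [ZMOD ℓ] :=
        (Int.modEq_iff_dvd.mpr ⟨g 0 1, by linear_combination -h01⟩)
      have h3 : ((a : ℕ)) ≡ ((b : ℕ)) [MOD ℓ] := (Int.natCast_modEq_iff).mp h2
      congr 1
      exact Fin.ext (Nat.ModEq.eq_of_lt_of_lt h3 a.2 b.2)

theorem eq_coe_of_mapGL_mul {g : SL(2, ℤ)} {A B : Matrix (Fin 2) (Fin 2) ℤ} {a b : GL (Fin 2) ℝ}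
    (ha : (a : Matrix (Fin 2) (Fin 2) ℝ) = A.map (Int.cast : ℤ → ℝ))
    (hb : (b : Matrix (Fin 2) (Fin 2) ℝ) = B.map (Int.cast : ℤ → ℝ)) :
    mapGL ℝ g * a = b ↔ (g : Matrix (Fin 2) (Fin 2) ℤ) * A = B := by
  constructor
  · intro h
    apply map_cast_injective
    rw [map_mul_cast, ← mapGL_coe, ← ha, ← hb, ← h]
    rfl
  · intro h
    apply Units.ext
    rw [Units.val_mul, mapGL_coe, ha, hb, ← h, map_mul_cast]

/-- The representatives of the Hecke operator `T_ℓ` (`U_ℓ` if `ℓ ∣ N`) for `Γ₀(N)`. -/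
noncomputable def hreps (N : ℕ) {ℓ : ℕ} (hℓ : ℓ.Prime) : Reps (toGL N) (HI N ℓ) :=
  Reps.mk' (toGL_injective N) (fun i ↦ HR ℓ i.1)
    (fun γ i ↦ by
      obtain ⟨j, B, hB, h⟩ := exists_factor hℓ (A := HM ℓ i.1 * ((γ : SL(2, ℤ)) : Matrix _ _ ℤ))
        ((isDelta_HM hℓ i).mul (isDelta_of_mem γ))
        (by rw [Matrix.det_mul, det_HM]; exact dvd_mul_right _ _)
      have hdet : B.det = 1 := by
        have := congrArg Matrix.det h
        rw [Matrix.det_mul, Matrix.det_mul, det_HM, det_HM, (γ : SL(2, ℤ)).det_coe, mul_one] at this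
        have hℓ0 : (ℓ : ℤ) ≠ 0 := by exact_mod_cast hℓ.ne_zero
        exact (mul_right_cancel₀ hℓ0 (by rw [← this, one_mul]) : B.det = 1)
      obtain ⟨g, rfl⟩ := exists_mem_of_isDelta hB hdet
      refine ⟨g, j, ?_⟩
      apply Units.ext
      rw [Units.val_mul, Units.val_mul, toGL_apply, toGL_apply, mapGL_coe, mapGL_coe,
        HR_apply hℓ.ne_zero, HR_apply hℓ.ne_zero, ← map_mul_cast, ← map_mul_cast, h])
    (fun g i j h ↦ by
      rw [toGL_apply] at h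
      exact Subtype.ext (HM_unique hℓ _ _ _
        ((eq_coe_of_mapGL_mul (HR_apply hℓ.ne_zero _) (HR_apply hℓ.ne_zero _)).mp h)))

@[simp] theorem hreps_δ (N : ℕ) {ℓ : ℕ} (hℓ : ℓ.Prime) (i : HI N ℓ) :
    (hreps N hℓ).δ i = HR ℓ i.1 := rfl

theorem hreps_unique (N : ℕ) {ℓ : ℕ} (hℓ : ℓ.Prime) (g : SL(2, ℤ)) (i j : HI N ℓ)
    (h : mapGL ℝ g * HR ℓ i.1 = HR ℓ j.1) : i = j :=
  Subtype.ext (HM_unique hℓ _ _ _
    ((eq_coe_of_mapGL_mul (HR_apply hℓ.ne_zero _) (HR_apply hℓ.ne_zero _)).mp h))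

theorem sum_HI {A : Type*} [AddCommMonoid A] (N ℓ : ℕ) [Decidable (ℓ ∣ N)]
    (F : Option (Fin ℓ) → A) :
    ∑ i : HI N ℓ, F i.1 = ∑ j : Fin ℓ, F (some j) + if ℓ ∣ N then 0 else F none := by
  classical
  have h1 : ∑ i : HI N ℓ, F i.1 = ∑ x : Option (Fin ℓ) with (ℓ ∣ N → x ≠ none), F x := by
    refine Finset.sum_bij' (fun i _ ↦ i.1)
      (fun x hx ↦ (⟨x, (Finset.mem_filter.mp hx).2⟩ : HI N ℓ)) ?_ ?_ ?_ ?_ ?_
    · intro i _
      exact Finset.mem_filter.mpr ⟨Finset.mem_univ _, i.2⟩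
    · intros; exact Finset.mem_univ _
    · intros; rfl
    · intros; rfl
    · intros; rfl
  rw [h1, Finset.sum_filter, Fintype.sum_option, add_comm]
  congr 1
  · refine Finset.sum_congr rfl fun j _ ↦ ?_
    simp
  · by_cases h : ℓ ∣ N <;> simp [h]

theorem card_HI (N ℓ : ℕ) [Decidable (ℓ ∣ N)] :
    Fintype.card (HI N ℓ) = ℓ + if ℓ ∣ N then 0 else 1 := by
  have := sum_HI N ℓ (fun _ ↦ (1 : ℕ))
  simpa using this

end Fermat.Agent.Top
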